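import Fermat.Agent.Flat.Ord4

/-!
# The bound on the flat tangent space
-/

set_option autoImplicit false
set_option linter.unusedSectionVars false
set_option linter.style.haveILetI false

noncomputable section

namespace Fermat.Agent.Flat

open Fermat.Agent.Places Fermat.Agent.RedMod Fermat.Agent.FlatRam

local notation "Ω" => AlgebraicClosure ℚ

local notation "𝒢" => (AlgebraicClosure ℚ) ≃ₐ[ℚ] (AlgebraicClosure ℚ)

variable {A : ValuationSubring (AlgebraicClosure ℚ)} {p : ℕ} [Fact p.Prime]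
variable {k : Type} [Field k] {V : Type} [AddCommGroup V] [Module k V]
variable {ρ : 𝒢 →* Module.End k V}
variable {ζ : Ω} (hζ : IsPrimitiveRoot ζ p)
variable {tr : k →+ ZMod p}

include hζ in
/-- in the supersingular case all entries of a flat cocycle are bounded -/
theorem SSD.bdd_of_flat {ϖ : Ω} (hϖ : ϖ ^ (p ^ 2 - 1) = p) {b : Module.Basis (Fin 2) k V}
    {ι : k →+* kk A} {χ : 𝒢 → k} {Φ : 𝒢} {s : k} {hA : A.LiesOverPrime p}
    (D : SSD A p ρ ϖ b ι χ Φ s) {c : 𝒢 → Module.End k V} (hc : Coc A ρ c)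
    (hfl : FlC A hA (V × V) (actE ρ c)) (i j : Fin 2) :
    BddK A ζ (M2 A ϖ) tr (fun σ => ent b i j (c σ)) := by
  intro u
  have hp0 := pi_ne_zero hϖ
  obtain ⟨F, hF, hF0⟩ := hc.lc
  have hone : ∀ σ ∈ NM A (M2 A ϖ), ρ σ = 1 := fun σ hσ => D.rho_eq_one hσ hp0
  have hact : ∀ σ ∈ A.inertiaSubgroupIn ℚ, (∀ u, actE ρ c σ u = u) → ρ σ = 1 := by
    intro σ _ hu
    ext v
    exact congrArg Prod.fst (hu (v, 0))
  refine Fermat.Agent.Flat.bdd_of_flat hζ hfl (zeta_mem_M2 hϖ hA hζ) ?_ ?_ (F := F) ?_ ?_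
  · intro σ hσ hu
    exact (D.mem_NM hϖ hA hσ (hact σ hσ hu)).2
  · intro σ hσ τ hτ
    have h1 := hone σ hσ
    have h3 : ρ σ⁻¹ = 1 := by
      have := rho_mul_inv (ρ := ρ) σ
      rwa [h1, one_mul] at this
    simp only
    rw [hc.mul σ τ (pres_of_mem hσ.1) (pres_of_mem hτ.1), h1, h3, one_mul, mul_one, ent_add,
      mul_add, map_add]
  · intro σ hσ hx
    simp only
    rw [hF0 σ (pres_of_mem hσ.1) hx, ent_zero, mul_zero, map_zero]
  · intro σ hσ hu
    have h1 := hact σ hσ hu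
    have h2 : c σ = 0 := by
      ext v
      have h3 := congrArg Prod.snd (hu (v, 0))
      rw [actE] at h3
      simp only [map_zero, zero_add, h1] at h3
      exact h3
    simp only
    rw [h2, ent_zero, mul_zero, map_zero]

include hζ in
/-- **The bound on the flat tangent space.** -/
theorem flat_bound [Finite k] [CharP k p] (hA : A.LiesOverPrime p) (hp2 : p ≠ 2)
    (hV : Module.finrank k V = 2)
    (hdet : ∀ σ ∈ A.inertiaSubgroupIn ℚ, ∀ m : ℕ, σ ζ = ζ ^ m → LinearMap.det (ρ σ) = (m : k))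
    (hsplit : ∀ σ ∈ A.inertiaSubgroupIn ℚ, ∃ α β : k, ∀ v, ρ σ (ρ σ v - β • v) =
      α • (ρ σ v - β • v))
    (hρ : ∃ F : IntermediateField ℚ Ω, FiniteDimensional ℚ F ∧
      ∀ σ, (∀ x ∈ F, σ x = x) → ρ σ = 1)
    (hfl : FlC A hA V (fun σ v => ρ σ v))
    (S : Set (𝒢 → Module.End k V)) (hS : ∀ c ∈ S, Coc A ρ c ∧ FlC A hA (V × V) (actE ρ c)) :
    (∃ Λ : Submodule.span k S →ₗ[k] (Fin 1 → k), ∀ c : Submodule.span k S, Λ c = 0 →
      c ∈ locB A ρ (Submodule.span k S)) ∨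
    ((∃ H : Module.End k V, H ≠ 0 ∧ LinearMap.trace k V H = 0 ∧
      ∀ g, Pres A g → ρ g * H = H * ρ g) ∧
     ∃ Λ : Submodule.span k S →ₗ[k] (Fin 2 → k), ∀ c : Submodule.span k S, Λ c = 0 →
      c ∈ locB A ρ (Submodule.span k S)) := by
  classical
  have hp : p.Prime := Fact.out
  letI : Algebra (ZMod p) k := ZMod.algebra _ p
  obtain ⟨tr, htr⟩ : ∃ tr : k →+ ZMod p, tr ≠ 0 := by
    by_contra hcon
    push Not at hcon
    have h1 : (1 : k) = 0 := by
      rw [← Module.forall_dual_apply_eq_zero_iff (ZMod p)]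
      intro φ
      have h2 := hcon φ.toAddMonoidHom
      exact DFunLike.congr_fun h2 1
    exact one_ne_zero h1
  by_cases hss : Submodule.span k {w | ∃ σ ∈ A.inertiaSubgroupIn ℚ, ∃ v, w = ρ σ v - v} = ⊤
  · left
    obtain ⟨ϖ, hϖ⟩ := IsAlgClosed.exists_pow_nat_eq (p : Ω) (e0_pos (p := p))
    obtain ⟨b, ι, χ, Φ, s, hs, D⟩ := exists_ssd hϖ hζ hA hp2 hV hfl hdet hsplit hss
    refine ss_bound hϖ hζ hA hp2 htr D hs hdet hρ (Submodule.span k S) ?_
    intro c hc
    induction hc using Submodule.span_induction with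
    | mem c hc =>
      obtain ⟨h1, h2⟩ := hS c hc
      exact ⟨h1, fun i j => D.bdd_of_flat hζ hϖ h1 h2 i j⟩
    | zero =>
      refine ⟨⟨fun _ _ _ _ => ?_, fun _ _ => ?_, ⟨⊥, inferInstance, fun _ _ _ => rfl⟩⟩,
        fun i j => ?_⟩
      · simp
      · simp
      · refine (BddK.zero hA).congr fun σ _ => ?_
        rw [Pi.zero_apply, ent_zero]
    | add c d _ _ hc hd =>
      exact ⟨hc.1.add hd.1, fun i j =>
        (BddK.add hζ hA (hc.2 i j) (hd.2 i j)).congr fun σ _ => by rw [Pi.add_apply, ent_add]⟩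
    | smul t c _ hc =>
      exact ⟨hc.1.smul t, fun i j =>
        ((hc.2 i j).smul t).congr fun σ _ => by rw [Pi.smul_apply, ent_smul]⟩
  · obtain ⟨b, x, y, w, D⟩ := exists_ordD hζ hA hp2 hV hdet hss
    refine ord_bound hζ hA hp2 htr D hdet hρ hfl (Submodule.span k S) ?_
    intro c hc
    induction hc using Submodule.span_induction with
    | mem c hc =>
      obtain ⟨h1, h2⟩ := hS c hc
      exact D.exists_good hζ hp2 htr hρ hdet h1 h2
    | zero =>
      refine ⟨0, ⟨⟨fun _ _ _ _ => ?_, fun _ _ => ?_, ⟨⊥, inferInstance, fun _ _ _ => ?_⟩⟩,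
        fun g _ => ?_, fun σ _ => ?_, ?_⟩⟩
      · simp [dd]
      · simp [dd]
      · simp [dd]
      · simp [dd, ent_zero]
      · simp [dd, ent_zero]
      · refine (BddK.zero hA).congr fun σ _ => ?_
        simp [dd, ent_zero]
    | add c d _ _ hc hd =>
      obtain ⟨X, hX⟩ := hc
      obtain ⟨Y, hY⟩ := hd
      refine ⟨X + Y, ?_⟩
      have h1 := hX.add hζ hA hY
      have h2 : (fun σ => c σ - dd ρ X σ + (d σ - dd ρ Y σ)) =
          fun σ => (c + d) σ - dd ρ (X + Y) σ := by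
        funext σ
        rw [dd_add, Pi.add_apply]
        abel
      rwa [h2] at h1
    | smul t c _ hc =>
      obtain ⟨X, hX⟩ := hc
      refine ⟨t • X, ?_⟩
      have h1 := hX.smul t
      have h2 : (fun σ => t • (c σ - dd ρ X σ)) = fun σ => (t • c) σ - dd ρ (t • X) σ := by
        funext σ
        rw [dd_smul, Pi.smul_apply, smul_sub]
      rwa [h2] at h1

end Fermat.Agent.Flat
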