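import Mathlib
import Fermat.Prelude.Def_FLTPrelim_Ramification
import Fermat.Agent.Places.InertiaLift
import Fermat.Agent.Places.Center
import Fermat.Agent.GalRep.Cyclo

/-!
# The fixed field of inertia in `ℚ̄`

`K0 A` is the fixed field of the inertia group at `A`, `R0 A = A ∩ K0 A`.
-/

set_option autoImplicit false
set_option linter.unusedSectionVars false
set_option linter.style.haveILetI false

noncomputable section

namespace Fermat.Agent.Flat

open Fermat.Agent.Places Polynomial

local notation "Ω" => AlgebraicClosure ℚ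

variable (A : ValuationSubring (AlgebraicClosure ℚ))

/-- The fixed field of inertia. -/
def K0 : IntermediateField ℚ (AlgebraicClosure ℚ) :=
  IntermediateField.fixedField (A.inertiaSubgroupIn ℚ)

theorem mem_inertia_iff (σ : Ω ≃ₐ[ℚ] Ω) :
    σ ∈ A.inertiaSubgroupIn ℚ ↔ ∀ x ∈ A, σ x - x ∈ A.nonunits := by
  constructor
  · intro h x hx
    exact Fermat.Agent.GalRep.sub_mem_nonunits_of_mem_inertia h hx
  · intro h
    apply mem_inertia_of_forall_sub
    intro z hz
    exact h z (mem_of_isIntegral_int A hz)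

theorem isClosed_inertia : IsClosed (A.inertiaSubgroupIn ℚ : Set (Ω ≃ₐ[ℚ] Ω)) := by
  have h : (A.inertiaSubgroupIn ℚ : Set (Ω ≃ₐ[ℚ] Ω)) =
      ⋂ x : A, {σ : Ω ≃ₐ[ℚ] Ω | σ x - x ∈ A.nonunits} := by
    ext σ
    simp only [SetLike.mem_coe, Set.mem_iInter, Set.mem_ofPred_eq, Subtype.forall]
    exact mem_inertia_iff A σ
  rw [h]
  refine isClosed_iInter fun x => ?_
  rw [← isOpen_compl_iff, isOpen_iff_mem_nhds]
  intro σ hσ
  have hopen : IsOpen (MulAction.stabilizer (Ω ≃ₐ[ℚ] Ω) (x : Ω) : Set (Ω ≃ₐ[ℚ] Ω)) :=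
    stabilizer_isOpen_of_isIntegral (x : Ω)
  have h1 : (fun τ : Ω ≃ₐ[ℚ] Ω => σ⁻¹ * τ) ⁻¹'
      (MulAction.stabilizer (Ω ≃ₐ[ℚ] Ω) (x : Ω) : Set (Ω ≃ₐ[ℚ] Ω)) ∈ nhds σ := by
    refine (hopen.preimage (continuous_const_mul σ⁻¹)).mem_nhds ?_
    simp
  refine Filter.mem_of_superset h1 fun τ hτ => ?_
  simp only [Set.mem_preimage, SetLike.mem_coe, MulAction.mem_stabilizer_iff, mul_smul,
    inv_smul_eq_iff] at hτ
  simp only [Set.mem_compl_iff, Set.mem_ofPred_eq] at hσ ⊢
  have h2 : τ (x : Ω) = σ x := hτ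
  rwa [h2]

theorem mem_inertia_of_fixing {σ : Ω ≃ₐ[ℚ] Ω} (h : ∀ x ∈ K0 A, σ x = x) :
    σ ∈ A.inertiaSubgroupIn ℚ := by
  have h1 := InfiniteGalois.fixingSubgroup_fixedField
    (⟨A.inertiaSubgroupIn ℚ, isClosed_inertia A⟩ : ClosedSubgroup (Ω ≃ₐ[ℚ] Ω))
  change (K0 A).fixingSubgroup = A.inertiaSubgroupIn ℚ at h1
  rw [← h1, IntermediateField.mem_fixingSubgroup_iff]
  exact h

theorem aut_sub_mem (σ : Ω ≃ₐ[K0 A] Ω) {x : Ω} (hx : x ∈ A) : σ x - x ∈ A.nonunits := by
  have h1 : (AlgEquiv.restrictScalars ℚ σ) ∈ A.inertiaSubgroupIn ℚ := by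
    apply mem_inertia_of_fixing
    intro y hy
    exact σ.commutes ⟨y, hy⟩
  exact (mem_inertia_iff A _).1 h1 x hx

theorem aut_mem (σ : Ω ≃ₐ[K0 A] Ω) {x : Ω} (hx : x ∈ A) : σ x ∈ A := by
  have h := mem_of_mem_nonunits A (aut_sub_mem A σ hx)
  have := A.add_mem _ _ h hx
  rwa [sub_add_cancel] at this

theorem aut_mem_iff (σ : Ω ≃ₐ[K0 A] Ω) {x : Ω} : σ x ∈ A ↔ x ∈ A := by
  refine ⟨fun h => ?_, aut_mem A σ⟩
  have := aut_mem A σ.symm h
  rwa [AlgEquiv.symm_apply_apply] at this

theorem mem_K0_of_fixed {x : Ω} (h : ∀ σ : Ω ≃ₐ[K0 A] Ω, σ x = x) : x ∈ K0 A := by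
  have h1 : x ∈ Set.range (algebraMap (K0 A) Ω) :=
    (InfiniteGalois.mem_range_algebraMap_iff_fixed x).2 h
  obtain ⟨y, rfl⟩ := h1
  exact y.2

/-- The ring of integers of the fixed field of inertia. -/
def R0 : Subring Ω := A.toSubring ⊓ (K0 A).toSubfield.toSubring

theorem mem_R0 {x : Ω} : x ∈ R0 A ↔ x ∈ A ∧ x ∈ K0 A := Iff.rfl

/-- The ring of integers of an extension of the fixed field of inertia. -/
def OE (E : IntermediateField (K0 A) Ω) : Subalgebra (R0 A) Ω where
  carrier := {x | x ∈ A ∧ x ∈ E}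
  mul_mem' ha hb := ⟨A.mul_mem _ _ ha.1 hb.1, E.mul_mem ha.2 hb.2⟩
  add_mem' ha hb := ⟨A.add_mem _ _ ha.1 hb.1, E.add_mem ha.2 hb.2⟩
  algebraMap_mem' r := ⟨r.2.1, E.algebraMap_mem ⟨(r : Ω), r.2.2⟩⟩

theorem mem_OE {E : IntermediateField (K0 A) Ω} {x : Ω} : x ∈ OE A E ↔ x ∈ A ∧ x ∈ E := Iff.rfl

/-- The ideal of elements of `O_E` divisible by `c`. -/
def idl (E : IntermediateField (K0 A) Ω) (c : Ω) : Ideal (OE A E) where
  carrier := {x | ∃ y ∈ A, (x : Ω) = c * y}
  add_mem' := by
    rintro a b ⟨y, hy, h1⟩ ⟨z, hz, h2⟩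
    exact ⟨y + z, A.add_mem _ _ hy hz, by push_cast; rw [h1, h2]; ring⟩
  zero_mem' := ⟨0, A.zero_mem, by simp⟩
  smul_mem' := by
    rintro a b ⟨y, hy, h1⟩
    refine ⟨(a : Ω) * y, A.mul_mem _ _ a.2.1 hy, ?_⟩
    rw [smul_eq_mul]
    push_cast
    rw [h1]; ring

theorem mem_idl {E : IntermediateField (K0 A) Ω} {c : Ω} {x : OE A E} :
    x ∈ idl A E c ↔ ∃ y ∈ A, (x : Ω) = c * y := Iff.rfl

/-- Hensel: a simple root modulo the maximal ideal lifts to a root in the coefficient field. -/
theorem exists_root (E : IntermediateField (K0 A) Ω) (f : Polynomial (OE A E)) (hf : f.Monic) {x : Ω}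
    (hx : x ∈ A) (h0 : aeval x f ∈ A.nonunits) (h1 : aeval x (derivative f) ∉ A.nonunits) :
    ∃ y ∈ OE A E, aeval y f = 0 ∧ y - x ∈ A.nonunits := by
  classical
  set g : Polynomial Ω := f.map (algebraMap (OE A E) Ω) with hg
  have hgm : g.Monic := hf.map _
  have hsplit : g.Splits := IsAlgClosed.splits g
  have hrootA : ∀ r ∈ g.roots, r ∈ A := by
    intro r hr
    have h2 : (g.eval r) = 0 := (mem_roots hgm.ne_zero).1 hr
    have h3 : IsIntegral (OE A E) r := ⟨f, hf, by rwa [hg, eval_map] at h2⟩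
    have h4 : IsIntegral A r := by
      obtain ⟨F, hF, hF0⟩ := h3
      let φ : (OE A E) →+* A :=
        { toFun := fun z => ⟨z, z.2.1⟩
          map_one' := rfl
          map_mul' := fun _ _ => rfl
          map_zero' := rfl
          map_add' := fun _ _ => rfl }
      refine ⟨F.map φ, hF.map _, ?_⟩
      rw [eval₂_map]
      exact hF0
    obtain ⟨y, hy⟩ := (IsIntegrallyClosed.isIntegral_iff).1 h4
    rw [← hy]
    exact y.2
  have hprod : g = (g.roots.map fun a => X - C a).prod :=
    hsplit.eq_prod_roots_of_monic hgm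
  have hev : aeval x f = (g.roots.map fun a => x - a).prod := by
    have : aeval x f = g.eval x := by rw [hg, eval_map]; rfl
    rw [this]
    conv_lhs => rw [hprod]
    rw [eval_multiset_prod, Multiset.map_map]
    simp
  -- some root is congruent to `x`
  have hprime : ∀ s : Multiset Ω, (∀ r ∈ s, r ∈ A) → (s.map fun a => x - a).prod ∈ A.nonunits →
      ∃ r ∈ s, x - r ∈ A.nonunits := by
    intro s
    induction s using Multiset.induction_on with
    | empty =>
      intro _ h
      simp only [Multiset.map_zero, Multiset.prod_zero] at h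
      exact absurd h (one_notMem_nonunits A)
    | cons a s ih =>
      intro hs h
      rw [Multiset.map_cons, Multiset.prod_cons] at h
      have hprodA : (s.map fun a => x - a).prod ∈ A := by
        refine A.toSubring.multiset_prod_mem _ ?_
        intro c hc
        obtain ⟨r, hr, rfl⟩ := Multiset.mem_map.1 hc
        exact A.sub_mem hx (hs r (Multiset.mem_cons_of_mem hr))
      rcases mem_nonunits_or_of_mul A
        (A.sub_mem hx (hs a (Multiset.mem_cons_self _ _))) hprodA h with h | h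
      · exact ⟨a, Multiset.mem_cons_self _ _, h⟩
      · obtain ⟨r, hr, h'⟩ := ih (fun r hr => hs r (Multiset.mem_cons_of_mem hr)) h
        exact ⟨r, Multiset.mem_cons_of_mem hr, h'⟩
  obtain ⟨y, hy, hxy⟩ := hprime g.roots hrootA (by rwa [← hev])
  have hyA := hrootA y hy
  have hyx : y - x ∈ A.nonunits := by
    have := neg_mem_nonunits A hxy
    rwa [neg_sub] at this
  have hy0 : aeval y f = 0 := by
    have h2 : (g.eval y) = 0 := (mem_roots hgm.ne_zero).1 hy
    rwa [hg, eval_map] at h2
  -- congruent arguments have congruent values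
  have hcong : ∀ (F : Polynomial (OE A E)) (a b : Ω), a ∈ A → b ∈ A → a - b ∈ A.nonunits →
      aeval a F - aeval b F ∈ A.nonunits := by
    intro F a b ha hb hab
    induction F using Polynomial.induction_on' with
    | add P Q hP hQ =>
      rw [map_add, map_add]
      have := add_mem_nonunits A hP hQ
      convert this using 1
      ring
    | monomial n c =>
      rw [aeval_monomial, aeval_monomial, ← mul_sub, mul_comm]
      obtain ⟨d, hd⟩ := sub_dvd_pow_sub_pow (⟨a, ha⟩ : A) (⟨b, hb⟩ : A) n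
      have h3 : a ^ n - b ^ n = (a - b) * (d : Ω) := by
        have := congrArg (fun z : A => (z : Ω)) hd
        push_cast at this
        exact this
      rw [h3]
      exact mul_mem_nonunits A (mul_mem_nonunits A hab d.2) c.2.1
  -- `y` is a simple root modulo the maximal ideal
  have hy1 : aeval y (derivative f) ∉ A.nonunits := by
    intro h
    apply h1
    have := sub_mem_nonunits A h (hcong (derivative f) y x hyA hx hyx)
    rwa [sub_sub_cancel] at this
  -- uniqueness of the root
  have huniq : ∀ z : Ω, z ∈ A → aeval z f = 0 → z - y ∈ A.nonunits → z = y := by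
    intro z hz hz0 hzy
    by_contra hne
    -- Taylor expansion
    obtain ⟨q, hq⟩ : ∃ q ∈ A, aeval z f = aeval y f + aeval y (derivative f) * (z - y)
        + q * (z - y) ^ 2 := by
      have h7 : ∀ (F : Polynomial (OE A E)), ∃ q ∈ A, aeval z F = aeval y F +
          aeval y (derivative F) * (z - y) + q * (z - y) ^ 2 := by
        intro F
        induction F using Polynomial.induction_on' with
        | add P Q hP hQ =>
          obtain ⟨q1, hq1, e1⟩ := hP
          obtain ⟨q2, hq2, e2⟩ := hQ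
          refine ⟨q1 + q2, A.add_mem _ _ hq1 hq2, ?_⟩
          rw [map_add, map_add, derivative_add, map_add, e1, e2]
          ring
        | monomial n c =>
          have h8 : ∀ n : ℕ, ∃ q ∈ A, z ^ n = y ^ n + (n : Ω) * y ^ (n - 1) * (z - y)
              + q * (z - y) ^ 2 := by
            intro n
            induction n with
            | zero => exact ⟨0, A.zero_mem, by simp⟩
            | succ m ih =>
              obtain ⟨q, hq, e⟩ := ih
              refine ⟨q * z + (m : Ω) * y ^ (m - 1), A.add_mem _ _ (A.mul_mem _ _ hq hz)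
                (A.mul_mem _ _ (natCast_mem A m) (A.toSubring.pow_mem hyA _)), ?_⟩
              rw [pow_succ, e]
              rcases m with _ | m
              · simp only [Nat.cast_zero, zero_mul, add_zero, pow_zero, zero_add, Nat.cast_one,
                  Nat.sub_self, one_mul, pow_one, mul_one]
                ring
              · simp only [Nat.cast_add, Nat.cast_one, Nat.add_sub_cancel]
                ring
          obtain ⟨q, hq, e⟩ := h8 n
          refine ⟨(c : Ω) * q, A.mul_mem _ _ c.2.1 hq, ?_⟩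
          rw [aeval_monomial, aeval_monomial, derivative_monomial, aeval_monomial, e]
          rw [map_mul, map_natCast]
          change (c : Ω) * _ = (c : Ω) * _ + (c : Ω) * _ * _ * _ + _
          ring
      obtain ⟨q, hq, e⟩ := h7 f
      exact ⟨q, hq, e⟩
    obtain ⟨hqA, hq⟩ := hq
    rw [hz0, hy0, zero_add] at hq
    have h8 : (z - y) * (aeval y (derivative f) + q * (z - y)) = 0 := by
      rw [← sub_eq_zero] at hq ⊢
      linear_combination -hq
    rcases mul_eq_zero.1 h8 with h9 | h9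
    · exact hne (sub_eq_zero.1 h9)
    · apply hy1
      have h10 : aeval y (derivative f) = -((z - y) * q) := by linear_combination h9
      rw [h10]
      exact neg_mem_nonunits A (mul_mem_nonunits A hzy hqA)
  refine ⟨y, ⟨hyA, ?_⟩, hy0, hyx⟩
  -- `y` is fixed by `Gal(Ω / E)`
  have h2 : y ∈ Set.range (algebraMap E Ω) := by
    rw [InfiniteGalois.mem_range_algebraMap_iff_fixed]
    intro σ
    have hσ : ∀ w ∈ A, σ w - w ∈ A.nonunits := fun w hw =>
      aut_sub_mem A (AlgEquiv.restrictScalars (K0 A) σ) hw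
    have hσy : σ y ∈ A := by
      have := A.add_mem _ _ (mem_of_mem_nonunits A (hσ y hyA)) hyA
      rwa [sub_add_cancel] at this
    refine huniq (σ y) hσy ?_ (hσ y hyA)
    have h3 : aeval (σ y) f = σ (aeval y f) := by
      have h4 := hom_eval₂ f (algebraMap (OE A E) Ω) (σ : Ω →+* Ω) y
      rw [aeval_def, aeval_def]
      refine Eq.trans ?_ h4.symm
      have h5 : (σ : Ω →+* Ω).comp (algebraMap (OE A E) Ω) = algebraMap (OE A E) Ω := by
        ext c
        exact σ.commutes ⟨(c : Ω), c.2.2⟩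
      rw [h5]
      rfl
    rw [h3, hy0, map_zero]
  obtain ⟨w, rfl⟩ := h2
  exact w.2

end Fermat.Agent.Flat
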