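import Fermat.Agent.Flat.Newton

/-!
# Convergence of the Newton iteration
-/

set_option autoImplicit false
set_option linter.unusedSectionVars false
set_option linter.style.haveILetI false

noncomputable section

open scoped TensorProduct

namespace Fermat.Agent.Flat

open MvPolynomial Fermat.Agent.Places Fermat.Agent.RedMod

local notation "Ω" => AlgebraicClosure ℚ

variable {A : ValuationSubring (AlgebraicClosure ℚ)} {p : ℕ} [Fact p.Prime]

instance instAlgebraR0A : Algebra (R0 A) A := (inclR0 A).toAlgebra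

theorem coe_algebraMap_R0A (r : R0 A) : ((algebraMap (R0 A) A r : A) : Ω) = (r : Ω) := rfl

theorem natCast_isUnit (hA : A.LiesOverPrime p) (n : ℕ) (hn : ¬ p ∣ n) : IsUnit (n : A) := by
  rw [← IsLocalRing.residue_ne_zero_iff_isUnit, map_natCast]
  exact natCast_residue_ne_zero hA hn

theorem p_mem_max (hA : A.LiesOverPrime p) : (p : A) ∈ IsLocalRing.maximalIdeal A := by
  rw [← IsLocalRing.residue_eq_zero_iff, map_natCast]
  exact residue_ell hA

/-- Elements divisible by all powers of a nonunit vanish. -/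
theorem eq_zero_of_pow_dvd (hA : A.LiesOverPrime p) {c x : A}
    (hc : c ∈ IsLocalRing.maximalIdeal A) (h : ∀ m : ℕ, ∃ n, m ≤ n ∧ c ^ n ∣ x) : x = 0 := by
  by_contra hx
  obtain ⟨n, hn⟩ := rank_one hA c x ((IsLocalRing.residue_eq_zero_iff _).2 hc) hx
  obtain ⟨m, hm, hmx⟩ := h (n + 1)
  have h1 : c ^ (n + 1) ∣ c ^ n := ((pow_dvd_pow c hm).trans hmx).trans hn
  obtain ⟨y, hy⟩ := h1
  by_cases hc0 : c = 0
  · subst hc0
    apply hx
    have : (0 : A) ^ m ∣ x := hmx
    rw [zero_pow (by omega), zero_dvd_iff] at this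
    exact this
  · have h2 : c ^ n * (c * y) = c ^ n * 1 := by rw [mul_one]; rw [← mul_assoc, ← pow_succ]; exact hy.symm
    have h3 := mul_left_cancel₀ (pow_ne_zero n hc0) h2
    have h4 : IsUnit c := IsUnit.of_mul_eq_one _ h3
    exact hc h4

/-- A root of a monic polynomial close to an approximate root. -/
theorem exists_close_root (f : Polynomial A) (c : A)
    (hc : c ∈ IsLocalRing.maximalIdeal A) (hc0 : c ≠ 0) (a : A) (m : ℕ) (s : Multiset A)
    (hs : f = (s.map fun r => Polynomial.X - Polynomial.C r).prod)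
    (h : c * c ^ (m * Multiset.card s) ∣ f.eval a) : ∃ r ∈ s, c ^ m ∣ a - r := by
  by_contra hcon
  push Not at hcon
  have key : ∀ t : Multiset A, (∀ r ∈ t, ¬ c ^ m ∣ a - r) →
      ∃ y, (t.map fun r => a - r).prod * y = c ^ (m * Multiset.card t) := by
    intro t
    induction t using Multiset.induction_on with
    | empty => intro _; exact ⟨1, by simp⟩
    | cons r t ih =>
      intro ht
      obtain ⟨y, hy⟩ := ih fun r' hr' => ht r' (Multiset.mem_cons_of_mem hr')
      have h1 : (a - r) ∣ c ^ m :=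
        (ValuationRing.dvd_total _ _).resolve_right (ht r (Multiset.mem_cons_self _ _))
      obtain ⟨z, hz⟩ := h1
      refine ⟨z * y, ?_⟩
      rw [Multiset.map_cons, Multiset.prod_cons, Multiset.card_cons, mul_add, mul_one, pow_add,
        ← hy, hz]
      ring
  obtain ⟨y, hy⟩ := key s hcon
  have h1 : f.eval a = (s.map fun r => a - r).prod := by
    rw [hs, Polynomial.eval_multiset_prod, Multiset.map_map]
    simp
  obtain ⟨w, hw⟩ := h
  rw [← h1, hw] at hy
  have h2 : c ^ (m * Multiset.card s) * (c * (w * y)) = c ^ (m * Multiset.card s) * 1 := by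
    rw [mul_one]
    conv_rhs => rw [← hy]
    ring
  have h3 := mul_left_cancel₀ (pow_ne_zero _ hc0) h2
  exact hc (IsUnit.of_mul_eq_one _ h3)

/-- A Cauchy sequence of approximate roots converges to a root. -/
theorem exists_limit_root (f : Polynomial A) (hf : f.Monic) (c : A)
    (hc : c ∈ IsLocalRing.maximalIdeal A) (hc0 : c ≠ 0) (a : ℕ → A)
    (hcau : ∀ k l, k ≤ l → c ^ k ∣ a l - a k) (h : ∀ k, c * c ^ k ∣ f.eval (a k)) :
    ∃ r : A, ∀ m, ∃ K, ∀ k, K ≤ k → c ^ m ∣ a k - r := by
  classical
  -- the roots of `f` in `A`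
  obtain ⟨s, hs⟩ : ∃ s : Multiset A, f = (s.map fun r => Polynomial.X - Polynomial.C r).prod := by
    let g : Polynomial Ω := f.map A.subtype
    have hgm : g.Monic := hf.map _
    have hsplit : g.Splits := IsAlgClosed.splits g
    have hrootA : ∀ r ∈ g.roots, r ∈ A := by
      intro r hr
      have h2 : (g.eval r) = 0 := (Polynomial.mem_roots hgm.ne_zero).1 hr
      have h4 : IsIntegral A r := ⟨f, hf, by rwa [Polynomial.eval_map] at h2⟩
      obtain ⟨y, hy⟩ := (IsIntegrallyClosed.isIntegral_iff).1 h4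
      rw [← hy]
      exact y.2
    refine ⟨g.roots.attach.map fun r => ⟨r.1, hrootA r.1 r.2⟩, ?_⟩
    apply Polynomial.map_injective A.subtype A.subtype_injective
    change g = _
    rw [Polynomial.map_multiset_prod, Multiset.map_map, Multiset.map_map]
    have e1 : g = ((g.roots.attach.map Subtype.val).map fun r => Polynomial.X -
        Polynomial.C r).prod := by
      rw [Multiset.attach_map_val]
      exact hsplit.eq_prod_roots_of_monic hgm
    refine e1.trans ?_
    rw [Multiset.map_map]
    congr 1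
    refine Multiset.map_congr rfl fun r _ => ?_
    simp only [Function.comp_apply, Polynomial.map_sub, Polynomial.map_X, Polynomial.map_C]
    rfl
  by_contra hcon
  push Not at hcon
  choose m hm using hcon
  let M := (s.map m).sup
  have hM : ∀ r ∈ s, m r ≤ M := fun r hr => Multiset.le_sup (Multiset.mem_map_of_mem m hr)
  obtain ⟨r, hr, hrd⟩ := exists_close_root f c hc hc0 (a (M * Multiset.card s)) M s hs
    (h _)
  obtain ⟨k, hk, hkd⟩ := hm r (max M (M * Multiset.card s))
  apply hkd
  refine (pow_dvd_pow c (hM r hr)).trans ?_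
  by_cases hcard : Multiset.card s = 0
  · rw [Multiset.card_eq_zero] at hcard
    rw [hcard] at hr
    exact absurd hr (Multiset.notMem_zero r)
  · have h1 : c ^ M ∣ a k - a (M * Multiset.card s) := by
      refine dvd_trans (pow_dvd_pow c ?_) (hcau _ _ ((le_max_right _ _).trans hk))
      exact Nat.le_mul_of_pos_right _ (Nat.pos_of_ne_zero hcard)
    have h2 := dvd_add h1 hrd
    rwa [sub_add_sub_cancel] at h2

section point

variable {T : Type} [CommRing T] [Algebra (R0 A) T] [Module.Finite (R0 A) T]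
variable {ι : Type} [Fintype ι] [DecidableEq ι]

/-- **Newton iteration**: approximate points lift to points. -/
theorem exists_point (hA : A.LiesOverPrime p) (lam u c : A) (hlam : lam ^ (p - 1) = p * u)
    (hlam0 : lam ≠ 0) (hc : c ∈ IsLocalRing.maximalIdeal A) (hc0 : c ≠ 0)
    (x : ι → T) (hgen : Function.Surjective (aeval (R := R0 A) x))
    (F : ι → MvPolynomial ι (R0 A)) (h1 : ∀ i, aeval x (F i) = 0)
    (h2 : ∀ G : MvPolynomial ι (R0 A), aeval x G = 0 → G ∈ Ideal.span (Set.range F) ⊔
      (Ideal.span {C (p : R0 A)} ⊔ Ideal.span (Set.range (X : ι → MvPolynomial ι (R0 A)))) *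
        RingHom.ker (aeval (R := R0 A) x))
    (h3 : ∀ G : MvPolynomial ι (R0 A), aeval x G = 0 → ∀ j, ∃ s : T,
      aeval x (pderiv j G) = algebraMap (R0 A) T (p : R0 A) * s)
    (V : Matrix ι ι T)
    (h4 : (Matrix.of fun k j => aeval x (pderiv j (F k))) * V =
      Matrix.scalar ι (algebraMap (R0 A) T (p : R0 A)))
    (E : IntermediateField (K0 A) Ω)
    (a : ι → A) (haE : ∀ i, ((a i : A) : Ω) ∈ E) (ham : ∀ i, a i ∈ IsLocalRing.maximalIdeal A)
    (ha : ∀ G : MvPolynomial ι (R0 A), aeval x G = 0 → (p : A) * lam * c ∣ aeval a G) :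
    ∃ b : ι → A, (∀ i, ((b i : A) : Ω) ∈ E) ∧ (∀ i, lam * c ∣ b i - a i) ∧
      ∀ G : MvPolynomial ι (R0 A), aeval x G = 0 → aeval b G = 0 := by
  classical
  haveI : IsDiscreteValuationRing (R0 A) := isDVR hA
  haveI : CharZero A := ⟨fun m n h => by
    have := congrArg (fun z : A => (z : Ω)) h
    push_cast at this
    exact_mod_cast this⟩
  have hp0 : (p : A) ≠ 0 := Nat.cast_ne_zero.2 (Fact.out : p.Prime).ne_zero
  set N : Ideal (MvPolynomial ι (R0 A)) := RingHom.ker (aeval (R := R0 A) x) with hN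
  have hNmem : ∀ G, G ∈ N ↔ aeval x G = 0 := fun G => Iff.rfl
  have hNfg : N.FG := IsNoetherian.noetherian N
  -- lift the matrix
  choose V' hV' using fun j i => hgen (V j i)
  have h4' : ∀ k i, (∑ j, pderiv j (F k) * V' j i) - (if k = i then C (p : R0 A) else 0) ∈ N := by
    intro k i
    rw [hNmem, map_sub, map_sum]
    have e1 := congrFun (congrFun h4 k) i
    rw [Matrix.mul_apply, Matrix.scalar_apply, Matrix.diagonal_apply] at e1
    have e2 : ∀ j, aeval x (pderiv j (F k) * V' j i) =
        (Matrix.of fun k j => aeval x (pderiv j (F k))) k j * V j i := by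
      intro j
      rw [map_mul, hV']
      rfl
    rw [Finset.sum_congr rfl fun j _ => e2 j, e1]
    split_ifs with hki
    · rw [aeval_C, sub_self]
    · rw [map_zero, sub_self]
  have h3' : ∀ G ∈ N, ∀ j, pderiv j G ∈ Ideal.span {C (p : R0 A)} ⊔ N := by
    intro G hG j
    obtain ⟨s, hs⟩ := h3 G hG j
    obtain ⟨Q, rfl⟩ := hgen s
    have e1 : pderiv j G = C (p : R0 A) * Q + (pderiv j G - C (p : R0 A) * Q) := by ring
    rw [e1]
    refine Submodule.add_mem_sup (Ideal.mul_mem_right _ _ (Ideal.mem_span_singleton_self _)) ?_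
    rw [hNmem, map_sub, hs, map_mul, aeval_C, sub_self]
  -- evaluation at points of `E`
  have hevE : ∀ (a : ι → A), (∀ i, ((a i : A) : Ω) ∈ E) → ∀ G : MvPolynomial ι (R0 A),
      ((aeval a G : A) : Ω) ∈ E := by
    intro a haE G
    induction G using MvPolynomial.induction_on with
    | C r =>
      rw [aeval_C]
      exact E.algebraMap_mem ⟨(r : Ω), r.2.2⟩
    | add P Q hP hQ =>
      rw [map_add]; push_cast; exact E.add_mem hP hQ
    | mul_X P i hP =>
      rw [map_mul, aeval_X]; push_cast; exact E.mul_mem hP (haE i)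
  -- the sequence
  let St : ℕ → (ι → A) → Prop := fun k a => (∀ i, ((a i : A) : Ω) ∈ E) ∧
    (∀ i, a i ∈ IsLocalRing.maximalIdeal A) ∧ ∀ G ∈ N, (p : A) * lam * (c * c ^ k) ∣ aeval a G
  have hstep : ∀ (k : ℕ) (a : ι → A), ∃ a' : ι → A, St k a → (St (k + 1) a' ∧
      ∀ j, lam * (c * c ^ k) ∣ a' j - a j) := by
    intro k a
    by_cases hst : St k a
    swap
    · exact ⟨a, fun h => absurd h hst⟩
    obtain ⟨haE, ham, ha⟩ := hst
    obtain ⟨h, hh1, hh2, hh3⟩ := newton_step p (p_mem_max hA) (natCast_isUnit hA) lam u c hlam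
      hlam0 N hNfg F V' h1 h2 h3' h4' a ham (c ^ k) (Ideal.mul_mem_right _ _ hc) ha
    refine ⟨fun i => a i - h i, fun _ => ⟨⟨fun i => ?_, fun i => ?_, fun G hG => ?_⟩,
      fun j => ?_⟩⟩
    · have e1 := congrArg (fun z : A => (z : Ω)) (hh2 i)
      have e2 : ((h i : A) : Ω) = ((∑ l, aeval a (V' i l) * aeval a (F l) : A) : Ω) / (p : Ω) := by
        rw [← e1]
        push_cast
        rw [mul_comm, mul_div_assoc, div_self (Nat.cast_ne_zero.2 (Fact.out : p.Prime).ne_zero),
          mul_one]
      have e3 : ((∑ l, aeval a (V' i l) * aeval a (F l) : A) : Ω) ∈ E := by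
        push_cast
        exact sum_mem fun l _ => E.mul_mem (hevE a haE _) (hevE a haE _)
      push_cast
      refine E.sub_mem (haE i) ?_
      rw [e2]
      exact E.div_mem e3 (_root_.natCast_mem E p)
    · refine Ideal.sub_mem _ (ham i) ?_
      obtain ⟨w, hw⟩ := hh1 i
      rw [hw]
      exact Ideal.mul_mem_right _ _ (Ideal.mul_mem_left _ _ (Ideal.mul_mem_right _ _ hc))
    · have := hh3 G hG
      rwa [← pow_succ] at this
    · have e1 : a j - h j - a j = - h j := by ring
      rw [e1, dvd_neg]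
      exact hh1 j
  choose g hg using hstep
  obtain ⟨seq, hseq0, hseqs⟩ : ∃ seq : ℕ → ι → A, seq 0 = a ∧ ∀ k, seq (k + 1) = g k (seq k) :=
    ⟨fun k => Nat.rec a (fun k a => g k a) k, rfl, fun k => rfl⟩
  have hSt : ∀ k, St k (seq k) := by
    intro k
    induction k with
    | zero =>
      rw [hseq0]
      exact ⟨haE, ham, fun G hG => by rw [pow_zero, mul_one]; exact ha G hG⟩
    | succ k ih => rw [hseqs]; exact (hg k _ ih).1
  have hdiff : ∀ k j, lam * (c * c ^ k) ∣ seq (k + 1) j - seq k j := fun k j => by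
    rw [hseqs]; exact (hg k _ (hSt k)).2 j
  have hcau : ∀ j k l, k ≤ l → lam * (c * c ^ k) ∣ seq l j - seq k j := by
    intro j k l hkl
    induction l, hkl using Nat.le_induction with
    | base => rw [sub_self]; exact dvd_zero _
    | succ l hkl ih =>
      have e1 := (mul_dvd_mul_left lam (mul_dvd_mul_left c (pow_dvd_pow c hkl))).trans (hdiff l j)
      have e2 := dvd_add e1 ih
      rwa [sub_add_sub_cancel] at e2
  -- the limits
  have hlim : ∀ j, ∃ r : A, ∀ m, ∃ K, ∀ k, K ≤ k → c ^ m ∣ seq k j - r := by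
    intro j
    obtain ⟨f, hf, hf0⟩ := Algebra.IsIntegral.isIntegral (R := R0 A) (x j)
    refine exists_limit_root (f.map (algebraMap (R0 A) A)) (hf.map _) c hc hc0 (fun k => seq k j)
      (fun k l hkl => ?_) (fun k => ?_)
    · refine dvd_trans ?_ (hcau j k l hkl)
      exact Dvd.dvd.mul_left (Dvd.dvd.mul_left dvd_rfl c) lam
    · have e1 : Polynomial.aeval (X j : MvPolynomial ι (R0 A)) f ∈ N := by
        rw [hNmem, ← Polynomial.aeval_algHom_apply, aeval_X]
        exact hf0
      have e2 := (hSt k).2.2 _ e1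
      rw [← Polynomial.aeval_algHom_apply, aeval_X] at e2
      rw [Polynomial.eval_map_algebraMap]
      exact (Dvd.intro_left _ rfl).trans e2
  choose b hb using hlim
  refine ⟨b, fun i => ?_, fun i => ?_, fun G hG => ?_⟩
  · -- `b i ∈ E`
    have e1 : ((b i : A) : Ω) ∈ Set.range (algebraMap E Ω) := by
      rw [InfiniteGalois.mem_range_algebraMap_iff_fixed]
      intro σ
      have hσA : ∀ w : A, σ (w : Ω) ∈ A := fun w =>
        aut_mem A (AlgEquiv.restrictScalars (K0 A) σ) w.2
      have e2 : (⟨σ (b i : Ω), hσA (b i)⟩ : A) - b i = 0 := by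
        refine eq_zero_of_pow_dvd hA (p_mem_max hA) fun m => ?_
        -- a power of `c` divisible by `p ^ m`
        obtain ⟨n, hn⟩ := rank_one hA c ((p : A) ^ m) ((IsLocalRing.residue_eq_zero_iff _).2 hc)
          (pow_ne_zero _ hp0)
        obtain ⟨K, hK⟩ := hb i n
        obtain ⟨y, hy⟩ := hn.trans (hK K le_rfl)
        refine ⟨m, le_rfl, ?_⟩
        have e3 : ((seq K i : A) : Ω) - ((b i : A) : Ω) = (p : Ω) ^ m * (y : Ω) := by
          have := congrArg (fun z : A => (z : Ω)) hy
          push_cast at this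
          exact this
        have e4 : σ ((seq K i : A) : Ω) = ((seq K i : A) : Ω) := σ.commutes ⟨_, (hSt K).1 i⟩
        have e5 := congrArg σ e3
        rw [map_sub, map_mul, map_pow, map_natCast, e4] at e5
        refine ⟨y - ⟨σ (y : Ω), hσA y⟩, ?_⟩
        apply Subtype.ext
        push_cast
        linear_combination e3 - e5
      have e3 := congrArg (fun z : A => (z : Ω)) e2
      push_cast at e3
      exact sub_eq_zero.1 e3
    obtain ⟨w, hw⟩ := e1
    rw [← hw]
    exact w.2
  · -- closeness
    obtain ⟨n, hn⟩ := rank_one hA c (lam * c) ((IsLocalRing.residue_eq_zero_iff _).2 hc)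
      (mul_ne_zero hlam0 hc0)
    obtain ⟨K, hK⟩ := hb i n
    have e1 : lam * c ∣ seq K i - b i := hn.trans (hK K le_rfl)
    have e2 : lam * c ∣ seq K i - a i := by
      have := hcau i 0 K (Nat.zero_le _)
      rwa [pow_zero, mul_one, hseq0] at this
    have e3 := dvd_sub e2 e1
    have e4 : seq K i - a i - (seq K i - b i) = b i - a i := by ring
    rwa [e4] at e3
  · refine eq_zero_of_pow_dvd hA hc fun m => ⟨m, le_rfl, ?_⟩
    choose K hK using fun i => hb i m
    let k := max m (Finset.univ.sup K)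
    have e1 : c ^ m ∣ aeval (seq k) G := by
      refine dvd_trans ?_ ((hSt k).2.2 G hG)
      exact Dvd.dvd.mul_left (Dvd.dvd.mul_left (pow_dvd_pow c (le_max_left _ _)) c) _
    have e2 : ∀ G : MvPolynomial ι (R0 A), c ^ m ∣ aeval (seq k) G - aeval b G := by
      intro G
      induction G using MvPolynomial.induction_on with
      | C r => rw [aeval_C, aeval_C, sub_self]; exact dvd_zero _
      | add P Q hP hQ =>
        rw [map_add, map_add, add_sub_add_comm]
        exact dvd_add hP hQ
      | mul_X P i hP =>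
        rw [map_mul, map_mul, aeval_X, aeval_X]
        have e3 : c ^ m ∣ seq k i - b i :=
          hK i k (le_trans (Finset.le_sup (f := K) (Finset.mem_univ i)) (le_max_right _ _))
        have e4 : aeval (seq k) P * seq k i - aeval b P * b i =
            (aeval (seq k) P - aeval b P) * seq k i + aeval b P * (seq k i - b i) := by ring
        rw [e4]
        exact dvd_add (Dvd.dvd.mul_right hP _) (Dvd.dvd.mul_left e3 _)
    have e3 := dvd_sub e1 (e2 G)
    rwa [sub_sub_cancel] at e3

end point

end Fermat.Agent.Flat
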