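import Fermat.Agent.Places.InertiaLift

/-!
# Lifting inertia elements at a given place
-/

set_option autoImplicit false
set_option linter.unusedSectionVars false
set_option linter.style.haveILetI false

namespace Fermat.Agent.Flat

open NumberField Ideal Fermat.Agent.Cheb Fermat.Agent.Places
open scoped Pointwise

attribute [-instance] DivisionRing.toRatAlgebra

variable {L : Type*} [Field L] [CharZero L] [inst : Algebra ℚ L] [IsGalois ℚ L]

/-- Lifting inertia elements, at a given place. -/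
theorem exists_inertia_lift_at (A : ValuationSubring L) (E : IntermediateField ℚ L) [Normal ℚ E]
    (P : Ideal (𝓞 E)) [hP : P.IsMaximal]
    (hPA : P = (center A).comap (inclInt E))
    (σ : E ≃ₐ[ℚ] E) (hσ : ∀ x : 𝓞 E, σ • x - x ∈ P) :
    ∃ τ ∈ A.inertiaSubgroupIn ℚ, AlgEquiv.restrictNormal τ E = σ := by
  letI algB : Algebra (𝓞 E) (integralClosure ℤ L) := (inclInt E).toAlgebra
  haveI : Algebra.IsIntegral (𝓞 E) (integralClosure ℤ L) := ⟨fun x => by
    haveI : IsScalarTower ℤ (𝓞 E) (integralClosure ℤ L) := IsScalarTower.of_algebraMap_eq' (by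
      ext; simp)
    exact (Algebra.IsIntegral.isIntegral (R := ℤ) x).tower_top⟩
  haveI : SMulCommClass (L ≃ₐ[E] L) (𝓞 E) (integralClosure ℤ L) := ⟨fun g a b => by
    apply Subtype.ext
    change g (((a : E) : L) * (b : L)) = ((a : E) : L) * g (b : L)
    rw [map_mul]
    congr 1
    exact g.commutes (a : E)⟩
  set Q := center A with hQdef
  have hQ : Q.comap (inclInt E) = P := hPA.symm
  haveI hQmax : Q.IsMaximal := Ideal.isMaximal_of_isIntegral_of_isMaximal_comap (R := 𝓞 E) Q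
    (by change (Q.comap (inclInt E)).IsMaximal; rw [hQ]; exact hP)
  have hA : center A = Q := rfl
  -- lift `σ`
  obtain ⟨τ₀, hτ₀⟩ := AlgEquiv.restrictNormalHom_surjective (F := ℚ) (K₁ := E) L σ
  have hτ₀' : ∀ x : E, τ₀ (x : L) = ((σ x : E) : L) := fun x => by
    rw [← hτ₀]
    exact (AlgEquiv.restrictNormal_commutes τ₀ E x).symm
  have hτi : ∀ x : 𝓞 E, τ₀ • (inclInt E x) = inclInt E (σ • x) := fun x => by
    apply Subtype.ext
    exact hτ₀' (x : E)
  have hPiff : ∀ x : 𝓞 E, inclInt E x ∈ Q ↔ x ∈ P := fun x => by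
    rw [← hQ]; exact Iff.rfl
  letI : TopologicalSpace (integralClosure ℤ L) := ⊥
  haveI : DiscreteTopology (integralClosure ℤ L) := ⟨rfl⟩
  haveI : ContinuousSMul (L ≃ₐ[E] L) (integralClosure ℤ L) := continuousSMul_intermediate E
  haveI : Algebra.IsInvariant (𝓞 E) (integralClosure ℤ L) (L ≃ₐ[E] L) :=
    isInvariant_intermediate E
  haveI : (τ₀ • Q).IsPrime := inferInstance
  obtain ⟨g, hg⟩ := Algebra.IsInvariant.exists_smul_of_under_eq_of_profinite (A := 𝓞 E)
    (G := L ≃ₐ[E] L) (τ₀ • Q) Q (by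
      ext x
      change inclInt E x ∈ τ₀ • Q ↔ inclInt E x ∈ Q
      rw [Ideal.mem_pointwise_smul_iff_inv_smul_mem, hPiff]
      have h1 : τ₀⁻¹ • inclInt E x = inclInt E (σ⁻¹ • x) := by
        rw [inv_smul_eq_iff, hτi, smul_inv_smul]
      rw [h1, hPiff]
      have h2 := hσ (σ⁻¹ • x)
      rw [smul_inv_smul] at h2
      constructor
      · intro h; have := P.add_mem h2 h; rwa [sub_add_cancel] at this
      · intro h; have := P.sub_mem h h2; rwa [sub_sub_cancel] at this)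
  let τ₁ : L ≃ₐ[ℚ] L := (AlgEquiv.restrictScalars ℚ g) * τ₀
  have hτ₁Q : τ₁ • Q = Q := by
    rw [mul_smul]
    exact hg.symm
  have hτ₁E : ∀ x : 𝓞 E, τ₁ • (inclInt E x) = inclInt E (σ • x) := fun x => by
    rw [mul_smul, hτi]
    apply Subtype.ext
    exact g.commutes _
  haveI hlies : Q.LiesOver P := ⟨hQ.symm⟩
  let e : integralClosure ℤ L ≃+* integralClosure ℤ L :=
    MulSemiringAction.toRingEquiv (L ≃ₐ[ℚ] L) (integralClosure ℤ L) τ₁
  have he : Q = Q.map (e : integralClosure ℤ L →+* integralClosure ℤ L) := by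
    conv_lhs => rw [← hτ₁Q]
    rfl
  let f₀ : (integralClosure ℤ L ⧸ Q) ≃+* (integralClosure ℤ L ⧸ Q) := Ideal.quotientEquiv Q Q e he
  have hf₀ : ∀ r : 𝓞 E ⧸ P, f₀ (algebraMap (𝓞 E ⧸ P) (integralClosure ℤ L ⧸ Q) r) =
      algebraMap (𝓞 E ⧸ P) (integralClosure ℤ L ⧸ Q) r := by
    intro r
    obtain ⟨x, rfl⟩ := Ideal.Quotient.mk_surjective r
    change Ideal.Quotient.mk Q (τ₁ • inclInt E x) = Ideal.Quotient.mk Q (inclInt E x)
    rw [hτ₁E, Ideal.Quotient.eq, ← map_sub, hPiff]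
    exact hσ x
  let f : (integralClosure ℤ L ⧸ Q) ≃ₐ[𝓞 E ⧸ P] (integralClosure ℤ L ⧸ Q) :=
    AlgEquiv.ofRingEquiv (f := f₀) hf₀
  obtain ⟨⟨n, hnQ⟩, hn⟩ := Ideal.Quotient.stabilizerHom_surjective_of_profinite
    (G := L ≃ₐ[E] L) P Q f
  have hn' : ∀ b : integralClosure ℤ L, n • b - τ₁ • b ∈ Q := fun b => by
    have h1 := congrArg (fun φ : (integralClosure ℤ L ⧸ Q) ≃ₐ[𝓞 E ⧸ P] (integralClosure ℤ L ⧸ Q) =>
      φ (Ideal.Quotient.mk Q b)) hn
    rw [← Ideal.Quotient.eq]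
    exact h1
  refine ⟨(AlgEquiv.restrictScalars ℚ n)⁻¹ * τ₁, ?_, ?_⟩
  · apply mem_inertia_of_forall_sub
    intro z hz
    let z' : integralClosure ℤ L := ⟨z, hz⟩
    have h1 := hn' z'
    have h2 : n⁻¹ • (n • z' - τ₁ • z') ∈ Q := by
      have h3 : n⁻¹ • Q = Q := (inv_smul_eq_iff).mpr hnQ.symm
      rw [← h3]
      exact Ideal.smul_mem_pointwise_smul _ _ _ h1
    rw [smul_sub, inv_smul_smul] at h2
    have h3 := Q.neg_mem h2
    rw [neg_sub, ← hA, mem_center] at h3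
    exact h3
  · ext x
    have h1 : ((AlgEquiv.restrictNormal ((AlgEquiv.restrictScalars ℚ n)⁻¹ * τ₁) E x : E) : L) =
      ((AlgEquiv.restrictScalars ℚ n)⁻¹ * τ₁) (x : L) := AlgEquiv.restrictNormal_commutes _ E x
    rw [h1, AlgEquiv.mul_apply]
    have h2 : τ₁ (x : L) = ((σ x : E) : L) := by
      change g (τ₀ (x : L)) = _
      rw [hτ₀']
      exact g.commutes _
    rw [h2]
    exact n.symm.commutes (σ x)


end Fermat.Agent.Flat
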