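import Fermat.Agent.Flat.Local2
import Fermat.Agent.Flat.LiftAt
import Fermat.Agent.Places.Minkowski

/-!
# The fixed field of inertia is unramified
-/

set_option autoImplicit false
set_option linter.unusedSectionVars false
set_option linter.style.haveILetI false

noncomputable section

namespace Fermat.Agent.Flat

open Fermat.Agent.Places Polynomial Fermat.Agent.RedMod NumberField Ideal Fermat.Agent.Cheb IntermediateField
open scoped Pointwise

section finite

variable {K : Type*} [Field K] [NumberField K] [IsGalois ℚ K]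

theorem ramificationIdx_under (H : Subgroup Gal(K/ℚ)) (P : Ideal (𝓞 K)) [P.IsPrime] (hP0 : P ≠ ⊥)
    (hH : P.inertia Gal(K/ℚ) ≤ H) : (P.under (𝓞 (FF K H))).ramificationIdx ℤ = 1 := by
  set P' := P.under (𝓞 (FF K H)) with hP'
  have hp0 : P.under ℤ ≠ ⊥ := fun h => hP0 (Ideal.eq_bot_of_comap_eq_bot h)
  have hP'0 : P' ≠ ⊥ := fun h => hP0 (Ideal.eq_bot_of_comap_eq_bot h)
  haveI := perfect_residueField (P.under ℤ) hp0
  haveI := perfect_residueField P' hP'0
  have e1 : Nat.card (P.inertia Gal(K/ℚ)) = P.ramificationIdx ℤ := by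
    rw [card_inertia_eq_ramificationIdxIn (G := Gal(K/ℚ)) (P.under ℤ) P,
      Ideal.ramificationIdxIn_eq_ramificationIdx (P.under ℤ) P Gal(K/ℚ)]
  have e2 : Nat.card (P.inertia H) = P.ramificationIdx (𝓞 (FF K H)) := by
    rw [card_inertia_eq_ramificationIdxIn (G := H) P' P,
      Ideal.ramificationIdxIn_eq_ramificationIdx P' P H]
  have e3 : P.ramificationIdx ℤ = P'.ramificationIdx ℤ * P.ramificationIdx (𝓞 (FF K H)) :=
    Ideal.ramificationIdx_tower P' P
  have e4 : Nat.card (P.inertia H) = Nat.card (P.inertia Gal(K/ℚ)) := by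
    refine Nat.card_congr
      { toFun := fun σ => ⟨σ.1.1, ?_⟩
        invFun := fun σ => ⟨⟨σ.1, hH σ.2⟩, ?_⟩
        left_inv := fun _ => rfl
        right_inv := fun _ => rfl }
    · exact σ.2
    · exact σ.2
  rw [← e1, ← e2, e4, e1] at e3
  have : P.ramificationIdx ℤ ≠ 0 := by
    rw [← e1]; exact Nat.card_pos.ne'
  exact (mul_eq_right₀ this).mp e3.symm

/-- In an unramified prime, elements of the prime are divisible by `p` locally. -/
theorem exists_mul_eq_of_ramificationIdx {R : Type*} [CommRing R] [IsDomain R] (P : Ideal R) [P.IsPrime]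
    (p : ℕ) (hpP : P.under ℤ = Ideal.span {(p : ℤ)}) (h : P.ramificationIdx ℤ = 1)
    {x : R} (hx : x ∈ P) : ∃ s ∉ P, ∃ y : R, x * s = p * y := by
  rw [Ideal.ramificationIdx_def, ENat.toNat_eq_iff_eq_natCast, Nat.cast_one,
    Module.length_eq_one_iff, isSimpleModule_iff_isCoatom, ← Ideal.isMaximal_def,
    IsLocalRing.isMaximal_iff, hpP, Ideal.map_span, Set.image_singleton] at h
  have h1 : algebraMap R (Localization.AtPrime P) x ∈
      IsLocalRing.maximalIdeal (Localization.AtPrime P) := by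
    rw [← Localization.AtPrime.map_eq_maximalIdeal]
    exact Ideal.mem_map_of_mem _ hx
  rw [← h, Ideal.mem_span_singleton] at h1
  obtain ⟨z, hz⟩ := h1
  obtain ⟨⟨y, s⟩, hys⟩ := IsLocalization.surj P.primeCompl z
  have h2 : algebraMap R (Localization.AtPrime P) (x * s) =
      algebraMap R (Localization.AtPrime P) (p * y) := by
    rw [map_mul, hz, map_mul, ← hys]
    simp only [map_natCast]
    ring
  obtain ⟨c, hc⟩ := (IsLocalization.eq_iff_exists P.primeCompl _).1 h2
  have hc0 : (c : R) ≠ 0 := fun h0 => c.2 (h0 ▸ P.zero_mem)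
  exact ⟨s, s.2, y, mul_left_cancel₀ hc0 hc⟩

end finite

section finite2

theorem finite_level' {K : Type*} [Field K] [CharZero K] [inst : Algebra ℚ K]
    [FiniteDimensional ℚ K] [IsGalois ℚ K] (P : Ideal (𝓞 K)) [P.IsPrime] {p : ℕ} (hp : p.Prime)
    (hpP : (p : 𝓞 K) ∈ P) (b : 𝓞 K)
    (hb : ∀ σ : K ≃ₐ[ℚ] K, (∀ y : 𝓞 K, σ • y - y ∈ P) → σ (b : K) = b) (hbP : b ∈ P) :
    ∃ s ∉ P, ∃ y : 𝓞 K, b * s = p * y := by
  obtain rfl : inst = DivisionRing.toRatAlgebra := Subsingleton.elim _ _
  haveI : NumberField K := ⟨⟩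
  have hP0 : P ≠ ⊥ := by
    rintro rfl
    rw [Ideal.mem_bot] at hpP
    exact hp.ne_zero (by exact_mod_cast hpP)
  set H := P.inertia Gal(K/ℚ) with hH
  have h1 := ramificationIdx_under H P hP0 le_rfl
  have hbH : ((b : K)) ∈ FF K H := by
    intro σ
    exact hb σ.1 σ.2
  let b' : 𝓞 (FF K H) := ⟨⟨(b : K), hbH⟩, by
    have h2 : IsIntegral ℤ (b : K) := RingOfIntegers.isIntegral_coe b
    exact (isIntegral_algebraMap_iff (algebraMap (FF K H) K).injective).1 h2⟩
  have hb' : algebraMap (𝓞 (FF K H)) (𝓞 K) b' = b := RingOfIntegers.ext rfl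
  have hunder : (P.under (𝓞 (FF K H))).under ℤ = Ideal.span {(p : ℤ)} := by
    rw [Ideal.under_under]
    have h3 : Ideal.span {(p : ℤ)} ≤ P.under ℤ := by
      rw [Ideal.span_singleton_le_iff_mem]
      change algebraMap ℤ (𝓞 K) p ∈ P
      simpa using hpP
    have h4 : (Ideal.span {(p : ℤ)}).IsMaximal :=
      PrincipalIdealRing.isMaximal_of_irreducible (Nat.prime_iff_prime_int.1 hp).irreducible
    exact (h4.eq_of_le (Ideal.IsPrime.under ℤ P).ne_top h3).symm
  obtain ⟨s, hs, y, hy⟩ := exists_mul_eq_of_ramificationIdx (P.under (𝓞 (FF K H))) p hunder h1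
    (x := b') (by change algebraMap (𝓞 (FF K H)) (𝓞 K) b' ∈ P; rw [hb']; exact hbP)
  refine ⟨algebraMap _ _ s, hs, algebraMap _ _ y, ?_⟩
  rw [← hb', ← map_mul, hy, map_mul, map_natCast]

end finite2

section lift


attribute [-instance] DivisionRing.toRatAlgebra

variable {L : Type*} [Field L] [CharZero L] [inst : Algebra ℚ L] [IsGalois ℚ L]

theorem div_mem_of_fixed (A : ValuationSubring L) {p : ℕ} (hp : p.Prime) (hA : A.LiesOverPrime p)
    {x : L} (hx : ∀ σ ∈ A.inertiaSubgroupIn ℚ, σ x = x) (hxA : x ∈ A.nonunits) : x / p ∈ A := by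
  let E : IntermediateField ℚ L := IntermediateField.fixedField (A.inertiaSubgroupIn ℚ)
  have hE : ∀ {y : L}, y ∈ E ↔ ∀ σ ∈ A.inertiaSubgroupIn ℚ, σ y = y := by
    intro y
    exact IntermediateField.mem_fixedField_iff _ _
  let B : ValuationSubring E := A.comap (algebraMap E L)
  obtain ⟨s, hs, hsB, hxs⟩ := exists_integral_mul B (x := ⟨x, hE.2 hx⟩)
    ((IsFractionRing.isAlgebraic_iff ℤ ℚ _).2 (Algebra.IsAlgebraic.isAlgebraic _))
    (mem_of_mem_nonunits A hxA)
  set b : L := x * (s : L) with hbdef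
  have hbE : b ∈ E := E.mul_mem (hE.2 hx) s.2
  have hbint : IsIntegral ℤ b := hxs.map (algebraMap E L).toIntAlgHom
  have hsA : (s : L) ∉ A.nonunits := by
    intro h
    apply hsB
    rw [mem_nonunits_iff_inv] at h ⊢
    rcases h with h | h
    · exact Or.inl (Subtype.ext h)
    · right
      intro h'
      apply h
      exact h'
  have hsA' : (s : L) ∈ A := mem_of_isIntegral_int A (hs.map (algebraMap E L).toIntAlgHom)
  have hbA : b ∈ A.nonunits := mul_mem_nonunits A hxA hsA'
  -- a finite Galois extension containing `b`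
  let F : IntermediateField ℚ L := normalClosure ℚ (IntermediateField.adjoin ℚ {b}) L
  haveI : FiniteDimensional ℚ (IntermediateField.adjoin ℚ {b}) :=
    IntermediateField.adjoin.finiteDimensional (Algebra.IsIntegral.isIntegral b)
  haveI : FiniteDimensional ℚ F := normalClosure.is_finiteDimensional ℚ _ L
  haveI : Normal ℚ F := normalClosure.normal ℚ _ L
  haveI : Algebra.IsSeparable ℚ F := Algebra.IsAlgebraic.isSeparable_of_perfectField
  haveI : IsGalois ℚ F := ⟨⟩
  have hbF : b ∈ F := IntermediateField.le_normalClosure _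
    (IntermediateField.mem_adjoin_simple_self ℚ b)
  let P : Ideal (𝓞 F) := (center A).comap (inclInt F)
  haveI hPp : P.IsPrime := Ideal.comap_isPrime _ _
  have hpP : (p : 𝓞 F) ∈ P := by
    change inclInt F (p : 𝓞 F) ∈ center A
    rw [mem_center_inclInt]
    push_cast
    exact hA
  have hP0 : P ≠ ⊥ := by
    rintro h
    rw [h, Ideal.mem_bot] at hpP
    exact hp.ne_zero (by exact_mod_cast hpP)
  haveI : NumberField F := by
    have h2 : (F.algebra' : Algebra ℚ F) = DivisionRing.toRatAlgebra := Subsingleton.elim _ _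
    exact { to_charZero := inferInstance, to_finiteDimensional := h2 ▸ inferInstance }
  haveI : P.IsMaximal := hPp.isMaximal hP0
  let bF : 𝓞 F := ⟨⟨b, hbF⟩, (isIntegral_algebraMap_iff (algebraMap F L).injective).1 hbint⟩
  obtain ⟨s2, hs2, y, hy⟩ := finite_level' P hp hpP bF (by
    intro σ hσ
    obtain ⟨τ, hτ, hτσ⟩ := exists_inertia_lift_at A F P rfl σ hσ
    have h1 : ((σ (bF : F) : F) : L) = τ b := by
      rw [← hτσ]
      exact AlgEquiv.restrictNormal_commutes τ F (bF : F)
    apply (algebraMap F L).injective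
    change ((σ (bF : F) : F) : L) = b
    rw [h1]
    exact hE.1 hbE τ hτ) (by
      change inclInt F bF ∈ center A
      rw [mem_center_inclInt]
      exact hbA)
  have hs2A : (((s2 : F)) : L) ∉ A.nonunits := fun h => hs2 (by
    change inclInt F s2 ∈ center A
    rw [mem_center_inclInt]
    exact h)
  have hp0 : (p : L) ≠ 0 := Nat.cast_ne_zero.2 hp.ne_zero
  have hy' : b * ((s2 : F) : L) = p * ((y : F) : L) := by
    have := congrArg (fun z : 𝓞 F => ((z : F) : L)) hy
    simp only [map_mul, map_natCast] at this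
    push_cast at this
    exact this
  refine mem_of_mul_mem (s := (s : L)) hsA (mem_of_mul_mem (s := ((s2 : F) : L)) hs2A ?_)
  have h3 : x / p * (s : L) * ((s2 : F) : L) = ((y : F) : L) := by
    field_simp
    rw [← hy', hbdef]
  rw [h3]
  exact mem_of_isIntegral_int A (isIntegral_coe F y)

end lift

section K0

variable {A : ValuationSubring (AlgebraicClosure ℚ)} {p : ℕ} [Fact p.Prime]

theorem nonunits_R0 (hA : A.LiesOverPrime p) {x : AlgebraicClosure ℚ} (hx : x ∈ K0 A)
    (hxA : x ∈ A.nonunits) : ∃ y ∈ R0 A, x = p * y := by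
  have hp0 : (p : AlgebraicClosure ℚ) ≠ 0 := Nat.cast_ne_zero.2 (Fact.out : p.Prime).ne_zero
  have h := div_mem_of_fixed A (Fact.out : p.Prime) hA (x := x)
    (fun σ hσ => (IntermediateField.mem_fixedField_iff _ _).1 hx σ hσ) hxA
  refine ⟨x / p, ⟨h, ?_⟩, by field_simp⟩
  exact (K0 A).div_mem hx (_root_.natCast_mem (K0 A) p)

end K0

end Fermat.Agent.Flat
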