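import Fermat.Agent.Flat.Sep
import Fermat.Agent.Flat.Unram

/-!
# Points of a finite flat Hopf algebra over the strict henselisation
-/

set_option autoImplicit false
set_option linter.unusedSectionVars false
set_option linter.style.haveILetI false

noncomputable section

open scoped TensorProduct
open WithConv

namespace Fermat.Agent.Flat

open Fermat.Agent.Places Polynomial Fermat.Agent.RedMod

local notation "Ω" => AlgebraicClosure ℚ

variable {A : ValuationSubring (AlgebraicClosure ℚ)} {p : ℕ} [Fact p.Prime]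
variable {R : Type} [CommRing R] [Algebra R Ω] [Algebra R (R0 A)] [IsScalarTower R (R0 A) Ω]
variable {H : Type} [CommRing H] [HopfAlgebra R H]

/-- evaluation at a point -/
def ev (P : H →ₐ[R] Ω) : (R0 A) ⊗[R] H →ₐ[R0 A] Ω :=
  Algebra.TensorProduct.lift (Algebra.ofId (R0 A) Ω) P (fun _ _ => Commute.all _ _)

theorem ev_tmul (P : H →ₐ[R] Ω) (r : R0 A) (h : H) :
    ev P (r ⊗ₜ[R] h) = (r : Ω) * P h := rfl

theorem eq_zero_of_ev [Module.Finite R H] [Module.Flat R H] {z : (R0 A) ⊗[R] H}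
    (hz : ∀ P : H →ₐ[R] Ω, ev P z = 0) : z = 0 := by
  let j : (R0 A) ⊗[R] H →ₗ[R] Ω ⊗[R] H :=
    LinearMap.rTensor H (IsScalarTower.toAlgHom R (R0 A) Ω).toLinearMap
  have hj : Function.Injective j :=
    Module.Flat.rTensor_preserves_injective_linearMap _ Subtype.val_injective
  apply hj
  rw [map_zero]
  refine eq_zero_of_points (K := Ω) (H := Ω ⊗[R] H) fun P => ?_
  set P0 : H →ₐ[R] Ω := (P.restrictScalars R).comp Algebra.TensorProduct.includeRight with hP0
  have key : ∀ w : (R0 A) ⊗[R] H, P (j w) = ev P0 w := by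
    intro w
    induction w using TensorProduct.induction_on with
    | zero => simp
    | add x y hx hy => rw [map_add, map_add, map_add, hx, hy]
    | tmul r h =>
      rw [ev_tmul]
      change P ((r : Ω) ⊗ₜ[R] h) = _
      have : ((r : Ω) ⊗ₜ[R] h) = (r : Ω) • ((1 : Ω) ⊗ₜ[R] h) := by
        rw [TensorProduct.smul_tmul', smul_eq_mul, mul_one]
      rw [this, map_smul]
      rfl
  rw [key]
  exact hz P0

theorem ev_mem [Module.Finite R H] (P : H →ₐ[R] Ω) (z : (R0 A) ⊗[R] H) : ev P z ∈ A := by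
  have h1 : IsIntegral (R0 A) z := Algebra.IsIntegral.isIntegral z
  have h2 : IsIntegral (R0 A) (ev P z) := h1.map (ev P)
  obtain ⟨F, hF, hF0⟩ := h2
  let φ : (R0 A) →+* A :=
    { toFun := fun z => ⟨z, z.2.1⟩
      map_one' := rfl
      map_mul' := fun _ _ => rfl
      map_zero' := rfl
      map_add' := fun _ _ => rfl }
  have h4 : IsIntegral A (ev P z) := by
    refine ⟨F.map φ, hF.map _, ?_⟩
    rw [eval₂_map]
    exact hF0
  obtain ⟨y, hy⟩ := (IsIntegrallyClosed.isIntegral_iff).1 h4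
  rw [← hy]
  exact y.2

/-- Galois action on points -/
def conj (σ : Ω ≃ₐ[K0 A] Ω) (P : H →ₐ[R] Ω) : H →ₐ[R] Ω :=
  { (σ : Ω →+* Ω).comp (P : H →+* Ω) with
    commutes' := fun r => by
      change σ (P (algebraMap R H r)) = algebraMap R Ω r
      rw [AlgHom.commutes, IsScalarTower.algebraMap_apply R (R0 A) Ω]
      exact σ.commutes ⟨(algebraMap R (R0 A) r : R0 A), (algebraMap R (R0 A) r).2.2⟩ }

theorem conj_apply (σ : Ω ≃ₐ[K0 A] Ω) (P : H →ₐ[R] Ω) (h : H) : conj σ P h = σ (P h) := rfl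

theorem ev_conj (σ : Ω ≃ₐ[K0 A] Ω) (P : H →ₐ[R] Ω) (z : (R0 A) ⊗[R] H) :
    ev (conj σ P) z = σ (ev P z) := by
  induction z using TensorProduct.induction_on with
  | zero => simp
  | add x y hx hy => rw [map_add, map_add, map_add, hx, hy]
  | tmul r h =>
    rw [ev_tmul, ev_tmul, map_mul, conj_apply]
    congr 1
    exact (σ.commutes ⟨(r : Ω), r.2.2⟩).symm

theorem conj_injective (σ : Ω ≃ₐ[K0 A] Ω) :
    Function.Injective (conj σ : (H →ₐ[R] Ω) → (H →ₐ[R] Ω)) := by
  intro P Q h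
  ext x
  have := congrArg (fun F : H →ₐ[R] Ω => F x) h
  exact σ.injective this

theorem exists_poly [Module.Finite R H] (S : Finset (H →ₐ[R] Ω))
    (hS : ∀ σ : Ω ≃ₐ[K0 A] Ω, ∀ P ∈ S, conj σ P ∈ S) (z : (R0 A) ⊗[R] H) :
    ∃ f : Polynomial (R0 A), f.map (algebraMap (R0 A) Ω) = ∏ P ∈ S, (X - C (ev P z)) := by
  classical
  set g : Polynomial Ω := ∏ P ∈ S, (X - C (ev P z)) with hg
  have hA' : ∀ i, g.coeff i ∈ A := by
    have h1 : (∏ P ∈ S, (X - C (⟨ev P z, ev_mem P z⟩ : A))).map A.subtype = g := by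
      rw [hg, Polynomial.map_prod]
      refine Finset.prod_congr rfl fun P _ => ?_
      rw [Polynomial.map_sub, map_X, map_C]
      rfl
    intro i
    rw [← h1, coeff_map]
    exact Subtype.prop _
  have hfix : ∀ σ : Ω ≃ₐ[K0 A] Ω, g.map (σ : Ω →+* Ω) = g := by
    intro σ
    rw [hg, Polynomial.map_prod]
    have h1 : ∀ P ∈ S, Polynomial.map (σ : Ω →+* Ω) (X - C (ev P z)) =
        X - C (ev (conj σ P) z) := by
      intro P _
      rw [Polynomial.map_sub, map_X, map_C, ev_conj]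
      rfl
    rw [Finset.prod_congr rfl h1]
    have hbij : S.image (conj σ) = S := by
      apply Finset.eq_of_subset_of_card_le
      · intro Q hQ
        obtain ⟨P, hP, rfl⟩ := Finset.mem_image.1 hQ
        exact hS σ P hP
      · rw [Finset.card_image_of_injective _ (conj_injective σ)]
    conv_rhs => rw [← hbij]
    rw [Finset.prod_image fun a _ b _ h => conj_injective σ h]
  have hK : ∀ i, g.coeff i ∈ K0 A := by
    intro i
    apply mem_K0_of_fixed
    intro σ
    have := congrArg (fun q => coeff q i) (hfix σ)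
    simpa using this
  have hlift : g ∈ Polynomial.lifts (algebraMap (R0 A) Ω) := by
    rw [Polynomial.lifts_iff_coeff_lifts]
    intro i
    exact ⟨⟨g.coeff i, hA' i, hK i⟩, rfl⟩
  obtain ⟨f, hf⟩ := (Polynomial.mem_lifts g).1 hlift
  exact ⟨f, hf⟩

/-- congruent points -/
def Cg (A : ValuationSubring Ω) (P Q : H →ₐ[R] Ω) : Prop := ∀ h : H, P h - Q h ∈ A.nonunits

theorem Cg.refl (P : H →ₐ[R] Ω) : Cg A P P := fun h => by
  rw [sub_self]; exact zero_mem_nonunits A

theorem Cg.symm {P Q : H →ₐ[R] Ω} (h : Cg A P Q) : Cg A Q P := fun x => by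
  have := neg_mem_nonunits A (h x)
  rwa [neg_sub] at this

theorem Cg.trans {P Q S : H →ₐ[R] Ω} (h : Cg A P Q) (h' : Cg A Q S) : Cg A P S := fun x => by
  have := add_mem_nonunits A (h x) (h' x)
  rwa [sub_add_sub_cancel] at this

theorem Cg.ev {P Q : H →ₐ[R] Ω} (h : Cg A P Q) (z : (R0 A) ⊗[R] H) :
    ev P z - ev Q z ∈ A.nonunits := by
  induction z using TensorProduct.induction_on with
  | zero => rw [map_zero, map_zero, sub_zero]; exact zero_mem_nonunits A
  | add x y hx hy =>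
    rw [map_add, map_add]
    have := add_mem_nonunits A hx hy
    convert this using 1
    ring
  | tmul r x =>
    rw [ev_tmul, ev_tmul, ← mul_sub, mul_comm]
    exact mul_mem_nonunits A (h x) r.2.1

theorem Cg.conj [Module.Finite R H] (σ : Ω ≃ₐ[K0 A] Ω) (P : H →ₐ[R] Ω) :
    Cg A (Flat.conj σ P) P := fun x => by
  have h1 : P x ∈ A := by
    have := ev_mem (A := A) P ((1 : R0 A) ⊗ₜ[R] x)
    rwa [ev_tmul, OneMemClass.coe_one, one_mul] at this
  exact aut_sub_mem A σ h1

theorem unit_of_sub_one {x : Ω} (h : x - 1 ∈ A.nonunits) : x ∈ A ∧ x ∉ A.nonunits := by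
  constructor
  · have := A.add_mem _ _ (mem_of_mem_nonunits A h) A.one_mem
    rwa [sub_add_cancel] at this
  · intro hx
    have := sub_mem_nonunits A hx h
    rw [sub_sub_cancel] at this
    exact one_notMem A this

theorem inv_mem_of_unit {x : Ω} (h : x ∉ A.nonunits) : x⁻¹ ∈ A := by
  by_contra hcon
  apply h
  rw [mem_nonunits_iff_inv]
  exact Or.inr hcon

theorem exists_sep_pair (hA : A.LiesOverPrime p) [Module.Finite R H] {P P0 : H →ₐ[R] Ω}
    (h : ¬ Cg A P P0) :
    ∃ z : (R0 A) ⊗[R] H, ev P z ∈ A.nonunits ∧ ev P0 z - 1 ∈ A.nonunits := by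
  simp only [Cg, not_forall] at h
  obtain ⟨x, hx⟩ := h
  have hmem : ∀ Q : H →ₐ[R] Ω, Q x ∈ A := fun Q => by
    have := ev_mem (A := A) Q ((1 : R0 A) ⊗ₜ[R] x)
    rwa [ev_tmul, OneMemClass.coe_one, one_mul] at this
  obtain ⟨r, hr, hrx⟩ := exists_R0_sub_mem hA (hmem P)
  -- `P0 x - r` is a unit
  have hu : P0 x - r ∉ A.nonunits := by
    intro h'
    apply hx
    have := add_mem_nonunits A h' hrx
    have := neg_mem_nonunits A this
    convert this using 1
    ring
  have huA : P0 x - r ∈ A := A.sub_mem (hmem P0) hr.1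
  obtain ⟨s, hs, hsx⟩ := exists_R0_sub_mem hA (inv_mem_of_unit hu)
  refine ⟨(⟨s, hs⟩ : R0 A) • ((1 : R0 A) ⊗ₜ[R] x - (⟨r, hr⟩ : R0 A) ⊗ₜ[R] 1), ?_, ?_⟩
  · rw [map_smul, map_sub, ev_tmul, ev_tmul, OneMemClass.coe_one, one_mul, map_one, mul_one,
      Algebra.smul_def]
    have h1 := neg_mem_nonunits A hrx
    rw [neg_sub] at h1
    rw [mul_comm]
    exact mul_mem_nonunits A h1 hs.1
  · rw [map_smul, map_sub, ev_tmul, ev_tmul, OneMemClass.coe_one, one_mul, map_one, mul_one,
      Algebra.smul_def]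
    have hne : P0 x - r ≠ 0 := fun h0 => hu (h0 ▸ zero_mem_nonunits A)
    have h1 := mul_mem_nonunits A hsx huA
    have h2 : (s - (P0 x - r)⁻¹) * (P0 x - r) = s * (P0 x - r) - 1 := by
      rw [sub_mul, inv_mul_cancel₀ hne]
    rw [h2] at h1
    exact h1

theorem exists_indicator (hA : A.LiesOverPrime p) [Module.Finite R H] [Finite (H →ₐ[R] Ω)]
    (P0 : H →ₐ[R] Ω) :
    ∃ z : (R0 A) ⊗[R] H, (∀ P, Cg A P P0 → ev P z - 1 ∈ A.nonunits) ∧
      (∀ P, ¬ Cg A P P0 → ev P z ∈ A.nonunits) := by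
  classical
  haveI := Fintype.ofFinite (H →ₐ[R] Ω)
  have h1 : ∀ P : H →ₐ[R] Ω, ∃ z : (R0 A) ⊗[R] H, ev P0 z - 1 ∈ A.nonunits ∧
      (¬ Cg A P P0 → ev P z ∈ A.nonunits) := by
    intro P
    by_cases h : Cg A P P0
    · exact ⟨1, by rw [map_one, sub_self]; exact zero_mem_nonunits A, fun h' => absurd h h'⟩
    · obtain ⟨z, hz1, hz2⟩ := exists_sep_pair hA h
      exact ⟨z, hz2, fun _ => hz1⟩
  choose z hz1 hz2 using h1
  have h2 : ∀ s : Finset (H →ₐ[R] Ω), ev P0 (∏ P ∈ s, z P) - 1 ∈ A.nonunits := by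
    intro s
    induction s using Finset.induction_on with
    | empty => rw [Finset.prod_empty, map_one, sub_self]; exact zero_mem_nonunits A
    | insert a s ha ih =>
      rw [Finset.prod_insert ha, map_mul]
      have h3 := mul_mem_nonunits A (hz1 a) (ev_mem P0 (∏ P ∈ s, z P))
      have h4 := add_mem_nonunits A h3 ih
      convert h4 using 1
      ring
  refine ⟨∏ P, z P, fun P hP => ?_, fun P hP => ?_⟩
  · have h3 := add_mem_nonunits A (hP.ev (∏ P, z P)) (h2 Finset.univ)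
    rwa [sub_add_sub_cancel] at h3
  · rw [← Finset.mul_prod_erase Finset.univ z (Finset.mem_univ P), map_mul]
    exact mul_mem_nonunits A (hz2 P hP) (ev_mem _ _)

theorem ev_aeval (P : H →ₐ[R] Ω) (z : (R0 A) ⊗[R] H) (f : Polynomial (R0 A)) :
    ev P (aeval z f) = (f.map (algebraMap (R0 A) Ω)).eval (ev P z) := by
  rw [← aeval_algHom_apply, eval_map]
  rfl

/-- The idempotent of a residue class. -/
theorem exists_idem (hA : A.LiesOverPrime p) [Module.Finite R H] [Finite (H →ₐ[R] Ω)]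
    (P0 : H →ₐ[R] Ω) :
    ∃ e : (R0 A) ⊗[R] H, (∀ P, Cg A P P0 → ev P e = 1) ∧ (∀ P, ¬ Cg A P P0 → ev P e = 0) := by
  classical
  haveI := Fintype.ofFinite (H →ₐ[R] Ω)
  obtain ⟨z, hz1, hz0⟩ := exists_indicator hA P0
  have hst : ∀ (σ : Ω ≃ₐ[K0 A] Ω) (P : H →ₐ[R] Ω), Cg A (conj σ P) P0 ↔ Cg A P P0 := by
    intro σ P
    exact ⟨fun h => (Cg.conj σ P).symm.trans h, fun h => (Cg.conj σ P).trans h⟩
  obtain ⟨g, hg⟩ := exists_poly (Finset.univ.filter fun P : H →ₐ[R] Ω => ¬ Cg A P P0) (by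
    intro σ P hP
    rw [Finset.mem_filter] at hP ⊢
    exact ⟨Finset.mem_univ _, fun h => hP.2 ((hst σ P).1 h)⟩) z
  set w := aeval z g with hw
  have hw0 : ∀ P, ¬ Cg A P P0 → ev P w = 0 := by
    intro P hP
    rw [hw, ev_aeval, hg, eval_prod]
    refine Finset.prod_eq_zero (i := P) (by simp [hP]) ?_
    rw [eval_sub, eval_X, eval_C, sub_self]
  have hw1 : ∀ P, Cg A P P0 → ev P w - 1 ∈ A.nonunits := by
    intro P hP
    rw [hw, ev_aeval, hg, eval_prod]
    have h2 : ∀ s : Finset (H →ₐ[R] Ω), (∀ Q ∈ s, ¬ Cg A Q P0) →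
        (∏ Q ∈ s, (X - C (ev Q z)).eval (ev P z)) - 1 ∈ A.nonunits := by
      intro s
      induction s using Finset.induction_on with
      | empty => intro _; rw [Finset.prod_empty, sub_self]; exact zero_mem_nonunits A
      | insert a s ha ih =>
        intro hs
        rw [Finset.prod_insert ha]
        have h3 := ih fun Q hQ => hs Q (Finset.mem_insert_of_mem hQ)
        have h4 : (X - C (ev a z)).eval (ev P z) - 1 ∈ A.nonunits := by
          rw [eval_sub, eval_X, eval_C]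
          have := sub_mem_nonunits A (hz1 P hP) (hz0 a (hs a (Finset.mem_insert_self _ _)))
          convert this using 1
          ring
        have h5 := mul_mem_nonunits A h4 (unit_of_sub_one h3).1
        have h6 := add_mem_nonunits A h5 h3
        convert h6 using 1
        ring
    exact h2 _ fun Q hQ => (Finset.mem_filter.1 hQ).2
  obtain ⟨m, hm⟩ := exists_poly (Finset.univ.filter fun P : H →ₐ[R] Ω => Cg A P P0) (by
    intro σ P hP
    rw [Finset.mem_filter] at hP ⊢
    exact ⟨Finset.mem_univ _, (hst σ P).2 hP.2⟩) w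
  -- the constant coefficient is a unit
  have hm0 : ((m.coeff 0 : R0 A) : Ω) ∉ A.nonunits ∧ ((m.coeff 0 : R0 A) : Ω) ≠ 0 := by
    have h1 : ((m.coeff 0 : R0 A) : Ω) = (m.map (algebraMap (R0 A) Ω)).eval 0 := by
      rw [← coeff_zero_eq_eval_zero, coeff_map]; rfl
    have h2 : ∀ s : Finset (H →ₐ[R] Ω), (∀ Q ∈ s, Cg A Q P0) →
        (∏ Q ∈ s, (X - C (ev Q w)).eval 0) ∉ A.nonunits := by
      intro s
      induction s using Finset.induction_on with
      | empty => intro _; rw [Finset.prod_empty]; exact one_notMem A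
      | insert a s ha ih =>
        intro hs
        rw [Finset.prod_insert ha]
        have h3 := ih fun Q hQ => hs Q (Finset.mem_insert_of_mem hQ)
        have h4 := unit_of_sub_one (hw1 a (hs a (Finset.mem_insert_self _ _)))
        intro h5
        rw [eval_sub, eval_X, eval_C, zero_sub, neg_mul] at h5
        have h6 := neg_mem_nonunits A h5
        rw [neg_neg] at h6
        rcases mem_nonunits_or_of_mul A h4.1 (by
          refine A.toSubring.prod_mem fun Q _ => ?_
          rw [eval_sub, eval_X, eval_C, zero_sub]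
          exact A.neg_mem _ (ev_mem _ _)) h6 with h7 | h7
        · exact h4.2 h7
        · exact h3 h7
    have h3 : ((m.coeff 0 : R0 A) : Ω) ∉ A.nonunits := by
      rw [h1, hm, eval_prod]
      exact h2 _ fun Q hQ => (Finset.mem_filter.1 hQ).2
    exact ⟨h3, fun h0 => h3 (h0 ▸ zero_mem_nonunits A)⟩
  let c : R0 A := ⟨((m.coeff 0 : R0 A) : Ω)⁻¹, inv_mem_of_unit hm0.1,
    (K0 A).inv_mem (m.coeff 0).2.2⟩
  refine ⟨1 - c • aeval w m, fun P hP => ?_, fun P hP => ?_⟩
  · rw [map_sub, map_one, map_smul, ev_aeval, hm, eval_prod]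
    have : (∏ Q ∈ Finset.univ.filter (fun P : H →ₐ[R] Ω => Cg A P P0),
        (X - C (ev Q w)).eval (ev P w)) = 0 := by
      refine Finset.prod_eq_zero (i := P) (by simp [hP]) ?_
      rw [eval_sub, eval_X, eval_C, sub_self]
    rw [this, smul_zero, sub_zero]
  · rw [map_sub, map_one, map_smul, ev_aeval, hw0 P hP, ← coeff_zero_eq_eval_zero, coeff_map,
      Algebra.smul_def]
    change 1 - ((m.coeff 0 : R0 A) : Ω)⁻¹ * ((m.coeff 0 : R0 A) : Ω) = 0
    rw [inv_mul_cancel₀ hm0.2, sub_self]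

end Fermat.Agent.Flat
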