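import Fermat.Agent.Flat.Dvr
import Fermat.Agent.Flat.Pts

/-!
# The local algebra of a residue class
-/

set_option autoImplicit false
set_option linter.unusedSectionVars false
set_option linter.style.haveILetI false

noncomputable section

open scoped TensorProduct
open WithConv

namespace Fermat.Agent.Flat

open Fermat.Agent.Places Polynomial Fermat.Agent.RedMod

local notation "Ω" => AlgebraicClosure ℚ

variable {A : ValuationSubring (AlgebraicClosure ℚ)} {p : ℕ} [Fact p.Prime]
variable {R : Type} [CommRing R] [Algebra R Ω] [Algebra R (R0 A)] [IsScalarTower R (R0 A) Ω]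
variable {H : Type} [CommRing H] [HopfAlgebra R H] [Module.Finite R H] [Module.Flat R H]

/-- `e` is the idempotent of the residue class of `P0`. -/
def IsIdem (P0 : H →ₐ[R] Ω) (e : (R0 A) ⊗[R] H) : Prop :=
  (∀ P : H →ₐ[R] Ω, Cg A P P0 → ev P e = 1) ∧ (∀ P : H →ₐ[R] Ω, ¬ Cg A P P0 → ev P e = 0)

/-- The local algebra of a residue class. -/
def TT (e : (R0 A) ⊗[R] H) : Type := ((R0 A) ⊗[R] H) ⧸ Ideal.span {1 - e}

instance (e : (R0 A) ⊗[R] H) : CommRing (TT e) :=
  inferInstanceAs (CommRing (((R0 A) ⊗[R] H) ⧸ Ideal.span {1 - e}))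

instance (e : (R0 A) ⊗[R] H) : Algebra (R0 A) (TT e) :=
  inferInstanceAs (Algebra (R0 A) (((R0 A) ⊗[R] H) ⧸ Ideal.span {1 - e}))

/-- the projection -/
def mkT (e : (R0 A) ⊗[R] H) : (R0 A) ⊗[R] H →ₐ[R0 A] TT e :=
  Ideal.Quotient.mkₐ (R0 A) (Ideal.span {1 - e})

theorem mkT_surjective (e : (R0 A) ⊗[R] H) : Function.Surjective (mkT e) :=
  Ideal.Quotient.mkₐ_surjective _ _

theorem mkT_eq_zero {e : (R0 A) ⊗[R] H} {z : (R0 A) ⊗[R] H} :
    mkT e z = 0 ↔ ∃ w, z = (1 - e) * w := by
  change Ideal.Quotient.mk (Ideal.span {1 - e}) z = 0 ↔ _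
  rw [Ideal.Quotient.eq_zero_iff_mem, Ideal.mem_span_singleton]
  rfl

instance (e : (R0 A) ⊗[R] H) : Module.Finite (R0 A) (TT e) :=
  Module.Finite.of_surjective (mkT e).toLinearMap (mkT_surjective e)

variable {P0 : H →ₐ[R] Ω} {e : (R0 A) ⊗[R] H} (he : IsIdem P0 e)

/-- Evaluation of the local algebra at a point of the residue class. -/
def evT {P : H →ₐ[R] Ω} (hP : ev P e = 1) : TT e →ₐ[R0 A] Ω :=
  Ideal.Quotient.liftₐ (Ideal.span {1 - e}) (ev P) (by
    intro a ha
    have h1 : Ideal.span {1 - e} ≤ RingHom.ker (ev (A := A) P) := by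
      rw [Ideal.span_le, Set.singleton_subset_iff]
      change ev P (1 - e) = 0
      rw [map_sub, map_one, hP, sub_self]
    exact h1 ha)

theorem evT_mk {P : H →ₐ[R] Ω} (hP : ev P e = 1) (z : (R0 A) ⊗[R] H) :
    evT hP (mkT e z) = ev P z := rfl

include he in
theorem eq_zero_of_evT {t : TT e} (ht : ∀ (P : H →ₐ[R] Ω) (hP : Cg A P P0), evT (he.1 P hP) t = 0) :
    t = 0 := by
  obtain ⟨z, rfl⟩ := mkT_surjective e t
  have h1 : e * z = 0 := by
    apply eq_zero_of_ev
    intro P
    rw [map_mul]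
    by_cases hP : Cg A P P0
    · have := ht P hP
      rw [evT_mk] at this
      rw [this, mul_zero]
    · rw [he.2 P hP, zero_mul]
  rw [mkT_eq_zero]
  exact ⟨z, by rw [sub_mul, one_mul, h1, sub_zero]⟩

include he in
theorem p_smul_eq_zero {t : TT e} (ht : (p : TT e) * t = 0) : t = 0 := by
  apply eq_zero_of_evT he
  intro P hP
  have h := congrArg (evT (he.1 P hP)) ht
  rw [map_mul, map_natCast, map_zero] at h
  exact (mul_eq_zero.1 h).resolve_left (Nat.cast_ne_zero.2 (Fact.out : p.Prime).ne_zero)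

theorem evT_mem {P : H →ₐ[R] Ω} (hP : ev P e = 1) (t : TT e) : evT hP t ∈ A := by
  obtain ⟨z, rfl⟩ := mkT_surjective e t
  exact ev_mem P z

theorem evT_sub {P Q : H →ₐ[R] Ω} (hP : ev P e = 1) (hQ : ev Q e = 1) (h : Cg A P Q) (t : TT e) :
    evT hP t - evT hQ t ∈ A.nonunits := by
  obtain ⟨z, rfl⟩ := mkT_surjective e t
  exact h.ev z

include he in
theorem e_self : ev P0 e = 1 := he.1 P0 (Cg.refl P0)

include he in
/-- the characteristic polynomial on the residue class -/
theorem exists_charpoly [Finite (H →ₐ[R] Ω)] (t : TT e) :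
    ∃ (n : ℕ) (f : Polynomial (R0 A)), 0 < n ∧ f.Monic ∧ f.natDegree = n ∧ aeval t f = 0 ∧
      (evT (e_self he) t ∈ A.nonunits → ∀ i < n, ((f.coeff i : R0 A) : Ω) ∈ A.nonunits) ∧
      (evT (e_self he) t ∉ A.nonunits → ((f.coeff 0 : R0 A) : Ω) ∉ A.nonunits) := by
  classical
  haveI := Fintype.ofFinite (H →ₐ[R] Ω)
  obtain ⟨z, rfl⟩ := mkT_surjective e t
  set S := Finset.univ.filter fun P : H →ₐ[R] Ω => Cg A P P0 with hS
  have hst : ∀ (σ : Ω ≃ₐ[K0 A] Ω) (P : H →ₐ[R] Ω), Cg A (conj σ P) P0 ↔ Cg A P P0 := by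
    intro σ P
    exact ⟨fun h => (Cg.conj σ P).symm.trans h, fun h => (Cg.conj σ P).trans h⟩
  obtain ⟨f, hf⟩ := exists_poly S (by
    intro σ P hP
    rw [hS, Finset.mem_filter] at hP ⊢
    exact ⟨Finset.mem_univ _, (hst σ P).2 hP.2⟩) z
  have hinj : Function.Injective (algebraMap (R0 A) Ω) := Subtype.val_injective
  have hdeg : f.natDegree = S.card := by
    rw [← natDegree_map_eq_of_injective hinj, hf, natDegree_prod_of_monic _ _ fun i _ => monic_X_sub_C _]
    simp
  have hmon : f.Monic := by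
    apply monic_of_injective hinj
    rw [hf]
    exact monic_prod_of_monic _ _ fun i _ => monic_X_sub_C _
  have hpos : 0 < S.card := Finset.card_pos.2 ⟨P0, by simp [hS, Cg.refl]⟩
  refine ⟨S.card, f, hpos, hmon, hdeg, ?_, ?_, ?_⟩
  · apply eq_zero_of_evT he
    intro P hP
    have h1 : aeval (mkT e z) f = mkT e (aeval z f) := aeval_algHom_apply (mkT e) z f
    rw [h1, evT_mk, ev_aeval, hf, eval_prod]
    refine Finset.prod_eq_zero (i := P) (by simp [hS, hP]) ?_
    rw [eval_sub, eval_X, eval_C, sub_self]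
  · intro hz i hi
    rw [evT_mk] at hz
    have hall : ∀ P ∈ S, ev P z ∈ A.nonunits := by
      intro P hP
      rw [hS, Finset.mem_filter] at hP
      have := add_mem_nonunits A (hP.2.ev z) hz
      rwa [sub_add_cancel] at this
    -- reduce modulo the maximal ideal
    let gA : Polynomial A := ∏ P ∈ S, (X - C (⟨ev P z, ev_mem P z⟩ : A))
    have hgA : gA.map A.subtype = f.map (algebraMap (R0 A) Ω) := by
      rw [hf, Polynomial.map_prod]
      refine Finset.prod_congr rfl fun P _ => ?_
      rw [Polynomial.map_sub, map_X, map_C]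
      rfl
    have hred : gA.map (IsLocalRing.residue A) = X ^ S.card := by
      rw [Polynomial.map_prod, ← Finset.prod_const]
      refine Finset.prod_congr rfl fun P hP => ?_
      rw [Polynomial.map_sub, map_X, map_C,
        (mem_nonunits_iff_residue (ev_mem P z)).1 (hall P hP), C_0, sub_zero]
    have h1 := congrArg (fun q => coeff q i) hred
    simp only [coeff_map, coeff_X_pow, hi.ne, if_false] at h1
    have h2 := congrArg (fun q => coeff q i) hgA
    simp only [coeff_map] at h2
    have h3 : ((f.coeff i : R0 A) : Ω) = ((gA.coeff i : A) : Ω) := h2.symm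
    rw [h3, mem_nonunits_iff_residue (gA.coeff i).2]
    exact h1
  · intro hz
    rw [evT_mk] at hz
    have h1 : ((f.coeff 0 : R0 A) : Ω) = ∏ P ∈ S, (-(ev P z)) := by
      have h2 : ((f.coeff 0 : R0 A) : Ω) = (f.map (algebraMap (R0 A) Ω)).eval 0 := by
        rw [← coeff_zero_eq_eval_zero, coeff_map]; rfl
      rw [h2, hf, eval_prod]
      refine Finset.prod_congr rfl fun P _ => ?_
      rw [eval_sub, eval_X, eval_C, zero_sub]
    rw [h1]
    have h2 : ∀ s : Finset (H →ₐ[R] Ω), s ⊆ S → (∏ P ∈ s, (-(ev P z))) ∉ A.nonunits := by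
      intro s
      induction s using Finset.induction_on with
      | empty => intro _; rw [Finset.prod_empty]; exact one_notMem A
      | insert a s ha ih =>
        intro hs h3
        rw [Finset.prod_insert ha] at h3
        have haS : a ∈ S := hs (Finset.mem_insert_self _ _)
        rw [hS, Finset.mem_filter] at haS
        rcases mem_nonunits_or_of_mul A (A.neg_mem _ (ev_mem a z))
          (A.toSubring.prod_mem fun Q _ => A.neg_mem _ (ev_mem _ _)) h3 with h4 | h4
        · apply hz
          have h5 := neg_mem_nonunits A h4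
          rw [neg_neg] at h5
          have := sub_mem_nonunits A h5 (haS.2.ev z)
          rwa [sub_sub_cancel] at this
        · exact ih (fun Q hQ => hs (Finset.mem_insert_of_mem hQ)) h4
    exact h2 S subset_rfl

include he in
/-- elements which do not vanish at the residue point are units -/
theorem isUnit_of_evT [Finite (H →ₐ[R] Ω)] {t : TT e} (ht : evT (e_self he) t ∉ A.nonunits) :
    IsUnit t := by
  obtain ⟨n, f, hn, hmon, hdeg, h0, -, h2⟩ := exists_charpoly he t
  have hu := R0_isUnit (h2 ht)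
  have h3 : aeval t f = t * aeval t f.divX + algebraMap _ _ (f.coeff 0) := by
    conv_lhs => rw [← f.X_mul_divX_add]
    rw [map_add, map_mul, aeval_X, aeval_C]
  rw [h3] at h0
  have h4 : IsUnit (t * (-(aeval t f.divX))) := by
    have : t * (-(aeval t f.divX)) = algebraMap _ _ (f.coeff 0) := by
      linear_combination -h0
    rw [this]
    exact hu.map _
  exact isUnit_of_mul_isUnit_left h4

include he in
/-- elements vanishing at the residue point are nilpotent modulo `p` -/
theorem exists_pow_of_evT (hA : A.LiesOverPrime p) [Finite (H →ₐ[R] Ω)] {t : TT e}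
    (ht : evT (e_self he) t ∈ A.nonunits) : ∃ n : ℕ, (p : TT e) ∣ t ^ n := by
  obtain ⟨n, f, hn, hmon, hdeg, h0, h1, -⟩ := exists_charpoly he t
  refine ⟨n, ?_⟩
  rw [aeval_eq_sum_range, hdeg, Finset.sum_range_succ] at h0
  have hlead : f.coeff n = 1 := by rw [← hdeg]; exact hmon
  rw [hlead, one_smul] at h0
  have h3 : t ^ n = -∑ i ∈ Finset.range n, f.coeff i • t ^ i := by linear_combination h0
  rw [h3, dvd_neg]
  refine Finset.dvd_sum fun i hi => ?_
  obtain ⟨c, hc⟩ := R0_p_dvd hA (h1 ht i (Finset.mem_range.1 hi))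
  refine ⟨c • t ^ i, ?_⟩
  rw [hc, mul_smul, Algebra.smul_def, map_natCast]

end Fermat.Agent.Flat
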