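import Fermat.Agent.Flat.LBQ
import Fermat.Agent.Flat.Loc

/-!
# The special fibre of the local algebra of a residue class
-/

set_option autoImplicit false
set_option linter.unusedSectionVars false
set_option linter.style.haveILetI false

noncomputable section

open scoped TensorProduct
open WithConv

namespace Fermat.Agent.Flat

open Fermat.Agent.Places Fermat.Agent.RedMod

local notation "Ω" => AlgebraicClosure ℚ

variable {A : ValuationSubring (AlgebraicClosure ℚ)} {p : ℕ} [Fact p.Prime]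

/-- the residue field -/
abbrev kk (A : ValuationSubring (AlgebraicClosure ℚ)) : Type := IsLocalRing.ResidueField A

/-- the inclusion -/
def inclR0 (A : ValuationSubring (AlgebraicClosure ℚ)) : R0 A →+* A where
  toFun z := ⟨z, z.2.1⟩
  map_one' := rfl
  map_mul' _ _ := rfl
  map_zero' := rfl
  map_add' _ _ := rfl

instance : Algebra (R0 A) (kk A) := ((IsLocalRing.residue A).comp (inclR0 A)).toAlgebra

theorem algebraMap_kk (r : R0 A) :
    algebraMap (R0 A) (kk A) r = IsLocalRing.residue A ⟨r, r.2.1⟩ := rfl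

theorem algebraMap_kk_surjective (hA : A.LiesOverPrime p) :
    Function.Surjective (algebraMap (R0 A) (kk A)) := by
  intro c
  obtain ⟨x, rfl⟩ := IsLocalRing.residue_surjective c
  obtain ⟨y, hy, hyx⟩ := exists_R0_sub_mem hA x.2
  refine ⟨⟨y, hy⟩, ?_⟩
  rw [algebraMap_kk, ← sub_eq_zero, ← map_sub]
  exact (mem_nonunits_iff_residue (A.sub_mem hy.1 x.2)).1 hyx

theorem algebraMap_kk_eq_zero (hA : A.LiesOverPrime p) {r : R0 A} :
    algebraMap (R0 A) (kk A) r = 0 ↔ (p : R0 A) ∣ r := by
  rw [algebraMap_kk, ← mem_nonunits_iff_residue]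
  constructor
  · exact R0_p_dvd hA
  · rintro ⟨c, rfl⟩
    push_cast
    exact mul_mem_nonunits A hA c.2.1

variable {R : Type} [CommRing R] [Algebra R Ω] [Algebra R (R0 A)] [IsScalarTower R (R0 A) Ω]
variable [Algebra R (kk A)] [IsScalarTower R (R0 A) (kk A)]
variable {H : Type} [CommRing H] [HopfAlgebra R H] [Module.Finite R H] [Module.Flat R H]

/-- reduction to the special fibre -/
def redC : (R0 A) ⊗[R] H →ₐ[R] (kk A) ⊗[R] H :=
  Algebra.TensorProduct.map (IsScalarTower.toAlgHom R (R0 A) (kk A)) (AlgHom.id R H)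

theorem redC_tmul (r : R0 A) (h : H) :
    redC (r ⊗ₜ[R] h) = (algebraMap (R0 A) (kk A) r) ⊗ₜ[R] h := rfl

theorem redC_smul (r : R0 A) (z : (R0 A) ⊗[R] H) :
    redC (r • z) = (algebraMap (R0 A) (kk A) r) • redC z := by
  induction z using TensorProduct.induction_on with
  | zero => simp
  | add x y hx hy => rw [smul_add, map_add, hx, hy, map_add, smul_add]
  | tmul s h =>
    rw [TensorProduct.smul_tmul', redC_tmul, redC_tmul, TensorProduct.smul_tmul', smul_eq_mul,
      map_mul, smul_eq_mul]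

theorem redC_surjective (hA : A.LiesOverPrime p) :
    Function.Surjective (redC : (R0 A) ⊗[R] H →ₐ[R] (kk A) ⊗[R] H) := by
  intro c
  induction c using TensorProduct.induction_on with
  | zero => exact ⟨0, map_zero _⟩
  | add x y hx hy =>
    obtain ⟨a, rfl⟩ := hx
    obtain ⟨b, rfl⟩ := hy
    exact ⟨a + b, map_add _ _ _⟩
  | tmul s h =>
    obtain ⟨r, rfl⟩ := algebraMap_kk_surjective hA s
    exact ⟨r ⊗ₜ h, rfl⟩

theorem redC_eq_zero (hA : A.LiesOverPrime p) {z : (R0 A) ⊗[R] H} (hz : redC z = 0) :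
    ∃ w, z = (p : R0 A) • w := by
  let f : (R0 A) →ₗ[R] (R0 A) := LinearMap.lsmul R (R0 A) 1 |>.comp
    ((Algebra.lmul R (R0 A) (p : R0 A)))
  let g : (R0 A) →ₗ[R] (kk A) := (IsScalarTower.toAlgHom R (R0 A) (kk A)).toLinearMap
  have hf : ∀ r, f r = p * r := fun r => by simp [f]
  have hfg : Function.Exact f g := by
    intro r
    change algebraMap (R0 A) (kk A) r = 0 ↔ _
    rw [algebraMap_kk_eq_zero hA]
    constructor
    · rintro ⟨c, rfl⟩
      exact ⟨c, hf c⟩
    · rintro ⟨c, rfl⟩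
      exact ⟨c, hf c⟩
  have hg : Function.Surjective g := algebraMap_kk_surjective hA
  have hex := rTensor_exact H hfg hg
  obtain ⟨w, hw⟩ := (hex z).1 hz
  refine ⟨w, ?_⟩
  rw [← hw]
  have key : ∀ w : (R0 A) ⊗[R] H, (LinearMap.rTensor H f) w = (p : R0 A) • w := by
    intro w
    induction w using TensorProduct.induction_on with
    | zero => simp
    | add x y hx hy => rw [map_add, smul_add, hx, hy]
    | tmul s h => rw [LinearMap.rTensor_tmul, hf, TensorProduct.smul_tmul', smul_eq_mul]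
  exact key w

section psi

variable (e : (R0 A) ⊗[R] H)

/-- reduction of the local algebra -/
def psi : TT e →+* QQ (redC e : (kk A) ⊗[R] H) :=
  Ideal.Quotient.lift (Ideal.span {1 - e})
    ((mkQ (kk A) (redC e)).toRingHom.comp (redC : (R0 A) ⊗[R] H →ₐ[R] _).toRingHom) (by
    intro a ha
    have h1 : Ideal.span {1 - e} ≤ RingHom.ker ((mkQ (kk A) (redC e)).toRingHom.comp
        (redC : (R0 A) ⊗[R] H →ₐ[R] _).toRingHom) := by
      rw [Ideal.span_le, Set.singleton_subset_iff]
      change mkQ (kk A) (redC e) (redC (1 - e)) = 0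
      rw [mkQ_eq_zero]
      exact ⟨1, by rw [map_sub, map_one, mul_one]⟩
    exact h1 ha)

theorem psi_mk (z : (R0 A) ⊗[R] H) : psi e (mkT e z) = mkQ (kk A) (redC e) (redC z) := rfl

theorem psi_surjective (hA : A.LiesOverPrime p) : Function.Surjective (psi e) := by
  intro d
  obtain ⟨c, rfl⟩ := mkQ_surjective (k := kk A) (redC e) d
  obtain ⟨z, rfl⟩ := redC_surjective hA c
  exact ⟨mkT e z, rfl⟩

theorem psi_smul (r : R0 A) (t : TT e) : psi e (r • t) = algebraMap (R0 A) (kk A) r • psi e t := by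
  obtain ⟨z, rfl⟩ := mkT_surjective e t
  rw [← map_smul, psi_mk, psi_mk, redC_smul, map_smul]

theorem psi_algebraMap (r : R0 A) : psi e (algebraMap _ _ r) =
    algebraMap (kk A) _ (algebraMap (R0 A) (kk A) r) := by
  rw [Algebra.algebraMap_eq_smul_one, psi_smul, map_one, ← Algebra.algebraMap_eq_smul_one]

variable {e}

theorem psi_eq_zero (hA : A.LiesOverPrime p) (hee : e * e = e) {t : TT e} (ht : psi e t = 0) :
    ∃ s, t = (p : TT e) * s := by
  obtain ⟨z, rfl⟩ := mkT_surjective e t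
  rw [psi_mk, mkQ_eq_zero] at ht
  obtain ⟨w, hw⟩ := ht
  have h1 : redC (e * z) = 0 := by
    rw [map_mul, hw]
    have h2 : redC e * redC e = redC e := by rw [← map_mul, hee]
    linear_combination -w * h2
  obtain ⟨y, hy⟩ := redC_eq_zero hA h1
  refine ⟨mkT e y, ?_⟩
  have h2 : mkT e z = mkT e (e * z) := by
    rw [← sub_eq_zero, ← map_sub, mkT_eq_zero]
    exact ⟨z, by ring⟩
  rw [h2, hy, map_smul, Algebra.smul_def, map_natCast]

end psi

/-- the idempotent is idempotent -/
theorem IsIdem.mul_self {P0 : H →ₐ[R] Ω} {e : (R0 A) ⊗[R] H} (he : IsIdem P0 e) : e * e = e := by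
  rw [← sub_eq_zero]
  apply eq_zero_of_ev
  intro P
  rw [map_sub, map_mul]
  by_cases hP : Cg A P P0
  · rw [he.1 P hP]; ring
  · rw [he.2 P hP]; ring

section res

variable (P0 : H →ₐ[R] Ω)

theorem pt_mem (h : H) : P0 h ∈ A := by
  have := ev_mem (A := A) P0 ((1 : R0 A) ⊗ₜ[R] h)
  rwa [ev_tmul, OneMemClass.coe_one, one_mul] at this

/-- the residue of a point -/
def resP : H →ₐ[R] kk A where
  toFun h := IsLocalRing.residue A ⟨P0 h, pt_mem P0 h⟩
  map_one' := by
    rw [← map_one (IsLocalRing.residue A)]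
    congr 1
    exact Subtype.ext (map_one P0)
  map_mul' x y := by
    rw [← map_mul]
    congr 1
    exact Subtype.ext (map_mul P0 x y)
  map_zero' := by
    rw [← map_zero (IsLocalRing.residue A)]
    congr 1
    exact Subtype.ext (map_zero P0)
  map_add' x y := by
    rw [← map_add]
    congr 1
    exact Subtype.ext (map_add P0 x y)
  commutes' r := by
    rw [IsScalarTower.algebraMap_apply R (R0 A) (kk A), algebraMap_kk]
    congr 1
    apply Subtype.ext
    change P0 (algebraMap R H r) = ((algebraMap R (R0 A) r : R0 A) : Ω)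
    rw [AlgHom.commutes, IsScalarTower.algebraMap_apply R (R0 A) Ω]
    rfl

/-- the residue point of the special fibre -/
def resC : (kk A) ⊗[R] H →ₐ[kk A] kk A :=
  Algebra.TensorProduct.lift (AlgHom.id (kk A) (kk A)) (resP P0) (fun _ _ => Commute.all _ _)

theorem resC_redC (z : (R0 A) ⊗[R] H) :
    resC P0 (redC z) = IsLocalRing.residue A ⟨ev P0 z, ev_mem P0 z⟩ := by
  have key : ∀ (x y : Ω) (hx : x ∈ A) (hy : y ∈ A) (hxy : x + y ∈ A),
      IsLocalRing.residue A ⟨x + y, hxy⟩ = IsLocalRing.residue A ⟨x, hx⟩ +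
        IsLocalRing.residue A ⟨y, hy⟩ := by
    intro x y hx hy hxy
    rw [← map_add]
    rfl
  induction z using TensorProduct.induction_on with
  | zero =>
    rw [map_zero, map_zero]
    symm
    rw [← mem_nonunits_iff_residue, map_zero]
    exact zero_mem_nonunits A
  | add x y hx hy =>
    rw [map_add, map_add, hx, hy, ← key _ _ _ _ (A.add_mem _ _ (ev_mem P0 x) (ev_mem P0 y))]
    congr 1
    exact Subtype.ext (map_add _ _ _).symm
  | tmul r h =>
    rw [redC_tmul]
    change algebraMap (R0 A) (kk A) r * resP P0 h = _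
    rw [algebraMap_kk]
    change _ * IsLocalRing.residue A ⟨P0 h, pt_mem P0 h⟩ = _
    rw [← map_mul]
    rfl

end res

section main

variable {P0 : H →ₐ[R] Ω} {e : (R0 A) ⊗[R] H} (he : IsIdem P0 e)

include he in
theorem resC_e : resC P0 (redC e) = 1 := by
  rw [resC_redC, ← map_one (IsLocalRing.residue A)]
  congr 1
  exact Subtype.ext (e_self he)

/-- residue map of the local algebra of the special fibre -/
def rho : QQ (redC e : (kk A) ⊗[R] H) →ₐ[kk A] kk A :=
  liftQ (redC e) (resC P0) (by rw [map_sub, map_one, resC_e he, sub_self])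

theorem rho_psi (t : TT e) : rho he (psi e t) =
    IsLocalRing.residue A ⟨evT (e_self he) t, evT_mem _ t⟩ := by
  obtain ⟨z, rfl⟩ := mkT_surjective e t
  rw [psi_mk]
  exact resC_redC P0 z

theorem nil_of_rho (hA : A.LiesOverPrime p) [Finite (H →ₐ[R] Ω)]
    {d : QQ (redC e : (kk A) ⊗[R] H)} (hd : rho he d = 0) : IsNilpotent d := by
  obtain ⟨t, rfl⟩ := psi_surjective e hA d
  rw [rho_psi, ← mem_nonunits_iff_residue] at hd
  obtain ⟨n, c, hc⟩ := exists_pow_of_evT he hA hd
  refine ⟨n, ?_⟩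
  rw [← map_pow, hc, map_mul, map_natCast]
  have h1 : ((p : ℕ) : QQ (redC e : (kk A) ⊗[R] H)) = 0 := by
    rw [← map_natCast (algebraMap (kk A) (QQ (redC e : (kk A) ⊗[R] H))), residue_ell hA, map_zero]
  rw [h1, zero_mul]

/-- the translated idempotent -/
def fT (P0 : H →ₐ[R] Ω) (e : (R0 A) ⊗[R] H) : (kk A) ⊗[R] H := transEquiv (resC P0) (redC e)

/-- translation of the local algebra to the identity component -/
def thetaFwd (P0 : H →ₐ[R] Ω) (e : (R0 A) ⊗[R] H) :
    QQ (redC e : (kk A) ⊗[R] H) →ₐ[kk A] QQ (fT P0 e) :=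
  liftQ (redC e) ((mkQ (kk A) (fT P0 e)).comp (transEquiv (resC P0)).toAlgHom) (by
    change mkQ (kk A) (fT P0 e) (transEquiv (resC P0) (1 - redC e)) = 0
    rw [mkQ_eq_zero]
    exact ⟨1, by rw [map_sub, map_one, mul_one]; rfl⟩)

/-- inverse of `thetaFwd` -/
def thetaBwd (P0 : H →ₐ[R] Ω) (e : (R0 A) ⊗[R] H) :
    QQ (fT P0 e) →ₐ[kk A] QQ (redC e : (kk A) ⊗[R] H) :=
  liftQ (fT P0 e) ((mkQ (kk A) (redC e)).comp (transEquiv (resC P0)).symm.toAlgHom) (by
    change mkQ (kk A) (redC e) ((transEquiv (resC P0)).symm (1 - fT P0 e)) = 0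
    rw [mkQ_eq_zero]
    exact ⟨1, by rw [map_sub, map_one, mul_one, fT, AlgEquiv.symm_apply_apply]⟩)

/-- translation of the local algebra to the identity component -/
def theta (P0 : H →ₐ[R] Ω) (e : (R0 A) ⊗[R] H) :
    QQ (redC e : (kk A) ⊗[R] H) ≃ₐ[kk A] QQ (fT P0 e) :=
  AlgEquiv.ofAlgHom (thetaFwd P0 e) (thetaBwd P0 e)
    (by
      ext x
      obtain ⟨c, rfl⟩ := mkQ_surjective (k := kk A) (fT P0 e) x
      change mkQ (kk A) (fT P0 e) (transEquiv (resC P0) ((transEquiv (resC P0)).symm c)) = _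
      rw [AlgEquiv.apply_symm_apply]
      rfl)
    (by
      ext x
      obtain ⟨c, rfl⟩ := mkQ_surjective (k := kk A) (redC e) x
      change mkQ (kk A) (redC e) ((transEquiv (resC P0)).symm (transEquiv (resC P0) c)) = _
      rw [AlgEquiv.symm_apply_apply]
      rfl)

theorem theta_mk (c : (kk A) ⊗[R] H) :
    theta P0 e (mkQ (kk A) (redC e) c) = mkQ (kk A) (fT P0 e) (trans (resC P0) c) := rfl

include he in
theorem counit_fT : Bialgebra.counitAlgHom (kk A) _ (fT P0 e) = 1 := by
  change Bialgebra.counitAlgHom (kk A) _ (trans (resC P0) (redC e)) = 1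
  rw [counit_trans, resC_e he]

include he in
theorem fT_mul_self : fT P0 e * fT P0 e = fT P0 e := by
  rw [fT, ← map_mul, ← map_mul, he.mul_self]

include he in
theorem nil_fT (hA : A.LiesOverPrime p) [Finite (H →ₐ[R] Ω)] (x : (kk A) ⊗[R] H)
    (hx : Bialgebra.counitAlgHom (kk A) _ x = 0) : IsNilpotent (mkQ (kk A) (fT P0 e) x) := by
  obtain ⟨c, rfl⟩ := (transEquiv (resC P0)).surjective x
  have h1 : resC P0 c = 0 := by
    rw [← counit_trans]
    exact hx
  have h2 : IsNilpotent (mkQ (kk A) (redC e) c) := nil_of_rho he hA (by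
    change resC P0 c = 0
    exact h1)
  have h3 := h2.map (theta P0 e)
  exact h3

/-- the counital structure on the translated local algebra -/
def LBT (hA : A.LiesOverPrime p) [Finite (H →ₐ[R] Ω)] : LB (kk A) (QQ (fT P0 e)) :=
  LBQ (fT P0 e) (fT_mul_self he) (counit_fT he) (nil_fT he hA)

theorem LBT_ε (hA : A.LiesOverPrime p) [Finite (H →ₐ[R] Ω)]
    (d : QQ (redC e : (kk A) ⊗[R] H)) : (LBT he hA).ε (theta P0 e d) = rho he d := by
  obtain ⟨c, rfl⟩ := mkQ_surjective (k := kk A) (redC e) d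
  rw [theta_mk]
  change Bialgebra.counitAlgHom (kk A) _ (trans (resC P0) c) = resC P0 c
  rw [counit_trans]

end main

end Fermat.Agent.Flat
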