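import Fermat.Agent.Flat.Bound
import Fermat.Prelude.Def_GaloisRep_Flat

/-!
# The consequences of flatness, for the flatness condition of the problem
-/

set_option autoImplicit false
set_option linter.unusedSectionVars false
set_option linter.style.haveILetI false

noncomputable section

open WithConv

namespace Fermat.Agent.Flat

open Fermat.Agent.Places Fermat.Agent.RedMod Fermat.Agent.FlatRam

local notation "Ω" => AlgebraicClosure ℚ

local notation "𝒢" => (AlgebraicClosure ℚ) ≃ₐ[ℚ] (AlgebraicClosure ℚ)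

variable {A : ValuationSubring (AlgebraicClosure ℚ)} {p : ℕ} [Fact p.Prime]

theorem inv_natCast_mem (hA : A.LiesOverPrime p) {n : ℕ} (hn : ¬ p ∣ n) : ((n : Ω))⁻¹ ∈ A := by
  haveI := charP_residue hA
  have h1 : IsLocalRing.residue A (n : A) ≠ 0 := by
    rw [map_natCast, ne_eq, CharP.cast_eq_zero_iff (kk A) p]
    exact hn
  have h2 : IsUnit (n : A) := by
    rw [ne_eq, IsLocalRing.residue_eq_zero_iff] at h1
    exact (IsLocalRing.notMem_maximalIdeal.1 h1)
  obtain ⟨u, hu⟩ := h2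
  have h3 : (((u⁻¹ : Aˣ) : A) : Ω) * (n : Ω) = 1 := by
    have h4 := congrArg (fun a : A => (a : Ω)) u.inv_mul
    rw [hu] at h4
    simpa using h4
  have h4 : (n : Ω)⁻¹ = (((u⁻¹ : Aˣ) : A) : Ω) := by
    have hn0 : (n : Ω) ≠ 0 := by
      intro h
      rw [h, mul_zero] at h3
      exact zero_ne_one h3
    exact (eq_inv_of_mul_eq_one_left h3).symm
  rw [h4]
  exact ((u⁻¹ : Aˣ) : A).2

theorem ratLoc_mem (hA : A.LiesOverPrime p) (x : GaloisRep.ratLocalizedAt p) :
    algebraMap (GaloisRep.ratLocalizedAt p) Ω x ∈ R0 A := by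
  have h0 : algebraMap (GaloisRep.ratLocalizedAt p) Ω x = algebraMap ℚ Ω (x : ℚ) := rfl
  rw [h0]
  refine ⟨?_, (K0 A).algebraMap_mem (x : ℚ)⟩
  have h1 : ((x : ℚ)) = ((x : ℚ).num : ℚ) * (((x : ℚ).den : ℚ))⁻¹ := by
    conv_lhs => rw [← Rat.num_div_den (x : ℚ)]
    rw [div_eq_mul_inv]
  have h2 : ¬ p ∣ (x : ℚ).den := by
    intro h
    have h3 : (x : ℚ).den.Coprime p := x.2
    have h4 := Nat.dvd_gcd h dvd_rfl
    rw [Nat.Coprime] at h3
    rw [h3] at h4
    exact (Fact.out : p.Prime).one_lt.ne' (Nat.dvd_one.mp h4)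
  rw [h1, map_mul, map_inv₀, map_intCast, map_natCast]
  exact A.mul_mem _ _ (intCast_mem A.toSubring _) (inv_natCast_mem hA h2)

/-- **The consequences of flatness for the flatness condition of the problem.** -/
theorem flC_of_isFlatAt (hA : A.LiesOverPrime p) (hp2 : p ≠ 2) {B : Type} [CommRing B]
    [IsLocalRing B] {ρ : GaloisRepAdic B} (hfl : ρ.IsFlatAt p) {I : Ideal B} [Finite (B ⧸ I)]
    (hpI : (p : B) ∈ I) {U' : Type} [AddCommGroup U']
    (i : U' →+ ρ.V ⧸ (I • (⊤ : Submodule B ρ.V))) (hi : Function.Injective i)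
    {act' : 𝒢 → U' → U'}
    (hact' : ∀ σ ∈ A.inertiaSubgroupIn ℚ, ∀ u, i (act' σ u) = ρ.levelAction I σ (i u)) :
    FlC A hA U' act' := by
  letI : Algebra (GaloisRep.ratLocalizedAt p) (R0 A) :=
    ((algebraMap (GaloisRep.ratLocalizedAt p) Ω).codRestrict (R0 A) (ratLoc_mem hA)).toAlgebra
  haveI : IsScalarTower (GaloisRep.ratLocalizedAt p) (R0 A) Ω :=
    IsScalarTower.of_algebraMap_eq fun _ => rfl
  letI : Algebra (GaloisRep.ratLocalizedAt p) (kk A) :=
    ((algebraMap (R0 A) (kk A)).comp (algebraMap (GaloisRep.ratLocalizedAt p) (R0 A))).toAlgebra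
  haveI : IsScalarTower (GaloisRep.ratLocalizedAt p) (R0 A) (kk A) :=
    IsScalarTower.of_algebraMap_eq fun _ => rfl
  obtain ⟨H, _, _, hfin, hflat, -, e, he, hact⟩ := hfl.2 I inferInstance
  have hinj : Function.Injective (algebraMap (GaloisRep.ratLocalizedAt p) Ω) := by
    intro x y h
    have h1 : algebraMap ℚ Ω (x : ℚ) = algebraMap ℚ Ω (y : ℚ) := h
    exact Subtype.ext ((algebraMap ℚ Ω).injective h1)
  haveI : Finite (ρ.V ⧸ (I • (⊤ : Submodule B ρ.V))) := by
    haveI : Module.Finite (B ⧸ I) (ρ.V ⧸ (I • (⊤ : Submodule B ρ.V))) :=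
      Module.Finite.of_restrictScalars_finite B _ _
    exact Module.finite_of_finite (B ⧸ I)
  refine flC_of_hopf hA hp2 hinj e he (fun u => ?_) (act := fun σ u => ρ.levelAction I σ u)
    (fun σ _ f g h => hact σ f g h) i hi hact'
  obtain ⟨v, rfl⟩ := Submodule.Quotient.mk_surjective _ u
  rw [← Submodule.Quotient.mk_smul, Submodule.Quotient.mk_eq_zero, ← Nat.cast_smul_eq_nsmul B]
  exact Submodule.smul_mem_smul hpI trivial

end Fermat.Agent.Flat
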