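import Fermat.Agent.Flat.Unram

/-!
# The ring of integers of the fixed field of inertia is a discrete valuation ring
-/

set_option autoImplicit false
set_option linter.unusedSectionVars false
set_option linter.style.haveILetI false

noncomputable section

namespace Fermat.Agent.Flat

open Fermat.Agent.Places Polynomial Fermat.Agent.RedMod

local notation "Ω" => AlgebraicClosure ℚ

variable {A : ValuationSubring (AlgebraicClosure ℚ)} {p : ℕ} [Fact p.Prime]

theorem R0_isUnit {x : R0 A} (hx : (x : Ω) ∉ A.nonunits) : IsUnit x := by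
  have h0 : (x : Ω) ≠ 0 := fun h => hx (h ▸ zero_mem_nonunits A)
  have h1 : (x : Ω)⁻¹ ∈ A := by
    by_contra hcon
    exact hx ((mem_nonunits_iff_inv A _).2 (Or.inr hcon))
  refine IsUnit.of_mul_eq_one ⟨(x : Ω)⁻¹, h1, (K0 A).inv_mem x.2.2⟩ ?_
  exact Subtype.ext (mul_inv_cancel₀ h0)

theorem R0_nonunit {x : R0 A} (hx : (x : Ω) ∈ A.nonunits) : ¬ IsUnit x := by
  rintro ⟨u, rfl⟩
  have h1 := mul_mem_nonunits A hx (u⁻¹ : (R0 A)ˣ).1.2.1
  have h2 : ((u : R0 A) : Ω) * ((u⁻¹ : (R0 A)ˣ) : R0 A) = 1 := by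
    exact_mod_cast congrArg (fun z : R0 A => (z : Ω)) u.mul_inv
  rw [h2] at h1
  exact one_notMem_nonunits A h1

theorem R0_p_dvd (hA : A.LiesOverPrime p) {x : R0 A} (hx : (x : Ω) ∈ A.nonunits) :
    (p : R0 A) ∣ x := by
  obtain ⟨y, hy, h⟩ := nonunits_R0 hA x.2.2 hx
  exact ⟨⟨y, hy⟩, Subtype.ext (by rw [h]; push_cast; rfl)⟩

theorem p_mem_nonunits (hA : A.LiesOverPrime p) : ((p : R0 A) : Ω) ∈ A.nonunits := by
  push_cast
  exact hA

theorem p_ne_zero' : (p : R0 A) ≠ 0 := by
  intro h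
  have := congrArg (fun z : R0 A => (z : Ω)) h
  push_cast at this
  exact (Fact.out : p.Prime).ne_zero (by exact_mod_cast this)

theorem exists_pow_mul (hA : A.LiesOverPrime p) {x : R0 A} (hx : x ≠ 0) :
    ∃ n : ℕ, Associated ((p : R0 A) ^ n) x := by
  obtain ⟨s, hs⟩ := dvd_pow_ell hA (⟨(x : Ω), x.2.1⟩ : A) (by
    intro h; exact hx (Subtype.ext (congrArg (fun z : A => (z : Ω)) h)))
  -- strong induction on `s`
  have key : ∀ s : ℕ, ∀ x : R0 A, x ≠ 0 → (∃ c ∈ A, (p : Ω) ^ s = x * c) →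
      ∃ n : ℕ, Associated ((p : R0 A) ^ n) x := by
    intro s
    induction s with
    | zero =>
      rintro x hx ⟨c, hc, h⟩
      refine ⟨0, ?_⟩
      rw [pow_zero] at *
      refine (associated_one_iff_isUnit.2 (R0_isUnit fun hu => ?_)).symm
      have h1 := mul_mem_nonunits A hu hc
      rw [← h] at h1
      exact one_notMem_nonunits A h1
    | succ s ih =>
      rintro x hx ⟨c, hc, h⟩
      by_cases hu : (x : Ω) ∈ A.nonunits
      · obtain ⟨y, hy⟩ := R0_p_dvd hA hu
        have hy0 : y ≠ 0 := by rintro rfl; exact hx (by rw [hy, mul_zero])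
        obtain ⟨n, hn⟩ := ih y hy0 ⟨c, hc, by
          have hp0 : (p : Ω) ≠ 0 := Nat.cast_ne_zero.2 (Fact.out : p.Prime).ne_zero
          rw [hy] at h
          push_cast at h
          rw [pow_succ'] at h
          exact mul_left_cancel₀ hp0 (by rw [h]; ring)⟩
        refine ⟨n + 1, ?_⟩
        rw [hy, pow_succ']
        exact hn.mul_left _
      · refine ⟨0, ?_⟩
        rw [pow_zero]
        exact (associated_one_iff_isUnit.2 (R0_isUnit hu)).symm
  obtain ⟨c, hc⟩ := hs
  refine key s x hx ⟨c, c.2, ?_⟩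
  have := congrArg (fun z : A => (z : Ω)) hc
  push_cast at this
  exact this

theorem isDVR (hA : A.LiesOverPrime p) : IsDiscreteValuationRing (R0 A) := by
  apply IsDiscreteValuationRing.ofHasUnitMulPowIrreducibleFactorization
  refine ⟨(p : R0 A), ?_, fun {x} hx => exists_pow_mul hA hx⟩
  refine ⟨R0_nonunit (p_mem_nonunits hA), fun a b hab => ?_⟩
  by_contra hcon
  push Not at hcon
  have ha : (a : Ω) ∈ A.nonunits := by
    by_contra h; exact hcon.1 (R0_isUnit h)
  have hb : (b : Ω) ∈ A.nonunits := by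
    by_contra h; exact hcon.2 (R0_isUnit h)
  obtain ⟨a', rfl⟩ := R0_p_dvd hA ha
  have h1 : (1 : R0 A) = a' * b := mul_left_cancel₀ p_ne_zero' (by rw [mul_one]; rw [← mul_assoc]; exact hab)
  exact hcon.2 (IsUnit.of_mul_eq_one_right _ h1.symm)

end Fermat.Agent.Flat
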