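import Fermat.Agent.Flat.RamKummer
import Fermat.Agent.Flat.Dvr

/-!
# The valuation on `ℚ̄` over the fixed field of inertia
-/

set_option autoImplicit false
set_option linter.unusedSectionVars false
set_option linter.style.haveILetI false

noncomputable section

namespace Fermat.Agent.FlatRam

open Polynomial IntermediateField RVal Module
open Fermat.Agent.Flat Fermat.Agent.Places Fermat.Agent.RedMod

local notation "Ω" => AlgebraicClosure ℚ

variable {A : ValuationSubring (AlgebraicClosure ℚ)} {p : ℕ} [hp : Fact p.Prime]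

theorem v_p_lt_one (hA : A.LiesOverPrime p) : A.valuation (p : Ω) < 1 :=
  (ValuationSubring.mem_nonunits_iff A).1 hA

theorem v_p_ne_zero : A.valuation (p : Ω) ≠ 0 := by
  rw [ne_eq, _root_.map_eq_zero]
  exact Nat.cast_ne_zero.2 hp.out.ne_zero

theorem v_p_pos : 0 < A.valuation (p : Ω) := zero_lt_iff.2 v_p_ne_zero

/-- values on the fixed field of inertia -/
theorem exists_zpow_K0 (hA : A.LiesOverPrime p) {x : Ω} (hx : x ∈ K0 A) (hx0 : x ≠ 0) :
    ∃ a : ℤ, A.valuation x = A.valuation (p : Ω) ^ a := by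
  have key : ∀ x : Ω, x ∈ A → x ∈ K0 A → x ≠ 0 → ∃ a : ℤ, A.valuation x = A.valuation (p : Ω) ^ a := by
    intro x hxA hx hx0
    obtain ⟨n, u, hn⟩ := exists_pow_mul (p := p) hA (x := (⟨x, hxA, hx⟩ : R0 A)) (by
      intro h; exact hx0 (congrArg Subtype.val h))
    refine ⟨n, ?_⟩
    have h1 : (p : Ω) ^ n * ((u : R0 A) : Ω) = x := by
      have := congrArg Subtype.val hn
      push_cast at this
      exact this
    have hu1 : A.valuation ((u : R0 A) : Ω) ≤ 1 := (A.valuation_le_one_iff _).2 (u : R0 A).2.1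
    have hu2 : A.valuation (((u⁻¹ : (R0 A)ˣ) : R0 A) : Ω) ≤ 1 :=
      (A.valuation_le_one_iff _).2 ((u⁻¹ : (R0 A)ˣ) : R0 A).2.1
    have hu3 : A.valuation ((u : R0 A) : Ω) * A.valuation (((u⁻¹ : (R0 A)ˣ) : R0 A) : Ω) = 1 := by
      have h2 : ((u : R0 A) : Ω) * ((u⁻¹ : (R0 A)ˣ) : R0 A) = 1 := by
        exact_mod_cast congrArg (fun z : R0 A => (z : Ω)) u.mul_inv
      rw [← map_mul, h2, map_one]
    have hu : A.valuation ((u : R0 A) : Ω) = 1 := by
      refine le_antisymm hu1 ?_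
      rw [← hu3]
      exact mul_le_of_le_one_right' hu2
    rw [← h1, map_mul, hu, mul_one, map_pow, zpow_natCast]
  rcases A.mem_or_inv_mem x with h | h
  · exact key x h hx hx0
  · obtain ⟨a, ha⟩ := key x⁻¹ h ((K0 A).inv_mem hx) (inv_ne_zero hx0)
    refine ⟨-a, ?_⟩
    rw [zpow_neg, ← ha, map_inv₀, inv_inv]

/-- values on `ℚ̄` -/
theorem exists_zpow (hA : A.LiesOverPrime p) {x : Ω} (hx0 : x ≠ 0) :
    ∃ (m : ℕ) (a : ℤ), 0 < m ∧ A.valuation x ^ m = A.valuation (p : Ω) ^ a := by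
  classical
  obtain ⟨f, hf⟩ : ∃ f, f = minpoly (K0 A) x := ⟨_, rfl⟩
  have hint : IsIntegral (K0 A) x := Algebra.IsIntegral.isIntegral (R := K0 A) x
  have hf0 : f ≠ 0 := by rw [hf]; exact minpoly.ne_zero hint
  have hfx : ∑ i ∈ f.support, (algebraMap (K0 A) Ω (f.coeff i)) * x ^ i = 0 := by
    have h1 : aeval x f = 0 := by rw [hf]; exact minpoly.aeval _ _
    rw [aeval_eq_sum_range' (n := f.natDegree + 1) (Nat.lt_succ_self _)] at h1
    rw [← h1]
    refine Finset.sum_subset_zero_on_sdiff supp_subset_range_natDegree_succ ?_ ?_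
    · intro i hi
      have : f.coeff i = 0 := by
        rw [Finset.mem_sdiff] at hi
        exact notMem_support_iff.1 hi.2
      rw [this, zero_smul]
    · intro i _
      rw [Algebra.smul_def]
  have hne : f.support.Nonempty := by
    rwa [Finset.nonempty_iff_ne_empty, ne_eq, Polynomial.support_eq_empty]
  have hc0 : ∀ i ∈ f.support, algebraMap (K0 A) Ω (f.coeff i) ≠ 0 := by
    intro i hi
    rw [ne_eq, _root_.map_eq_zero]
    exact mem_support_iff.1 hi
  have ht0 : ∀ i ∈ f.support, A.valuation (algebraMap (K0 A) Ω (f.coeff i) * x ^ i) ≠ 0 := by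
    intro i hi
    rw [ne_eq, _root_.map_eq_zero]
    exact mul_ne_zero (hc0 i hi) (pow_ne_zero _ hx0)
  obtain ⟨i, hi, hmax⟩ := Finset.exists_max_image f.support
    (fun i => A.valuation (algebraMap (K0 A) Ω (f.coeff i) * x ^ i)) hne
  obtain ⟨j, hj, hji, heq⟩ : ∃ j ∈ f.support, j ≠ i ∧
      A.valuation (algebraMap (K0 A) Ω (f.coeff j) * x ^ j) =
      A.valuation (algebraMap (K0 A) Ω (f.coeff i) * x ^ i) := by
    by_contra hcon
    push Not at hcon
    have h1 := Valuation.map_sum_eq_of_lt A.valuation hi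
      (f := fun i => algebraMap (K0 A) Ω (f.coeff i) * x ^ i) (by
        intro j hj
        rw [Finset.mem_sdiff, Finset.mem_singleton] at hj
        exact lt_of_le_of_ne (hmax j hj.1) (hcon j hj.1 hj.2))
    rw [hfx, map_zero] at h1
    exact ht0 i hi h1.symm
  -- wlog i < j
  have key : ∀ i j : ℕ, i ∈ f.support → j ∈ f.support → i < j →
      A.valuation (algebraMap (K0 A) Ω (f.coeff j) * x ^ j) =
      A.valuation (algebraMap (K0 A) Ω (f.coeff i) * x ^ i) →
      ∃ (m : ℕ) (a : ℤ), 0 < m ∧ A.valuation x ^ m = A.valuation (p : Ω) ^ a := by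
    intro i j hi hj hij heq
    have hq0 : algebraMap (K0 A) Ω (f.coeff i) / algebraMap (K0 A) Ω (f.coeff j) ≠ 0 :=
      div_ne_zero (hc0 i hi) (hc0 j hj)
    obtain ⟨a, ha⟩ := exists_zpow_K0 (p := p) hA
      (x := algebraMap (K0 A) Ω (f.coeff i) / algebraMap (K0 A) Ω (f.coeff j))
      ((K0 A).div_mem (f.coeff i).2 (f.coeff j).2) hq0
    refine ⟨j - i, a, by omega, ?_⟩
    rw [← ha, map_div₀]
    have hvx : A.valuation x ≠ 0 := by rwa [ne_eq, _root_.map_eq_zero]
    have hvj : A.valuation (algebraMap (K0 A) Ω (f.coeff j)) ≠ 0 := by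
      rw [ne_eq, _root_.map_eq_zero]; exact hc0 j hj
    rw [eq_div_iff hvj]
    rw [map_mul, map_mul, map_pow, map_pow] at heq
    have h2 : A.valuation x ^ j = A.valuation x ^ i * A.valuation x ^ (j - i) := by
      rw [← pow_add]; congr 1; omega
    rw [h2] at heq
    refine mul_left_cancel₀ (pow_ne_zero i hvx) ?_
    calc A.valuation x ^ i * (A.valuation x ^ (j - i) * A.valuation (algebraMap (K0 A) Ω (f.coeff j)))
        = A.valuation (algebraMap (K0 A) Ω (f.coeff j)) *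
          (A.valuation x ^ i * A.valuation x ^ (j - i)) := by
            rw [← mul_assoc, mul_comm]
      _ = _ := heq
      _ = _ := mul_comm _ _
  rcases lt_or_gt_of_ne hji with h | h
  · exact key j i hj hi h heq.symm
  · exact key i j hi hj h heq

/-- the rational valuation on `ℚ̄`, normalised by `w p = 1` -/
def wA (A : ValuationSubring (AlgebraicClosure ℚ)) (p : ℕ) [Fact p.Prime]
    (hA : A.LiesOverPrime p) (x : Ω) : ℚ := by
  classical
  exact if h : x ≠ 0 then ((exists_zpow hA h).choose_spec.choose : ℚ) / (exists_zpow hA h).choose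
    else 0

theorem wA_spec (hA : A.LiesOverPrime p) {x : Ω} (hx : x ≠ 0) : ∃ (m : ℕ) (a : ℤ), 0 < m ∧
    A.valuation x ^ m = A.valuation (p : Ω) ^ a ∧ wA A p hA x = a / m := by
  classical
  refine ⟨(exists_zpow hA hx).choose, (exists_zpow hA hx).choose_spec.choose,
    (exists_zpow hA hx).choose_spec.choose_spec.1, (exists_zpow hA hx).choose_spec.choose_spec.2, ?_⟩
  rw [wA]
  exact dif_pos hx

theorem wA_eq (hA : A.LiesOverPrime p) {x : Ω} (hx : x ≠ 0) {m : ℕ} {a : ℤ} (hm : 0 < m)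
    (h : A.valuation x ^ m = A.valuation (p : Ω) ^ a) : wA A p hA x = a / m := by
  obtain ⟨n, b, hn, h', e⟩ := wA_spec hA hx
  rw [e]
  have h1 : A.valuation (p : Ω) ^ (a * n) = A.valuation (p : Ω) ^ (b * m) := by
    rw [zpow_mul, zpow_mul, ← h, ← h', zpow_natCast, zpow_natCast, ← pow_mul, ← pow_mul, mul_comm]
  have h2 : a * n = b * m := (zpow_right_inj₀ v_p_pos (v_p_lt_one hA).ne).1 h1
  have h3 : (a : ℚ) * n = b * m := by exact_mod_cast h2
  have hm' : (m : ℚ) ≠ 0 := by exact_mod_cast hm.ne'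
  have hn' : (n : ℚ) ≠ 0 := by exact_mod_cast hn.ne'
  field_simp
  linarith

/-- the valuation ring in terms of `w` -/
theorem wA_nonneg_iff (hA : A.LiesOverPrime p) {x : Ω} (hx : x ≠ 0) : 0 ≤ wA A p hA x ↔ x ∈ A := by
  obtain ⟨m, a, hm, h, e⟩ := wA_spec hA hx
  have hmQ : (0 : ℚ) < m := by exact_mod_cast hm
  rw [e, le_div_iff₀ hmQ, zero_mul, ← A.valuation_le_one_iff, ← pow_le_one_iff_of_nonneg zero_le hm.ne', h,
    ← zpow_zero (A.valuation (p : Ω)), zpow_le_zpow_iff_right_of_lt_one₀ v_p_pos (v_p_lt_one hA)]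
  exact_mod_cast Iff.rfl

theorem wA_pos_iff (hA : A.LiesOverPrime p) {x : Ω} (hx : x ≠ 0) :
    0 < wA A p hA x ↔ x ∈ A.nonunits := by
  obtain ⟨m, a, hm, h, e⟩ := wA_spec hA hx
  have hmQ : (0 : ℚ) < m := by exact_mod_cast hm
  rw [e, lt_div_iff₀ hmQ, zero_mul, ValuationSubring.mem_nonunits_iff,
    ← pow_lt_one_iff_of_nonneg zero_le hm.ne', h,
    ← zpow_zero (A.valuation (p : Ω)), zpow_lt_zpow_iff_right_of_lt_one₀ v_p_pos (v_p_lt_one hA)]
  exact_mod_cast Iff.rfl

theorem wA_mul (hA : A.LiesOverPrime p) {x y : Ω} (hx : x ≠ 0) (hy : y ≠ 0) :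
    wA A p hA (x * y) = wA A p hA x + wA A p hA y := by
  obtain ⟨m, a, hm, h, e⟩ := wA_spec hA hx
  obtain ⟨n, b, hn, h', e'⟩ := wA_spec hA hy
  have h1 : A.valuation (x * y) ^ (m * n) = A.valuation (p : Ω) ^ (a * n + b * m) := by
    rw [map_mul, mul_pow, pow_mul, h, mul_comm m n, pow_mul, h', zpow_add₀ v_p_ne_zero, zpow_mul,
      zpow_mul, zpow_natCast, zpow_natCast]
  rw [wA_eq hA (mul_ne_zero hx hy) (Nat.mul_pos hm hn) h1, e, e']
  have hm' : (m : ℚ) ≠ 0 := by exact_mod_cast hm.ne'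
  have hn' : (n : ℚ) ≠ 0 := by exact_mod_cast hn.ne'
  push_cast
  field_simp

theorem wA_inv (hA : A.LiesOverPrime p) {x : Ω} (hx : x ≠ 0) :
    wA A p hA x⁻¹ = - wA A p hA x := by
  have h1 := wA_mul hA hx (inv_ne_zero hx)
  rw [mul_inv_cancel₀ hx] at h1
  have h2 : wA A p hA (1 : Ω) = 0 := by
    have := wA_mul hA (one_ne_zero (α := Ω)) (one_ne_zero (α := Ω))
    rw [mul_one] at this
    linarith
  linarith

theorem wA_add (hA : A.LiesOverPrime p) {x y : Ω} (hx : x ≠ 0) (hy : y ≠ 0) (hxy : x + y ≠ 0) :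
    min (wA A p hA x) (wA A p hA y) ≤ wA A p hA (x + y) := by
  have key : ∀ x y : Ω, x ≠ 0 → y ≠ 0 → x + y ≠ 0 → wA A p hA x ≤ wA A p hA y →
      wA A p hA x ≤ wA A p hA (x + y) := by
    intro x y hx hy hxy hle
    have h1 : y * x⁻¹ ∈ A := by
      rw [← wA_nonneg_iff hA (mul_ne_zero hy (inv_ne_zero hx)), wA_mul hA hy (inv_ne_zero hx),
        wA_inv hA hx]
      linarith
    have h2 : (x + y) * x⁻¹ ∈ A := by
      rw [add_mul, mul_inv_cancel₀ hx]
      exact A.add_mem _ _ A.one_mem h1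
    rw [← wA_nonneg_iff hA (mul_ne_zero hxy (inv_ne_zero hx)), wA_mul hA hxy (inv_ne_zero hx),
      wA_inv hA hx] at h2
    linarith
  rcases le_total (wA A p hA x) (wA A p hA y) with h | h
  · rw [min_eq_left h]
    exact key x y hx hy hxy h
  · rw [min_eq_right h, add_comm]
    exact key y x hy hx (by rwa [add_comm]) h

theorem v_aut (σ : Ω ≃ₐ[K0 A] Ω) {x : Ω} (hx : A.valuation x = 1) : A.valuation (σ x) = 1 := by
  have hx0 : x ≠ 0 := by
    rintro rfl
    rw [map_zero] at hx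
    exact zero_ne_one hx
  have h1 : σ x ∈ A := aut_mem A σ ((A.valuation_le_one_iff _).1 hx.le)
  have h2 : σ x⁻¹ ∈ A := aut_mem A σ ((A.valuation_le_one_iff _).1 (by rw [map_inv₀, hx, inv_one]))
  have h3 := (A.valuation_le_one_iff _).2 h1
  have h4 := (A.valuation_le_one_iff _).2 h2
  refine le_antisymm h3 ?_
  have h5 : A.valuation (σ x) * A.valuation (σ x⁻¹) = 1 := by
    rw [← map_mul, ← map_mul, mul_inv_cancel₀ hx0, map_one, map_one]
  rw [← h5]
  exact mul_le_of_le_one_right' h4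

theorem wA_gal (hA : A.LiesOverPrime p) (σ : Ω ≃ₐ[K0 A] Ω) (x : Ω) :
    wA A p hA (σ x) = wA A p hA x := by
  rcases eq_or_ne x 0 with rfl | hx
  · rw [map_zero]
  obtain ⟨m, a, hm, h, e⟩ := wA_spec hA hx
  have hσx : σ x ≠ 0 := by rwa [ne_eq, _root_.map_eq_zero]
  have hp0 : (p : Ω) ≠ 0 := Nat.cast_ne_zero.2 hp.out.ne_zero
  rw [e]
  refine wA_eq hA hσx hm ?_
  have h1 : A.valuation (x ^ m / (p : Ω) ^ a) = 1 := by
    rw [map_div₀, map_pow, map_zpow₀, h]
    exact div_self (zpow_ne_zero _ v_p_ne_zero)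
  have h2 := v_aut σ h1
  have h3 : σ (x ^ m / (p : Ω) ^ a) = (σ x) ^ m / (p : Ω) ^ a := by
    rw [map_div₀, map_pow, map_zpow₀, map_natCast]
  rw [h3, map_div₀, map_pow, map_zpow₀] at h2
  exact (div_eq_one_iff_eq (zpow_ne_zero _ v_p_ne_zero)).1 h2

/-- **The valuation.** -/
def rval (A : ValuationSubring (AlgebraicClosure ℚ)) (p : ℕ) [Fact p.Prime]
    (hA : A.LiesOverPrime p) : RVal (K0 A) Ω p where
  w := wA A p hA
  w_mul' x y hx hy := wA_mul hA hx hy
  w_add' x y hx hy hxy := wA_add hA hx hy hxy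
  w_gal σ x := wA_gal hA σ x
  w_int a ha := by
    have ha' : algebraMap (K0 A) Ω a ≠ 0 := by rwa [ne_eq, _root_.map_eq_zero]
    obtain ⟨n, hn⟩ := exists_zpow_K0 (p := p) hA a.2 ha'
    refine ⟨n, ?_⟩
    have := wA_eq hA ha' (m := 1) (a := n) one_pos (by rw [pow_one]; exact hn)
    rw [this, Nat.cast_one, div_one]
  w_p := by
    have hp0 : (p : Ω) ≠ 0 := Nat.cast_ne_zero.2 (Fact.out : p.Prime).ne_zero
    have := wA_eq hA hp0 (m := 1) (a := 1) one_pos (by rw [pow_one, zpow_one])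
    rw [this, Nat.cast_one, Int.cast_one, div_one]
  res x hx hwx := by
    obtain ⟨y, hy, hyx⟩ := exists_R0_sub_mem hA ((wA_nonneg_iff hA hx).1 hwx)
    refine ⟨⟨y, hy.2⟩, ?_, ?_⟩
    · by_cases hy0 : y = 0
      · left
        exact Subtype.ext hy0
      · right
        exact (wA_nonneg_iff hA hy0).2 hy.1
    · by_cases h0 : x - y = 0
      · exact Or.inl h0
      · right
        change 0 < wA A p hA (x - y)
        rw [wA_pos_iff hA h0, ← neg_sub]
        exact neg_mem_nonunits A hyx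

theorem rval_ge_zero_iff (hA : A.LiesOverPrime p) {x : Ω} : (rval A p hA).Ge 0 x ↔ x ∈ A := by
  rcases eq_or_ne x 0 with rfl | hx
  · exact iff_of_true (ge_zero _) A.zero_mem
  · rw [← wA_nonneg_iff hA hx]
    exact ⟨fun h => h.le hx, fun h => Or.inr h⟩

theorem rval_gt_zero_iff (hA : A.LiesOverPrime p) {x : Ω} :
    (rval A p hA).Gt 0 x ↔ x ∈ A.nonunits := by
  rcases eq_or_ne x 0 with rfl | hx
  · exact iff_of_true (gt_zero _) (zero_mem_nonunits A)
  · rw [← wA_pos_iff hA hx]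
    exact ⟨fun h => h.lt hx, fun h => Or.inr h⟩

end Fermat.Agent.FlatRam
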