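import Fermat.Agent.Flat.Local
import Fermat.Agent.RedMod.Qbar

/-!
# The fixed field of inertia: residue field, units, rank one
-/

set_option autoImplicit false
set_option linter.unusedSectionVars false
set_option linter.style.haveILetI false

noncomputable section

namespace Fermat.Agent.Flat

open Fermat.Agent.Places Polynomial Fermat.Agent.RedMod

local notation "Ω" => AlgebraicClosure ℚ

variable {A : ValuationSubring (AlgebraicClosure ℚ)} {p : ℕ} [Fact p.Prime]

theorem residue_isAlgebraic [Algebra (ZMod p) (IsLocalRing.ResidueField A)]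
    (c : IsLocalRing.ResidueField A) : IsAlgebraic (ZMod p) c := by
  obtain ⟨x, rfl⟩ := IsLocalRing.residue_surjective c
  obtain ⟨P, hP, hx⟩ := exists_int_poly x
  refine ⟨P.map (Int.castRingHom (ZMod p)), ?_, ?_⟩
  · intro h0
    have h1 : (C (p : ℤ)) ∣ P := by
      rw [C_dvd_iff_dvd_coeff]
      intro i
      have h2 := congrArg (fun Q => coeff Q i) h0
      simp only [coeff_map, coeff_zero, eq_intCast] at h2
      exact (ZMod.intCast_zmod_eq_zero_iff_dvd _ _).1 h2
    have h3 := (Nat.prime_iff_prime_int.1 (Fact.out : p.Prime)).not_isUnit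
    exact h3 (hP _ h1)
  · rw [aeval_map_algebraMap_int' (IsLocalRing.residue A) P x, hx, map_zero]
where
  aeval_map_algebraMap_int' {R S : Type _} [CommRing R] [CommRing S] [Algebra (ZMod p) S]
      (f : R →+* S) (P : ℤ[X]) (x : R) :
      aeval (f x) (P.map (Int.castRingHom (ZMod p))) = f (aeval x P) := by
    rw [aeval_def, eval₂_map, aeval_def, hom_eval₂]
    congr 1
    exact RingHom.ext_int _ _

theorem exists_pow_eq (hA : A.LiesOverPrime p) (c : IsLocalRing.ResidueField A) :
    ∃ m : ℕ, 0 < m ∧ c ^ p ^ m = c := by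
  haveI := charP_residue hA
  letI : Algebra (ZMod p) (IsLocalRing.ResidueField A) := ZMod.algebra _ p
  have h := residue_isAlgebraic (p := p) c
  have hint : IsIntegral (ZMod p) c := h.isIntegral
  let F := IntermediateField.adjoin (ZMod p) {c}
  haveI : FiniteDimensional (ZMod p) F := IntermediateField.adjoin.finiteDimensional hint
  haveI : Finite F := Module.finite_of_finite (ZMod p)
  letI : Fintype F := Fintype.ofFinite F
  obtain ⟨n, hn⟩ := FiniteField.card F p
  refine ⟨n, n.2, ?_⟩
  have hc : c ∈ F := IntermediateField.mem_adjoin_simple_self (ZMod p) c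
  have h2 := FiniteField.pow_card (⟨c, hc⟩ : F)
  rw [hn.2] at h2
  exact congrArg (fun z : F => (z : IsLocalRing.ResidueField A)) h2

theorem one_notMem (A : ValuationSubring Ω) : (1 : Ω) ∉ A.nonunits := one_notMem_nonunits A

theorem mem_nonunits_iff_residue {x : Ω} (hx : x ∈ A) :
    x ∈ A.nonunits ↔ IsLocalRing.residue A ⟨x, hx⟩ = 0 := by
  rw [IsLocalRing.residue_eq_zero_iff, ValuationSubring.mem_nonunits_iff_exists_mem_maximalIdeal]
  exact ⟨fun ⟨_, h⟩ => h, fun h => ⟨hx, h⟩⟩

/-- The residue field of `R0` is that of `A`. -/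
theorem exists_R0_sub_mem (hA : A.LiesOverPrime p) {x : Ω} (hx : x ∈ A) :
    ∃ y ∈ R0 A, y - x ∈ A.nonunits := by
  obtain ⟨m, hm, hpow⟩ := exists_pow_eq hA (IsLocalRing.residue A ⟨x, hx⟩)
  have hp : (p : ℕ) ≠ 0 := (Fact.out : p.Prime).ne_zero
  have hq : 1 < p ^ m := Nat.one_lt_pow hm.ne' (Fact.out : p.Prime).one_lt
  set f : Polynomial (OE A (⊥ : IntermediateField (K0 A) Ω)) := X ^ (p ^ m) - X with hf
  have hmon : f.Monic := by
    rw [hf]
    exact monic_X_pow_sub (by rw [degree_X]; exact_mod_cast hq)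
  have e0 : aeval x f = x ^ p ^ m - x := by simp [hf]
  have e1 : aeval x (derivative f) = ((p ^ m : ℕ) : Ω) * x ^ (p ^ m - 1) - 1 := by
    simp [hf, derivative_X_pow]
  have h0 : aeval x f ∈ A.nonunits := by
    rw [e0]
    have hmem : x ^ p ^ m - x ∈ A := A.sub_mem (A.toSubring.pow_mem hx _) hx
    rw [mem_nonunits_iff_residue hmem]
    have : (⟨x ^ p ^ m - x, hmem⟩ : A) = (⟨x, hx⟩ : A) ^ p ^ m - ⟨x, hx⟩ := rfl
    rw [this, map_sub, map_pow, hpow, sub_self]
  have h1 : aeval x (derivative f) ∉ A.nonunits := by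
    rw [e1]
    intro h
    apply one_notMem A
    have h2 : ((p ^ m : ℕ) : Ω) * x ^ (p ^ m - 1) ∈ A.nonunits := by
      refine mul_mem_nonunits A ?_ ?_
      · push_cast
        obtain ⟨k, rfl⟩ := Nat.exists_eq_succ_of_ne_zero hm.ne'
        rw [pow_succ']
        exact mul_mem_nonunits A hA (A.toSubring.pow_mem (natCast_mem A p) k)
      · exact A.toSubring.pow_mem hx _
    have h3 := sub_mem_nonunits A h2 h
    rwa [sub_sub_cancel] at h3
  obtain ⟨y, hy, -, hyx⟩ := exists_root A (⊥ : IntermediateField (K0 A) Ω) f hmon hx h0 h1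
  refine ⟨y, ⟨hy.1, ?_⟩, hyx⟩
  obtain ⟨w, hw⟩ := IntermediateField.mem_bot.1 hy.2
  rw [← hw]
  exact w.2

end Fermat.Agent.Flat
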