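import Fermat.Agent.Flat.KCInv
import Fermat.Agent.EC.InertiaSub
import Fermat.Agent.RedMod.Qbar

/-!
# The image of tame characters
-/

set_option autoImplicit false
set_option linter.unusedSectionVars false
set_option linter.style.haveILetI false

noncomputable section

namespace Fermat.Agent.Flat

open Fermat.Agent.Places Fermat.Agent.RedMod Fermat.Agent.FlatRam

local notation "Ω" => AlgebraicClosure ℚ

local notation "𝒢" => (AlgebraicClosure ℚ) ≃ₐ[ℚ] (AlgebraicClosure ℚ)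

variable {A : ValuationSubring (AlgebraicClosure ℚ)} {p : ℕ} [Fact p.Prime]

theorem isFr_of_isFrobeniusAt {σ : 𝒢} (hσ : A.IsFrobeniusAt σ p) : IsFr A p σ := by
  have hmem := EC.mem_iff_of_mem_decomposition A hσ.mem_decompositionSubgroup
  refine ⟨hmem, fun x hx => ?_⟩
  have hσx := (hmem x).2 hx
  have h1 : rs A (σ x) = rs A x ^ p := by
    rw [rs_eq hσx, rs_eq hx, ← hσ.smul_residue_eq, ← IsLocalRing.ResidueField.residue_smul]
    rfl
  rw [← rs_pow hx] at h1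
  exact (rs_eq_iff hσx (A.toSubring.pow_mem hx p)).1 h1

theorem pres_of_decomp {σ : 𝒢} (hσ : σ ∈ A.decompositionSubgroup ℚ) : Pres A σ :=
  EC.mem_iff_of_mem_decomposition A hσ

theorem exists_isFr (hA : A.LiesOverPrime p) : ∃ Φ : 𝒢, IsFr A p Φ := by
  obtain ⟨Φ, hΦ⟩ := exists_isFrobeniusAt A (Fact.out : p.Prime) hA
  exact ⟨Φ, isFr_of_isFrobeniusAt hΦ⟩

/-- the tame character as a homomorphism -/
def thHom (A : ValuationSubring (AlgebraicClosure ℚ)) (hA : A.LiesOverPrime p) {x : Ω}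
    (hx : x ≠ 0) : A.inertiaSubgroupIn ℚ →* kk A where
  toFun := fun σ => th A σ x
  map_one' := by
    change rs A (x / x) = 1
    rw [div_self hx, rs_one]
  map_mul' := fun σ τ => th_comp hA σ.2 (pres_of_mem τ.2) hx

theorem th_ne_zero (hA : A.LiesOverPrime p) {x : Ω} (hx : x ≠ 0) {σ : 𝒢}
    (hσ : σ ∈ A.inertiaSubgroupIn ℚ) : th A σ x ≠ 0 := by
  have h1 := (Units.map (1 : kk A →* kk A)).map_one
  have h2 : IsUnit (thHom A hA hx ⟨σ, hσ⟩) := (Group.isUnit _).map (thHom A hA hx)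
  exact h2.ne_zero

theorem th_pow_left (hA : A.LiesOverPrime p) {x : Ω} (hx : x ≠ 0) {σ : 𝒢}
    (hσ : σ ∈ A.inertiaSubgroupIn ℚ) (n : ℕ) : th A (σ ^ n) x = th A σ x ^ n :=
  map_pow (thHom A hA hx) ⟨σ, hσ⟩ n

/-- a finite image is generated by one element, and the order of the image -/
theorem exists_gen (hA : A.LiesOverPrime p) {x : Ω} (hx : x ≠ 0)
    (hfin : {t | ∃ σ ∈ A.inertiaSubgroupIn ℚ, th A σ x = t}.Finite) :
    ∃ σ₀ ∈ A.inertiaSubgroupIn ℚ, (∀ σ ∈ A.inertiaSubgroupIn ℚ, ∃ n : ℕ, th A σ x = th A σ₀ x ^ n) ∧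
      0 < orderOf (th A σ₀ x) ∧
      {t | ∃ σ ∈ A.inertiaSubgroupIn ℚ, th A σ x = t}.ncard = orderOf (th A σ₀ x) := by
  classical
  let f : A.inertiaSubgroupIn ℚ →* (kk A)ˣ := (thHom A hA hx).toHomUnits
  have hf : ∀ σ, ((f σ : (kk A)ˣ) : kk A) = th A σ x := fun σ => rfl
  let T := f.range
  have hval : (fun u : (kk A)ˣ => (u : kk A)) '' (T : Set (kk A)ˣ) =
      {t | ∃ σ ∈ A.inertiaSubgroupIn ℚ, th A σ x = t} := by
    ext t
    constructor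
    · rintro ⟨_, ⟨σ, rfl⟩, rfl⟩
      exact ⟨σ, σ.2, rfl⟩
    · rintro ⟨σ, hσ, rfl⟩
      exact ⟨f ⟨σ, hσ⟩, ⟨_, rfl⟩, rfl⟩
  have hTfin : (T : Set (kk A)ˣ).Finite := by
    rw [← hval] at hfin
    exact Set.Finite.of_finite_image hfin Units.val_injective.injOn
  haveI : Finite T := hTfin
  obtain ⟨⟨_, ⟨σ₀, rfl⟩⟩, hg⟩ := IsCyclic.exists_generator (α := T)
  have hord : orderOf (th A σ₀ x) = orderOf (f σ₀) := by
    rw [← hf, orderOf_units]
  refine ⟨σ₀, σ₀.2, ?_, ?_, ?_⟩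
  · intro σ hσ
    obtain ⟨n, hn⟩ := mem_powers_iff_mem_zpowers.2 (hg ⟨f ⟨σ, hσ⟩, ⟨_, rfl⟩⟩)
    refine ⟨n, ?_⟩
    have h1 := congrArg (fun t : T => ((t : (kk A)ˣ) : kk A)) hn
    simp only [Subgroup.coe_pow, Units.val_pow_eq_pow_val] at h1
    exact h1.symm
  · rw [hord]
    have h1 : orderOf (⟨f σ₀, ⟨σ₀, rfl⟩⟩ : T) = orderOf (f σ₀) := by
      rw [← Subgroup.orderOf_coe]
    rw [← h1]
    exact orderOf_pos _
  · rw [← hval, Set.ncard_image_of_injective _ Units.val_injective, hord]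
    have h1 : orderOf (⟨f σ₀, ⟨σ₀, rfl⟩⟩ : T) = Nat.card T := orderOf_eq_card_of_forall_mem_zpowers hg
    rw [← Subgroup.orderOf_coe] at h1
    rw [h1]
    rfl

variable {ϖ : Ω} (hϖ : ϖ ^ (p ^ 2 - 1) = p)

theorem not_dvd_e0 : ¬ p ∣ p ^ 2 - 1 := by
  have hp : p.Prime := Fact.out
  intro h
  have h1 : p ∣ p ^ 2 := dvd_pow_self p two_ne_zero
  have h2 : p ∣ 1 := by
    have := (Nat.dvd_sub h1 h)
    have h3 : p ^ 2 - (p ^ 2 - 1) = 1 := by
      have := e0_pos (p := p)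
      omega
    rwa [h3] at this
  exact hp.one_lt.ne' (Nat.dvd_one.1 h2)

include hϖ in
/-- the fundamental character of level two has full image -/
theorem exists_pi_gen (hA : A.LiesOverPrime p) :
    ∃ σ₀ ∈ A.inertiaSubgroupIn ℚ, IsPrimitiveRoot (th A σ₀ ϖ) (p ^ 2 - 1) := by
  classical
  have hp0 := pi_ne_zero hϖ
  have he := e0_pos (p := p)
  have hfin : {t | ∃ σ ∈ A.inertiaSubgroupIn ℚ, th A σ ϖ = t}.Finite := by
    have hP : (Polynomial.X ^ (p ^ 2 - 1) - 1 : Polynomial (kk A)) ≠ 0 :=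
      Polynomial.X_pow_sub_C_ne_zero he 1
    refine Set.Finite.subset
      ((Polynomial.X ^ (p ^ 2 - 1) - 1 : Polynomial (kk A)).roots.toFinset.finite_toSet) ?_
    rintro _ ⟨σ, hσ, rfl⟩
    rw [Finset.mem_coe, Multiset.mem_toFinset, Polynomial.mem_roots hP]
    simp [th_pi_pow hϖ hA hσ]
  obtain ⟨σ₀, hσ₀, hgen, hpos, -⟩ := exists_gen hA hp0 hfin
  refine ⟨σ₀, hσ₀, ?_⟩
  obtain ⟨e, he'⟩ : ∃ e, e = orderOf (th A σ₀ ϖ) := ⟨_, rfl⟩
  have hdvd : e ∣ p ^ 2 - 1 := he' ▸ orderOf_dvd_of_pow_eq_one (th_pi_pow hϖ hA hσ₀)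
  rw [← he'] at hpos
  have hprim : IsPrimitiveRoot (th A σ₀ ϖ) e := he' ▸ IsPrimitiveRoot.orderOf _
  -- `ϖ ^ e` is fixed by inertia
  have hK : ϖ ^ e ∈ K0 A := by
    rw [K0, IntermediateField.mem_fixedField_iff]
    intro σ hσ
    have h1 : (σ (ϖ ^ e) / ϖ ^ e) ^ (p ^ 2 - 1) = 1 := by
      rw [div_pow, ← map_pow, ← pow_mul, mul_comm, pow_mul, hϖ, map_pow, map_natCast,
        div_self (pow_ne_zero _ (Nat.cast_ne_zero.2 (Fact.out : p.Prime).ne_zero))]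
    have h2 : rs A (σ (ϖ ^ e) / ϖ ^ e) = 1 := by
      change th A σ (ϖ ^ e) = 1
      rw [th_pow hA (pres_of_mem hσ) hp0]
      obtain ⟨n, hn⟩ := hgen σ hσ
      rw [hn, ← pow_mul, mul_comm, pow_mul, hprim.pow_eq_one, one_pow]
    have h3 := eq_one_of_rs hA not_dvd_e0 h1 h2
    exact (div_eq_one_iff_eq (pow_ne_zero _ hp0)).1 h3
  obtain ⟨n, hn⟩ := (rval A p hA).w_int (⟨ϖ ^ e, hK⟩ : K0 A)
    (fun h => pow_ne_zero e hp0 (congrArg Subtype.val h))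
  have hn' : (rval A p hA).w (ϖ ^ e) = n := hn
  rw [RVal.w_pow hp0, w_pi_eq hA hϖ, mul_one_div] at hn'
  have he0 : ((p ^ 2 - 1 : ℕ) : ℚ) ≠ 0 := by exact_mod_cast he.ne'
  rw [div_eq_iff he0] at hn'
  have h4 : (e : ℤ) = n * ((p ^ 2 - 1 : ℕ) : ℤ) := by exact_mod_cast hn'
  have h5 : p ^ 2 - 1 ∣ e := by
    rw [← Int.natCast_dvd_natCast, h4]
    exact dvd_mul_left _ _
  rw [← Nat.dvd_antisymm hdvd h5]
  exact hprim

theorem IsFr.inertia_mul {Φ τ : 𝒢} (hΦ : IsFr A p Φ) (hτ : τ ∈ A.inertiaSubgroupIn ℚ) :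
    IsFr A p (τ * Φ) := by
  refine ⟨(pres_of_mem hτ).mul hΦ.1, fun x hx => ?_⟩
  have h1 := (mem_inertia_iff A τ).1 hτ (Φ x) ((hΦ.1 x).2 hx)
  have h2 := add_mem_nonunits A h1 (hΦ.2 x hx)
  have h3 : τ (Φ x) - Φ x + (Φ x - x ^ p) = (τ * Φ) x - x ^ p := by
    rw [AlgEquiv.mul_apply]; ring
  rwa [h3] at h2

include hϖ in
/-- a Frobenius fixing the uniformizer -/
theorem exists_isFr_fix (hA : A.LiesOverPrime p) : ∃ Φ : 𝒢, IsFr A p Φ ∧ Φ ϖ = ϖ := by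
  have hp0 := pi_ne_zero hϖ
  have he := e0_pos (p := p)
  haveI : NeZero (p ^ 2 - 1) := ⟨he.ne'⟩
  obtain ⟨Φ, hΦ⟩ := exists_isFr (p := p) hA
  obtain ⟨σ₀, hσ₀, hprim⟩ := exists_pi_gen hϖ hA
  have hη1 : (Φ ϖ / ϖ) ^ (p ^ 2 - 1) = 1 := by
    rw [div_pow, ← map_pow, hϖ, map_natCast,
      div_self (Nat.cast_ne_zero.2 (Fact.out : p.Prime).ne_zero)]
  have hηA : Φ ϖ / ϖ ∈ A := hΦ.1.div_mem hA hp0
  obtain ⟨η, hη⟩ : ∃ η, η = rs A (Φ ϖ / ϖ) := ⟨_, rfl⟩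
  have hη2 : η ^ (p ^ 2 - 1) = 1 := by rw [hη, ← rs_pow hηA, hη1, rs_one]
  have hη0 : η ≠ 0 := by
    rintro h
    rw [h, zero_pow he.ne'] at hη2
    exact zero_ne_one hη2
  obtain ⟨n, -, hn⟩ := hprim.eq_pow_of_pow_eq_one (ξ := η⁻¹) (by rw [inv_pow, hη2, inv_one])
  have hτ : σ₀ ^ n ∈ A.inertiaSubgroupIn ℚ := Subgroup.pow_mem _ hσ₀ n
  refine ⟨σ₀ ^ n * Φ, hΦ.inertia_mul hτ, ?_⟩
  have h1 : ((σ₀ ^ n * Φ) ϖ / ϖ) ^ (p ^ 2 - 1) = 1 := by
    rw [div_pow, ← map_pow, hϖ, map_natCast,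
      div_self (Nat.cast_ne_zero.2 (Fact.out : p.Prime).ne_zero)]
  have h2 : rs A ((σ₀ ^ n * Φ) ϖ / ϖ) = 1 := by
    have h3 : (σ₀ ^ n * Φ) ϖ / ϖ = (σ₀ ^ n) (Φ ϖ / ϖ) * ((σ₀ ^ n) ϖ / ϖ) := by
      have h4 : (σ₀ ^ n) ϖ ≠ 0 := by rwa [ne_eq, _root_.map_eq_zero]
      rw [AlgEquiv.mul_apply, map_div₀]
      field_simp
    rw [h3, rs_mul ((pres_of_mem hτ _).2 hηA) ((pres_of_mem hτ).div_mem hA hp0), rs_inertia hτ hηA,
      ← hη]
    change η * th A (σ₀ ^ n) ϖ = 1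
    rw [th_pow_left hA hp0 hσ₀, hn, mul_inv_cancel₀ hη0]
  have h3 := eq_one_of_rs hA not_dvd_e0 h1 h2
  exact (div_eq_one_iff_eq hp0).1 h3

/-- embeddings of finite fields -/
theorem exists_iota (hA : A.LiesOverPrime p) {k : Type} [Field k] [Finite k] [CharP k p] {α : k}
    {θ : kk A} {N : ℕ} (hN : N ≠ 0) (hθ1 : θ ^ N = 1) (h : ∀ P : Polynomial ℤ, Polynomial.eval₂ (Int.castRingHom (kk A)) θ P = 0 →
      Polynomial.eval₂ (Int.castRingHom k) α P = 0) : ∃ ι : k →+* kk A, ι α = θ := by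
  haveI := charP_residue hA
  letI := ZMod.algebra k p
  letI := ZMod.algebra (kk A) p
  haveI : Module.Finite (ZMod p) k := Module.Finite.of_finite
  haveI : IsAlgClosed (kk A) := inferInstance
  have hα : IsIntegral (ZMod p) α := Algebra.IsIntegral.isIntegral α
  -- transfer of polynomials
  have h' : ∀ P : Polynomial (ZMod p), Polynomial.aeval θ P = 0 → Polynomial.aeval α P = 0 := by
    intro P hP
    obtain ⟨Q, hQ⟩ := Polynomial.map_surjective (Int.castRingHom (ZMod p))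
      (ZMod.intCast_surjective) P
    have e1 : Polynomial.aeval θ P = Polynomial.eval₂ (Int.castRingHom (kk A)) θ Q := by
      rw [← hQ, Polynomial.aeval_def, Polynomial.eval₂_map]
      congr 1
      exact RingHom.ext_int _ _
    have e2 : Polynomial.aeval α P = Polynomial.eval₂ (Int.castRingHom k) α Q := by
      rw [← hQ, Polynomial.aeval_def, Polynomial.eval₂_map]
      congr 1
      exact RingHom.ext_int _ _
    rw [e1] at hP
    rw [e2]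
    exact h Q hP
  have hθ : IsIntegral (ZMod p) θ :=
    ⟨Polynomial.X ^ N - 1, Polynomial.monic_X_pow_sub_C 1 hN, by simp [hθ1]⟩
  have hmin := minpoly.eq_of_irreducible_of_monic (minpoly.irreducible hθ)
    (h' _ (minpoly.aeval _ _)) (minpoly.monic hθ)
  have hmem : θ ∈ (minpoly (ZMod p) α).aroots (kk A) := by
    rw [Polynomial.mem_aroots]
    exact ⟨minpoly.ne_zero hα, by rw [← hmin]; exact minpoly.aeval _ _⟩
  let φ : IntermediateField.adjoin (ZMod p) {α} →ₐ[ZMod p] kk A :=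
    (IntermediateField.algHomAdjoinIntegralEquiv (ZMod p) hα).symm ⟨θ, hmem⟩
  have hφ : φ (IntermediateField.AdjoinSimple.gen (ZMod p) α) = θ :=
    IntermediateField.algHomAdjoinIntegralEquiv_symm_apply_gen (ZMod p) hα ⟨θ, hmem⟩
  letI := φ.toRingHom.toAlgebra
  let ι : k →ₐ[IntermediateField.adjoin (ZMod p) {α}] kk A := IsAlgClosed.lift
  refine ⟨ι.toRingHom, ?_⟩
  have h2 : ι (algebraMap (IntermediateField.adjoin (ZMod p) {α}) k
      (IntermediateField.AdjoinSimple.gen (ZMod p) α)) = _ := ι.commutes _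
  rw [IntermediateField.AdjoinSimple.algebraMap_gen] at h2
  exact h2.trans hφ

end Fermat.Agent.Flat
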