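import Fermat.Agent.Flat.SS1

/-!
# The supersingular case: vanishing of invariants
-/

set_option autoImplicit false
set_option linter.unusedSectionVars false
set_option linter.style.haveILetI false

noncomputable section

namespace Fermat.Agent.Flat

open Fermat.Agent.Places Fermat.Agent.RedMod Fermat.Agent.FlatRam

local notation "Ω" => AlgebraicClosure ℚ

local notation "𝒢" => (AlgebraicClosure ℚ) ≃ₐ[ℚ] (AlgebraicClosure ℚ)

variable {A : ValuationSubring (AlgebraicClosure ℚ)} {p : ℕ} [Fact p.Prime]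

/-- elements fixed by Frobenius are natural numbers -/
theorem exists_natCast_of_pow {K : Type} [Field K] [CharP K p] {x : K} (h : x ^ p = x) :
    ∃ n : ℕ, (n : K) = x := by
  letI := ZMod.algebra K p
  haveI : NeZero p := ⟨(Fact.out : p.Prime).ne_zero⟩
  obtain ⟨f, hf⟩ := exists_algebraMap_of_pow (F := ZMod p) (K := K) (b := x)
    (by rw [Nat.card_zmod]; exact h)
  refine ⟨f.val, ?_⟩
  rw [← hf]
  conv_rhs => rw [← ZMod.natCast_zmod_val f]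
  rw [map_natCast]

variable {k : Type} [Field k] {V : Type} [AddCommGroup V] [Module k V]
variable {ρ : 𝒢 →* Module.End k V}
variable {ϖ : Ω} (hϖ : ϖ ^ (p ^ 2 - 1) = p) {ζ : Ω} (hζ : IsPrimitiveRoot ζ p)
variable {tr : k →+ ZMod p}
variable {b : Module.Basis (Fin 2) k V} {ι : k →+* kk A} {χ : 𝒢 → k} {Φ : 𝒢} {s : k}

include hϖ hζ in
/-- the effect of inertia on the invariants -/
theorem AA_inertia (hA : A.LiesOverPrime p) (D : SSD A p ρ ϖ b ι χ Φ s)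
    {c : 𝒢 → Module.End k V} (hc : Coc A ρ c)
    {i j : Fin 2} (hb : BddK A ζ (M2 A ϖ) tr (fun σ => ent b i j (c σ)))
    {τ : 𝒢} (hτ : τ ∈ A.inertiaSubgroupIn ℚ) {m : ℕ} (hm : τ ζ = ζ ^ m) (l : Fin p) (u : k) :
    AA ζ (M2 A ϖ) (iv2 A p ϖ) tr l (fun σ => ent b i j (c σ))
      (m * (((![χ τ, χ τ ^ p] : Fin 2 → k) i)⁻¹ * (![χ τ, χ τ ^ p] : Fin 2 → k) j) * u) =
      th A τ ϖ ^ (l : ℕ) * AA ζ (M2 A ϖ) (iv2 A p ϖ) tr l (fun σ => ent b i j (c σ)) u := by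
  refine AA_conj (F := fun z => th A τ ϖ ^ (l : ℕ) * z) hζ (inv2 hϖ hA) hA hb (pres_of_mem hτ)
    (fun x hx => M2_stable_inertia hϖ hA hτ hx) hm (fun σ hσ => ?_) l (fun a ha haM => ?_) u
  · rw [hc.conj_eq (pres_of_mem hτ) (pres_of_mem hσ.1) (D.rho_eq_one hσ (pi_ne_zero hϖ)),
      ent_conj b (D.diag_ne_zero hτ) (D.diag hτ)]
  · exact iv2_act hϖ hA hτ ha haM l

/-- a semilinear map whose eigenvalue is not conjugate vanishes -/
theorem vanish_of_quad {K : Type} [Field K] {f : k →+ K} {w : k} {t : K}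
    (hf : ∀ u, f (w * u) = t * f u) {s' t' : ℕ} (h : w * w - s' * w + t' = 0)
    (h' : t * t - s' * t + t' ≠ 0) (u : k) : f u = 0 := by
  have h1 : f (w * w * u - (s' * (w * u)) + t' * u) = 0 := by
    have : w * w * u - (s' * (w * u)) + t' * u = (w * w - s' * w + t') * u := by ring
    rw [this, h, zero_mul, map_zero]
  have h2 : f (w * w * u - (s' * (w * u)) + t' * u) = (t * t - s' * t + t') * f u := by
    rw [map_add, map_sub, mul_assoc, hf, hf, ← nsmul_eq_mul, ← nsmul_eq_mul, map_nsmul, map_nsmul,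
      hf, nsmul_eq_mul, nsmul_eq_mul]
    ring
  rw [h2] at h1
  exact (mul_eq_zero.1 h1).resolve_left h'

include hϖ in
/-- power comparison for the fundamental character -/
theorem pow_inj_e0 {ξ : kk A} (hξ : IsPrimitiveRoot ξ (p ^ 2 - 1)) {i j : ℕ} (hi : i < p ^ 2 - 1)
    (hj : j < p ^ 2 - 1) (h : ξ ^ i = ξ ^ j) : i = j := hξ.pow_inj hi hj h

include hϖ in
theorem xi_pow_sq (hA : A.LiesOverPrime p) {τ : 𝒢} (hτ : τ ∈ A.inertiaSubgroupIn ℚ) :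
    th A τ ϖ ^ (p * p) = th A τ ϖ := by
  have h4 : p * p = p ^ 2 - 1 + 1 := by
    rw [← sq]
    have := e0_pos (p := p)
    omega
  rw [h4, pow_succ, th_pi_pow hϖ hA hτ, one_mul]

theorem two_p_lt (hp2 : p ≠ 2) : 2 * p < p ^ 2 - 1 := by
  have hp : p.Prime := Fact.out
  have h3 : 3 ≤ p := by have := hp.two_le; omega
  have h4 : 3 * p ≤ p ^ 2 := by rw [sq]; exact Nat.mul_le_mul_right p h3
  omega

include hϖ hζ in
theorem det_zeta (hA : A.LiesOverPrime p) (D : SSD A p ρ ϖ b ι χ Φ s)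
    (hdet : ∀ σ ∈ A.inertiaSubgroupIn ℚ, ∀ m : ℕ, σ ζ = ζ ^ m → LinearMap.det (ρ σ) = (m : k))
    {τ : 𝒢} (hτ : τ ∈ A.inertiaSubgroupIn ℚ) {m : ℕ} (hm : τ ζ = ζ ^ m) :
    (m : k) = χ τ ^ (p + 1) ∧ (m : kk A) = th A τ ϖ ^ (p + 1) := by
  have hmdet : (m : k) = χ τ ^ (p + 1) := by
    rw [← hdet τ hτ m hm, det_basis2 b (ρ τ) (a := χ τ) (c := 0) (d := 0) (e := χ τ ^ p)
      (by rw [zero_smul, add_zero, D.h0 τ hτ]) (by rw [zero_smul, zero_add, D.h1 τ hτ])]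
    ring
  refine ⟨hmdet, ?_⟩
  rw [← D.hι τ hτ, ← map_pow, ← hmdet, map_natCast]

include hϖ hζ in
/-- the invariants of the diagonal entries vanish -/
theorem AA_diag (hA : A.LiesOverPrime p) (hp2 : p ≠ 2) (D : SSD A p ρ ϖ b ι χ Φ s)
    (hdet : ∀ σ ∈ A.inertiaSubgroupIn ℚ, ∀ m : ℕ, σ ζ = ζ ^ m → LinearMap.det (ρ σ) = (m : k))
    {c : 𝒢 → Module.End k V} (hc : Coc A ρ c) {i : Fin 2}
    (hb : BddK A ζ (M2 A ϖ) tr (fun σ => ent b i i (c σ))) (l : Fin p) (u : k) :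
    AA ζ (M2 A ϖ) (iv2 A p ϖ) tr l (fun σ => ent b i i (c σ)) u = 0 := by
  obtain ⟨τ, hτ, hprim⟩ := exists_pi_gen hϖ hA
  obtain ⟨m, hm⟩ := exists_zeta_exp hζ τ
  obtain ⟨hmdet, h3⟩ := det_zeta hϖ hζ hA D hdet hτ hm
  have h1 := AA_inertia hϖ hζ hA D hc hb hτ hm l u
  rw [inv_mul_cancel₀ (D.diag_ne_zero hτ i), mul_one] at h1
  have h2 : AA ζ (M2 A ϖ) (iv2 A p ϖ) tr l (fun σ => ent b i i (c σ)) (m * u) =
      m * AA ζ (M2 A ϖ) (iv2 A p ϖ) tr l (fun σ => ent b i i (c σ)) u := by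
    have h3 := map_nsmul (AAh ζ (M2 A ϖ) (iv2 A p ϖ) hζ (inv2 hϖ hA) hA hb l) m u
    rw [nsmul_eq_mul, nsmul_eq_mul] at h3
    exact h3
  rw [h2] at h1
  have h4 : (th A τ ϖ ^ (p + 1) - th A τ ϖ ^ (l : ℕ)) *
      AA ζ (M2 A ϖ) (iv2 A p ϖ) tr l (fun σ => ent b i i (c σ)) u = 0 := by
    rw [sub_mul, ← h3, h1, sub_self]
  refine (mul_eq_zero.1 h4).resolve_left (sub_ne_zero.2 fun h => ?_)
  have hl := l.2
  have hpe := two_p_lt (p := p) hp2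
  have := hprim.pow_inj (by omega) (by omega) h
  omega

include hϖ hζ in
/-- the action of inertia on the lower left entry -/
theorem AA_low (hA : A.LiesOverPrime p) (D : SSD A p ρ ϖ b ι χ Φ s)
    (hdet : ∀ σ ∈ A.inertiaSubgroupIn ℚ, ∀ m : ℕ, σ ζ = ζ ^ m → LinearMap.det (ρ σ) = (m : k))
    {c : 𝒢 → Module.End k V} (hc : Coc A ρ c)
    (hb : BddK A ζ (M2 A ϖ) tr (fun σ => ent b 1 0 (c σ))) {τ : 𝒢}
    (hτ : τ ∈ A.inertiaSubgroupIn ℚ) (l : Fin p) (u : k) :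
    AA ζ (M2 A ϖ) (iv2 A p ϖ) tr l (fun σ => ent b 1 0 (c σ)) (χ τ ^ 2 * u) =
      th A τ ϖ ^ (l : ℕ) * AA ζ (M2 A ϖ) (iv2 A p ϖ) tr l (fun σ => ent b 1 0 (c σ)) u := by
  obtain ⟨m, hm⟩ := exists_zeta_exp hζ τ
  obtain ⟨hmdet, -⟩ := det_zeta hϖ hζ hA D hdet hτ hm
  have h1 := AA_inertia hϖ hζ hA D hc hb hτ hm l u
  have h2 : (m : k) * (((![χ τ, χ τ ^ p] : Fin 2 → k) 1)⁻¹ * (![χ τ, χ τ ^ p] : Fin 2 → k) 0) =
      χ τ ^ 2 := by
    have h3 := D.chi_ne_zero hτ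
    simp only [Matrix.cons_val_one, Matrix.cons_val_zero]
    rw [hmdet, pow_succ]
    field_simp
  rw [h2] at h1
  exact h1

include hϖ hζ in
/-- the invariants of the lower left entry vanish, except one -/
theorem AA_low_zero (hA : A.LiesOverPrime p) (hp2 : p ≠ 2) (D : SSD A p ρ ϖ b ι χ Φ s)
    (hdet : ∀ σ ∈ A.inertiaSubgroupIn ℚ, ∀ m : ℕ, σ ζ = ζ ^ m → LinearMap.det (ρ σ) = (m : k))
    {c : 𝒢 → Module.End k V} (hc : Coc A ρ c)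
    (hb : BddK A ζ (M2 A ϖ) tr (fun σ => ent b 1 0 (c σ))) {l : Fin p} (hl : (l : ℕ) ≠ 2) (u : k) :
    AA ζ (M2 A ϖ) (iv2 A p ϖ) tr l (fun σ => ent b 1 0 (c σ)) u = 0 := by
  have hp : p.Prime := Fact.out
  haveI := charP_residue hA
  obtain ⟨τ, hτ, hprim⟩ := exists_pi_gen hϖ hA
  obtain ⟨ξ, hξ⟩ : ∃ ξ, ξ = th A τ ϖ := ⟨_, rfl⟩
  have hsq : ξ ^ (p * p) = ξ := by rw [hξ]; exact xi_pow_sq hϖ hA hτ
  obtain ⟨s', hs'⟩ : ∃ n : ℕ, (n : kk A) = ξ ^ 2 + ξ ^ (2 * p) := by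
    apply exists_natCast_of_pow (p := p)
    rw [add_pow_char, ← pow_mul, ← pow_mul, mul_assoc 2 p p, mul_comm 2 (p * p), pow_mul ξ (p * p),
      hsq, add_comm]
  obtain ⟨t', ht'⟩ : ∃ n : ℕ, (n : kk A) = ξ ^ (2 * p + 2) := by
    apply exists_natCast_of_pow (p := p)
    rw [← pow_mul]
    have : (2 * p + 2) * p = p * p * 2 + 2 * p := by ring
    rw [this, pow_add, pow_mul ξ (p * p), hsq, ← pow_add, add_comm]
  have hf : ∀ u, AAh ζ (M2 A ϖ) (iv2 A p ϖ) hζ (inv2 hϖ hA) hA hb l (χ τ ^ 2 * u) =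
      ξ ^ (l : ℕ) * AAh ζ (M2 A ϖ) (iv2 A p ϖ) hζ (inv2 hϖ hA) hA hb l u := by
    intro u
    rw [hξ]
    exact AA_low hϖ hζ hA D hdet hc hb hτ l u
  refine vanish_of_quad (s' := s') (t' := t') hf ?_ ?_ u
  · apply ι.injective
    rw [map_add, map_sub, map_mul, map_mul, map_pow, D.hι τ hτ, map_natCast, map_natCast, map_zero,
      hs', ht', ← hξ]
    ring
  · rw [hs', ht']
    have h1 : ξ ^ (l : ℕ) * ξ ^ (l : ℕ) - (ξ ^ 2 + ξ ^ (2 * p)) * ξ ^ (l : ℕ) + ξ ^ (2 * p + 2) =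
        (ξ ^ (l : ℕ) - ξ ^ 2) * (ξ ^ (l : ℕ) - ξ ^ (2 * p)) := by ring
    rw [h1]
    have hl2 := l.2
    have hpe := two_p_lt (p := p) hp2
    have h2 := hp.two_le
    rw [← hξ] at hprim
    refine mul_ne_zero (sub_ne_zero.2 fun h => ?_) (sub_ne_zero.2 fun h => ?_)
    · exact hl (hprim.pow_inj (by omega) (by omega) h)
    · have := hprim.pow_inj (by omega) (by omega) h
      omega

/-- conjugation by Frobenius exchanges the entries -/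
theorem SSD.ent_frob (D : SSD A p ρ ϖ b ι χ Φ s) (hs : s ≠ 0) (f : Module.End k V) :
    ent b 1 0 (ρ Φ⁻¹ * f * ρ Φ) = s⁻¹ * ent b 0 1 f := by
  have h0 : ρ Φ⁻¹ (b 1) = b 0 := by rw [← D.hΦ0, rho_inv_apply]
  have h1 : ρ Φ⁻¹ (b 0) = s⁻¹ • b 1 := by
    have := rho_inv_apply (ρ := ρ) Φ (b 1)
    rw [D.hΦ1, map_smul] at this
    conv_rhs => rw [← this]
    rw [smul_smul, inv_mul_cancel₀ hs, one_smul]
  have h2 : (ρ Φ⁻¹ * f * ρ Φ) (b 0) = (ent b 1 1 f) • b 0 + (s⁻¹ * ent b 0 1 f) • b 1 := by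
    rw [Module.End.mul_apply, Module.End.mul_apply, D.hΦ0, apply_basis b f 1, map_add, map_smul,
      map_smul, h0, h1]
    module
  exact (ent_of_eq b h2).2

/-- the square of Frobenius is scalar -/
theorem SSD.frob_sq (D : SSD A p ρ ϖ b ι χ Φ s) : ρ Φ * ρ Φ = s • (1 : Module.End k V) := by
  apply b.ext
  intro j
  rw [Module.End.mul_apply, LinearMap.smul_apply, Module.End.one_apply]
  fin_cases j
  · change ρ Φ (ρ Φ (b 0)) = s • b 0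
    rw [D.hΦ0, D.hΦ1]
  · change ρ Φ (ρ Φ (b 1)) = s • b 1
    rw [D.hΦ1, map_smul, D.hΦ0]

include hϖ hζ in
/-- a bounded cocycle whose remaining invariant vanishes is trivial on the wild part -/
theorem ss_eq_zero (hA : A.LiesOverPrime p) (hp2 : p ≠ 2) (htr : tr ≠ 0)
    (D : SSD A p ρ ϖ b ι χ Φ s) (hs : s ≠ 0)
    (hdet : ∀ σ ∈ A.inertiaSubgroupIn ℚ, ∀ m : ℕ, σ ζ = ζ ^ m → LinearMap.det (ρ σ) = (m : k))
    {c : 𝒢 → Module.End k V} (hc : Coc A ρ c)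
    (hb : ∀ i j, BddK A ζ (M2 A ϖ) tr (fun σ => ent b i j (c σ)))
    (h0 : ∀ l : Fin p, (l : ℕ) = 2 → ∀ u,
      AA ζ (M2 A ϖ) (iv2 A p ϖ) tr l (fun σ => ent b 1 0 (c σ)) u = 0) :
    ∀ σ ∈ NM A (M2 A ϖ), c σ = 0 := by
  have hdiag : ∀ i, ∀ σ ∈ NM A (M2 A ϖ), ent b i i (c σ) = 0 := fun i =>
    eq_zero_of_AA hζ (inv2 hϖ hA) hA htr (hb i i) fun l u =>
      AA_diag hϖ hζ hA hp2 D hdet hc (hb i i) l u
  have hlow : ∀ σ ∈ NM A (M2 A ϖ), ent b 1 0 (c σ) = 0 :=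
    eq_zero_of_AA hζ (inv2 hϖ hA) hA htr (hb 1 0) fun l u => by
      by_cases hl : (l : ℕ) = 2
      · exact h0 l hl u
      · exact AA_low_zero hϖ hζ hA hp2 D hdet hc (hb 1 0) hl u
  have hM : ∀ x ∈ M2 A ϖ, Φ x ∈ M2 A ϖ := fun x hx => M2_stable_of_fix D.fr.1 D.fix hx
  have hup : ∀ σ ∈ NM A (M2 A ϖ), ent b 0 1 (c σ) = 0 := by
    intro σ hσ
    have h1 := hlow _ (KC.conj_NM D.fr.1 hM hσ)
    rw [hc.conj_eq D.fr.1 (pres_of_mem hσ.1) (D.rho_eq_one hσ (pi_ne_zero hϖ)),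
      D.ent_frob hs] at h1
    exact (mul_eq_zero.1 h1).resolve_left (inv_ne_zero hs)
  intro σ hσ
  apply ent_ext b
  intro i j
  rw [ent_zero]
  fin_cases i <;> fin_cases j
  · exact hdiag 0 σ hσ
  · exact hup σ hσ
  · exact hlow σ hσ
  · exact hdiag 1 σ hσ

include hϖ hζ in
/-- the action of Frobenius on the remaining invariant -/
theorem AA_low_frob (hA : A.LiesOverPrime p) (D : SSD A p ρ ϖ b ι χ Φ s) (hs : s ≠ 0)
    {c : 𝒢 → Module.End k V} (hc : Coc A ρ c)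
    (hb : BddK A ζ (M2 A ϖ) tr (fun σ => ent b 1 0 (c σ))) {m : ℕ} (hm : (Φ * Φ) ζ = ζ ^ m)
    (l : Fin p) (u : k) :
    AA ζ (M2 A ϖ) (iv2 A p ϖ) tr l (fun σ => ent b 1 0 (c σ)) (m * u) =
      AA ζ (M2 A ϖ) (iv2 A p ϖ) tr l (fun σ => ent b 1 0 (c σ)) u ^ (p ^ 2) := by
  have hM : ∀ x ∈ M2 A ϖ, Φ x ∈ M2 A ϖ := fun x hx => M2_stable_of_fix D.fr.1 D.fix hx
  have hP : Pres A (Φ * Φ) := D.fr.1.mul D.fr.1
  have h1 := AA_conj (F := fun z => z ^ (p ^ 2)) (μ := 1) hζ (inv2 hϖ hA) hA hb hP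
    (fun x hx => hM _ (hM x hx)) hm (fun σ hσ => ?_) l (fun a ha haM => ?_) u
  · rwa [mul_one] at h1
  · rw [hc.conj_eq hP (pres_of_mem hσ.1) (D.rho_eq_one hσ (pi_ne_zero hϖ)), one_mul]
    have h2 : ρ (Φ * Φ) = s • (1 : Module.End k V) := by rw [map_mul, D.frob_sq]
    have h3 : ρ (Φ * Φ)⁻¹ = s⁻¹ • (1 : Module.End k V) := by
      have h4 := rho_inv_mul (ρ := ρ) (Φ * Φ)
      rw [h2, mul_smul_comm, mul_one] at h4
      rw [← h4, smul_smul, inv_mul_cancel₀ hs, one_smul]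
    rw [h2, h3]
    simp only [smul_mul_assoc, one_mul, mul_smul_comm, mul_one, smul_smul]
    rw [mul_inv_cancel₀ hs, one_smul]
  · rw [AlgEquiv.mul_apply, iv2_fr hϖ hA D.fr D.fix ((D.fr.1 a).2 ha) (hM a haM),
      iv2_fr hϖ hA D.fr D.fix ha haM, ← pow_mul, sq]

end Fermat.Agent.Flat
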