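import Fermat.Agent.Flat.KumE

/-!
# `p`-th powers of elements of the tame extension of degree `p ^ 2 - 1`
-/

set_option autoImplicit false
set_option linter.unusedSectionVars false
set_option linter.style.haveILetI false

noncomputable section

namespace Fermat.Agent.Flat

open Fermat.Agent.Places Fermat.Agent.RedMod Fermat.Agent.FlatRam

local notation "Ω" => AlgebraicClosure ℚ

local notation "𝒢" => (AlgebraicClosure ℚ) ≃ₐ[ℚ] (AlgebraicClosure ℚ)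

variable {A : ValuationSubring (AlgebraicClosure ℚ)} {p : ℕ} [Fact p.Prime]
variable {ϖ : Ω} (hϖ : ϖ ^ (p ^ 2 - 1) = p)

/-- membership in `M` in terms of inertia -/
theorem mem_of_inertia {M : IntermediateField (K0 A) Ω} {x : Ω}
    (h : ∀ σ ∈ A.inertiaSubgroupIn ℚ, (∀ y ∈ M, σ y = y) → σ x = x) : x ∈ M := by
  apply mem_of_fixed
  intro σ hσ
  exact h _ (res_mem σ) hσ

theorem w_zeta (hA : A.LiesOverPrime p) {ζ : Ω} (hζ : IsPrimitiveRoot ζ p) :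
    (rval A p hA).w (ζ - 1) = 1 / ((p : ℚ) - 1) := by
  have hp : p.Prime := Fact.out
  have hpQ : (0 : ℚ) < (p : ℚ) - 1 := by
    have : (1 : ℚ) < p := by exact_mod_cast hp.one_lt
    linarith
  have := RVal.w_zeta (V := rval A p hA) hζ
  field_simp
  linarith

theorem e0_cast : ((p ^ 2 - 1 : ℕ) : ℚ) = ((p : ℚ) - 1) * (p + 1) := by
  have hp : p.Prime := Fact.out
  rw [Nat.cast_sub (Nat.one_le_pow _ _ hp.pos)]
  push_cast
  ring

include hϖ in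
theorem w_zeta_pi (hA : A.LiesOverPrime p) {ζ : Ω} (hζ : IsPrimitiveRoot ζ p) :
    (rval A p hA).w (ζ - 1) = (rval A p hA).w (ϖ ^ (p + 1)) := by
  have hp : p.Prime := Fact.out
  have hpQ : (0 : ℚ) < (p : ℚ) - 1 := by
    have : (1 : ℚ) < p := by exact_mod_cast hp.one_lt
    linarith
  rw [w_zeta hA hζ, RVal.w_pow (pi_ne_zero hϖ), w_pi_eq hA hϖ, e0_cast]
  have : (p : ℚ) + 1 ≠ 0 := by positivity
  push_cast
  field_simp

/-- the value of the cyclotomic character -/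
theorem exists_zeta_exp {ζ : Ω} (hζ : IsPrimitiveRoot ζ p) (σ : 𝒢) :
    ∃ m : ℕ, σ ζ = ζ ^ m := by
  haveI : NeZero p := ⟨(Fact.out : p.Prime).ne_zero⟩
  have h1 : (σ ζ) ^ p = 1 := by rw [← map_pow, hζ.pow_eq_one, map_one]
  obtain ⟨m, -, hm⟩ := hζ.eq_pow_of_pow_eq_one h1
  exact ⟨m, hm.symm⟩

theorem zeta_pow_eq (hA : A.LiesOverPrime p) {ζ : Ω} (hζ : IsPrimitiveRoot ζ p) {m n : ℕ} :
    ζ ^ m = ζ ^ n ↔ (m : kk A) = n := by
  haveI := charP_residue hA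
  have hfin : IsOfFinOrder ζ :=
    isOfFinOrder_iff_pow_eq_one.2 ⟨p, (Fact.out : p.Prime).pos, hζ.pow_eq_one⟩
  rw [hfin.pow_eq_pow_iff_modEq, ← hζ.eq_orderOf, CharP.natCast_eq_natCast (kk A) p]

include hϖ in
theorem zeta_mem_M2 (hA : A.LiesOverPrime p) {ζ : Ω} (hζ : IsPrimitiveRoot ζ p) :
    ζ ∈ M2 A ϖ := by
  have hp : p.Prime := Fact.out
  haveI := charP_residue hA
  apply mem_of_inertia
  intro σ hσ hM
  obtain ⟨m, hm⟩ := exists_zeta_exp hζ σ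
  have h1 := th_zeta hA hζ hm
  have hζ1 : ζ - 1 ≠ 0 := sub_ne_zero.2 (hζ.ne_one hp.one_lt)
  have hp0 := pi_ne_zero hϖ
  rw [th_eq_of_w hA hσ hζ1 (pow_ne_zero _ hp0) (w_zeta_pi hϖ hA hζ), th_pow hA (pres_of_mem hσ) hp0,
    th, hM ϖ mem_M2_pi, div_self hp0, rs_one, one_pow] at h1
  rw [hm]
  conv_rhs => rw [← pow_one ζ]
  rw [zeta_pow_eq hA hζ, ← h1, Nat.cast_one]

include hϖ in
/-- **F1'** -/
theorem digits_of_pow (hA : A.LiesOverPrime p) {y a : Ω} (hyM : y ∈ M2 A ϖ) (ha : a ∈ A)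
    (hy : y ^ p = 1 + p * a) : (∀ i ≤ p, i ≠ 1 → i ≠ p → dg A p ϖ i a = 0) ∧
      dg A p ϖ 1 a = dg A p ϖ p a ^ p := by
  have hp : p.Prime := Fact.out
  have hp2 := hp.two_le
  haveI := charP_residue hA
  have he0 : p + 1 ≤ p ^ 2 - 1 := by
    have h1 : p * 2 ≤ p ^ 2 := by rw [sq]; exact Nat.mul_le_mul_left p hp2
    omega
  have hpA := mem_of_mem_nonunits A hA
  have hp0 : (p : Ω) ≠ 0 := Nat.cast_ne_zero.2 hp.ne_zero
  have hyA : y ∈ A := mem_of_rs_pow (A.add_mem _ _ A.one_mem (A.mul_mem _ _ hpA ha)) hy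
  have hrs : rs A y = 1 := by
    have h1 : rs A y ^ p = 1 := by
      rw [← rs_pow hyA, hy, rs_add A.one_mem (A.mul_mem _ _ hpA ha), rs_mul hpA ha, rs_natCast,
        CharP.cast_eq_zero, zero_mul, add_zero, rs_one]
    have h2 : (rs A y - 1) ^ p = 0 := by rw [sub_pow_char, h1, one_pow, sub_self]
    exact sub_eq_zero.1 (pow_eq_zero_iff hp.ne_zero |>.1 h2)
  have hy1 : y - 1 ∈ A.nonunits := by
    rw [← rs_eq_iff hyA A.one_mem, hrs, rs_one]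
  -- `y - 1` is divisible by `ϖ ^ p`
  have hge : (rval A p hA).Ge (p / ((p ^ 2 - 1 : ℕ) : ℚ)) (y - 1) := by
    by_cases hn0 : y - 1 = 0
    · left; exact hn0
    right
    have hnA := mem_of_mem_nonunits A hy1
    obtain ⟨g, hg⟩ := one_add_pow_expand p hp (⟨y - 1, hnA⟩ : A)
    have hg' := congrArg (fun z : A => (z : Ω)) hg
    push_cast at hg'
    rw [add_sub_cancel, hy] at hg'
    have h1 : (y - 1) ^ p = p * (a - (y - 1) - (y - 1) ^ 2 * g) := by linear_combination -hg'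
    have h2 : a - (y - 1) - (y - 1) ^ 2 * g ∈ A :=
      A.sub_mem (A.sub_mem ha hnA) (A.mul_mem _ _ (A.toSubring.pow_mem hnA 2) g.2)
    have h3 : a - (y - 1) - (y - 1) ^ 2 * g ≠ 0 := by
      intro h
      rw [h, mul_zero] at h1
      exact hn0 (pow_eq_zero_iff hp.ne_zero |>.1 h1)
    have h4 := congrArg (rval A p hA).w h1
    rw [RVal.w_pow hn0, RVal.w_mul hp0 h3, (rval A p hA).w_p] at h4
    have h5 : 0 ≤ (rval A p hA).w (a - (y - 1) - (y - 1) ^ 2 * g) := (wA_nonneg_iff hA h3).2 h2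
    obtain ⟨m, hm⟩ := w_M2_int hϖ hA (sub_mem hyM (one_mem _)) hn0
    have h6 : (0 : ℚ) < ((p ^ 2 - 1 : ℕ) : ℚ) := by exact_mod_cast (e0_pos (p := p))
    rw [div_le_iff₀ h6, mul_comm, hm]
    have h7 : ((p ^ 2 - 1 : ℕ) : ℚ) ≤ p * m := by
      rw [← hm]
      have : (1 : ℚ) ≤ p * (rval A p hA).w (y - 1) := by linarith
      nlinarith
    have h8 : ((p ^ 2 - 1 : ℕ) : ℤ) ≤ p * m := by exact_mod_cast h7
    have h9 : ((p ^ 2 - 1 : ℕ) : ℤ) = (p : ℤ) ^ 2 - 1 := by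
      rw [Nat.cast_sub (Nat.one_le_pow _ _ hp.pos)]
      push_cast
      ring
    rw [h9] at h8
    have h10 : (p : ℤ) ≤ m := by
      by_contra hcon
      push Not at hcon
      have h11 : m ≤ (p : ℤ) - 1 := by omega
      have h12 : (2 : ℤ) ≤ p := by exact_mod_cast hp2
      nlinarith
    exact_mod_cast h10
  have hxA := div_pi_pow_mem hϖ hA hge
  have hpi0 := pi_ne_zero hϖ
  let x : OE A (M2 A ϖ) := ⟨(y - 1) / ϖ ^ p, hxA,
    div_mem (sub_mem hyM (one_mem _)) (pow_mem mem_M2_pi p)⟩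
  obtain ⟨c, y', hc⟩ := exists_digit_zero hϖ hA x
  obtain ⟨b, hb⟩ := pow_digits hϖ hA x c y' hc
  have h1 : 1 + ϖ ^ p * (x : Ω) = y := by
    change 1 + ϖ ^ p * ((y - 1) / ϖ ^ p) = y
    rw [mul_div_cancel₀ _ (pow_ne_zero p hpi0)]
    ring
  rw [h1, hy] at hb
  have h2 : a = ((c ^ p : R0 A) : Ω) * ϖ ^ 1 + ((c : R0 A) : Ω) * ϖ ^ p + ϖ ^ (p + 1) * b := by
    apply mul_left_cancel₀ hp0
    push_cast
    linear_combination hb
  have hπA := pi_mem hA hϖ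
  have hA1 : ((c ^ p : R0 A) : Ω) * ϖ ^ 1 ∈ A := A.mul_mem _ _ (c ^ p).2.1 (A.toSubring.pow_mem hπA 1)
  have hA2 : ((c : R0 A) : Ω) * ϖ ^ p ∈ A := A.mul_mem _ _ c.2.1 (A.toSubring.pow_mem hπA p)
  have hA3 : ϖ ^ (p + 1) * (b : Ω) ∈ A := A.mul_mem _ _ (A.toSubring.pow_mem hπA _) b.2.1
  have hM1 : ((c ^ p : R0 A) : Ω) * ϖ ^ 1 ∈ M2 A ϖ := mul_mem (R0_mem_M2 _) (pow_mem mem_M2_pi 1)
  have hM2' : ((c : R0 A) : Ω) * ϖ ^ p ∈ M2 A ϖ := mul_mem (R0_mem_M2 _) (pow_mem mem_M2_pi p)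
  have hM3 : ϖ ^ (p + 1) * (b : Ω) ∈ M2 A ϖ := mul_mem (pow_mem mem_M2_pi _) b.2.2
  have hge3 : (rval A p hA).Ge ((p + 1 : ℕ) / ((p ^ 2 - 1 : ℕ) : ℚ)) (ϖ ^ (p + 1) * (b : Ω)) := by
    have h3 : (rval A p hA).Ge ((p + 1 : ℕ) / ((p ^ 2 - 1 : ℕ) : ℚ)) (ϖ ^ (p + 1)) := by
      right
      rw [RVal.w_pow hpi0, w_pi_eq hA hϖ, mul_one_div]
    exact h3.mul0 ((rval_ge_zero_iff hA).2 b.2.1)
  have key : ∀ i ≤ p, dg A p ϖ i a = (if i = 1 then rs A (c ^ p : R0 A) else 0) +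
      (if i = p then rs A (c : Ω) else 0) := by
    intro i hi
    have hie : i < p ^ 2 - 1 := by omega
    rw [h2, dg_add hϖ hA (A.add_mem _ _ hA1 hA2) (add_mem hM1 hM2') hA3 hM3 hie,
      dg_add hϖ hA hA1 hM1 hA2 hM2' hie, dg_monomial hϖ hA _ hie (by omega),
      dg_monomial hϖ hA _ hie (by omega), dg_small hϖ hA hA3 hM3 hge3 hie (by omega), add_zero]
  refine ⟨fun i hi h1 h2 => ?_, ?_⟩
  · rw [key i hi, if_neg h1, if_neg h2, add_zero]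
  · rw [key 1 hp.one_le, key p le_rfl, if_pos rfl, if_neg hp.one_lt.ne, if_neg hp.one_lt.ne',
      if_pos rfl, add_zero, zero_add]
    push_cast
    exact rs_pow c.2.1 p

include hϖ in
/-- **F2'** -/
theorem mem_of_digits (hA : A.LiesOverPrime p) {y a : Ω} (haM : a ∈ M2 A ϖ) (ha : a ∈ A)
    (hy : y ^ p = 1 + p * a) (h1 : ∀ i ≤ p, i ≠ 1 → i ≠ p → dg A p ϖ i a = 0)
    (h2 : dg A p ϖ 1 a = dg A p ϖ p a ^ p) : y ∈ M2 A ϖ := by
  have hp : p.Prime := Fact.out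
  have hp2 := hp.two_le
  haveI := charP_residue hA
  obtain ⟨ζ, hζ⟩ : ∃ ζ : Ω, IsPrimitiveRoot ζ p :=
    HasEnoughRootsOfUnity.exists_primitiveRoot Ω p
  have he0 : p + 1 ≤ p ^ 2 - 1 := by
    have h1 : p * 2 ≤ p ^ 2 := by rw [sq]; exact Nat.mul_le_mul_left p hp2
    omega
  have hpA := mem_of_mem_nonunits A hA
  have hp0 : (p : Ω) ≠ 0 := Nat.cast_ne_zero.2 hp.ne_zero
  have hpi0 := pi_ne_zero hϖ
  have hπA := pi_mem hA hϖ
  obtain ⟨c', hc', -⟩ := exists_Rp hϖ hA ha haM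
  obtain ⟨c, hcdef⟩ : ∃ c : R0 A, c = c' p := ⟨_, rfl⟩
  have hc : dg A p ϖ p a = rs A (c : Ω) := by
    rw [dg_eq hϖ hA hc' (by omega), hcdef]
  let x : OE A (M2 A ϖ) := ⟨(c : Ω), c.2.1, R0_mem_M2 c⟩
  obtain ⟨b, hb⟩ := pow_digits hϖ hA x c 0 (by simp [x])
  set m : Ω := 1 + ϖ ^ p * (x : Ω) with hm
  have hmM : m ∈ M2 A ϖ := add_mem (one_mem _) (mul_mem (pow_mem mem_M2_pi p) x.2.2)
  set am : Ω := (c : Ω) ^ p * ϖ + c * ϖ ^ p + ϖ ^ (p + 1) * b with ham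
  have h3 : am = ((c ^ p : R0 A) : Ω) * ϖ ^ 1 + ((c : R0 A) : Ω) * ϖ ^ p + ϖ ^ (p + 1) * b := by
    rw [ham]; push_cast; ring
  have hA1 : ((c ^ p : R0 A) : Ω) * ϖ ^ 1 ∈ A := A.mul_mem _ _ (c ^ p).2.1 (A.toSubring.pow_mem hπA 1)
  have hA2 : ((c : R0 A) : Ω) * ϖ ^ p ∈ A := A.mul_mem _ _ c.2.1 (A.toSubring.pow_mem hπA p)
  have hA3 : ϖ ^ (p + 1) * (b : Ω) ∈ A := A.mul_mem _ _ (A.toSubring.pow_mem hπA _) b.2.1
  have hM1 : ((c ^ p : R0 A) : Ω) * ϖ ^ 1 ∈ M2 A ϖ := mul_mem (R0_mem_M2 _) (pow_mem mem_M2_pi 1)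
  have hM2' : ((c : R0 A) : Ω) * ϖ ^ p ∈ M2 A ϖ := mul_mem (R0_mem_M2 _) (pow_mem mem_M2_pi p)
  have hM3 : ϖ ^ (p + 1) * (b : Ω) ∈ M2 A ϖ := mul_mem (pow_mem mem_M2_pi _) b.2.2
  have hamA : am ∈ A := by rw [h3]; exact A.add_mem _ _ (A.add_mem _ _ hA1 hA2) hA3
  have hamM : am ∈ M2 A ϖ := by rw [h3]; exact add_mem (add_mem hM1 hM2') hM3
  have hge3 : (rval A p hA).Ge ((p + 1 : ℕ) / ((p ^ 2 - 1 : ℕ) : ℚ)) (ϖ ^ (p + 1) * (b : Ω)) := by
    have h3 : (rval A p hA).Ge ((p + 1 : ℕ) / ((p ^ 2 - 1 : ℕ) : ℚ)) (ϖ ^ (p + 1)) := by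
      right
      rw [RVal.w_pow hpi0, w_pi_eq hA hϖ, mul_one_div]
    exact h3.mul0 ((rval_ge_zero_iff hA).2 b.2.1)
  have key : ∀ i ≤ p, dg A p ϖ i am = (if i = 1 then rs A (c ^ p : R0 A) else 0) +
      (if i = p then rs A (c : Ω) else 0) := by
    intro i hi
    have hie : i < p ^ 2 - 1 := by omega
    rw [h3, dg_add hϖ hA (A.add_mem _ _ hA1 hA2) (add_mem hM1 hM2') hA3 hM3 hie,
      dg_add hϖ hA hA1 hM1 hA2 hM2' hie, dg_monomial hϖ hA _ hie (by omega),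
      dg_monomial hϖ hA _ hie (by omega), dg_small hϖ hA hA3 hM3 hge3 hie (by omega), add_zero]
  -- the difference has vanishing digits
  have hdA : a - am ∈ A := A.sub_mem ha hamA
  have hdM : a - am ∈ M2 A ϖ := sub_mem haM hamM
  have hd : ∀ i < p + 1, dg A p ϖ i (a - am) = 0 := by
    intro i hi
    have hie : i < p ^ 2 - 1 := by omega
    have h4 := dg_add hϖ hA hdA hdM hamA hamM hie
    rw [sub_add_cancel] at h4
    have h5 : dg A p ϖ i a = dg A p ϖ i am := by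
      rw [key i (by omega)]
      by_cases hi1 : i = 1
      · subst hi1
        rw [h2, hc, if_pos rfl, if_neg hp.one_lt.ne, add_zero]
        push_cast
        exact (rs_pow c.2.1 p).symm
      · by_cases hip : i = p
        · subst hip
          rw [hc, if_neg hi1, if_pos rfl, zero_add]
        · rw [h1 i (by omega) hi1 hip, if_neg hi1, if_neg hip, add_zero]
    rw [h5] at h4
    exact (left_eq_add.1 (by rw [add_comm] at h4; exact h4))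
  have hge := dg_conv hϖ hA hdA hdM he0 hd
  have hζ1 : ζ - 1 ≠ 0 := sub_ne_zero.2 (hζ.ne_one hp.one_lt)
  have hwζ := w_zeta_pi hϖ hA hζ
  rw [RVal.w_pow hpi0, w_pi_eq hA hϖ, mul_one_div] at hwζ
  have hq : (a - am) / (ζ - 1) ∈ A := by
    rw [← rval_ge_zero_iff (p := p) hA]
    rcases hge with h | h
    · left; rw [h, zero_div]
    · by_cases h0 : a - am = 0
      · left; rw [h0, zero_div]
      · right
        rw [RVal.w_div h0 hζ1, hwζ]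
        linarith
  have hu : 1 + p * am ∈ A := A.add_mem _ _ A.one_mem (A.mul_mem _ _ hpA hamA)
  have hun : 1 + p * am ∉ A.nonunits := by
    rw [← rs_eq_zero_iff hu, rs_add A.one_mem (A.mul_mem _ _ hpA hamA), rs_mul hpA hamA, rs_natCast,
      CharP.cast_eq_zero, zero_mul, add_zero, rs_one]
    exact one_ne_zero
  have hui : (1 + p * am)⁻¹ ∈ A := inv_mem_of_unit hun
  have hu0 : 1 + p * am ≠ 0 := fun h => hun (h ▸ zero_mem_nonunits A)
  have hm0 : m ≠ 0 := by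
    intro h
    rw [h, zero_pow hp.ne_zero] at hb
    exact hu0 hb.symm
  have hfin : (y / m) ^ p = 1 + p * (ζ - 1) * ((a - am) / (ζ - 1) * (1 + p * am)⁻¹) := by
    rw [div_pow, hy, hb]
    field_simp
    ring
  have h6 : y / m ∈ M2 A ϖ := by
    refine mem_of_pow_close hζ hA (zeta_mem_M2 hϖ hA hζ) (A.mul_mem _ _ hq hui) hfin ?_
    rw [div_pow, hy]
    exact div_mem (add_mem (one_mem _) (mul_mem (_root_.natCast_mem _ p) haM)) (pow_mem hmM p)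
  have h7 : y = y / m * m := (div_mul_cancel₀ _ hm0).symm
  rw [h7]
  exact mul_mem h6 hmM

end Fermat.Agent.Flat
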