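import Fermat.Agent.Flat.RamConc

/-!
# The ramification bound for the fixed field of inertia
-/

set_option autoImplicit false
set_option linter.unusedSectionVars false
set_option linter.style.haveILetI false

noncomputable section

namespace Fermat.Agent.FlatRam

open Polynomial IntermediateField RVal Module
open Fermat.Agent.Flat Fermat.Agent.Places Fermat.Agent.RedMod

local notation "Ω" => AlgebraicClosure ℚ

variable {A : ValuationSubring (AlgebraicClosure ℚ)} {p : ℕ} [hp : Fact p.Prime]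

instance : Normal (K0 A) Ω := inferInstance

instance : CharZero (K0 A) := inferInstance

variable {L : IntermediateField (K0 A) Ω} [FiniteDimensional (K0 A) L]

/-- `O_L = R0[ϖ]` -/
theorem exists_poly_R0 (hA : A.LiesOverPrime p) {ϖ : L} (hϖ0 : ϖ ≠ 0)
    (hϖ : (finrank (K0 A) L : ℚ) * (rval A p hA).w (ϖ : Ω) = 1) {x : Ω} (hxA : x ∈ A) (hxL : x ∈ L) :
    ∃ f : Polynomial (R0 A), aeval (ϖ : Ω) f = x := by
  rcases eq_or_ne x 0 with rfl | hx0
  · exact ⟨0, map_zero _⟩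
  have hx0' : (⟨x, hxL⟩ : L) ≠ 0 := fun h => hx0 (congrArg Subtype.val h)
  obtain ⟨c, hc, hci⟩ := exists_rep (rval A p hA) hϖ0 hϖ ⟨x, hxL⟩ hx0'
  have hwx : 0 ≤ (rval A p hA).w x := (wA_nonneg_iff hA hx0).2 hxA
  have hcA : ∀ i, algebraMap (K0 A) Ω (c i) ∈ A := by
    intro i
    rw [← rval_ge_zero_iff hA]
    exact w_coeff (rval A p hA) hϖ0 hϖ (x := ⟨x, hxL⟩) i.2 hwx (hci i)
  refine ⟨∑ i : Fin (finrank (K0 A) L), C (⟨algebraMap (K0 A) Ω (c i), hcA i, (c i).2⟩ : R0 A) *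
    X ^ (i : ℕ), ?_⟩
  rw [map_sum]
  have h1 : x = ((∑ i, c i • ϖ ^ (i : ℕ) : L) : Ω) := by rw [← hc]
  rw [h1]
  push_cast
  refine Finset.sum_congr rfl fun i _ => ?_
  rw [map_mul, aeval_C, map_pow, aeval_X, Algebra.smul_def]
  rfl

/-- the minimal polynomial of the uniformizer is integral -/
theorem exists_minpoly_R0 [IsGalois (K0 A) L] (hA : A.LiesOverPrime p) {ϖ : L} (hϖ0 : ϖ ≠ 0)
    (hϖ : (finrank (K0 A) L : ℚ) * (rval A p hA).w (ϖ : Ω) = 1) :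
    ∃ Q : Polynomial (R0 A), Q.Monic ∧ Q.natDegree = finrank (K0 A) L ∧
      Q.map (algebraMap (R0 A) Ω) = (minpoly (K0 A) (ϖ : Ω)).map (algebraMap (K0 A) Ω) := by
  obtain ⟨P, hP⟩ : ∃ P : Polynomial Ω, P = (minpoly (K0 A) (ϖ : Ω)).map (algebraMap (K0 A) Ω) :=
    ⟨_, rfl⟩
  have hint : IsIntegral (K0 A) (ϖ : Ω) := Algebra.IsIntegral.isIntegral (R := K0 A) (ϖ : Ω)
  have hmon : P.Monic := by rw [hP]; exact (minpoly.monic hint).map _
  have hlift : P ∈ lifts (algebraMap (R0 A) Ω) := by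
    rw [lifts_iff_coeff_lifts]
    intro i
    have h1 : (rval A p hA).Ge 0 (P.coeff i) := by
      rw [hP, map_minpoly (rval A p hA) hϖ0 hϖ]
      refine ge_coeff_prod _ _ _ (fun σ _ j => ?_) i
      rw [coeff_sub, coeff_X, coeff_C]
      refine Ge.sub ?_ ?_
      · split_ifs
        · exact ge_one
        · exact ge_zero _
      · split_ifs
        · right
          rw [w_coe_aut]
          by_contra hcon
          push Not at hcon
          have hd : (0 : ℚ) < finrank (K0 A) L := by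
            exact_mod_cast finrank_pos (R := K0 A) (M := L)
          nlinarith
        · exact ge_zero _
    rw [rval_ge_zero_iff] at h1
    have h2 : P.coeff i ∈ K0 A := by
      rw [hP, coeff_map]
      exact ((minpoly (K0 A) (ϖ : Ω)).coeff i).2
    exact ⟨⟨P.coeff i, h1, h2⟩, rfl⟩
  obtain ⟨Q, hQ, hdeg, hQm⟩ := lifts_and_natDegree_eq_and_monic hlift hmon
  refine ⟨Q, hQm, ?_, by rw [hQ, hP]⟩
  rw [hdeg, hP, natDegree_map, natDegree_minpoly (rval A p hA) hϖ0 hϖ]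

/-- relations of the uniformizer are multiples of the minimal polynomial -/
theorem dvd_of_aeval_eq_zero {ϖ : L} {Q : Polynomial (R0 A)}
    (hQ : Q.Monic)
    (hQm : Q.map (algebraMap (R0 A) Ω) = (minpoly (K0 A) (ϖ : Ω)).map (algebraMap (K0 A) Ω))
    {f : Polynomial (R0 A)} (hf : aeval (ϖ : Ω) f = 0) : Q ∣ f := by
  let φ : R0 A →+* K0 A :=
    { toFun := fun z => ⟨(z : Ω), z.2.2⟩
      map_one' := rfl
      map_mul' := fun _ _ => rfl
      map_zero' := rfl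
      map_add' := fun _ _ => rfl }
  have hφ : Function.Injective φ := by
    intro a b h
    exact Subtype.ext (congrArg (fun z : K0 A => (z : Ω)) h)
  have hφc : (algebraMap (K0 A) Ω).comp φ = algebraMap (R0 A) Ω := rfl
  have hQφ : Q.map φ = minpoly (K0 A) (ϖ : Ω) := by
    apply map_injective (algebraMap (K0 A) Ω) (algebraMap (K0 A) Ω).injective
    rw [Polynomial.map_map, hφc, hQm]
  have h1 : minpoly (K0 A) (ϖ : Ω) ∣ f.map φ := by
    apply minpoly.dvd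
    rw [aeval_def, eval₂_map, hφc]
    exact hf
  rw [← hQφ] at h1
  exact (map_dvd_map φ hφ hQ).1 h1

set_option maxHeartbeats 1000000 in
/-- the ramification hypothesis from the lifting property -/
theorem hH_of_lift [IsGalois (K0 A) L] (hA : A.LiesOverPrime p) {ζ : Ω} (hζ : IsPrimitiveRoot ζ p)
    (hP : ∀ c ∈ A.nonunits, c ≠ 0 → ∀ E : IntermediateField (K0 A) Ω, FiniteDimensional (K0 A) E →
      (OE A L →ₐ[R0 A] (OE A E ⧸ idl A E (p * (ζ - 1) * c))) → L ≤ E)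
    (ϖ : L) (hϖ0 : ϖ ≠ 0) (hϖ : (finrank (K0 A) L : ℚ) * (rval A p hA).w (ϖ : Ω) = 1)
    (α : Ω) (hα0 : α ≠ 0) (hα : (finrank (K0 A) L : ℚ) * (rval A p hA).w α = 1)
    (hPα0 : aeval α (minpoly (K0 A) (ϖ : Ω)) ≠ 0)
    (hPα : 1 + 1 / ((p : ℚ) - 1) < (rval A p hA).w (aeval α (minpoly (K0 A) (ϖ : Ω)))) :
    L ≤ (K0 A)⟮α⟯ := by
  obtain ⟨Q, hQ, hdeg, hQm⟩ := exists_minpoly_R0 hA hϖ0 hϖ
  obtain ⟨β, hβ⟩ : ∃ β, β = aeval α (minpoly (K0 A) (ϖ : Ω)) := ⟨_, rfl⟩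
  have hβQ : aeval α Q = β := by
    rw [hβ, ← eval_map_algebraMap, hQm, eval_map_algebraMap]
  rw [← hβ] at hPα0 hPα
  have hp0 : (p : Ω) ≠ 0 := Nat.cast_ne_zero.2 hp.out.ne_zero
  have hp1 : (1 : ℚ) < p := by exact_mod_cast hp.out.one_lt
  have hζ1 : ζ - 1 ≠ 0 := sub_ne_zero.2 (hζ.ne_one hp.out.one_lt)
  have hwζ : (rval A p hA).w (ζ - 1) = 1 / ((p : ℚ) - 1) := by
    have h1 := w_zeta (V := rval A p hA) hζ
    have h2 : (p : ℚ) - 1 ≠ 0 := by linarith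
    field_simp
    linarith
  have hpζ : (p : Ω) * (ζ - 1) ≠ 0 := mul_ne_zero hp0 hζ1
  obtain ⟨c, hc⟩ : ∃ c, c = β / (p * (ζ - 1)) := ⟨_, rfl⟩
  have hc0 : c ≠ 0 := by rw [hc]; exact div_ne_zero hPα0 hpζ
  have hcN : c ∈ A.nonunits := by
    rw [← wA_pos_iff hA hc0]
    change 0 < (rval A p hA).w c
    rw [hc, w_div hPα0 hpζ, w_mul hp0 hζ1, (rval A p hA).w_p, hwζ]
    linarith
  have hβc : (p : Ω) * (ζ - 1) * c = β := by rw [hc]; field_simp
  haveI hfin : FiniteDimensional (K0 A) (K0 A)⟮α⟯ :=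
    adjoin.finiteDimensional (Algebra.IsIntegral.isIntegral (R := K0 A) α)
  refine hP c hcN hc0 (K0 A)⟮α⟯ hfin ?_
  rw [hβc]
  have hn0 : (0 : ℚ) < finrank (K0 A) L := by exact_mod_cast finrank_pos (R := K0 A) (M := L)
  have hαA : α ∈ A := by
    rw [← rval_ge_zero_iff hA]
    right
    by_contra hcon
    push Not at hcon
    nlinarith
  have hϖA : (ϖ : Ω) ∈ A := by
    rw [← rval_ge_zero_iff hA]
    right
    by_contra hcon
    push Not at hcon
    nlinarith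
  -- the surjection `R0[X] → O_L`
  let ϖO : OE A L := ⟨(ϖ : Ω), hϖA, ϖ.2⟩
  let αO : OE A (K0 A)⟮α⟯ := ⟨α, hαA, mem_adjoin_simple_self (K0 A) α⟩
  let F : Polynomial (R0 A) →ₐ[R0 A] OE A L := aeval ϖO
  have hFc : ∀ f, ((F f : OE A L) : Ω) = aeval (ϖ : Ω) f := fun f =>
    (aeval_algHom_apply (OE A L).val ϖO f).symm
  have hF : Function.Surjective F := by
    rintro ⟨x, hxA, hxL⟩
    obtain ⟨f, hf⟩ := exists_poly_R0 hA hϖ0 hϖ hxA hxL
    exact ⟨f, Subtype.ext (by rw [hFc, hf])⟩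
  let G : Polynomial (R0 A) →ₐ[R0 A] (OE A (K0 A)⟮α⟯ ⧸ idl A (K0 A)⟮α⟯ β) :=
    (Ideal.Quotient.mkₐ (R0 A) (idl A (K0 A)⟮α⟯ β)).comp (aeval αO)
  have hker : ∀ f, F f = 0 → G f = 0 := by
    intro f hf
    have hf0 : aeval (ϖ : Ω) f = 0 := by
      rw [← hFc, hf]; rfl
    obtain ⟨g, rfl⟩ := dvd_of_aeval_eq_zero hQ hQm hf0
    change Ideal.Quotient.mk (idl A (K0 A)⟮α⟯ β) (aeval αO (Q * g)) = 0
    rw [Ideal.Quotient.eq_zero_iff_mem, mem_idl]
    have h1 : ((aeval αO (Q * g) : OE A (K0 A)⟮α⟯) : Ω) = aeval α (Q * g) :=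
      (aeval_algHom_apply (OE A (K0 A)⟮α⟯).val αO (Q * g)).symm
    refine ⟨aeval α g, ?_, ?_⟩
    · have h2 : ((aeval αO g : OE A (K0 A)⟮α⟯) : Ω) = aeval α g :=
        (aeval_algHom_apply (OE A (K0 A)⟮α⟯).val αO g).symm
      rw [← h2]
      exact (aeval αO g : OE A (K0 A)⟮α⟯).2.1
    · rw [h1, map_mul, hβQ]
  let FR : Polynomial (R0 A) →+* OE A L := F
  let GR : Polynomial (R0 A) →+* (OE A (K0 A)⟮α⟯ ⧸ idl A (K0 A)⟮α⟯ β) := G
  have hkerR : RingHom.ker FR ≤ RingHom.ker GR := fun f hf => hker f hf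
  let Ψ : OE A L →+* (OE A (K0 A)⟮α⟯ ⧸ idl A (K0 A)⟮α⟯ β) := FR.liftOfSurjective hF ⟨GR, hkerR⟩
  have hΨ : ∀ f, Ψ (F f) = G f := fun f =>
    RingHom.liftOfSurjective_comp_apply FR hF ⟨GR, hkerR⟩ f
  exact { Ψ with
    commutes' := fun r => by
      have h1 : algebraMap (R0 A) (OE A L) r = F (C r) := (F.commutes r).symm
      change Ψ _ = _
      rw [h1, hΨ]
      exact G.commutes r }

/-- **The Kummer bound.**  If `L / K0` has the lifting property modulo `p (ζ - 1) 𝔪`, then Kummer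
classes over intermediate fields which split in `L` are represented by elements of
`1 + p O_M`. -/
theorem kummer [IsGalois (K0 A) L] (hA : A.LiesOverPrime p) {ζ : Ω} (hζ : IsPrimitiveRoot ζ p)
    (hP : ∀ c ∈ A.nonunits, c ≠ 0 → ∀ E : IntermediateField (K0 A) Ω, FiniteDimensional (K0 A) E →
      (OE A L →ₐ[R0 A] (OE A E ⧸ idl A E (p * (ζ - 1) * c))) → L ≤ E)
    {M : IntermediateField (K0 A) Ω} (hML : M ≤ L) {y : Ω} (hyL : y ∈ L) (hyM : y ^ p ∈ M)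
    (hy0 : y ≠ 0) :
    ∃ a ∈ M, a ∈ A ∧ ∃ b ∈ M, b ≠ 0 ∧ y ^ p = (1 + p * a) * b ^ p := by
  haveI : FiniteDimensional (K0 A) M :=
    FiniteDimensional.of_injective (inclusion hML).toLinearMap (inclusion hML).injective
  obtain ⟨a, haM, ha, b, hbM, hb0, h⟩ := kummer_abs (rval A p hA)
    (fun ϖ hϖ0 hϖ α hα0 hα h1 h2 => hH_of_lift hA hζ hP ϖ hϖ0 hϖ α hα0 hα h1 h2)
    hML hyL hyM hy0
  exact ⟨a, haM, (rval_ge_zero_iff hA).1 ha, b, hbM, hb0, h⟩

end Fermat.Agent.FlatRam
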