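import Fermat.Agent.Flat.Depth
import Fermat.Agent.Flat.Ram
import Fermat.Agent.Flat.KumI

/-!
# Consequences of flatness
-/

set_option autoImplicit false
set_option linter.unusedSectionVars false
set_option linter.style.haveILetI false

noncomputable section

open scoped TensorProduct
open WithConv

namespace Fermat.Agent.Flat

open Fermat.Agent.Places Fermat.Agent.RedMod Fermat.Agent.FlatRam

local notation "Ω" => AlgebraicClosure ℚ

local notation "𝒢" => (AlgebraicClosure ℚ) ≃ₐ[ℚ] (AlgebraicClosure ℚ)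

variable (A : ValuationSubring (AlgebraicClosure ℚ)) {p : ℕ} [Fact p.Prime]

/-- Consequences of flatness of a Galois module killed by `p`. -/
structure FlC (hA : A.LiesOverPrime p) (U : Type) [AddCommGroup U] (act : 𝒢 → U → U) : Prop where
  kummer : ∀ (M : IntermediateField (K0 A) Ω) (y : Ω),
    (∀ σ ∈ A.inertiaSubgroupIn ℚ, (∀ u, act σ u = u) → ∀ m ∈ M, σ m = m) →
    (∀ σ ∈ A.inertiaSubgroupIn ℚ, (∀ u, act σ u = u) → σ y = y) → y ^ p ∈ M → y ≠ 0 →
    ∃ a ∈ M, a ∈ A ∧ ∃ b ∈ M, b ≠ 0 ∧ y ^ p = (1 + p * a) * b ^ p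
  conn : ∃ U0 : AddSubgroup U, (∀ σ ∈ A.inertiaSubgroupIn ℚ, ∀ u, act σ u - u ∈ U0) ∧
    (∀ U' : AddSubgroup U, (∀ σ ∈ A.inertiaSubgroupIn ℚ, ∀ u ∈ U', act σ u ∈ U') →
      ∀ ψ : U' →+ ZMod p, (∀ σ ∈ A.inertiaSubgroupIn ℚ, ∀ u u' : U', (u' : U) = act σ u →
        ψ u' = ψ u) → ∀ u : U', (u : U) ∈ U0 → ψ u = 0) ∧
    ∀ u ∈ U0, u ≠ 0 → ∃ (x : Ω) (W : AddSubgroup U) (lam : U → kk A), x ≠ 0 ∧ x ∈ A.nonunits ∧
      ((p : ℚ) - 1) * (rval A p hA).w x ≤ 1 ∧ u ∈ W ∧ lam u = 1 ∧
      (∀ v ∈ W, ∀ v' ∈ W, lam (v + v') = lam v + lam v') ∧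
      (∀ σ ∈ A.inertiaSubgroupIn ℚ, ∀ v ∈ W, act σ v ∈ W ∧ lam (act σ v) = th A σ x * lam v) ∧
      ∀ S : Finset U, (∀ σ ∈ A.inertiaSubgroupIn ℚ, ∀ v ∈ S, act σ v ∈ S) →
        (∀ v ∈ S, ∃ σ ∈ A.inertiaSubgroupIn ℚ, act σ u = v) →
        ∃ n : ℤ, (S.card : ℚ) * (rval A p hA).w x = n

variable {A}
variable {R : Type} [CommRing R] [Algebra R Ω] [Algebra R (R0 A)] [IsScalarTower R (R0 A) Ω]
variable [Algebra R (kk A)] [IsScalarTower R (R0 A) (kk A)]
variable {H : Type} [CommRing H] [HopfAlgebra R H] [Module.Finite R H]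

namespace PtGrp

variable {U : Type} [AddCommGroup U] (G : PtGrp A R H U)

theorem mul_nonunits {φ χ : WithConv (H →ₗ[R] Ω)} (h1 : ∀ h, φ h ∈ A.nonunits)
    (h2 : Dv A 1 χ) (h : H) : (φ * χ) h ∈ A.nonunits := by
  rw [LinearMap.convMul_apply]
  induction CoalgebraStruct.comul (R := R) h using TensorProduct.induction_on with
  | zero => rw [map_zero, map_zero]; exact zero_mem_nonunits A
  | add s t hs ht => rw [map_add, map_add]; exact add_mem_nonunits A hs ht
  | tmul s t =>
    rw [TensorProduct.map_tmul, LinearMap.mul'_apply]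
    obtain ⟨b, hb, hb'⟩ := h2 t
    rw [one_mul] at hb'
    change φ s * χ t ∈ _
    rw [hb']
    exact mul_mem_nonunits A (h1 s) hb

/-- the points reducing to the origin -/
def U0 : AddSubgroup U where
  carrier := {u | ∀ h, (G.f u - 1) h ∈ A.nonunits}
  zero_mem' := by
    intro h
    rw [G.f_zero, sub_self]
    exact zero_mem_nonunits A
  add_mem' := by
    intro u v hu hv h
    have h1 : G.f (u + v) - 1 = (G.f u - 1) + (G.f v - 1) * G.f u := by
      rw [add_comm, G.f_add]
      noncomm_ring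
    rw [h1]
    change (G.f u - 1) h + ((G.f v - 1) * G.f u) h ∈ _
    exact add_mem_nonunits A (hu h) (mul_nonunits hv (G.f_int u) h)
  neg_mem' := by
    intro u hu h
    have h1 : G.f (-u) - 1 = -((G.f u - 1) * G.f (-u)) := by
      rw [sub_mul, ← G.f_add, add_neg_cancel, G.f_zero, one_mul]
      noncomm_ring
    rw [h1]
    change -(((G.f u - 1) * G.f (-u)) h) ∈ _
    exact neg_mem_nonunits A (mul_nonunits hu (G.f_int _) h)

theorem mem_U0 {u : U} : u ∈ G.U0 ↔ Cg A (G.pt u) (G.pt 0) := by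
  have h1 : ∀ h, (G.f u - 1) h = G.pt u h - G.pt 0 h := fun h => (G.D_eq u h).symm
  constructor
  · intro h x
    rw [← h1]
    exact h x
  · intro h x
    rw [h1]
    exact h x

/-- restriction to a subgroup -/
def comap {U' : Type} [AddCommGroup U'] (i : U' →+ U) (hi : Function.Injective i)
    (act' : (Ω ≃ₐ[K0 A] Ω) → U' → U') (h : ∀ σ u, i (act' σ u) = G.act σ (i u)) :
    PtGrp A R H U' where
  pt := fun u => G.pt (i u)
  inj := G.inj.comp hi
  add := fun u v => by rw [map_add, G.add]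
  act := act'
  act_pt := fun σ u => by rw [h, G.act_pt]

end PtGrp

/-- **The consequences of flatness.** -/
theorem flC_of_ptGrp [Module.Flat R H] (hA : A.LiesOverPrime p) (hp2 : p ≠ 2)
    (hinj : Function.Injective (algebraMap R Ω)) [Finite (H →ₐ[R] Ω)]
    (hkill : ∀ w : WithConv (H →ₐ[R] Ω), w ^ p = 1) {U : Type} [AddCommGroup U] [Finite U]
    (G : PtGrp A R H U) {act : 𝒢 → U → U}
    (hact : ∀ σ u, G.act σ u = act (AlgEquiv.restrictScalars ℚ σ) u) :
    FlC A hA U act where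
  kummer := fun M y hM hy hyM hy0 => by
    have hp : p.Prime := Fact.out
    obtain ⟨ζ, hζ⟩ : ∃ ζ : Ω, IsPrimitiveRoot ζ p :=
      HasEnoughRootsOfUnity.exists_primitiveRoot Ω p
    have hker : ∀ σ : Ω ≃ₐ[K0 A] Ω, (∀ z ∈ ptField A R H, σ z = z) →
        ∀ u, act (AlgEquiv.restrictScalars ℚ σ) u = u := by
      intro σ hσ u
      rw [← hact]
      apply G.inj
      rw [G.act_pt]
      ext h
      exact hσ _ (pt_mem_ptField _ h)
    refine FlatRam.kummer (L := ptField A R H) hA hζ ?_ ?_ ?_ hyM hy0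
    · intro c hc hc0 E _ η
      exact lift_le hA hinj hkill hζ.pow_eq_one (hζ.ne_one hp.one_lt) hc hc0 E η
    · intro m hm
      apply mem_of_fixed
      intro σ hσ
      exact hM _ (res_mem σ) (hker σ hσ) m hm
    · apply mem_of_fixed
      intro σ hσ
      exact hy _ (res_mem σ) (hker σ hσ)
  conn := by
    refine ⟨G.U0, ?_, ?_, ?_⟩
    · intro σ hσ u
      obtain ⟨τ, rfl⟩ := exists_res_eq hσ
      rw [← hact, G.mem_U0]
      exact G.Cg_sub τ u
    · intro U' hU' ψ hψ u hu
      let G' : PtGrp A R H U' := G.comap U'.subtype Subtype.val_injective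
        (fun σ u => ⟨act (AlgEquiv.restrictScalars ℚ σ) u, hU' _ (res_mem σ) _ u.2⟩)
        (fun σ u => (hact σ _).symm)
      refine psi_eq_zero' G' hA hp2 ψ (fun σ u => ?_) u ?_
      · exact hψ _ (res_mem σ) u _ rfl
      · rw [G.mem_U0] at hu
        exact hu
    · intro u hu hu0
      rw [G.mem_U0] at hu
      obtain ⟨x, h0, hx0, hxn, hw, hD, hux, hl⟩ := G.exists_depth hA hkill hu0 hu
      refine ⟨x, G.Ux x, G.lam x h0, hx0, hxn, hw, hux, hl, ?_, ?_, ?_⟩
      · intro v hv v' hv'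
        exact G.lam_add hx0 hxn h0 hv hv'
      · intro σ hσ v hv
        obtain ⟨τ, rfl⟩ := exists_res_eq hσ
        rw [← hact]
        exact ⟨G.act_mem_Ux hA hx0 hv τ, G.lam_act hA hx0 h0 hv τ⟩
      · intro S hS hS'
        have := G.card_mul_w hA (u := u) (h0 := h0) (by rw [hD]; exact hx0) S
          (fun σ v hv => by rw [hact]; exact hS _ (res_mem σ) v hv)
          (fun v hv => by
            obtain ⟨σ, hσ, h⟩ := hS' v hv
            obtain ⟨τ, rfl⟩ := exists_res_eq hσ
            exact ⟨τ, by rw [hact]; exact h⟩)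
        rw [hD] at this
        exact this

/-- **The consequences of flatness**, for subgroups of the group of points -/
theorem flC_of_hopf [Module.Flat R H] (hA : A.LiesOverPrime p) (hp2 : p ≠ 2)
    (hinj : Function.Injective (algebraMap R Ω)) {U : Type} [AddCommGroup U] [Finite U]
    (e : WithConv (H →ₐ[R] Ω) ≃ U) (he : ∀ f g, e (f * g) = e f + e g)
    (hU : ∀ u : U, p • u = 0) {act : 𝒢 → U → U}
    (hact : ∀ σ ∈ A.inertiaSubgroupIn ℚ, ∀ f g : WithConv (H →ₐ[R] Ω), (∀ h, g h = σ (f h)) →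
      e g = act σ (e f))
    {U' : Type} [AddCommGroup U'] (i : U' →+ U) (hi : Function.Injective i) {act' : 𝒢 → U' → U'}
    (hact' : ∀ σ ∈ A.inertiaSubgroupIn ℚ, ∀ u, i (act' σ u) = act σ (i u)) :
    FlC A hA U' act' := by
  haveI : Finite (WithConv (H →ₐ[R] Ω)) := Finite.of_equiv _ e.symm
  haveI : Finite (H →ₐ[R] Ω) := Finite.of_injective (toConv : (H →ₐ[R] Ω) → _)
    (fun a b h => congrArg ofConv h)
  haveI : Finite U' := Finite.of_injective i hi
  have he1 : e 1 = 0 := by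
    have := he 1 1
    rw [one_mul] at this
    exact left_eq_add.1 this
  have hpow : ∀ (w : WithConv (H →ₐ[R] Ω)) (n : ℕ), e (w ^ n) = n • e w := by
    intro w n
    induction n with
    | zero => rw [pow_zero, he1, zero_smul]
    | succ n ih => rw [pow_succ, he, ih, succ_nsmul]
  have hkill : ∀ w : WithConv (H →ₐ[R] Ω), w ^ p = 1 := by
    intro w
    apply e.injective
    rw [hpow, hU, he1]
  let G : PtGrp A R H U :=
    { pt := fun u => ofConv (e.symm u)
      inj := fun u v h => e.symm.injective (congrArg toConv h)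
      add := fun u v => by
        change e.symm (u + v) = e.symm u * e.symm v
        rw [Equiv.symm_apply_eq, he, Equiv.apply_symm_apply, Equiv.apply_symm_apply]
      act := fun σ u => act (AlgEquiv.restrictScalars ℚ σ) u
      act_pt := fun σ u => by
        have h1 := hact _ (res_mem σ) (e.symm u) (toConv (conj σ (ofConv (e.symm u))))
          (fun h => rfl)
        rw [Equiv.apply_symm_apply] at h1
        rw [← h1, Equiv.symm_apply_apply] }
  let G' : PtGrp A R H U' := G.comap i hi (fun σ u => act' (AlgEquiv.restrictScalars ℚ σ) u)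
    (fun σ u => hact' _ (res_mem σ) u)
  exact flC_of_ptGrp hA hp2 hinj hkill G' (fun σ u => rfl)

end Fermat.Agent.Flat
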