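import Mathlib

/-!
# Counting semilinear solutions
-/

set_option autoImplicit false
set_option linter.unusedSectionVars false
set_option linter.style.haveILetI false

noncomputable section

namespace Fermat.Agent.Flat

open Module

section

variable {F K X : Type} [Field F] [Finite F] [Field K] [Algebra F K] [AddCommGroup X] [Module F X]

theorem exists_algebraMap_of_pow {b : K} (hb : b ^ Nat.card F = b) : ∃ f : F, algebraMap F K f = b := by
  classical
  haveI := Fintype.ofFinite F
  rw [Nat.card_eq_fintype_card] at hb
  have hq : 1 < Fintype.card F := Fintype.one_lt_card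
  by_contra hcon
  push Not at hcon
  have hP : (Polynomial.X ^ Fintype.card F - Polynomial.X : Polynomial K) ≠ 0 :=
    FiniteField.X_pow_card_sub_X_ne_zero K hq
  let S : Finset K := insert b (Finset.univ.image (algebraMap F K))
  have hS : S ⊆ (Polynomial.X ^ Fintype.card F - Polynomial.X : Polynomial K).roots.toFinset := by
    intro x hx
    rw [Multiset.mem_toFinset, Polynomial.mem_roots hP, Polynomial.IsRoot.def,
      Polynomial.eval_sub, Polynomial.eval_pow, Polynomial.eval_X, sub_eq_zero]
    rcases Finset.mem_insert.1 hx with rfl | hx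
    · exact hb
    · obtain ⟨f, -, rfl⟩ := Finset.mem_image.1 hx
      rw [← map_pow, FiniteField.pow_card]
  have h1 : S.card = Fintype.card F + 1 := by
    rw [Finset.card_insert_of_notMem, Finset.card_image_of_injective _ (algebraMap F K).injective,
      Finset.card_univ]
    intro h
    obtain ⟨f, -, hf⟩ := Finset.mem_image.1 h
    exact hcon f hf
  have h2 := (Finset.card_le_card hS).trans (Multiset.toFinset_card_le _)
  have h3 := h2.trans (Polynomial.card_roots' _)
  rw [FiniteField.X_pow_card_sub_X_natDegree_eq K hq, h1] at h3
  omega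

variable (F K X) in
/-- semilinear solutions -/
def Sol (T : X → X) : Submodule F (X → K) where
  carrier := {a | (∀ x y, a (x + y) = a x + a y) ∧ (∀ (f : F) x, a (f • x) = algebraMap F K f * a x) ∧
    ∀ x, a (T x) = a x ^ Nat.card F}
  zero_mem' := by
    refine ⟨fun x y => ?_, fun f x => ?_, fun x => ?_⟩
    · simp
    · simp
    · simp [Nat.card_pos.ne']
  add_mem' := fun {a b} ha hb => by
    haveI := Fintype.ofFinite F
    obtain ⟨p, hp⟩ := CharP.exists F
    haveI := hp
    haveI : CharP K p := charP_of_injective_algebraMap (algebraMap F K).injective p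
    obtain ⟨n, hp, hn⟩ := FiniteField.card F p
    haveI : Fact p.Prime := ⟨hp⟩
    refine ⟨fun x y => ?_, fun f x => ?_, fun x => ?_⟩
    · rw [Pi.add_apply, Pi.add_apply, Pi.add_apply, ha.1, hb.1]; ring
    · rw [Pi.add_apply, Pi.add_apply, ha.2.1, hb.2.1]; ring
    · rw [Pi.add_apply, Pi.add_apply, ha.2.2, hb.2.2, Nat.card_eq_fintype_card, hn,
        add_pow_char_pow]
  smul_mem' := fun f a ha => by
    haveI := Fintype.ofFinite F
    refine ⟨fun x y => ?_, fun g x => ?_, fun x => ?_⟩
    · rw [Pi.smul_apply, Pi.smul_apply, Pi.smul_apply, ha.1, smul_add]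
    · rw [Pi.smul_apply, Pi.smul_apply, ha.2.1, Algebra.smul_def, Algebra.smul_def]; ring
    · rw [Pi.smul_apply, Pi.smul_apply, ha.2.2 x, Algebra.smul_def, Algebra.smul_def,
        mul_pow, ← map_pow (algebraMap F K), Nat.card_eq_fintype_card, FiniteField.pow_card]

theorem sol_li {T : X → X} (hT : Function.Surjective T) (m : ℕ) (a : Fin m → Sol F K X T)
    (ha : LinearIndependent F a) : LinearIndependent K (fun i => (a i : X → K)) := by
  induction m with
  | zero => exact linearIndependent_empty_type
  | succ m ih =>
    have ha := linearIndependent_finSucc'.1 ha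
    refine linearIndependent_finSucc'.2 ⟨ih _ ha.1, fun hmem => ha.2 ?_⟩
    have hli := ih _ ha.1
    have hrange : Set.range (Fin.init fun i => (a i : X → K)) =
        Set.range (fun i : Fin m => (a i.castSucc : X → K)) := rfl
    rw [hrange] at hmem
    obtain ⟨b, hb⟩ := (Submodule.mem_span_range_iff_exists_fun K).1 hmem
    haveI := Fintype.ofFinite F
    obtain ⟨p, hp⟩ := CharP.exists F
    haveI := hp
    haveI : CharP K p := charP_of_injective_algebraMap (algebraMap F K).injective p
    obtain ⟨n, hp, hn⟩ := FiniteField.card F p
    haveI : Fact p.Prime := ⟨hp⟩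
    have h1 : ∑ i, b i ^ Nat.card F • (a i.castSucc : X → K) = (a (Fin.last m) : X → K) := by
      funext x
      obtain ⟨y, rfl⟩ := hT x
      have h2 := (a (Fin.last m)).2.2.2 y
      rw [h2, ← hb, Finset.sum_apply, Finset.sum_apply, Nat.card_eq_fintype_card, hn,
        sum_pow_char_pow]
      refine Finset.sum_congr rfl fun i _ => ?_
      have h3 := (a i.castSucc).2.2.2 y
      rw [Pi.smul_apply, Pi.smul_apply, h3, smul_eq_mul, smul_eq_mul, mul_pow,
        Nat.card_eq_fintype_card, hn]
    have h4 : ∀ i, b i ^ Nat.card F = b i := by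
      intro i
      have h5 : ∑ i, (b i ^ Nat.card F - b i) • (a i.castSucc : X → K) = 0 := by
        simp only [sub_smul]
        rw [Finset.sum_sub_distrib, h1, hb, sub_self]
      exact sub_eq_zero.1 (Fintype.linearIndependent_iff.1 hli _ h5 i)
    choose f hf using fun i => exists_algebraMap_of_pow (h4 i)
    have h6 : a (Fin.last m) = ∑ i, f i • a i.castSucc := by
      apply Subtype.ext
      rw [← hb]
      push_cast
      refine Finset.sum_congr rfl fun i _ => ?_
      funext x
      rw [Pi.smul_apply, Pi.smul_apply, ← hf i, smul_eq_mul]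
      exact (Algebra.smul_def _ _).symm
    rw [h6]
    exact Submodule.sum_mem _ fun i _ => Submodule.smul_mem _ _ (Submodule.subset_span ⟨i, rfl⟩)

theorem sol_card_le [Finite X] {T : X → X} (hT : Function.Surjective T) {m : ℕ}
    (a : Fin m → Sol F K X T) (ha : LinearIndependent F a) : m ≤ finrank F X := by
  haveI : Module.Finite F X := Module.Finite.of_finite
  have h1 := sol_li hT m a ha
  let b := Module.finBasis F X
  have h2 : LinearIndependent K (fun i => (fun j => (a i : X → K) (b j))) := by
    rw [Fintype.linearIndependent_iff] at h1 ⊢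
    intro g hg
    apply h1 g
    funext x
    rw [Finset.sum_apply, Pi.zero_apply]
    have hadd : ∀ i (s : Finset (Fin (finrank F X))) (c : Fin (finrank F X) → F),
        (a i : X → K) (∑ j ∈ s, c j • b j) = ∑ j ∈ s, algebraMap F K (c j) * (a i : X → K) (b j) := by
      intro i s c
      classical
      induction s using Finset.induction_on with
      | empty =>
        rw [Finset.sum_empty, Finset.sum_empty]
        have := (a i).2.2.1 0 0
        rwa [map_zero, zero_mul, smul_zero] at this
      | insert j s hj ih =>
        rw [Finset.sum_insert hj, Finset.sum_insert hj, (a i).2.1, ih, (a i).2.2.1]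
    have h3 : ∀ j, ∑ i, g i * (a i : X → K) (b j) = 0 := by
      intro j
      have := congrFun hg j
      rw [Finset.sum_apply] at this
      simpa using this
    rw [← b.sum_repr x]
    simp only [Pi.smul_apply, smul_eq_mul, hadd, Finset.mul_sum]
    rw [Finset.sum_comm]
    refine Finset.sum_eq_zero fun j _ => ?_
    have h4 : ∑ i, g i * (algebraMap F K (b.repr x j) * (a i : X → K) (b j)) =
        algebraMap F K (b.repr x j) * ∑ i, g i * (a i : X → K) (b j) := by
      rw [Finset.mul_sum]
      exact Finset.sum_congr rfl fun i _ => by ring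
    rw [h4, h3, mul_zero]
  have h3 := h2.fintype_card_le_finrank
  rwa [Fintype.card_fin, Module.finrank_fin_fun] at h3

/-- **Counting lemma** -/
theorem card_sol [Finite X] {T : X → X} (hT : Function.Surjective T) :
    Finite (Sol F K X T) ∧ Nat.card (Sol F K X T) ≤ Nat.card X := by
  haveI : Module.Finite F X := Module.Finite.of_finite
  have hrank : Module.rank F (Sol F K X T) ≤ finrank F X := by
    refine rank_le fun s hs => ?_
    have h1 := sol_card_le hT (fun i : Fin s.card => (s.equivFin.symm i : Sol F K X T))
      (hs.comp _ s.equivFin.symm.injective)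
    exact h1
  haveI : Module.Finite F (Sol F K X T) := by
    rw [← Module.rank_lt_aleph0_iff]
    exact hrank.trans_lt Cardinal.natCast_lt_aleph0
  have h3 : finrank F (Sol F K X T) ≤ finrank F X := by
    rw [← Module.finrank_eq_rank] at hrank
    exact_mod_cast hrank
  refine ⟨Module.finite_of_finite F, ?_⟩
  rw [Module.natCard_eq_pow_finrank (K := F) (V := Sol F K X T),
    Module.natCard_eq_pow_finrank (K := F) (V := X)]
  exact Nat.pow_le_pow_right Nat.card_pos h3

end

end Fermat.Agent.Flat
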