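import Mathlib

/-!
# Complete intersection property of infinitesimal algebras with enough derivations
-/

set_option autoImplicit false
set_option linter.unusedSectionVars false
set_option linter.style.haveILetI false

namespace Fermat.Agent.Flat

open MvPolynomial

section decomp

variable {κ : Type*} [Field κ] (p : ℕ) [Fact p.Prime] [CharP κ p]
variable {ι : Type*} [Fintype ι] [DecidableEq ι]

theorem exists_decomp (hκ : Function.Surjective (frobenius κ p)) 
    (G : MvPolynomial ι κ) :
    ∃ g : (ι → Fin p) → MvPolynomial ι κ,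
      G = ∑ α, g α ^ p * ∏ i, X i ^ (α i : ℕ) := by
  classical
  have hp : 0 < p := (Fact.out : p.Prime).pos
  induction G using MvPolynomial.induction_on' with
  | monomial u a =>
    obtain ⟨b, hb⟩ := hκ a
    rw [frobenius_def] at hb
    let α₀ : ι → Fin p := fun i => ⟨u i % p, Nat.mod_lt _ hp⟩
    let u' : ι →₀ ℕ := Finsupp.equivFunOnFinite.symm fun i => u i / p
    refine ⟨fun α => if α = α₀ then monomial u' b else 0, ?_⟩
    rw [Finset.sum_eq_single α₀]
    · beta_reduce
      rw [if_pos rfl, monomial_pow, hb]
      have h1 : (∏ i, (X i : MvPolynomial ι κ) ^ ((α₀ i : Fin p) : ℕ)) =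
          monomial (Finsupp.equivFunOnFinite.symm fun i => u i % p) 1 := by
        rw [monomial_eq, C_1, one_mul, Finsupp.prod_fintype _ _ (fun i => by simp)]
        rfl
      rw [h1, monomial_mul, mul_one]
      have h2 : u = p • u' + Finsupp.equivFunOnFinite.symm fun i => u i % p := by
        ext i
        simp only [u', Finsupp.coe_add, Finsupp.coe_smul, Pi.add_apply, Pi.smul_apply,
          Finsupp.coe_equivFunOnFinite_symm, smul_eq_mul]
        exact (Nat.div_add_mod _ _).symm
      rw [← h2]
    · intro α _ hα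
      beta_reduce
      rw [if_neg hα, zero_pow hp.ne', zero_mul]
    · intro h
      exact absurd (Finset.mem_univ _) h
  | add G₁ G₂ h1 h2 =>
    obtain ⟨g₁, h1⟩ := h1
    obtain ⟨g₂, h2⟩ := h2
    refine ⟨fun α => g₁ α + g₂ α, ?_⟩
    conv_lhs => rw [h1, h2]
    rw [← Finset.sum_add_distrib]
    refine Finset.sum_congr rfl fun α _ => ?_
    rw [add_pow_char, add_mul]

end decomp

section deriv

variable {κ : Type*} [Field κ] (p : ℕ) [Fact p.Prime] [CharP κ p]
variable {ι : Type*} [Fintype ι] [DecidableEq ι]
variable {C : Type*} [CommRing C] [Algebra κ C]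

/-- Constants for a family of derivations. -/
def consts (D : ι → Derivation κ C C) : Subalgebra κ C where
  carrier := {c | ∀ i, D i c = 0}
  mul_mem' {a b} ha hb i := by rw [Derivation.leibniz, ha i, hb i]; simp
  add_mem' {a b} ha hb i := by rw [map_add, ha i, hb i, add_zero]
  algebraMap_mem' r i := (D i).map_algebraMap r

theorem D_aeval (D : ι → Derivation κ C C) (x : ι → C)
    (hD : ∀ i j, D i (x j) = if i = j then 1 else 0) (i : ι)
    (G : MvPolynomial ι (consts D)) :
    D i (aeval x G) = aeval x (pderiv i G) := by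
  classical
  induction G using MvPolynomial.induction_on with
  | C a =>
    rw [pderiv_C, map_zero, aeval_C]
    exact a.2 i
  | add G₁ G₂ h1 h2 => rw [map_add, map_add, h1, h2, map_add, map_add]
  | mul_X G j h =>
    rw [map_mul, aeval_X, Derivation.leibniz, h, hD, pderiv_mul, pderiv_X, map_add, map_mul,
      map_mul, aeval_X]
    simp only [smul_eq_mul, Pi.single_apply]
    split_ifs with h1 h2 h2
    · simp; ring
    · exact absurd h1.symm h2
    · exact absurd h2.symm h1
    · simp; ring

theorem eq_zero_of_aeval (D : ι → Derivation κ C C) (x : ι → C)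
    (hD : ∀ i j, D i (x j) = if i = j then 1 else 0)
    (n : ℕ) : ∀ (G : MvPolynomial ι (consts D)), (∀ α ∈ G.support, ∑ i, α i ≤ n) →
    (∀ α ∈ G.support, ∀ i, α i < p) → aeval x G = 0 → G = 0 := by
  classical
  have hunit : ∀ m : ℕ, 0 < m → m < p → ∀ c : consts D, c * (m : consts D) = 0 → c = 0 := by
    intro m hm hmp c hc
    have h1 : (m : κ) ≠ 0 := by
      intro h
      rw [CharP.cast_eq_zero_iff κ p] at h
      exact absurd (Nat.le_of_dvd hm h) (by omega)
    have h2 : c * (algebraMap κ (consts D) (m : κ)) = 0 := by rwa [map_natCast]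
    have h3 : c * (algebraMap κ (consts D) (m : κ)) * algebraMap κ (consts D) ((m : κ)⁻¹) = 0 := by
      rw [h2, zero_mul]
    rwa [mul_assoc, ← map_mul, mul_inv_cancel₀ h1, map_one, mul_one] at h3
  -- conclusion from the vanishing of all partial derivatives
  have hconc : ∀ (G : MvPolynomial ι (consts D)), (∀ α ∈ G.support, ∀ i, α i < p) →
      (∀ i, pderiv i G = 0) → aeval x G = 0 → G = 0 := by
    intro G hGp hG h0
    have h1 : ∀ α, α ≠ 0 → coeff α G = 0 := by
      intro α hα
      by_contra hc
      have hmem : α ∈ G.support := mem_support_iff.2 hc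
      obtain ⟨i, hi⟩ : ∃ i, α i ≠ 0 := by
        by_contra h
        push Not at h
        exact hα (Finsupp.ext h)
      have h2 := coeff_pderiv (i := i) G (α - Finsupp.single i 1)
      have hle : Finsupp.single i 1 ≤ α := by
        rw [Finsupp.single_le_iff]
        omega
      rw [hG i, coeff_zero, tsub_add_cancel_of_le hle] at h2
      have h3 : ((α - Finsupp.single i 1 : ι →₀ ℕ) i : ℕ) + 1 = α i := by
        simp; omega
      have h4 : (((α - Finsupp.single i 1 : ι →₀ ℕ) i : ℕ) : consts D) + 1 = ((α i : ℕ) : consts D) := by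
        rw [← h3]; push_cast; rfl
      rw [h4] at h2
      exact hc (hunit (α i) (by omega) (hGp α hmem i) _ h2.symm)
    have h2 : G = MvPolynomial.C (coeff 0 G) := by
      ext α
      rw [coeff_C]
      split_ifs with h
      · rw [← h]
      · rw [h1 α (Ne.symm h)]
    rw [h2, aeval_C] at h0
    have : coeff 0 G = 0 := Subtype.ext h0
    rw [h2, this, C_0]
  induction n with
  | zero =>
    intro G hG hGp h0
    refine hconc G hGp (fun i => ?_) h0
    ext α
    rw [coeff_pderiv, coeff_zero]
    have : coeff (α + Finsupp.single i 1) G = 0 := by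
      by_contra hc
      have h1 := hG _ (mem_support_iff.2 hc)
      have h2 : (α + Finsupp.single i 1 : ι →₀ ℕ) i ≤ ∑ j, (α + Finsupp.single i 1 : ι →₀ ℕ) j :=
        Finset.single_le_sum (f := fun j => (α + Finsupp.single i 1 : ι →₀ ℕ) j)
          (fun _ _ => Nat.zero_le _) (Finset.mem_univ i)
      have h3 : (α + Finsupp.single i 1 : ι →₀ ℕ) i = α i + 1 := by simp
      omega
    rw [this, zero_mul]
  | succ n ih =>
    intro G hG hGp h0
    refine hconc G hGp (fun i => ?_) h0
    refine ih (pderiv i G) ?_ ?_ ?_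
    · intro α hα
      rw [mem_support_iff, coeff_pderiv] at hα
      have h1 : coeff (α + Finsupp.single i 1) G ≠ 0 := left_ne_zero_of_mul hα
      have h2 := hG _ (mem_support_iff.2 h1)
      have h3 : ∑ j, (α + Finsupp.single i 1 : ι →₀ ℕ) j = ∑ j, α j + 1 := by
        simp [Finset.sum_add_distrib, Finsupp.single_apply]
      omega
    · intro α hα j
      rw [mem_support_iff, coeff_pderiv] at hα
      have h1 : coeff (α + Finsupp.single i 1) G ≠ 0 := left_ne_zero_of_mul hα
      have h2 := hGp _ (mem_support_iff.2 h1) j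
      have h3 : α j ≤ (α + Finsupp.single i 1 : ι →₀ ℕ) j := by simp
      omega
    · rw [← D_aeval D x hD, h0, map_zero]

/-- The kernel of a presentation is the Frobenius power of the kernel modulo `x ^ p = 0`. -/
theorem mem_span_pow [CharP C p] (hκ : Function.Surjective (frobenius κ p)) 
    (D : ι → Derivation κ C C) (x : ι → C)
    (hD : ∀ i j, D i (x j) = if i = j then 1 else 0)
    {G : MvPolynomial ι κ} (hG : aeval x G = 0) :
    G ∈ Ideal.span {F : MvPolynomial ι κ | ∃ H, aeval x H ^ p = 0 ∧ F = H ^ p} := by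
  classical
  have hp : 0 < p := (Fact.out : p.Prime).pos
  obtain ⟨g, hg⟩ := exists_decomp p hκ G
  have hconst : ∀ c : C, c ^ p ∈ consts D := by
    intro c i
    rw [Derivation.leibniz_pow]
    simp
  let K := consts D
  let c : (ι → Fin p) → K := fun α => ⟨(aeval x (g α)) ^ p, hconst _⟩
  let fs : (ι → Fin p) → (ι →₀ ℕ) := fun α =>
    Finsupp.equivFunOnFinite.symm fun i => (α i : ℕ)
  have hfs : Function.Injective fs := by
    intro α β h
    funext i
    have := DFunLike.congr_fun h i
    simp only [fs, Finsupp.coe_equivFunOnFinite_symm] at this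
    exact Fin.ext this
  let Gt : MvPolynomial ι K := ∑ α, monomial (fs α) (c α)
  have h1 : aeval x Gt = 0 := by
    rw [← hG, hg, map_sum, map_sum]
    refine Finset.sum_congr rfl fun α _ => ?_
    rw [aeval_monomial, map_mul, map_pow, map_prod]
    congr 1
    rw [Finsupp.prod_fintype _ _ (fun i => by simp)]
    refine Finset.prod_congr rfl fun i _ => ?_
    rw [map_pow, aeval_X]
    rfl
  have hcoeff : ∀ α, coeff (fs α) Gt = c α := by
    intro α
    simp only [Gt]
    rw [coeff_sum, Finset.sum_eq_single α]
    · rw [coeff_monomial, if_pos rfl]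
    · intro β _ hβ
      rw [coeff_monomial, if_neg (fun h => hβ (hfs h))]
    · intro h; exact absurd (Finset.mem_univ _) h
  have hsupp : ∀ β ∈ Gt.support, ∃ α, β = fs α := by
    intro β hβ
    by_contra h
    push Not at h
    rw [mem_support_iff] at hβ
    apply hβ
    simp only [Gt]
    rw [coeff_sum]
    refine Finset.sum_eq_zero fun α _ => ?_
    rw [coeff_monomial, if_neg (fun h' => h α h'.symm)]
  have h2 : Gt = 0 := by
    refine eq_zero_of_aeval p D x hD (∑ _i : ι, p) Gt ?_ ?_ h1
    · intro β hβ
      obtain ⟨α, rfl⟩ := hsupp β hβ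
      exact Finset.sum_le_sum fun i _ => (α i).2.le
    · intro β hβ i
      obtain ⟨α, rfl⟩ := hsupp β hβ
      exact (α i).2
  rw [hg]
  refine sum_mem fun α _ => Ideal.mul_mem_right _ _ (Ideal.subset_span ⟨g α, ?_, rfl⟩)
  have h3 := hcoeff α
  rw [h2, coeff_zero] at h3
  exact (congrArg Subtype.val h3).symm

end deriv

end Fermat.Agent.Flat
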