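import Fermat.Agent.Flat.CI

/-!
# Infinitesimal group schemes over perfect fields are complete intersections
-/

set_option autoImplicit false
set_option linter.unusedSectionVars false
set_option linter.style.haveILetI false

open scoped TensorProduct

namespace Fermat.Agent.Flat

open MvPolynomial

universe u v w

/-- Algebras with a counital comultiplication. -/
structure CB (κ : Type u) (C : Type v) [Field κ] [CommRing C] [Algebra κ C] where
  /-- counit -/
  ε : C →ₐ[κ] κ
  /-- comultiplication -/
  Δ : C →ₐ[κ] C ⊗[κ] C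
  rid : ∀ x, (TensorProduct.rid κ C) ((LinearMap.lTensor C ε.toLinearMap) (Δ x)) = x
  lid : ∀ x, (TensorProduct.lid κ C) ((LinearMap.rTensor C ε.toLinearMap) (Δ x)) = x

/-- Infinitesimal algebras with a counital comultiplication. -/
structure LB (κ : Type u) (C : Type v) [Field κ] [CommRing C] [Algebra κ C] extends CB κ C where
  nil : ∀ x, ε x = 0 → IsNilpotent x

namespace CB

variable {κ : Type u} {C : Type v} [Field κ] [CommRing C] [Algebra κ C] (B : CB κ C)

theorem mul_rid (f : C →ₗ[κ] κ) (hf : ∀ a b, f (a * b) = B.ε a * f b + B.ε b * f a)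
    (s t : C ⊗[κ] C) :
    (TensorProduct.rid κ C) ((LinearMap.lTensor C f) (s * t)) =
      (TensorProduct.rid κ C) ((LinearMap.lTensor C B.ε.toLinearMap) s) *
        (TensorProduct.rid κ C) ((LinearMap.lTensor C f) t) +
      (TensorProduct.rid κ C) ((LinearMap.lTensor C B.ε.toLinearMap) t) *
        (TensorProduct.rid κ C) ((LinearMap.lTensor C f) s) := by
  induction s using TensorProduct.induction_on with
  | zero => simp
  | add s1 s2 h1 h2 =>
    rw [add_mul, map_add, map_add, h1, h2]
    simp only [map_add]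
    ring
  | tmul a b =>
    induction t using TensorProduct.induction_on with
    | zero => simp
    | add t1 t2 h1 h2 =>
      rw [mul_add, map_add, map_add, h1, h2]
      simp only [map_add]
      ring
    | tmul c d =>
      simp only [Algebra.TensorProduct.tmul_mul_tmul, LinearMap.lTensor_tmul,
        TensorProduct.rid_tmul, AlgHom.toLinearMap_apply, hf, Algebra.smul_def, map_add, map_mul]
      ring

/-- invariant derivations -/
noncomputable def der (f : C →ₗ[κ] κ) (hf : ∀ a b, f (a * b) = B.ε a * f b + B.ε b * f a) :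
    Derivation κ C C where
  toLinearMap := (TensorProduct.rid κ C).toLinearMap ∘ₗ (LinearMap.lTensor C f) ∘ₗ
    B.Δ.toLinearMap
  map_one_eq_zero' := by
    have h1 : f 1 = 0 := by
      have := hf 1 1
      simp only [mul_one, map_one, one_mul] at this
      have h2 : f 1 + f 1 = f 1 := this.symm
      exact left_eq_add.1 h2.symm
    simp only [LinearMap.comp_apply, AlgHom.toLinearMap_apply, map_one,
      Algebra.TensorProduct.one_def, LinearMap.lTensor_tmul, h1, TensorProduct.tmul_zero, map_zero]
  leibniz' a b := by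
    simp only [LinearMap.comp_apply, AlgHom.toLinearMap_apply, map_mul, LinearEquiv.coe_coe,
      smul_eq_mul]
    rw [B.mul_rid f hf, B.rid a, B.rid b]

theorem der_apply (f : C →ₗ[κ] κ) (hf : ∀ a b, f (a * b) = B.ε a * f b + B.ε b * f a) (x : C) :
    B.der f hf x = (TensorProduct.rid κ C) ((LinearMap.lTensor C f) (B.Δ x)) := rfl

theorem ε_der (f : C →ₗ[κ] κ) (hf : ∀ a b, f (a * b) = B.ε a * f b + B.ε b * f a) (x : C) :
    B.ε (B.der f hf x) = f x := by
  have h : ∀ s : C ⊗[κ] C, B.ε ((TensorProduct.rid κ C) ((LinearMap.lTensor C f) s)) =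
      f ((TensorProduct.lid κ C) ((LinearMap.rTensor C B.ε.toLinearMap) s)) := by
    intro s
    induction s using TensorProduct.induction_on with
    | zero => simp
    | add s1 s2 h1 h2 => simp only [map_add, h1, h2]
    | tmul a b =>
      simp only [LinearMap.lTensor_tmul, TensorProduct.rid_tmul, map_smul, LinearMap.rTensor_tmul,
        TensorProduct.lid_tmul, AlgHom.toLinearMap_apply, smul_eq_mul]
      ring
  rw [der_apply, h, B.lid]

end CB

namespace LB

variable {κ : Type u} {C : Type v} [Field κ] [CommRing C] [Algebra κ C] (B : LB κ C)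

theorem isUnit_of_ε (x : C) (hx : B.ε x ≠ 0) : IsUnit x := by
  have h1 : IsNilpotent (x - algebraMap κ C (B.ε x)) := B.nil _ (by
    rw [map_sub, AlgHom.commutes]; simp)
  have h2 : IsUnit (algebraMap κ C (B.ε x)) := (IsUnit.mk0 _ hx).map _
  have := h1.isUnit_add_left_of_commute h2 (Commute.all _ _)
  rwa [add_sub_cancel] at this

/-- existence of dual derivations for a minimal generating family -/
theorem exists_dual_der {ι : Type w} [Fintype ι] [DecidableEq ι] (x : ι → C)
    (f : ι → C →ₗ[κ] κ) (hf : ∀ i a b, f i (a * b) = B.ε a * f i b + B.ε b * f i a)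
    (hx : ∀ i j, f i (x j) = if i = j then 1 else 0) :
    ∃ D : ι → Derivation κ C C, ∀ i j, D i (x j) = if i = j then 1 else 0 := by
  let M : Matrix ι ι C := Matrix.of fun i j => B.der (f i) (hf i) (x j)
  have hM : IsUnit M.det := by
    apply B.isUnit_of_ε
    have h1 : B.ε M.det = (M.map B.ε).det := by
      have := RingHom.map_det (B.ε : C →+* κ) M
      exact this
    have h2 : M.map B.ε = 1 := by
      ext i j
      change B.ε (B.der (f i) (hf i) (x j)) = _
      rw [B.ε_der, hx, Matrix.one_apply]
    rw [h1, h2, Matrix.det_one]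
    exact one_ne_zero
  refine ⟨fun i => ∑ k, (M⁻¹ i k) • B.der (f k) (hf k), fun i j => ?_⟩
  have h3 : (M⁻¹ * M) i j = (1 : Matrix ι ι C) i j := by rw [Matrix.nonsing_inv_mul _ hM]
  rw [Matrix.mul_apply, Matrix.one_apply] at h3
  rw [← h3]
  have h4 : ∀ (s : Finset ι) , (∑ k ∈ s, (M⁻¹ i k) • B.der (f k) (hf k)) (x j) =
      ∑ k ∈ s, M⁻¹ i k * M k j := by
    intro s
    induction s using Finset.induction_on with
    | empty => simp
    | insert a s ha ih =>
      rw [Finset.sum_insert ha, Finset.sum_insert ha, Derivation.add_apply, ih]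
      rfl
  exact h4 _

section frob

variable (p : ℕ) [Fact p.Prime] [CharP C p] [CharP κ p]

/-- The image of Frobenius. -/
def frobSub (hκ : Function.Surjective (frobenius κ p)) : Subalgebra κ C where
  carrier := {y | ∃ x : C, x ^ p = y}
  mul_mem' := by
    rintro _ _ ⟨x, rfl⟩ ⟨y, rfl⟩
    exact ⟨x * y, mul_pow _ _ _⟩
  add_mem' := by
    rintro _ _ ⟨x, rfl⟩ ⟨y, rfl⟩
    exact ⟨x + y, add_pow_char _ _ _⟩
  algebraMap_mem' r := by
    obtain ⟨s, hs⟩ := hκ r
    refine ⟨algebraMap κ C s, ?_⟩
    rw [← map_pow, ← frobenius_def, hs]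

theorem mem_frobSub {hκ : Function.Surjective (frobenius κ p)} {y : C} :
    y ∈ frobSub (C := C) p hκ ↔ ∃ x : C, x ^ p = y := Iff.rfl

variable (hκ : Function.Surjective (frobenius κ p))

/-- The inclusion `S ⊗ S → C ⊗ C`. -/
noncomputable def incl : (frobSub (C := C) p hκ) ⊗[κ] (frobSub (C := C) p hκ) →ₐ[κ] C ⊗[κ] C :=
  Algebra.TensorProduct.map (frobSub p hκ).val (frobSub p hκ).val

theorem incl_injective : Function.Injective (incl (C := C) p hκ) :=
  TensorProduct.map_injective_of_flat_flat' _ _ Subtype.val_injective Subtype.val_injective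

theorem Δ_mem [Nontrivial C] (y : frobSub (C := C) p hκ) :
    B.Δ (y : C) ∈ (incl (C := C) p hκ).range := by
  obtain ⟨x, hx⟩ := y.2
  haveI : CharP (C ⊗[κ] C) p := charP_of_injective_algebraMap (algebraMap κ (C ⊗[κ] C)).injective p
  rw [← hx, map_pow]
  induction B.Δ x using TensorProduct.induction_on with
  | zero =>
    rw [zero_pow (Fact.out : p.Prime).ne_zero]
    exact zero_mem _
  | add s t hs ht =>
    rw [add_pow_char]
    exact add_mem hs ht
  | tmul a b =>
    refine ⟨⟨a ^ p, a, rfl⟩ ⊗ₜ ⟨b ^ p, b, rfl⟩, ?_⟩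
    change (a ^ p) ⊗ₜ (b ^ p) = _
    rw [Algebra.TensorProduct.tmul_pow]

/-- The comultiplication on the image of Frobenius. -/
noncomputable def subΔ [Nontrivial C] :
    frobSub (C := C) p hκ →ₐ[κ] (frobSub (C := C) p hκ) ⊗[κ] (frobSub (C := C) p hκ) :=
  (AlgEquiv.ofInjective (incl p hκ) (incl_injective p hκ)).symm.toAlgHom.comp
    ((B.Δ.comp (frobSub p hκ).val).codRestrict (incl p hκ).range (B.Δ_mem p hκ))

theorem incl_subΔ [Nontrivial C] (y : frobSub (C := C) p hκ) :
    incl (C := C) p hκ (B.subΔ p hκ y) = B.Δ (y : C) := by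
  have h := (AlgEquiv.ofInjective (incl (C := C) p hκ) (incl_injective p hκ)).apply_symm_apply
    (((B.Δ.comp (frobSub p hκ).val).codRestrict (incl p hκ).range (B.Δ_mem p hκ)) y)
  exact congrArg Subtype.val h

/-- The induced structure on the image of Frobenius. -/
noncomputable def sub [Nontrivial C] : LB κ (frobSub (C := C) p hκ) where
  ε := B.ε.comp (frobSub p hκ).val
  Δ := B.subΔ p hκ
  rid x := by
    apply Subtype.ext
    rw [← B.rid (x : C), ← B.incl_subΔ p hκ]
    induction B.subΔ p hκ x using TensorProduct.induction_on with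
    | zero => simp
    | add s t hs ht =>
      simp only [map_add] at *
      rw [← hs, ← ht]
      rfl
    | tmul a b => rfl
  lid x := by
    apply Subtype.ext
    rw [← B.lid (x : C), ← B.incl_subΔ p hκ]
    induction B.subΔ p hκ x using TensorProduct.induction_on with
    | zero => simp
    | add s t hs ht =>
      simp only [map_add] at *
      rw [← hs, ← ht]
      rfl
    | tmul a b => rfl
  nil x hx := by
    obtain ⟨n, hn⟩ := B.nil (x : C) hx
    exact ⟨n, Subtype.ext hn⟩

theorem sub_ε [Nontrivial C] (x : frobSub (C := C) p hκ) : (B.sub p hκ).ε x = B.ε x := rfl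

/-- If Frobenius is surjective the algebra is trivial. -/
theorem eq_of_frobSub_eq_top [FiniteDimensional κ C] [Nontrivial C]
    (h : frobSub (C := C) p hκ = ⊤) {x : C} (hx : B.ε x = 0) : x = 0 := by
  have hsurj : Function.Surjective (frobenius C p) := by
    intro y
    have : y ∈ frobSub (C := C) p hκ := h ▸ Algebra.mem_top
    exact this
  -- the kernel of `ε` is a nil ideal, hence nilpotent
  let I : Ideal C := RingHom.ker B.ε
  haveI : IsNoetherianRing C := IsNoetherianRing.of_finite κ C
  obtain ⟨n, hn⟩ : IsNilpotent I := by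
    have hfg : I.FG := IsNoetherian.noetherian I
    exact (Ideal.FG.isNilpotent_iff_le_nilradical hfg).2 fun y hy => B.nil y hy
  have h1 : I ≤ I ^ 2 := by
    intro y hy
    obtain ⟨z, rfl⟩ := hsurj y
    have hz : z ∈ I := by
      have h2 : B.ε (z ^ p) = 0 := hy
      rw [map_pow] at h2
      exact eq_zero_of_pow_eq_zero h2
    have h3 : z ^ p ∈ I ^ p := Ideal.pow_mem_pow hz p
    exact Ideal.pow_le_pow_right (Fact.out : p.Prime).two_le h3
  have h2 : ∀ m : ℕ, I ≤ I ^ (m + 1) := by
    intro m
    induction m with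
    | zero => rw [zero_add, pow_one]
    | succ m ih =>
      calc I ≤ I ^ 2 := h1
        _ = I * I := pow_two I
        _ ≤ I ^ (m + 1) * I := Ideal.mul_mono_left ih
        _ = I ^ (m + 1 + 1) := (pow_succ _ _).symm
  have h3 : I ≤ ⊥ := by
    rw [← Ideal.zero_eq_bot, ← hn]
    exact (h2 n).trans (Ideal.pow_le_pow_right (Nat.le_succ n))
  exact (Submodule.mem_bot C).1 (h3 hx)

end frob

end LB

end Fermat.Agent.Flat
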