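import Fermat.Agent.Flat.CI2

/-!
# Infinitesimal group schemes over perfect fields are complete intersections: the theorem
-/

set_option autoImplicit false
set_option linter.unusedSectionVars false
set_option linter.style.haveILetI false

open scoped TensorProduct

namespace Fermat.Agent.Flat

open MvPolynomial LB

universe u v w

section

variable {κ : Type u} {C : Type v} [Field κ] [CommRing C] [Algebra κ C]

/-- The kernel of a presentation is generated by as many elements as there are variables,
modulo the variables times the kernel. -/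
def CIP {ι : Type w} (x : ι → C) : Prop :=
  ∃ F : ι → MvPolynomial ι κ, (∀ i, aeval x (F i) = 0) ∧
    ∀ G : MvPolynomial ι κ, aeval x G = 0 →
      G ∈ Ideal.span (Set.range F) ⊔
        Ideal.span (Set.range (X : ι → MvPolynomial ι κ)) * RingHom.ker (aeval (R := κ) x)

theorem sub_rename_mem {ι : Type w} {τ : Type*} (a : τ → ι) (θ : MvPolynomial ι κ →ₐ[κ] MvPolynomial τ κ)
    (J : Ideal (MvPolynomial ι κ)) (h : ∀ i, X i - rename a (θ (X i)) ∈ J) (G : MvPolynomial ι κ) :
    G - rename a (θ G) ∈ J := by
  induction G using MvPolynomial.induction_on with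
  | C c =>
    rw [show (C c : MvPolynomial ι κ) = algebraMap κ _ c from rfl, AlgHom.commutes,
      AlgHom.commutes, sub_self]
    exact J.zero_mem
  | add P Q hP hQ =>
    rw [map_add, map_add]
    convert J.add_mem hP hQ using 1
    ring
  | mul_X P i hP =>
    rw [map_mul, map_mul]
    have h1 := J.add_mem (J.mul_mem_left P (h i)) (J.mul_mem_left (rename a (θ (X i))) hP)
    convert h1 using 1
    ring

/-- Reduction to smaller generating families. -/
theorem CIP.of_subfamily {ι : Type w} {τ : Type*} (x : ι → C) (a : τ → ι)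
    (ha : Function.Injective a) (hgen : Function.Surjective (aeval (R := κ) (x ∘ a)))
    (h : CIP (κ := κ) (x ∘ a)) : CIP (κ := κ) x := by
  classical
  obtain ⟨F0, hF0, hG0⟩ := h
  choose g hg using fun i => hgen (x i)
  let F : ι → MvPolynomial ι κ := fun i =>
    if hi : ∃ j, a j = i then rename a (F0 hi.choose) else X i - rename a (g i)
  have hFa : ∀ j, F (a j) = rename a (F0 j) := by
    intro j
    have hi : ∃ j', a j' = a j := ⟨j, rfl⟩
    simp only [F]
    rw [dif_pos hi, ha hi.choose_spec]
  have hFn : ∀ i, (¬ ∃ j, a j = i) → F i = X i - rename a (g i) := by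
    intro i hi
    simp only [F]
    rw [dif_neg hi]
  let θ : MvPolynomial ι κ →ₐ[κ] MvPolynomial τ κ := aeval fun i =>
    if hi : ∃ j, a j = i then X hi.choose else g i
  have hθa : ∀ j, θ (X (a j)) = X j := by
    intro j
    have hi : ∃ j', a j' = a j := ⟨j, rfl⟩
    simp only [θ]
    rw [aeval_X, dif_pos hi, ha hi.choose_spec]
  have hθn : ∀ i, (¬ ∃ j, a j = i) → θ (X i) = g i := by
    intro i hi
    simp only [θ]
    rw [aeval_X, dif_neg hi]
  have hcomp : ∀ G, aeval (x ∘ a) (θ G) = aeval x G := by
    intro G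
    have : (aeval (x ∘ a)).comp θ = aeval (R := κ) x := by
      refine MvPolynomial.algHom_ext fun i => ?_
      rw [aeval_X]
      change aeval (x ∘ a) (θ (X i)) = x i
      by_cases hi : ∃ j, a j = i
      · obtain ⟨j, rfl⟩ := hi
        rw [hθa, aeval_X]; rfl
      · rw [hθn i hi, hg]
    exact DFunLike.congr_fun this G
  have hren : ∀ P : MvPolynomial τ κ, aeval x (rename a P) = aeval (x ∘ a) P := fun P =>
    aeval_rename _ _ _
  refine ⟨F, fun i => ?_, fun G hG => ?_⟩
  · by_cases hi : ∃ j, a j = i
    · obtain ⟨j, rfl⟩ := hi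
      rw [hFa, hren, hF0]
    · rw [hFn i hi, map_sub, aeval_X, hren, hg, sub_self]
  · set J : Ideal (MvPolynomial ι κ) := Ideal.span (Set.range F) with hJ
    have h1 : G - rename a (θ G) ∈ J := by
      refine sub_rename_mem a θ J (fun i => ?_) G
      by_cases hi : ∃ j, a j = i
      · obtain ⟨j, rfl⟩ := hi
        rw [hθa, rename_X, sub_self]
        exact J.zero_mem
      · rw [hθn i hi, ← hFn i hi]
        exact Ideal.subset_span ⟨i, rfl⟩
    have h2 := hG0 (θ G) (by rw [hcomp, hG])
    have h3 : rename a (θ G) ∈ J ⊔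
        Ideal.span (Set.range (X : ι → MvPolynomial ι κ)) * RingHom.ker (aeval (R := κ) x) := by
      have h4 : rename a (θ G) ∈ Ideal.map (rename a : MvPolynomial τ κ →ₐ[κ] MvPolynomial ι κ)
        (Ideal.span (Set.range F0) ⊔
        Ideal.span (Set.range (X : τ → MvPolynomial τ κ)) *
          RingHom.ker (aeval (R := κ) (x ∘ a))) := Ideal.mem_map_of_mem _ h2
      refine (?_ : Ideal.map _ _ ≤ _) h4
      rw [Ideal.map_sup, Ideal.map_mul, Ideal.map_span, Ideal.map_span]
      refine sup_le_sup ?_ (Ideal.mul_mono ?_ ?_)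
      · rw [Ideal.span_le]
        rintro _ ⟨_, ⟨j, rfl⟩, rfl⟩
        refine Ideal.subset_span ⟨a j, ?_⟩
        rw [hFa]
      · rw [Ideal.span_le]
        rintro _ ⟨_, ⟨j, rfl⟩, rfl⟩
        refine Ideal.subset_span ⟨a j, ?_⟩
        exact (rename_X a j).symm
      · rw [Ideal.map_le_iff_le_comap]
        intro P hP
        rw [Ideal.mem_comap, RingHom.mem_ker]
        rw [RingHom.mem_ker] at hP
        exact (hren P).trans hP
    have h5 := Ideal.add_mem _ (Ideal.mem_sup_left (T := Ideal.span (Set.range
      (X : ι → MvPolynomial ι κ)) * RingHom.ker (aeval (R := κ) x)) h1) h3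
    rwa [sub_add_cancel] at h5

/-- The dual functionals property. -/
def HasDual (ε : C →ₐ[κ] κ) {τ : Type w} [DecidableEq τ] (z : τ → C) : Prop :=
  ∃ f : τ → C →ₗ[κ] κ, (∀ i a b, f i (a * b) = ε a * f i b + ε b * f i a) ∧
    ∀ i j, f i (z j) = if i = j then 1 else 0

theorem finrank_frobSub_lt (p : ℕ) [Fact p.Prime] [CharP C p] [CharP κ p] [FiniteDimensional κ C]
    (hκ : Function.Surjective (frobenius κ p)) (h : frobSub (C := C) p hκ ≠ ⊤) :
    Module.finrank κ (frobSub (C := C) p hκ) < Module.finrank κ C := by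
  apply Submodule.finrank_lt (s := Subalgebra.toSubmodule (frobSub (C := C) p hκ))
  exact fun h' => h (Algebra.toSubmodule_eq_top.1 h')

/-- The main induction step. -/
theorem CIP.step (p : ℕ) [Fact p.Prime] [CharP C p] [CharP κ p] [FiniteDimensional κ C]
    [Nontrivial C] (B : LB κ C) (hκ : Function.Surjective (frobenius κ p))
    {τ : Type w} [Fintype τ] [DecidableEq τ] (z : τ → C) (hz : ∀ i, B.ε (z i) = 0)
    (hgen : Function.Surjective (aeval (R := κ) z)) (hd : HasDual B.ε z)
    (IH : frobSub (C := C) p hκ ≠ ⊤ →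
      ∀ y : τ → frobSub (C := C) p hκ, (∀ i, (B.sub p hκ).ε (y i) = 0) →
      Function.Surjective (aeval (R := κ) y) → CIP (κ := κ) y) : CIP (κ := κ) z := by
  classical
  obtain ⟨f, hf, hfz⟩ := hd
  by_cases htop : frobSub (C := C) p hκ = ⊤
  · -- trivial case
    have hz0 : ∀ i, z i = 0 := fun i => B.eq_of_frobSub_eq_top p hκ htop (hz i)
    haveI : IsEmpty τ := ⟨fun i => by
      have h1 := hfz i i
      rw [hz0, map_zero, if_pos rfl] at h1
      exact zero_ne_one h1⟩
    refine ⟨fun i => (IsEmpty.false i).elim, fun i => (IsEmpty.false i).elim, fun G hG => ?_⟩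
    obtain ⟨c, rfl⟩ := C_surjective τ G
    rw [aeval_C] at hG
    have : c = 0 := (algebraMap κ C).injective (by rw [hG, map_zero])
    rw [this, C_0]
    exact Ideal.zero_mem _
  · obtain ⟨D, hD⟩ := B.exists_dual_der z f hf hfz
    let y : τ → frobSub (C := C) p hκ := fun i => ⟨z i ^ p, z i, rfl⟩
    have hy : ∀ P : MvPolynomial τ κ, ((aeval y P : frobSub (C := C) p hκ) : C) =
        aeval z (expand p P) := by
      intro P
      have h2 : (frobSub (C := C) p hκ).val (aeval y P) = aeval (fun i => z i ^ p) P := by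
        rw [← AlgHom.comp_apply, comp_aeval]
        rfl
      rw [aeval_expand]
      exact h2
    have hpow : ∀ H : MvPolynomial τ κ, H ^ p = expand p (map (frobenius κ p) H) := by
      intro H
      rw [← map_frobenius_expand p, map_expand]
    obtain ⟨F, hF0, hF⟩ := IH htop y (fun i => by
        change B.ε (z i ^ p) = 0
        rw [map_pow, hz, zero_pow (Fact.out : p.Prime).ne_zero]) (by
      rintro ⟨s, c, rfl⟩
      obtain ⟨H, rfl⟩ := hgen c
      refine ⟨map (frobenius κ p) H, Subtype.ext ?_⟩
      rw [hy, ← hpow, map_pow])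
    refine ⟨fun i => expand p (F i), fun i => ?_, fun G hG => ?_⟩
    · rw [← hy, hF0]; rfl
    · have h1 := mem_span_pow p hκ D z hD hG
      refine (?_ : Ideal.span _ ≤ _) h1
      rw [Ideal.span_le]
      rintro _ ⟨H, hH, rfl⟩
      rw [SetLike.mem_coe, hpow]
      have h2 : aeval y (map (frobenius κ p) H) = 0 := by
        apply Subtype.ext
        rw [hy, ← hpow, map_pow]
        exact hH
      have h3 := hF _ h2
      have h4 : expand p (map (frobenius κ p) H) ∈ Ideal.map (expand p : MvPolynomial τ κ →ₐ[κ] _)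
        (Ideal.span (Set.range F) ⊔
        Ideal.span (Set.range (X : τ → MvPolynomial τ κ)) *
          RingHom.ker (aeval (R := κ) y)) := Ideal.mem_map_of_mem _ h3
      refine (?_ : Ideal.map _ _ ≤ _) h4
      rw [Ideal.map_sup, Ideal.map_mul, Ideal.map_span, Ideal.map_span]
      refine sup_le_sup ?_ (Ideal.mul_mono ?_ ?_)
      · rw [Ideal.span_le]
        rintro _ ⟨_, ⟨j, rfl⟩, rfl⟩
        exact Ideal.subset_span ⟨j, rfl⟩
      · rw [Ideal.span_le]
        rintro _ ⟨_, ⟨j, rfl⟩, rfl⟩
        have h5 : (X j : MvPolynomial τ κ) ∈ Ideal.span (Set.range (X : τ → MvPolynomial τ κ)) :=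
          Ideal.subset_span ⟨j, rfl⟩
        have h6 := Ideal.pow_mem_of_mem _ h5 p (Fact.out : p.Prime).pos
        have h7 : (expand p : MvPolynomial τ κ →ₐ[κ] MvPolynomial τ κ) (X j) = X j ^ p :=
          expand_X p j
        rw [SetLike.mem_coe]
        exact h7 ▸ h6
      · rw [Ideal.map_le_iff_le_comap]
        intro P hP
        rw [Ideal.mem_comap, RingHom.mem_ker]
        rw [RingHom.mem_ker] at hP
        have h8 := hy P
        rw [hP] at h8
        exact h8.symm

/-- Generators modulo the square of the augmentation ideal generate. -/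
theorem adjoin_eq_top [IsNoetherianRing C] (B : LB κ C) (T : Subalgebra κ C)
    (h : ∀ c, B.ε c = 0 → ∃ t ∈ T, c - t ∈ (RingHom.ker B.ε) ^ 2) : T = ⊤ := by
  set I : Ideal C := RingHom.ker B.ε with hI
  have hmemI : ∀ c, c ∈ I ↔ B.ε c = 0 := fun c => Iff.rfl
  obtain ⟨n, hn⟩ : IsNilpotent I := by
    have hfg : I.FG := IsNoetherian.noetherian I
    exact (Ideal.FG.isNilpotent_iff_le_nilradical hfg).2 fun y hy => B.nil y hy
  have h1 : ∀ k : ℕ, ∀ c ∈ I ^ (k + 1), ∃ t ∈ T, c - t ∈ I ^ (k + 2) := by
    intro k
    induction k with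
    | zero =>
      intro c hc
      rw [zero_add, pow_one] at hc
      exact h c hc
    | succ k ih =>
      intro c hc
      rw [pow_succ] at hc
      induction hc using Submodule.mul_induction_on' with
      | mem_mul_mem a ha b hb =>
        obtain ⟨t, ht, hta⟩ := ih a ha
        obtain ⟨m, hm, hmb⟩ := h b hb
        have ht' : t ∈ I ^ (k + 1) := by
          have := (I ^ (k + 1)).sub_mem ha (Ideal.pow_le_pow_right (by omega) hta)
          rwa [sub_sub_cancel] at this
        refine ⟨t * m, T.mul_mem ht hm, ?_⟩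
        have e : a * b - t * m = (a - t) * b + t * (b - m) := by ring
        rw [e]
        refine Ideal.add_mem _ ?_ ?_
        · have := Ideal.mul_mem_mul hta hb
          rwa [← pow_succ] at this
        · have := Ideal.mul_mem_mul ht' hmb
          rwa [← pow_add] at this
      | add x _ y _ hx hy =>
        obtain ⟨t1, ht1, h1⟩ := hx
        obtain ⟨t2, ht2, h2⟩ := hy
        refine ⟨t1 + t2, T.add_mem ht1 ht2, ?_⟩
        have := Ideal.add_mem _ h1 h2
        convert this using 1
        ring
  have h2 : ∀ k : ℕ, ∀ c ∈ I, ∃ t ∈ T, c - t ∈ I ^ (k + 1) := by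
    intro k
    induction k with
    | zero =>
      intro c hc
      exact ⟨0, T.zero_mem, by rw [sub_zero, zero_add, pow_one]; exact hc⟩
    | succ k ih =>
      intro c hc
      obtain ⟨t, ht, htc⟩ := ih c hc
      obtain ⟨t', ht', h'⟩ := h1 k _ htc
      refine ⟨t + t', T.add_mem ht ht', ?_⟩
      rwa [← sub_sub]
  rw [eq_top_iff]
  intro c _
  have h3 : c - algebraMap κ C (B.ε c) ∈ I := by
    rw [hmemI, map_sub, AlgHom.commutes]; simp
  obtain ⟨t, ht, h4⟩ := h2 n _ h3
  have h5 : I ^ (n + 1) = ⊥ := by
    rw [pow_succ, hn, Ideal.zero_eq_bot, Ideal.bot_mul]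
  rw [h5, Ideal.mem_bot, sub_eq_zero, sub_eq_iff_eq_add] at h4
  rw [h4]
  exact T.add_mem ht (T.algebraMap_mem _)

/-- Extraction of a minimal generating family. -/
theorem exists_minimal [FiniteDimensional κ C] (B : LB κ C) {ι : Type w} [Fintype ι]
    (x : ι → C) (hx : ∀ i, B.ε (x i) = 0) (hgen : Function.Surjective (aeval (R := κ) x)) :
    ∃ (d : ℕ) (a : Fin d → ι), Function.Injective a ∧
      Function.Surjective (aeval (R := κ) (x ∘ a)) ∧ HasDual B.ε (x ∘ a) := by
  classical
  set I : Ideal C := RingHom.ker B.ε with hI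
  have hmemI : ∀ c, c ∈ I ↔ B.ε c = 0 := fun c => Iff.rfl
  -- the cotangent map
  let q : C →ₗ[κ] (C ⧸ (I ^ 2 : Ideal C)) := (Ideal.Quotient.mkₐ κ (I ^ 2)).toLinearMap
  let v : ι → (C ⧸ (I ^ 2 : Ideal C)) := fun i => q (x i)
  have hspan : ∀ c, B.ε c = 0 → q c ∈ Submodule.span κ (Set.range v) := by
    intro c hc
    obtain ⟨G, rfl⟩ := hgen c
    have h1 : ∀ G : MvPolynomial ι κ, q (aeval x G) - q (algebraMap κ C (B.ε (aeval x G))) ∈
        Submodule.span κ (Set.range v) := by
      intro G
      induction G using MvPolynomial.induction_on with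
      | C c =>
        rw [aeval_C, AlgHom.commutes]
        simp
      | add P Q hP hQ =>
        rw [map_add, map_add, map_add, map_add, map_add]
        convert Submodule.add_mem _ hP hQ using 1
        ring
      | mul_X P i _ =>
        have h0 : B.ε (aeval x (P * X i)) = 0 := by
          rw [map_mul, aeval_X, map_mul, hx, mul_zero]
        rw [h0, map_zero, map_zero, sub_zero, map_mul, aeval_X]
        have h2 : q (aeval x P * x i) = B.ε (aeval x P) • v i := by
          have h3 : aeval x P * x i - B.ε (aeval x P) • x i ∈ I ^ 2 := by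
            rw [Algebra.smul_def, ← sub_mul, pow_two]
            refine Ideal.mul_mem_mul ?_ (hx i)
            rw [hmemI, map_sub, AlgHom.commutes]; simp
          have h4 := (Ideal.Quotient.eq (I := I ^ 2)).2 h3
          change q (aeval x P * x i) = q (B.ε (aeval x P) • x i) at h4
          rw [h4, map_smul]
        rw [h2]
        exact Submodule.smul_mem _ _ (Submodule.subset_span ⟨i, rfl⟩)
    have h2 := h1 G
    rwa [hc, map_zero, map_zero, sub_zero] at h2
  obtain ⟨t, hts, htspan, htli⟩ := exists_linearIndependent κ (Set.range v)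
  have htfin : t.Finite := (Set.finite_range v).subset hts
  haveI : Fintype t := htfin.fintype
  let e : Fin (Fintype.card t) ≃ t := (Fintype.equivFin t).symm
  choose a' ha' using fun s : t => hts s.2
  let a : Fin (Fintype.card t) → ι := fun j => a' (e j)
  have hva : ∀ j, v (a j) = (e j : C ⧸ (I ^ 2 : Ideal C)) := fun j => ha' (e j)
  have hli : LinearIndependent κ (v ∘ a) := by
    have h1 : v ∘ a = (fun s : t => (s : C ⧸ (I ^ 2 : Ideal C))) ∘ e := by
      funext j; exact hva j
    rw [h1]
    exact htli.comp e e.injective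
  have hspan' : Submodule.span κ (Set.range (v ∘ a)) = Submodule.span κ (Set.range v) := by
    rw [← htspan]
    congr 1
    ext w
    constructor
    · rintro ⟨j, rfl⟩
      rw [Function.comp_apply, hva]
      exact (e j).2
    · intro hw
      refine ⟨e.symm ⟨w, hw⟩, ?_⟩
      rw [Function.comp_apply, hva, Equiv.apply_symm_apply]
  refine ⟨Fintype.card t, a, ?_, ?_, ?_⟩
  · intro i j hij
    have h1 := hli.injective (show (v ∘ a) i = (v ∘ a) j by
      rw [Function.comp_apply, Function.comp_apply, hij])
    exact h1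
  · -- generation
    haveI : IsNoetherianRing C := IsNoetherianRing.of_finite κ C
    have h1 : (aeval (R := κ) (x ∘ a)).range = ⊤ := by
      apply adjoin_eq_top B
      intro c hc
      have h2 := hspan c hc
      rw [← hspan', Finsupp.mem_span_range_iff_exists_finsupp] at h2
      obtain ⟨l, hl⟩ := h2
      refine ⟨l.sum fun j r => r • x (a j), ?_, ?_⟩
      · refine Subalgebra.sum_mem _ fun j _ => Subalgebra.smul_mem _ ?_ _
        exact ⟨X j, aeval_X _ _⟩
      · rw [← Ideal.Quotient.eq]
        change q c = q _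
        rw [← hl, Finsupp.sum, Finsupp.sum, map_sum]
        refine Finset.sum_congr rfl fun j _ => ?_
        rw [map_smul]
        rfl
    intro c
    have : c ∈ (aeval (R := κ) (x ∘ a)).range := h1 ▸ Algebra.mem_top
    exact this
  · -- dual functionals
    let b := Module.Basis.span hli
    obtain ⟨g, hg⟩ := LinearMap.exists_extend
      (V := C ⧸ (I ^ 2 : Ideal C)) (K := κ) (p := Submodule.span κ (Set.range (v ∘ a)))
      (V' := Fin (Fintype.card t) → κ) (b.equivFun.toLinearMap)
    have hgv : ∀ i j, g (v (a j)) i = if i = j then 1 else 0 := by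
      intro i j
      have h1 : g (v (a j)) = b.equivFun (b j) := by
        have h2 := LinearMap.congr_fun hg (b j)
        rw [LinearMap.comp_apply] at h2
        have h3 : ((b j : Submodule.span κ (Set.range (v ∘ a))) : C ⧸ (I ^ 2 : Ideal C)) =
          v (a j) := congrArg Subtype.val (Module.Basis.span_apply hli j)
        rw [Submodule.subtype_apply, h3] at h2
        exact h2
      rw [h1, Module.Basis.equivFun_self]
      simp only [eq_comm]
    let f : Fin (Fintype.card t) → C →ₗ[κ] κ := fun i =>
      (LinearMap.proj i) ∘ₗ g ∘ₗ q ∘ₗ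
        (LinearMap.id - (Algebra.linearMap κ C) ∘ₗ B.ε.toLinearMap)
    have hf : ∀ i c, f i c = g (q (c - algebraMap κ C (B.ε c))) i := fun i c => rfl
    refine ⟨f, ?_, ?_⟩
    · intro i c d
      rw [hf, hf, hf]
      have h1 : q (c * d - algebraMap κ C (B.ε (c * d))) =
          B.ε c • q (d - algebraMap κ C (B.ε d)) + B.ε d • q (c - algebraMap κ C (B.ε c)) := by
        rw [← map_smul, ← map_smul, ← map_add]
        refine (Ideal.Quotient.eq (I := I ^ 2)).2 ?_
        rw [Algebra.smul_def, Algebra.smul_def, map_mul, map_mul]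
        have h2 : c * d - algebraMap κ C (B.ε c) * algebraMap κ C (B.ε d) -
            (algebraMap κ C (B.ε c) * (d - algebraMap κ C (B.ε d)) +
              algebraMap κ C (B.ε d) * (c - algebraMap κ C (B.ε c))) =
            (c - algebraMap κ C (B.ε c)) * (d - algebraMap κ C (B.ε d)) := by ring
        rw [h2, pow_two]
        refine Ideal.mul_mem_mul ?_ ?_
        · rw [hmemI, map_sub, AlgHom.commutes]; simp
        · rw [hmemI, map_sub, AlgHom.commutes]; simp
      rw [h1, map_add, map_smul, map_smul]
      rfl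
    · intro i j
      rw [hf, Function.comp_apply, hx, map_zero, sub_zero]
      exact hgv i j

/-- **Infinitesimal group schemes over perfect fields are complete intersections.** -/
theorem cip_of_LB (p : ℕ) [Fact p.Prime] [CharP κ p] (hκ : Function.Surjective (frobenius κ p))
    (n : ℕ) : ∀ (C : Type v) [CommRing C] [Algebra κ C] [FiniteDimensional κ C] [Nontrivial C]
      (B : LB κ C), Module.finrank κ C ≤ n → ∀ (ι : Type) [Fintype ι] (x : ι → C),
      (∀ i, B.ε (x i) = 0) → Function.Surjective (aeval (R := κ) x) → CIP (κ := κ) x := by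
  induction n with
  | zero =>
    intro C _ _ _ _ B hn
    have := Module.finrank_pos (R := κ) (M := C)
    omega
  | succ n ih =>
    intro C _ _ _ _ B hn ι _ x hx hgen
    haveI : CharP C p := charP_of_injective_algebraMap (algebraMap κ C).injective p
    obtain ⟨d, a, ha, hgen', hdual⟩ := exists_minimal B x hx hgen
    refine CIP.of_subfamily x a ha hgen' ?_
    refine CIP.step p B hκ (x ∘ a) (fun i => hx _) hgen' hdual fun htop y hy hgy => ?_
    exact ih (frobSub (C := C) p hκ) (B.sub p hκ)
      (by have := finrank_frobSub_lt p hκ htop; omega) (Fin d) y hy hgy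

end

end Fermat.Agent.Flat
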