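import Mathlib

/-!
# Convolution of functionals and ideals
-/

set_option autoImplicit false
set_option linter.unusedSectionVars false
set_option linter.style.haveILetI false

open scoped TensorProduct
open WithConv

namespace Fermat.Agent.Flat

variable {R H B : Type*} [CommRing R] [CommRing H] [HopfAlgebra R H] [CommRing B] [Algebra R B]

/-- functionals with values in an ideal -/
def InIdeal (𝔟 : Ideal B) (φ : WithConv (H →ₗ[R] B)) : Prop := ∀ h, φ h ∈ 𝔟

theorem InIdeal.mul {𝔞 𝔟 : Ideal B} {φ ψ : WithConv (H →ₗ[R] B)} (h1 : InIdeal 𝔞 φ)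
    (h2 : InIdeal 𝔟 ψ) : InIdeal (𝔞 * 𝔟) (φ * ψ) := by
  intro h
  rw [LinearMap.convMul_apply]
  induction CoalgebraStruct.comul (R := R) h using TensorProduct.induction_on with
  | zero => simp
  | add s t hs ht =>
    rw [map_add, map_add]
    exact Ideal.add_mem _ hs ht
  | tmul a b =>
    rw [TensorProduct.map_tmul, LinearMap.mul'_apply]
    exact Ideal.mul_mem_mul (h1 a) (h2 b)

theorem InIdeal.add {𝔟 : Ideal B} {φ ψ : WithConv (H →ₗ[R] B)} (h1 : InIdeal 𝔟 φ)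
    (h2 : InIdeal 𝔟 ψ) : InIdeal 𝔟 (φ + ψ) := fun h => 𝔟.add_mem (h1 h) (h2 h)

theorem InIdeal.neg {𝔟 : Ideal B} {φ : WithConv (H →ₗ[R] B)} (h1 : InIdeal 𝔟 φ) :
    InIdeal 𝔟 (-φ) := fun h => 𝔟.neg_mem (h1 h)

theorem InIdeal.mono {𝔞 𝔟 : Ideal B} (hab : 𝔞 ≤ 𝔟) {φ : WithConv (H →ₗ[R] B)}
    (h1 : InIdeal 𝔞 φ) : InIdeal 𝔟 φ := fun h => hab (h1 h)

theorem InIdeal.nsmul {𝔟 : Ideal B} {φ : WithConv (H →ₗ[R] B)} (h1 : InIdeal 𝔟 φ) (n : ℕ) :
    InIdeal 𝔟 (n • φ) := by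
  induction n with
  | zero => intro h; rw [zero_nsmul]; exact 𝔟.zero_mem
  | succ n ih => rw [succ_nsmul]; exact ih.add h1

theorem InIdeal.sum {𝔟 : Ideal B} {ι : Type*} (s : Finset ι) (φ : ι → WithConv (H →ₗ[R] B))
    (h1 : ∀ i ∈ s, InIdeal 𝔟 (φ i)) : InIdeal 𝔟 (∑ i ∈ s, φ i) := by
  classical
  induction s using Finset.induction_on with
  | empty => intro h; rw [Finset.sum_empty]; exact 𝔟.zero_mem
  | insert a s ha ih =>
    rw [Finset.sum_insert ha]
    exact (h1 a (Finset.mem_insert_self _ _)).add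
      (ih fun i hi => h1 i (Finset.mem_insert_of_mem hi))

theorem InIdeal.pow {𝔟 : Ideal B} {φ : WithConv (H →ₗ[R] B)} (h1 : InIdeal 𝔟 φ) (n : ℕ) :
    InIdeal (𝔟 ^ n) (φ ^ n) := by
  induction n with
  | zero => rw [pow_zero, Ideal.one_eq_top]; exact fun h => Submodule.mem_top
  | succ n ih => rw [pow_succ, pow_succ]; exact ih.mul h1

/-- the functional attached to an algebra map -/
def fn (w : WithConv (H →ₐ[R] B)) : WithConv (H →ₗ[R] B) := toConv w.ofConv.toLinearMap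

theorem fn_apply (w : WithConv (H →ₐ[R] B)) (h : H) : fn w h = w h := rfl

theorem fn_mul (v w : WithConv (H →ₐ[R] B)) : fn (v * w) = fn v * fn w := rfl

theorem fn_one : fn (1 : WithConv (H →ₐ[R] B)) = 1 := rfl

theorem fn_pow (w : WithConv (H →ₐ[R] B)) (n : ℕ) : fn (w ^ n) = fn w ^ n :=
  AlgHom.toLinearMap_convPow w n

/-- The binomial expansion. -/
theorem pow_sub_one (φ : WithConv (H →ₗ[R] B)) (n : ℕ) :
    φ ^ n = ∑ k ∈ Finset.range (n + 1), n.choose k • (φ - 1) ^ k := by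
  have h := Commute.add_pow (Commute.one_right (φ - 1)) n
  rw [sub_add_cancel] at h
  rw [h]
  refine Finset.sum_congr rfl fun k _ => ?_
  rw [one_pow, mul_one, nsmul_eq_mul, Nat.cast_comm]

/-- If `w ^ n = 1` and `w ≡ 1` modulo `𝔟`, then `n (w - 1) ∈ 𝔟²`. -/
theorem nsmul_sub_one_mem {𝔟 : Ideal B} (w : WithConv (H →ₐ[R] B)) {n : ℕ} (hn : 0 < n)
    (hw : w ^ n = 1) (h : InIdeal 𝔟 (fn w - 1)) : InIdeal (𝔟 ^ 2) (n • (fn w - 1)) := by
  have h1 := pow_sub_one (fn w) n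
  rw [← fn_pow, hw, fn_one, Finset.sum_range_succ', Nat.choose_zero_right, pow_zero,
    one_nsmul] at h1
  obtain ⟨m, rfl⟩ := Nat.exists_eq_succ_of_ne_zero hn.ne'
  rw [Finset.sum_range_succ'] at h1
  simp only [zero_add, Nat.choose_one_right, pow_one] at h1
  have h2 : (m + 1) • (fn w - 1) =
      -∑ k ∈ Finset.range m, (m + 1).choose (k + 1 + 1) • (fn w - 1) ^ (k + 1 + 1) := by
    have h3 := h1.symm
    rw [add_eq_right] at h3
    exact eq_neg_of_add_eq_zero_right h3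
  rw [Nat.succ_eq_add_one, h2]
  refine InIdeal.neg (InIdeal.sum _ _ fun k _ => InIdeal.nsmul ?_ _)
  exact (h.pow (k + 1 + 1)).mono (Ideal.pow_le_pow_right (by omega))

/-- the inverse of a point -/
noncomputable def inv' (v : WithConv (H →ₐ[R] B)) : WithConv (H →ₐ[R] B) :=
  toConv (v.ofConv.comp (HopfAlgebra.antipodeAlgHom R H))

theorem fn_comp_mul (v : WithConv (H →ₐ[R] B)) (φ ψ : WithConv (H →ₗ[R] H)) :
    toConv (v.ofConv.toLinearMap ∘ₗ (φ * ψ).ofConv) =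
      toConv (v.ofConv.toLinearMap ∘ₗ φ.ofConv) * toConv (v.ofConv.toLinearMap ∘ₗ ψ.ofConv) := by
  have h := LinearMap.algHom_comp_convMul_distrib v.ofConv φ ψ
  apply ofConv_injective
  exact h

theorem inv'_mul (v : WithConv (H →ₐ[R] B)) : fn (inv' v) * fn v = 1 := by
  have h := fn_comp_mul v (toConv (HopfAlgebra.antipode R (A := H))) (toConv LinearMap.id)
  rw [LinearMap.antipode_mul_id] at h
  refine Eq.trans ?_ (h.symm.trans ?_)
  · rfl
  · apply ofConv_injective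
    ext x
    exact v.ofConv.commutes _

theorem mul_inv' (v : WithConv (H →ₐ[R] B)) : fn v * fn (inv' v) = 1 := by
  have h := fn_comp_mul v (toConv LinearMap.id) (toConv (HopfAlgebra.antipode R (A := H)))
  rw [LinearMap.id_mul_antipode] at h
  refine Eq.trans ?_ (h.symm.trans ?_)
  · rfl
  · apply ofConv_injective
    ext x
    exact v.ofConv.commutes _

/-- Two algebra maps congruent modulo `𝔟` differ by something killed by `n` modulo `𝔟²`. -/
theorem nsmul_sub_mem {𝔟 : Ideal B} (u v : WithConv (H →ₐ[R] B)) {n : ℕ} (hn : 0 < n)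
    (hw : ∀ w : WithConv (H →ₐ[R] B), w ^ n = 1) (h : ∀ x, u x - v x ∈ 𝔟) (x : H) :
    (n : B) * (u x - v x) ∈ 𝔟 ^ 2 := by
  have h1 : InIdeal 𝔟 (fn u - fn v) := h
  have h2 : fn (u * inv' v) - 1 = (fn u - fn v) * fn (inv' v) := by
    rw [sub_mul, ← fn_mul, mul_inv']
  have h3 : InIdeal 𝔟 (fn (u * inv' v) - 1) := by
    rw [h2]
    have := h1.mul (show InIdeal (⊤ : Ideal B) (fn (inv' v)) from fun _ => Submodule.mem_top)
    rwa [Ideal.mul_top] at this
  have h4 := nsmul_sub_one_mem (u * inv' v) hn (hw _) h3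
  have h5 : n • (fn u - fn v) = (n • (fn (u * inv' v) - 1)) * fn v := by
    rw [h2, nsmul_eq_mul, nsmul_eq_mul, mul_assoc, mul_assoc, inv'_mul, mul_one]
  have h6 : InIdeal (𝔟 ^ 2) (n • (fn u - fn v)) := by
    rw [h5]
    have := h4.mul (show InIdeal (⊤ : Ideal B) (fn v) from fun _ => Submodule.mem_top)
    rwa [Ideal.mul_top] at this
  have h7 := h6 x
  have h8 : (n • (fn u - fn v)) x = (n : B) * (u x - v x) := by
    rw [← nsmul_eq_mul]
    rfl
  rwa [h8] at h7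

end Fermat.Agent.Flat
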