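import Fermat.Agent.Flat.CI2
import Fermat.Agent.Flat.Conv

/-!
# Cartier's theorem: finite commutative Hopf algebras in characteristic zero are reduced
-/

set_option autoImplicit false
set_option linter.unusedSectionVars false
set_option linter.style.haveILetI false

open scoped TensorProduct
open WithConv

namespace Fermat.Agent.Flat

universe u v

section

variable {K : Type u} {H : Type v} [Field K] [CommRing H]

/-- derivations lower powers of ideals -/
theorem der_mem_pow [Algebra K H] (D : Derivation K H H) (I : Ideal H) (m : ℕ) :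
    ∀ y ∈ I ^ (m + 1), D y ∈ I ^ m := by
  induction m with
  | zero => intro y _; rw [pow_zero, Ideal.one_eq_top]; exact Submodule.mem_top
  | succ m ih =>
    intro y hy
    rw [pow_succ] at hy
    induction hy using Submodule.mul_induction_on' with
    | mem_mul_mem a ha b hb =>
      rw [Derivation.leibniz, smul_eq_mul, smul_eq_mul]
      refine Ideal.add_mem _ (Ideal.mul_mem_right _ _ ha) ?_
      rw [pow_succ, mul_comm b]
      exact Ideal.mul_mem_mul (ih a ha) hb
    | add x _ y _ hx hy =>
      rw [map_add]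
      exact Ideal.add_mem _ hx hy

theorem CB.idem_of_charZero [Algebra K H] [CharZero K] [FiniteDimensional K H] (B : CB K H) :
    RingHom.ker B.ε ≤ (RingHom.ker B.ε) ^ 2 := by
  set I := RingHom.ker B.ε with hI
  have hmemI : ∀ c, c ∈ I ↔ B.ε c = 0 := fun c => Iff.rfl
  intro x hx
  by_contra hx2
  have h1 : (Ideal.Quotient.mk (I ^ 2) x) ≠ 0 := fun h => hx2 (Ideal.Quotient.eq_zero_iff_mem.1 h)
  obtain ⟨g, hg⟩ : ∃ g : Module.Dual K (H ⧸ (I ^ 2)), g (Ideal.Quotient.mk (I ^ 2) x) ≠ 0 := by
    by_contra hcon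
    push Not at hcon
    exact h1 ((Module.forall_dual_apply_eq_zero_iff K _).1 hcon)
  let q : H →ₗ[K] (H ⧸ (I ^ 2 : Ideal H)) := (Ideal.Quotient.mkₐ K (I ^ 2)).toLinearMap
  let f : H →ₗ[K] K := g ∘ₗ q ∘ₗ (LinearMap.id - (Algebra.linearMap K H) ∘ₗ B.ε.toLinearMap)
  have hf0 : ∀ c, f c = g (q (c - algebraMap K H (B.ε c))) := fun c => rfl
  have hf : ∀ a b, f (a * b) = B.ε a * f b + B.ε b * f a := by
    intro c d
    rw [hf0, hf0, hf0]
    have h1 : q (c * d - algebraMap K H (B.ε (c * d))) =
        B.ε c • q (d - algebraMap K H (B.ε d)) + B.ε d • q (c - algebraMap K H (B.ε c)) := by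
      rw [← map_smul, ← map_smul, ← map_add]
      refine (Ideal.Quotient.eq (I := I ^ 2)).2 ?_
      rw [Algebra.smul_def, Algebra.smul_def, map_mul, map_mul]
      have h2 : c * d - algebraMap K H (B.ε c) * algebraMap K H (B.ε d) -
          (algebraMap K H (B.ε c) * (d - algebraMap K H (B.ε d)) +
            algebraMap K H (B.ε d) * (c - algebraMap K H (B.ε c))) =
          (c - algebraMap K H (B.ε c)) * (d - algebraMap K H (B.ε d)) := by ring
      rw [h2, pow_two]
      refine Ideal.mul_mem_mul ?_ ?_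
      · rw [hmemI, map_sub, AlgHom.commutes]; simp
      · rw [hmemI, map_sub, AlgHom.commutes]; simp
    rw [h1, map_add, map_smul, map_smul]
    rfl
  have hfx : f x ≠ 0 := by
    rw [hf0, (hmemI x).1 hx, map_zero, sub_zero]
    exact hg
  let D := B.der f hf
  have hDx : B.ε (D x) = f x := B.ε_der f hf x
  have key : ∀ m : ℕ, x ^ m ∉ I ^ (m + 1) := by
    intro m
    induction m with
    | zero =>
      rw [pow_zero, zero_add, pow_one, hmemI, map_one]
      exact one_ne_zero
    | succ m ih =>
      intro h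
      apply ih
      have h2 := der_mem_pow D I (m + 1) _ h
      rw [Derivation.leibniz_pow, Nat.add_sub_cancel] at h2
      have h3 : ((m + 1 : ℕ) : K)⁻¹ • ((m + 1) • (x ^ m • D x)) = x ^ m * D x := by
        rw [smul_eq_mul, ← Nat.cast_smul_eq_nsmul K, smul_smul, inv_mul_cancel₀, one_smul]
        exact Nat.cast_ne_zero.2 (Nat.succ_ne_zero m)
      have h4 : x ^ m * D x ∈ I ^ (m + 1) := by
        rw [← h3]
        exact Submodule.smul_of_tower_mem _ _ h2
      have h5 : D x - algebraMap K H (f x) ∈ I := by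
        rw [hmemI, map_sub, hDx, AlgHom.commutes]; simp
      have h6 : x ^ m * (D x - algebraMap K H (f x)) ∈ I ^ (m + 1) := by
        rw [pow_succ]
        exact Ideal.mul_mem_mul (Ideal.pow_mem_pow hx m) h5
      have h7 : x ^ m * algebraMap K H (f x) ∈ I ^ (m + 1) := by
        have := Ideal.sub_mem _ h4 h6
        rwa [← mul_sub, sub_sub_cancel] at this
      have h8 := Ideal.mul_mem_right (algebraMap K H (f x)⁻¹) _ h7
      rwa [mul_assoc, ← map_mul, mul_inv_cancel₀ hfx, map_one, mul_one] at h8
  haveI : IsArtinianRing H := IsArtinianRing.of_finite K H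
  obtain ⟨n, hn⟩ := IsArtinian.monotone_stabilizes (R := H) (M := H)
    (⟨fun m => OrderDual.toDual (I ^ m), fun a b hab => Ideal.pow_le_pow_right hab⟩ :
      ℕ →o (Submodule H H)ᵒᵈ)
  have h9 : I ^ n = I ^ (n + 1) := hn (n + 1) (Nat.le_succ n)
  exact key n (h9 ▸ Ideal.pow_mem_pow hx n)

/-- The counital structure of a bialgebra. -/
noncomputable def CB.ofHopf (K : Type u) (H : Type v) [Field K] [CommRing H] [HopfAlgebra K H] :
    CB K H where
  ε := Bialgebra.counitAlgHom K H
  Δ := Bialgebra.comulAlgHom K H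
  rid x := by
    have h := Coalgebra.lTensor_counit_comul (R := K) x
    change (TensorProduct.rid K H) ((LinearMap.lTensor H (CoalgebraStruct.counit)) (CoalgebraStruct.comul x)) = x
    rw [h]
    simp
  lid x := by
    have h := Coalgebra.rTensor_counit_comul (R := K) x
    change (TensorProduct.lid K H) ((LinearMap.rTensor H (CoalgebraStruct.counit)) (CoalgebraStruct.comul x)) = x
    rw [h]
    simp

theorem formallyUnramified_of_idem {R : Type u} {H : Type v} [CommRing R] [CommRing H] [HopfAlgebra R H]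
    (hI : RingHom.ker (Bialgebra.counitAlgHom R H) ≤ (RingHom.ker (Bialgebra.counitAlgHom R H)) ^ 2) :
    Algebra.FormallyUnramified R H := by
  rw [Algebra.FormallyUnramified.iff_comp_injective]
  intro B _ _ 𝔟 h𝔟 u v huv
  have hcong : ∀ x, u x - v x ∈ 𝔟 := fun x => by
    rw [← Ideal.Quotient.eq]
    exact AlgHom.congr_fun huv x
  set U : WithConv (H →ₐ[R] B) := toConv u with hU
  set V : WithConv (H →ₐ[R] B) := toConv v with hV
  set W := U * inv' V with hW
  have h1 : InIdeal 𝔟 (fn U - fn V) := hcong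
  have h2 : fn W - 1 = (fn U - fn V) * fn (inv' V) := by
    rw [hW, sub_mul, ← fn_mul, mul_inv']
  have h3 : InIdeal 𝔟 (fn W - 1) := by
    rw [h2]
    have := h1.mul (show InIdeal (⊤ : Ideal B) (fn (inv' V)) from fun _ => Submodule.mem_top)
    rwa [Ideal.mul_top] at this
  have h4 : ∀ x ∈ RingHom.ker (Bialgebra.counitAlgHom R H), W x ∈ 𝔟 := by
    intro x hx
    have h5 := h3 x
    have h6 : (fn W - 1) x = W x - algebraMap R B (CoalgebraStruct.counit x) := rfl
    have h7 : (CoalgebraStruct.counit x : R) = 0 := hx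
    rwa [h6, h7, map_zero, sub_zero] at h5
  have h5 : ∀ x ∈ RingHom.ker (Bialgebra.counitAlgHom R H), W x = 0 := by
    intro x hx
    have h6 : x ∈ Ideal.comap W.ofConv (𝔟 ^ 2) := by
      have h7 : RingHom.ker (Bialgebra.counitAlgHom R H) ≤ Ideal.comap W.ofConv 𝔟 := h4
      have h8 : (RingHom.ker (Bialgebra.counitAlgHom R H)) ^ 2 ≤ Ideal.comap W.ofConv (𝔟 ^ 2) := by
       calc (RingHom.ker (Bialgebra.counitAlgHom R H)) ^ 2 ≤ (Ideal.comap W.ofConv 𝔟) ^ 2 :=
            Ideal.pow_right_mono h7 2
        _ ≤ Ideal.comap W.ofConv (𝔟 ^ 2) := Ideal.le_comap_pow _ 2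
      exact h8 (hI hx)
    rw [h𝔟] at h6
    exact h6
  have h6 : fn W = 1 := by
    apply ofConv_injective
    ext x
    have h7 : x - algebraMap R H (CoalgebraStruct.counit x) ∈
        RingHom.ker (Bialgebra.counitAlgHom R H) := by
      rw [RingHom.mem_ker, map_sub, AlgHom.commutes]
      simp
    have h8 := h5 _ h7
    have h9 : W.ofConv (x - algebraMap R H (CoalgebraStruct.counit x)) = 0 := h8
    rw [map_sub, AlgHom.commutes, sub_eq_zero] at h9
    exact h9
  have h7 : fn U = fn V := by
    have h8 : fn W * fn V = fn U := by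
      rw [hW, fn_mul, mul_assoc, inv'_mul, mul_one]
    rw [← h8, h6, one_mul]
  ext x
  have h8 := congrArg (fun φ : WithConv (H →ₗ[R] B) => φ x) h7
  exact h8

/-- **Points separate elements** of a finite commutative Hopf algebra in characteristic zero. -/
theorem eq_zero_of_points {K : Type u} {H : Type v} [Field K] [IsAlgClosed K] [CharZero K] [CommRing H]
    [HopfAlgebra K H] [FiniteDimensional K H] {h : H} (hh : ∀ P : H →ₐ[K] K, P h = 0) : h = 0 := by
  haveI : Algebra.FormallyUnramified K H :=
    formallyUnramified_of_idem (CB.ofHopf K H).idem_of_charZero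
  haveI : IsReduced H := Algebra.FormallyUnramified.isReduced_of_field K H
  haveI : IsArtinianRing H := IsArtinianRing.of_finite K H
  have h1 : h ∈ nilradical H := by
    rw [nilradical_eq_sInf, Submodule.mem_sInf]
    intro (J : Ideal H) hJ
    haveI hJ : J.IsPrime := hJ
    haveI : J.IsMaximal := IsArtinianRing.isMaximal_of_isPrime J
    letI : Field (H ⧸ J) := Ideal.Quotient.field J
    have hbij : Function.Bijective (algebraMap K (H ⧸ J)) :=
      IsAlgClosed.algebraMap_bijective_of_isIntegral
    let e : K ≃ₐ[K] (H ⧸ J) := AlgEquiv.ofBijective (Algebra.ofId K (H ⧸ J)) hbij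
    have h2 := hh ((e.symm : (H ⧸ J) →ₐ[K] K).comp (Ideal.Quotient.mkₐ K J))
    rw [AlgHom.comp_apply] at h2
    have h3 : Ideal.Quotient.mkₐ K J h = 0 := by
      have h4 := congrArg e h2
      rw [map_zero] at h4
      rw [← h4]
      exact (e.apply_symm_apply _).symm
    exact Ideal.Quotient.eq_zero_iff_mem.1 h3
  rw [nilradical_eq_zero] at h1
  exact h1

end

end Fermat.Agent.Flat
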