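import Fermat.Agent.Flat.FlC
import Fermat.Agent.Flat.Tame

/-!
# A tame character in a connected flat module
-/

set_option autoImplicit false
set_option linter.unusedSectionVars false
set_option linter.style.haveILetI false

noncomputable section

namespace Fermat.Agent.Flat

open Fermat.Agent.Places Fermat.Agent.RedMod Fermat.Agent.FlatRam Polynomial

local notation "Ω" => AlgebraicClosure ℚ

local notation "𝒢" => (AlgebraicClosure ℚ) ≃ₐ[ℚ] (AlgebraicClosure ℚ)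

variable {A : ValuationSubring (AlgebraicClosure ℚ)} {p : ℕ} [Fact p.Prime]
variable {k : Type} [Field k] [Finite k] [CharP k p] {V : Type} [AddCommGroup V] [Module k V]

theorem exists_char (hA : A.LiesOverPrime p) [Finite V] [Nontrivial V]
    (ρ : 𝒢 →* Module.End k V) (hfl : FlC A hA V (fun σ v => ρ σ v))
    (hconn : ∀ U0 : AddSubgroup V, (∀ σ ∈ A.inertiaSubgroupIn ℚ, ∀ v, ρ σ v - v ∈ U0) → U0 = ⊤)
    (hsplit : ∀ σ ∈ A.inertiaSubgroupIn ℚ, ∃ α β : k, ∀ v, ρ σ (ρ σ v - β • v) =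
      α • (ρ σ v - β • v)) :
    ∃ (x : Ω) (ι : k →+* kk A) (v1 : V) (χ : 𝒢 → k) (N : ℕ) (n : ℤ), x ≠ 0 ∧ v1 ≠ 0 ∧
      0 < (rval A p hA).w x ∧ ((p : ℚ) - 1) * (rval A p hA).w x ≤ 1 ∧
      (∀ σ ∈ A.inertiaSubgroupIn ℚ, ρ σ v1 = χ σ • v1 ∧ ι (χ σ) = th A σ x) ∧
      0 < N ∧ (∀ m, (∀ σ ∈ A.inertiaSubgroupIn ℚ, th A σ x ^ m = 1) → N ∣ m) ∧
      (N : ℚ) * (rval A p hA).w x = n := by
  classical
  obtain ⟨U0, hU0, -, hdepth⟩ := hfl.conn
  have htop := hconn U0 hU0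
  -- minimal stable subgroup
  let 𝒮 : Set (AddSubgroup V) :=
    {U' | U' ≠ ⊥ ∧ ∀ σ ∈ A.inertiaSubgroupIn ℚ, ∀ v ∈ U', ρ σ v ∈ U'}
  haveI : Finite (AddSubgroup V) := Finite.of_injective (fun U : AddSubgroup V => (U : Set V))
    SetLike.coe_injective
  obtain ⟨U', hU'⟩ := (Set.toFinite 𝒮).exists_minimal ⟨⊤, ⟨top_ne_bot, fun _ _ _ _ => trivial⟩⟩
  obtain ⟨hU'0, hU's⟩ := hU'.1
  have hmin : ∀ W : AddSubgroup V, W ≤ U' → W ≠ ⊥ →
      (∀ σ ∈ A.inertiaSubgroupIn ℚ, ∀ v ∈ W, ρ σ v ∈ W) → U' ≤ W :=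
    fun W hW h0 hs => hU'.2 ⟨h0, hs⟩ hW
  obtain ⟨u, huU', hu0⟩ : ∃ u ∈ U', u ≠ 0 := by
    by_contra hcon
    push Not at hcon
    exact hU'0 ((AddSubgroup.eq_bot_iff_forall _).2 hcon)
  obtain ⟨x, W, lam, hx0, hxn, hw, huW, hl1, hladd, hlact, horb⟩ :=
    hdepth u (by rw [htop]; trivial) hu0
  have hU'W : U' ≤ W := by
    have h1 := hmin (W ⊓ U') inf_le_right (fun h => hu0 ((AddSubgroup.eq_bot_iff_forall _).1 h u
      ⟨huW, huU'⟩)) (fun σ hσ v hv => ⟨(hlact σ hσ v hv.1).1, hU's σ hσ v hv.2⟩)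
    exact h1.trans inf_le_left
  have hl0 : lam 0 = 0 := by
    have := hladd 0 W.zero_mem 0 W.zero_mem
    rw [add_zero] at this
    exact left_eq_add.1 this
  -- `lam` is injective on `U'`
  let lamh : U' →+ kk A :=
    { toFun := fun v => lam v
      map_zero' := hl0
      map_add' := fun v v' => hladd _ (hU'W v.2) _ (hU'W v'.2) }
  have hker : ∀ v ∈ U', lam v = 0 → v = 0 := by
    intro v hv hlv
    by_contra hv0
    let K : AddSubgroup V := (lamh.ker).map U'.subtype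
    have hK : ∀ w, w ∈ K ↔ w ∈ U' ∧ lam w = 0 := by
      intro w
      constructor
      · rintro ⟨w', hw', rfl⟩
        exact ⟨w'.2, hw'⟩
      · rintro ⟨hw, hlw⟩
        exact ⟨⟨w, hw⟩, hlw, rfl⟩
    have h1 := hmin K (fun w hw => ((hK w).1 hw).1)
      (fun h => hv0 ((AddSubgroup.eq_bot_iff_forall _).1 h v ((hK v).2 ⟨hv, hlv⟩)))
      (fun σ hσ w hw => (hK _).2 ⟨hU's σ hσ w ((hK w).1 hw).1, by
        have h2 := (hlact σ hσ w (hU'W ((hK w).1 hw).1)).2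
        rw [((hK w).1 hw).2, mul_zero] at h2
        exact h2⟩)
    have h2 := ((hK u).1 (h1 huU')).2
    rw [hl1] at h2
    exact one_ne_zero h2
  have hinj : ∀ v ∈ U', ∀ v' ∈ U', lam v = lam v' → v = v' := by
    intro v hv v' hv' h
    have h1 : lamh ⟨v, hv⟩ = lamh ⟨v', hv'⟩ := h
    have h2 : lamh (⟨v, hv⟩ - ⟨v', hv'⟩) = 0 := by rw [map_sub, h1, sub_self]
    have h3 := hker (v - v') (U'.sub_mem hv hv') h2
    exact sub_eq_zero.1 h3
  have hlu : ∀ σ ∈ A.inertiaSubgroupIn ℚ, lam (ρ σ u) = th A σ x := by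
    intro σ hσ
    rw [(hlact σ hσ u huW).2, hl1, mul_one]
  -- the image of the character
  have hset : lam '' {v | ∃ σ ∈ A.inertiaSubgroupIn ℚ, ρ σ u = v} =
      {t | ∃ σ ∈ A.inertiaSubgroupIn ℚ, th A σ x = t} := by
    ext t
    constructor
    · rintro ⟨_, ⟨σ, hσ, rfl⟩, rfl⟩
      exact ⟨σ, hσ, (hlu σ hσ).symm⟩
    · rintro ⟨σ, hσ, rfl⟩
      exact ⟨_, ⟨σ, hσ, rfl⟩, hlu σ hσ⟩
  have hfin : {t | ∃ σ ∈ A.inertiaSubgroupIn ℚ, th A σ x = t}.Finite := by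
    rw [← hset]
    exact (Set.toFinite _).image _
  obtain ⟨σ₀, hσ₀, hgen, hpos, hcard⟩ := exists_gen hA hx0 hfin
  obtain ⟨N, hN⟩ : ∃ N, N = orderOf (th A σ₀ x) := ⟨_, rfl⟩
  rw [← hN] at hpos hcard
  obtain ⟨n, hn⟩ := horb (Set.toFinite {v | ∃ σ ∈ A.inertiaSubgroupIn ℚ, ρ σ u = v}).toFinset
    (fun σ hσ v hv => by
      rw [Set.Finite.mem_toFinset] at hv ⊢
      obtain ⟨τ, hτ, rfl⟩ := hv
      exact ⟨σ * τ, Subgroup.mul_mem _ hσ hτ, by rw [map_mul]; rfl⟩)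
    (fun v hv => by
      rw [Set.Finite.mem_toFinset] at hv
      exact hv)
  have hScard : (Set.toFinite {v | ∃ σ ∈ A.inertiaSubgroupIn ℚ, ρ σ u = v}).toFinset.card = N := by
    rw [← Set.ncard_eq_toFinset_card, ← hcard, ← hset, Set.InjOn.ncard_image]
    rintro _ ⟨σ, hσ, rfl⟩ _ ⟨τ, hτ, rfl⟩ h
    exact hinj _ (hU's σ hσ u huU') _ (hU's τ hτ u huU') h
  rw [hScard] at hn
  -- the action of inertia on `U'`
  have hactU : ∀ σ ∈ A.inertiaSubgroupIn ℚ, ∀ m : ℕ, th A σ x = th A σ₀ x ^ m →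
      ∀ v ∈ U', ρ σ v = (ρ σ₀ ^ m) v := by
    intro σ hσ m hm v hv
    rw [← map_pow]
    have hσm : σ₀ ^ m ∈ A.inertiaSubgroupIn ℚ := Subgroup.pow_mem _ hσ₀ m
    refine hinj _ (hU's σ hσ v hv) _ (hU's _ hσm v hv) ?_
    rw [(hlact σ hσ v (hU'W hv)).2, (hlact _ hσm v (hU'W hv)).2, hm, th_pow_left hA hx0 hσ₀]
  -- the eigenvector
  obtain ⟨α₁, v₁, hv₁0, hv₁, hv₁mem⟩ : ∃ (α₁ : k) (v₁ : V), v₁ ≠ 0 ∧ ρ σ₀ v₁ = α₁ • v₁ ∧
      v₁ ∈ Submodule.span k (U' : Set V) := by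
    obtain ⟨α, β, h⟩ := hsplit σ₀ hσ₀
    by_cases h0 : ρ σ₀ u - β • u = 0
    · exact ⟨β, u, hu0, sub_eq_zero.1 h0, Submodule.subset_span huU'⟩
    · refine ⟨α, _, h0, h u, Submodule.sub_mem _ (Submodule.subset_span (hU's σ₀ hσ₀ u huU'))
        (Submodule.smul_mem _ _ (Submodule.subset_span huU'))⟩
  have hv₁pow : ∀ m : ℕ, (ρ σ₀ ^ m) v₁ = α₁ ^ m • v₁ := by
    intro m
    induction m with
    | zero => rw [pow_zero, pow_zero, one_smul]; rfl
    | succ m ih =>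
      rw [pow_succ', Module.End.mul_apply, ih, map_smul, hv₁, smul_smul, pow_succ]
  have hact1 : ∀ σ ∈ A.inertiaSubgroupIn ℚ, ∀ m : ℕ, th A σ x = th A σ₀ x ^ m →
      ρ σ v₁ = α₁ ^ m • v₁ := by
    intro σ hσ m hm
    rw [← hv₁pow]
    have h1 : ∀ v ∈ Submodule.span k (U' : Set V), ρ σ v = (ρ σ₀ ^ m) v := by
      intro v hv
      induction hv using Submodule.span_induction with
      | mem v hv => exact hactU σ hσ m hm v hv
      | zero => rw [map_zero, map_zero]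
      | add v w _ _ hv hw => rw [map_add, map_add, hv, hw]
      | smul c v _ hv => rw [map_smul, map_smul, hv]
    exact h1 _ hv₁mem
  -- the embedding
  have hord : (th A σ₀ x) ^ N = 1 := hN ▸ pow_orderOf_eq_one _
  obtain ⟨ι, hι⟩ : ∃ ι : k →+* kk A, ι α₁ = th A σ₀ x := by
    refine exists_iota hA hpos.ne' hord ?_
    intro P hP
    have h1 : ∀ (P : Polynomial ℤ) (v : V), v ∈ U' → aeval (ρ σ₀) P v ∈ U' ∧
        lam (aeval (ρ σ₀) P v) = eval₂ (Int.castRingHom (kk A)) (th A σ₀ x) P * lam v := by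
      intro P
      induction P using Polynomial.induction_on' with
      | add P Q hP hQ =>
        intro v hv
        obtain ⟨a1, a2⟩ := hP v hv
        obtain ⟨b1, b2⟩ := hQ v hv
        rw [map_add, LinearMap.add_apply, eval₂_add, hladd _ (hU'W a1) _ (hU'W b1), a2, b2]
        exact ⟨U'.add_mem a1 b1, by ring⟩
      | monomial m a =>
        intro v hv
        rw [aeval_monomial, eval₂_monomial]
        have h2 : (algebraMap ℤ (Module.End k V) a * ρ σ₀ ^ m) v = a • ((ρ σ₀ ^ m) v) := by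
          rw [Module.End.mul_apply]
          simp
        have hσm : σ₀ ^ m ∈ A.inertiaSubgroupIn ℚ := Subgroup.pow_mem _ hσ₀ m
        have h3 : (ρ σ₀ ^ m) v ∈ U' := by
          rw [← map_pow]; exact hU's _ hσm v hv
        have h4 : lam ((ρ σ₀ ^ m) v) = th A σ₀ x ^ m * lam v := by
          rw [← map_pow, (hlact _ hσm v (hU'W hv)).2, th_pow_left hA hx0 hσ₀]
        rw [h2]
        refine ⟨U'.zsmul_mem h3 a, ?_⟩
        have h5 : lam (a • ((ρ σ₀ ^ m) v)) = a • lam ((ρ σ₀ ^ m) v) :=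
          map_zsmul lamh a ⟨_, h3⟩
        rw [h5, h4, zsmul_eq_mul, eq_intCast]
        ring
    have h2 : aeval (ρ σ₀) P v₁ = 0 := by
      have h1 : ∀ v ∈ Submodule.span k (U' : Set V), aeval (ρ σ₀) P v = 0 := by
        intro v hv
        induction hv using Submodule.span_induction with
        | mem v hv =>
          obtain ⟨a1, a2⟩ := h1 P v hv
          exact hker _ a1 (by rw [a2, hP, zero_mul])
        | zero => rw [map_zero]
        | add v w _ _ hv hw => rw [map_add, hv, hw, add_zero]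
        | smul c v _ hv => rw [map_smul, hv, smul_zero]
      exact h1 _ hv₁mem
    have h3 : aeval (ρ σ₀) P v₁ = eval₂ (Int.castRingHom k) α₁ P • v₁ := by
      clear h2 hP
      induction P using Polynomial.induction_on' with
      | add P Q hP hQ => rw [map_add, LinearMap.add_apply, hP, hQ, eval₂_add, add_smul]
      | monomial m a =>
        rw [aeval_monomial, eval₂_monomial, Module.End.mul_apply, hv₁pow]
        have h4 : (algebraMap ℤ (Module.End k V) a) (α₁ ^ m • v₁) = (a : k) • (α₁ ^ m • v₁) := by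
          rw [Int.cast_smul_eq_zsmul]
          rfl
        rw [h4, smul_smul, eq_intCast]
    rw [h3] at h2
    exact (smul_eq_zero.1 h2).resolve_right hv₁0
  have hχ : ∀ σ : 𝒢, ∃ c : k, σ ∈ A.inertiaSubgroupIn ℚ → ρ σ v₁ = c • v₁ ∧ ι c = th A σ x := by
    intro σ
    by_cases hσ : σ ∈ A.inertiaSubgroupIn ℚ
    · obtain ⟨m, hm⟩ := hgen σ hσ
      exact ⟨α₁ ^ m, fun _ => ⟨hact1 σ hσ m hm, by rw [map_pow, hι, hm]⟩⟩
    · exact ⟨0, fun h => absurd h hσ⟩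
  choose χ hχ using hχ
  refine ⟨x, ι, v₁, χ, N, n, hx0, hv₁0, (wA_pos_iff hA hx0).2 hxn, hw, fun σ hσ => hχ σ hσ, hpos,
    ?_, hn⟩
  intro m hm
  rw [hN]
  exact orderOf_dvd_of_pow_eq_one (hm σ₀ hσ₀)

end Fermat.Agent.Flat
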