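import Fermat.Agent.Flat.Class1

/-!
# The supersingular case
-/

set_option autoImplicit false
set_option linter.unusedSectionVars false
set_option linter.style.haveILetI false

noncomputable section

namespace Fermat.Agent.Flat

open Fermat.Agent.Places Fermat.Agent.RedMod Fermat.Agent.FlatRam

local notation "Ω" => AlgebraicClosure ℚ

local notation "𝒢" => (AlgebraicClosure ℚ) ≃ₐ[ℚ] (AlgebraicClosure ℚ)

section linear

variable {k : Type} [Field k] {V : Type} [AddCommGroup V] [Module k V]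

/-- a basis from two vectors -/
theorem exists_basis2 (hV : Module.finrank k V = 2) {v w : V} (hv : v ≠ 0)
    (hw : ∀ c : k, w ≠ c • v) : ∃ b : Module.Basis (Fin 2) k V, b 0 = v ∧ b 1 = w := by
  have hli : LinearIndependent k ![v, w] := by
    rw [LinearIndependent.pair_iff' hv]
    intro c h
    exact hw c h.symm
  haveI : FiniteDimensional k V := Module.finite_of_finrank_eq_succ hV
  refine ⟨basisOfLinearIndependentOfCardEqFinrank hli (by rw [hV]; simp), ?_, ?_⟩
  · simp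
  · simp

theorem det_basis2 (b : Module.Basis (Fin 2) k V) (f : Module.End k V) {a c d e : k}
    (h0 : f (b 0) = a • b 0 + c • b 1) (h1 : f (b 1) = d • b 0 + e • b 1) :
    LinearMap.det f = a * e - d * c := by
  rw [← LinearMap.det_toMatrix b, Matrix.det_fin_two]
  simp only [LinearMap.toMatrix_apply, h0, h1, map_add, map_smul, Module.Basis.repr_self,
    Finsupp.coe_add, Finsupp.coe_smul, Pi.add_apply, Pi.smul_apply, smul_eq_mul,
    Finsupp.single_apply]
  simp

theorem basis2_ext (b : Module.Basis (Fin 2) k V) (v : V) : ∃ s t : k, v = s • b 0 + t • b 1 := by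
  refine ⟨b.repr v 0, b.repr v 1, ?_⟩
  conv_lhs => rw [← b.sum_repr v]
  rw [Fin.sum_univ_two]

end linear

variable {A : ValuationSubring (AlgebraicClosure ℚ)} {p : ℕ} [Fact p.Prime]
variable {k : Type} [Field k] [Finite k] [CharP k p] {V : Type} [AddCommGroup V] [Module k V]

variable {ϖ : Ω} (hϖ : ϖ ^ (p ^ 2 - 1) = p) {ζ : Ω} (hζ : IsPrimitiveRoot ζ p)

include hϖ hζ in
/-- **Supersingular modules**: if the inertia-coinvariants are trivial, there is an eigenvector whose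
character is the fundamental character of level two. -/
theorem ss_class (hA : A.LiesOverPrime p) (hp2 : p ≠ 2) (hV : Module.finrank k V = 2)
    (ρ : 𝒢 →* Module.End k V) (hfl : FlC A hA V (fun σ v => ρ σ v))
    (hdet : ∀ σ ∈ A.inertiaSubgroupIn ℚ, ∀ m : ℕ, σ ζ = ζ ^ m → LinearMap.det (ρ σ) = (m : k))
    (hsplit : ∀ σ ∈ A.inertiaSubgroupIn ℚ, ∃ α β : k, ∀ v, ρ σ (ρ σ v - β • v) =
      α • (ρ σ v - β • v))
    (hss : Submodule.span k {w | ∃ σ ∈ A.inertiaSubgroupIn ℚ, ∃ v, w = ρ σ v - v} = ⊤) :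
    ∃ (ι : k →+* kk A) (v : V) (χ : 𝒢 → k), v ≠ 0 ∧
      ∀ σ ∈ A.inertiaSubgroupIn ℚ, ρ σ v = χ σ • v ∧ ι (χ σ) = th A σ ϖ := by
  have hp : p.Prime := Fact.out
  haveI : FiniteDimensional k V := Module.finite_of_finrank_eq_succ hV
  haveI : Finite V := Module.finite_of_finite k
  haveI : Nontrivial V := Module.nontrivial_of_finrank_pos (R := k) (by rw [hV]; norm_num)
  have hp0 := pi_ne_zero hϖ
  have hζ1 : ζ - 1 ≠ 0 := sub_ne_zero.2 (hζ.ne_one hp.one_lt)
  have hconn : ∀ U0 : AddSubgroup V, (∀ σ ∈ A.inertiaSubgroupIn ℚ, ∀ v, ρ σ v - v ∈ U0) →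
      U0 = ⊤ := by
    intro U0 h
    rw [eq_top_iff]
    intro v _
    have h1 : ∀ v ∈ Submodule.span k {w | ∃ σ ∈ A.inertiaSubgroupIn ℚ, ∃ v, w = ρ σ v - v},
        ∀ c : k, c • v ∈ U0 := by
      intro v hv
      induction hv using Submodule.span_induction with
      | mem v hv =>
        obtain ⟨σ, hσ, w, rfl⟩ := hv
        intro c
        rw [smul_sub, ← map_smul]
        exact h σ hσ _
      | zero => intro c; rw [smul_zero]; exact U0.zero_mem
      | add v w _ _ hv hw => intro c; rw [smul_add]; exact U0.add_mem (hv c) (hw c)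
      | smul d v _ hv => intro c; rw [smul_smul]; exact hv _
    have := h1 v (by rw [hss]; trivial) 1
    rwa [one_smul] at this
  obtain ⟨x, ι, v₁, χ, N, n, hx0, hv₁0, hwpos, hwle, hχ, hNpos, hNdvd, hNw⟩ :=
    exists_char hA ρ hfl hconn hsplit
  have hιinj : Function.Injective ι := ι.injective
  obtain ⟨Φ, hΦ⟩ := exists_isFr (p := p) hA
  set v₂ := ρ Φ⁻¹ v₁ with hv₂
  have hρinv : ∀ w, ρ Φ (ρ Φ⁻¹ w) = w := by
    intro w
    rw [← Module.End.mul_apply, ← map_mul, mul_inv_cancel, map_one]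
    rfl
  have hv₂0 : v₂ ≠ 0 := by
    intro h
    apply hv₁0
    rw [← hρinv v₁, ← hv₂, h, map_zero]
  have hχ₂ : ∀ σ ∈ A.inertiaSubgroupIn ℚ, ρ σ v₂ = χ σ ^ p • v₂ := by
    intro σ hσ
    have hσ' := conj_mem_inertia hΦ.1 hσ
    have h1 : ρ σ v₂ = χ (Φ * σ * Φ⁻¹) • v₂ := by
      have h2 : ρ σ v₂ = ρ Φ⁻¹ (ρ (Φ * σ * Φ⁻¹) v₁) := by
        rw [hv₂, ← Module.End.mul_apply, ← map_mul, ← Module.End.mul_apply, ← map_mul]
        congr 2
        group
      rw [h2, (hχ _ hσ').1, map_smul]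
    have h3 : χ (Φ * σ * Φ⁻¹) = χ σ ^ p := by
      apply hιinj
      rw [(hχ _ hσ').2, map_pow, (hχ _ hσ).2, th_fr hA hΦ hσ hx0]
    rw [h1, h3]
  have hthζ : ∀ σ ∈ A.inertiaSubgroupIn ℚ, th A σ (ζ - 1) ^ (p - 1) = 1 := by
    intro σ hσ
    rw [← th_pow hA (pres_of_mem hσ) hζ1]
    have h1 : (rval A p hA).w ((ζ - 1) ^ (p - 1)) = (rval A p hA).w (p : Ω) := by
      rw [RVal.w_pow hζ1, w_zeta hA hζ, (rval A p hA).w_p, Nat.cast_sub hp.one_le, Nat.cast_one,
        mul_one_div, div_self]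
      have : (1 : ℚ) < p := by exact_mod_cast hp.one_lt
      linarith
    have hpp0 : (p : Ω) ≠ 0 := Nat.cast_ne_zero.2 hp.ne_zero
    rw [th_eq_of_w hA hσ (pow_ne_zero _ hζ1) hpp0 h1, th, map_natCast, div_self hpp0, rs_one]
  by_cases hdep : ∃ c : k, v₂ = c • v₁
  · -- the multiplicative case is impossible
    exfalso
    obtain ⟨c, hc⟩ := hdep
    have h1 : ∀ σ ∈ A.inertiaSubgroupIn ℚ, χ σ ^ p = χ σ := by
      intro σ hσ
      have h2 := hχ₂ σ hσ
      have h3 : ρ σ v₂ = χ σ • v₂ := by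
        rw [hc, map_smul, (hχ σ hσ).1, smul_comm]
      rw [h3] at h2
      exact (smul_left_injective k hv₂0 h2).symm
    have h2 : N ∣ p - 1 := by
      apply hNdvd
      intro σ hσ
      have h3 := th_ne_zero hA hx0 hσ
      have h4 : th A σ x ^ p = th A σ x := by
        rw [← (hχ σ hσ).2, ← map_pow, h1 σ hσ]
      apply mul_left_cancel₀ h3
      rw [← pow_succ', Nat.sub_add_cancel hp.one_le, h4, mul_one]
    have h3 : (rval A p hA).w x = (rval A p hA).w (ζ - 1) := by
      rw [w_zeta hA hζ]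
      have hp1 : (1 : ℚ) < p := by exact_mod_cast hp.one_lt
      have h4 : (N : ℚ) ≤ (p : ℚ) - 1 := by
        have := Nat.le_of_dvd (by have := hp.one_lt; omega) h2
        have h5 : ((p - 1 : ℕ) : ℚ) = (p : ℚ) - 1 := by
          rw [Nat.cast_sub hp.one_le, Nat.cast_one]
        rw [← h5]
        exact_mod_cast this
      have h6 : (0 : ℚ) < n := by
        rw [← hNw]
        have : (0 : ℚ) < N := by exact_mod_cast hNpos
        positivity
      have h7 : (1 : ℚ) ≤ n := by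
        have : (0 : ℤ) < n := by exact_mod_cast h6
        exact_mod_cast this
      have h8 : 1 ≤ ((p : ℚ) - 1) * (rval A p hA).w x := by nlinarith
      have h9 : ((p : ℚ) - 1) * (rval A p hA).w x = 1 := le_antisymm hwle h8
      have h10 : (p : ℚ) - 1 ≠ 0 := by linarith
      field_simp
      linarith
    have h4 : ∀ σ ∈ A.inertiaSubgroupIn ℚ, LinearMap.det (ρ σ) = χ σ := by
      intro σ hσ
      obtain ⟨m, hm⟩ := exists_zeta_exp hζ σ
      rw [hdet σ hσ m hm]
      apply hιinj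
      rw [(hχ σ hσ).2, th_eq_of_w hA hσ hx0 hζ1 h3, th_zeta hA hζ hm, map_natCast]
    -- the quotient is unramified
    obtain ⟨w, hw⟩ : ∃ w : V, ∀ c : k, w ≠ c • v₁ := by
      by_contra hcon
      push Not at hcon
      have h5 : Module.finrank k V ≤ 1 := finrank_le_one v₁ fun w => by
        obtain ⟨c, hc⟩ := hcon w
        exact ⟨c, hc.symm⟩
      rw [hV] at h5
      omega
    obtain ⟨b, hb0, hb1⟩ := exists_basis2 hV hv₁0 hw
    have h5 : Submodule.span k {w | ∃ σ ∈ A.inertiaSubgroupIn ℚ, ∃ v, w = ρ σ v - v} ≤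
        Submodule.span k {v₁} := by
      rw [Submodule.span_le]
      rintro _ ⟨σ, hσ, v, rfl⟩
      obtain ⟨a, d, had⟩ := basis2_ext b (ρ σ (b 1))
      have h6 := det_basis2 b (ρ σ) (a := χ σ) (c := 0) (d := a) (e := d)
        (by rw [zero_smul, add_zero, hb0, (hχ σ hσ).1]) had
      rw [h4 σ hσ, mul_zero, sub_zero] at h6
      have hχ0 : χ σ ≠ 0 := by
        intro h
        have := (hχ σ hσ).2
        rw [h, map_zero] at this
        exact th_ne_zero hA hx0 hσ this.symm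
      have hd : d = 1 := by
        apply mul_left_cancel₀ hχ0
        rw [mul_one]; exact h6.symm
      obtain ⟨s, t, hst⟩ := basis2_ext b v
      rw [SetLike.mem_coe, Submodule.mem_span_singleton]
      refine ⟨s * (χ σ - 1) + t * a, ?_⟩
      rw [hst, map_add, map_smul, map_smul, had, hb0, (hχ σ hσ).1, hd]
      module
    rw [hss, top_le_iff] at h5
    have h6 : Module.finrank k (Submodule.span k {v₁}) ≤ 1 := (finrank_span_singleton hv₁0).le
    rw [h5, finrank_top, hV] at h6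
    omega
  · push Not at hdep
    obtain ⟨b, hb0, hb1⟩ := exists_basis2 hV hv₁0 hdep
    have hdet' : ∀ σ ∈ A.inertiaSubgroupIn ℚ, th A σ x ^ (p + 1) = th A σ (ζ - 1) := by
      intro σ hσ
      obtain ⟨m, hm⟩ := exists_zeta_exp hζ σ
      have h1 := det_basis2 b (ρ σ) (a := χ σ) (c := 0) (d := 0) (e := χ σ ^ p)
        (by rw [zero_smul, add_zero, hb0, (hχ σ hσ).1]) (by rw [zero_smul, zero_add, hb1, hχ₂ σ hσ])
      rw [hdet σ hσ m hm, mul_zero, sub_zero, ← pow_succ'] at h1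
      rw [th_zeta hA hζ hm, ← (hχ σ hσ).2, ← map_pow, ← h1, map_natCast]
    have h1 : N ∣ p ^ 2 - 1 := by
      apply hNdvd
      intro σ hσ
      have h2 : p ^ 2 - 1 = (p + 1) * (p - 1) := by
        have := Nat.sq_sub_sq p 1
        rwa [one_pow] at this
      rw [h2, pow_mul, hdet' σ hσ, hthζ σ hσ]
    obtain ⟨d, hd⟩ := h1
    have he0 : (0 : ℚ) < ((p ^ 2 - 1 : ℕ) : ℚ) := by exact_mod_cast (e0_pos (p := p))
    have h2 : ((p ^ 2 - 1 : ℕ) : ℚ) * (rval A p hA).w x = (d : ℤ) * n := by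
      rw [← hNw, hd]
      push_cast
      ring
    have h3 : (0 : ℚ) < (d : ℤ) * n := by rw [← h2]; positivity
    have h4 : (0 : ℤ) < d * n := by exact_mod_cast h3
    obtain ⟨l, hl⟩ := Int.eq_ofNat_of_zero_le h4.le
    have hl0 : 0 < l := by
      have : (0 : ℤ) < l := hl ▸ h4
      exact_mod_cast this
    have h5 : ((p ^ 2 - 1 : ℕ) : ℚ) * (rval A p hA).w x = l := by
      rw [h2]
      exact_mod_cast hl
    have hlp : l ≤ p + 1 := by
      have h6 : (l : ℚ) ≤ p + 1 := by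
        rw [← h5, e0_cast]
        have : (0 : ℚ) ≤ (p : ℚ) + 1 := by positivity
        nlinarith
      exact_mod_cast h6
    have hw : (rval A p hA).w x = (rval A p hA).w (ϖ ^ l) := by
      rw [RVal.w_pow hp0, w_pi_eq hA hϖ, mul_one_div, eq_div_iff he0.ne', mul_comm]
      exact h5
    have hthx : ∀ σ ∈ A.inertiaSubgroupIn ℚ, th A σ x = th A σ ϖ ^ l := by
      intro σ hσ
      rw [th_eq_of_w hA hσ hx0 (pow_ne_zero _ hp0) hw, th_pow hA (pres_of_mem hσ) hp0]
    obtain ⟨σ₀, hσ₀, hprim⟩ := exists_pi_gen hϖ hA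
    have h6 : th A σ₀ ϖ ^ ((l - 1) * (p + 1)) = 1 := by
      have h7 := hdet' σ₀ hσ₀
      rw [hthx σ₀ hσ₀, th_eq_of_w hA hσ₀ hζ1 (pow_ne_zero _ hp0) (w_zeta_pi hϖ hA hζ),
        th_pow hA (pres_of_mem hσ₀) hp0, ← pow_mul] at h7
      have h8 : l * (p + 1) = (l - 1) * (p + 1) + (p + 1) := by
        obtain ⟨l', rfl⟩ : ∃ l', l = l' + 1 := ⟨l - 1, by omega⟩
        rw [Nat.add_sub_cancel]; ring
      rw [h8, pow_add] at h7
      exact (mul_eq_right₀ (pow_ne_zero _ (th_ne_zero hA hp0 hσ₀))).1 h7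
    have h7 : p - 1 ∣ l - 1 := by
      have h8 := hprim.dvd_of_pow_eq_one _ h6
      have h9 : p ^ 2 - 1 = (p - 1) * (p + 1) := by
        have := Nat.sq_sub_sq p 1
        rw [one_pow] at this
        rw [this, mul_comm]
      rw [h9] at h8
      exact Nat.dvd_of_mul_dvd_mul_right (by omega) h8
    have h8 : l = 1 ∨ l = p := by
      obtain ⟨c, hc⟩ := h7
      have hp3 : 3 ≤ p := by
        have := hp.two_le
        omega
      rcases Nat.lt_or_ge c 2 with hc2 | hc2
      · interval_cases c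
        · left; omega
        · right; omega
      · exfalso
        have : (p - 1) * 2 ≤ (p - 1) * c := Nat.mul_le_mul_left _ hc2
        omega
    rcases h8 with rfl | rfl
    · exact ⟨ι, v₁, χ, hv₁0, fun σ hσ => ⟨(hχ σ hσ).1, by rw [(hχ σ hσ).2, hthx σ hσ, pow_one]⟩⟩
    · refine ⟨ι, v₂, fun σ => χ σ ^ l, hv₂0, fun σ hσ => ⟨hχ₂ σ hσ, ?_⟩⟩
      rw [map_pow, (hχ σ hσ).2, hthx σ hσ, ← pow_mul]
      have h9 : l * l = l ^ 2 - 1 + 1 := by
        rw [← sq]
        have := e0_pos (p := l)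
        omega
      rw [h9, pow_succ, th_pi_pow hϖ hA hσ, one_mul]

end Fermat.Agent.Flat
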