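import Fermat.Agent.Flat.KumEx
import Fermat.Agent.Flat.Class2

/-!
# Local cocycles with values in the trace zero endomorphisms
-/

set_option autoImplicit false
set_option linter.unusedSectionVars false
set_option linter.style.haveILetI false

noncomputable section

namespace Fermat.Agent.Flat

open Fermat.Agent.Places Fermat.Agent.RedMod Fermat.Agent.FlatRam

local notation "Ω" => AlgebraicClosure ℚ

local notation "𝒢" => (AlgebraicClosure ℚ) ≃ₐ[ℚ] (AlgebraicClosure ℚ)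

variable {A : ValuationSubring (AlgebraicClosure ℚ)} {p : ℕ} [Fact p.Prime]
variable {k : Type} [Field k] {V : Type} [AddCommGroup V] [Module k V]

/-- local cocycles -/
structure Coc (A : ValuationSubring (AlgebraicClosure ℚ)) (ρ : 𝒢 →* Module.End k V)
    (c : 𝒢 → Module.End k V) : Prop where
  mul : ∀ σ τ, Pres A σ → Pres A τ → c (σ * τ) = c σ + ρ σ * c τ * ρ σ⁻¹
  tr : ∀ σ, Pres A σ → LinearMap.trace k V (c σ) = 0
  lc : ∃ F : IntermediateField ℚ Ω, FiniteDimensional ℚ F ∧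
    ∀ σ, Pres A σ → (∀ x ∈ F, σ x = x) → c σ = 0

/-- the action on the dual numbers -/
def actE (ρ : 𝒢 →* Module.End k V) (c : 𝒢 → Module.End k V) (σ : 𝒢) (u : V × V) : V × V :=
  (ρ σ u.1, ρ σ u.2 + c σ (ρ σ u.1))

variable {ρ : 𝒢 →* Module.End k V}

theorem Pres.one : Pres A 1 := fun _ => Iff.rfl

theorem rho_mul_inv (σ : 𝒢) : ρ σ * ρ σ⁻¹ = 1 := by rw [← map_mul, mul_inv_cancel, map_one]

theorem rho_inv_mul (σ : 𝒢) : ρ σ⁻¹ * ρ σ = 1 := by rw [← map_mul, inv_mul_cancel, map_one]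

theorem rho_inv_apply (σ : 𝒢) (v : V) : ρ σ⁻¹ (ρ σ v) = v := by
  rw [← Module.End.mul_apply, rho_inv_mul]; rfl

theorem rho_apply_inv (σ : 𝒢) (v : V) : ρ σ (ρ σ⁻¹ v) = v := by
  rw [← Module.End.mul_apply, rho_mul_inv]; rfl

namespace Coc

variable {c d : 𝒢 → Module.End k V}

theorem one (h : Coc A ρ c) : c 1 = 0 := by
  have h1 := h.mul 1 1 Pres.one Pres.one
  rw [mul_one, inv_one, map_one, one_mul, mul_one] at h1
  exact left_eq_add.1 h1

theorem zero : Coc A ρ (fun _ => 0) where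
  mul := fun σ τ _ _ => by simp
  tr := fun σ _ => by simp
  lc := ⟨⊥, inferInstance, fun _ _ _ => rfl⟩

theorem add (h : Coc A ρ c) (h' : Coc A ρ d) : Coc A ρ (fun σ => c σ + d σ) where
  mul := fun σ τ hσ hτ => by
    rw [h.mul σ τ hσ hτ, h'.mul σ τ hσ hτ]
    noncomm_ring
  tr := fun σ hσ => by rw [map_add, h.tr σ hσ, h'.tr σ hσ, add_zero]
  lc := by
    obtain ⟨F, hF, h1⟩ := h.lc
    obtain ⟨F', hF', h2⟩ := h'.lc
    refine ⟨F ⊔ F', inferInstance, fun σ hσ hx => ?_⟩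
    rw [h1 σ hσ fun x hx' => hx x ((le_sup_left : F ≤ F ⊔ F') hx'),
      h2 σ hσ fun x hx' => hx x ((le_sup_right : F' ≤ F ⊔ F') hx'), add_zero]

theorem smul (h : Coc A ρ c) (t : k) : Coc A ρ (fun σ => t • c σ) where
  mul := fun σ τ hσ hτ => by
    rw [h.mul σ τ hσ hτ, smul_add, mul_smul_comm, smul_mul_assoc]
  tr := fun σ hσ => by rw [map_smul, h.tr σ hσ, smul_zero]
  lc := by
    obtain ⟨F, hF, h1⟩ := h.lc
    exact ⟨F, hF, fun σ hσ hx => by rw [h1 σ hσ hx, smul_zero]⟩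

theorem sub (h : Coc A ρ c) (h' : Coc A ρ d) : Coc A ρ (fun σ => c σ - d σ) := by
  have h1 := h.add (h'.smul (-1))
  have h2 : (fun σ => c σ + (-1 : k) • d σ) = fun σ => c σ - d σ := by
    funext σ
    rw [neg_one_smul, sub_eq_add_neg]
  rwa [h2] at h1

/-- coboundaries -/
theorem cob (hρ : ∃ F : IntermediateField ℚ Ω, FiniteDimensional ℚ F ∧
    ∀ σ, (∀ x ∈ F, σ x = x) → ρ σ = 1) (X : Module.End k V) :
    Coc A ρ (fun σ => ρ σ * X * ρ σ⁻¹ - X) where
  mul := fun σ τ _ _ => by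
    rw [mul_inv_rev, map_mul, map_mul]
    noncomm_ring
  tr := fun σ _ => by
    rw [map_sub, LinearMap.trace_mul_comm, ← mul_assoc, rho_inv_mul, one_mul, sub_self]
  lc := by
    obtain ⟨F, hF, h1⟩ := hρ
    refine ⟨F, hF, fun σ _ hx => ?_⟩
    have h2 : ρ σ⁻¹ = 1 := by
      have := rho_mul_inv (ρ := ρ) σ
      rwa [h1 σ hx, one_mul] at this
    rw [h1 σ hx, h2, one_mul, mul_one, sub_self]


theorem conj_eq (h : Coc A ρ c) {g σ : 𝒢} (hg : Pres A g) (hσ : Pres A σ) (h1 : ρ σ = 1) :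
    c (g⁻¹ * σ * g) = ρ g⁻¹ * c σ * ρ g := by
  have e1 := h.mul σ g hσ hg
  have h1' : ρ σ⁻¹ = 1 := by
    have := rho_mul_inv (ρ := ρ) σ
    rwa [h1, one_mul] at this
  rw [h1, h1', one_mul, mul_one] at e1
  have e2 := h.mul g (g⁻¹ * σ * g) hg ((hg.inv.mul hσ).mul hg)
  have e3 : g * (g⁻¹ * σ * g) = σ * g := by group
  rw [e3, e1, add_comm] at e2
  have e4 : c σ = ρ g * c (g⁻¹ * σ * g) * ρ g⁻¹ := by
    have := add_left_cancel e2
    exact this
  rw [e4]
  calc c (g⁻¹ * σ * g) = (ρ g⁻¹ * ρ g) * c (g⁻¹ * σ * g) * (ρ g⁻¹ * ρ g) := by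
        rw [rho_inv_mul, one_mul, mul_one]
    _ = ρ g⁻¹ * (ρ g * c (g⁻¹ * σ * g) * ρ g⁻¹) * ρ g := by noncomm_ring

end Coc

/-! ### entries -/

/-- matrix entries -/
def ent (b : Module.Basis (Fin 2) k V) (i j : Fin 2) (f : Module.End k V) : k := b.repr (f (b j)) i

theorem ent_add (b : Module.Basis (Fin 2) k V) (i j : Fin 2) (f g : Module.End k V) :
    ent b i j (f + g) = ent b i j f + ent b i j g := by
  simp [ent]

theorem ent_sub (b : Module.Basis (Fin 2) k V) (i j : Fin 2) (f g : Module.End k V) :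
    ent b i j (f - g) = ent b i j f - ent b i j g := by
  simp [ent]

theorem ent_smul (b : Module.Basis (Fin 2) k V) (i j : Fin 2) (t : k) (f : Module.End k V) :
    ent b i j (t • f) = t * ent b i j f := by
  simp [ent]

theorem ent_zero (b : Module.Basis (Fin 2) k V) (i j : Fin 2) :
    ent b i j (0 : Module.End k V) = 0 := by
  simp [ent]

theorem ent_ext (b : Module.Basis (Fin 2) k V) {f g : Module.End k V}
    (h : ∀ i j, ent b i j f = ent b i j g) : f = g := by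
  apply b.ext
  intro j
  apply b.repr.injective
  ext i
  exact h i j

theorem apply_basis (b : Module.Basis (Fin 2) k V) (f : Module.End k V) (j : Fin 2) :
    f (b j) = ent b 0 j f • b 0 + ent b 1 j f • b 1 := by
  conv_lhs => rw [← b.sum_repr (f (b j))]
  rw [Fin.sum_univ_two]
  rfl

theorem ent_of_eq (b : Module.Basis (Fin 2) k V) {f : Module.End k V} {j : Fin 2} {s t : k}
    (h : f (b j) = s • b 0 + t • b 1) : ent b 0 j f = s ∧ ent b 1 j f = t := by
  rw [ent, ent, h]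
  simp [Finsupp.single_apply]

theorem trace_eq (b : Module.Basis (Fin 2) k V) (f : Module.End k V) :
    LinearMap.trace k V f = ent b 0 0 f + ent b 1 1 f := by
  rw [LinearMap.trace_eq_matrix_trace k b, Matrix.trace_fin_two]
  simp [LinearMap.toMatrix_apply, ent]

theorem mk_end (b : Module.Basis (Fin 2) k V) (m : Fin 2 → Fin 2 → k) :
    ∃ f : Module.End k V, ∀ i j, ent b i j f = m i j := by
  refine ⟨b.constr k fun j => m 0 j • b 0 + m 1 j • b 1, fun i j => ?_⟩
  have h := ent_of_eq b (f := b.constr k fun j => m 0 j • b 0 + m 1 j • b 1) (j := j)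
    (Module.Basis.constr_basis b k _ j)
  fin_cases i
  · exact h.1
  · exact h.2

end Fermat.Agent.Flat
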