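import Fermat.Agent.Flat.Kill
import Fermat.Agent.Flat.Limit

/-!
# The presentation data of the local algebra of a residue class
-/

set_option autoImplicit false
set_option linter.unusedSectionVars false
set_option linter.style.haveILetI false

noncomputable section

open scoped TensorProduct
open WithConv

namespace Fermat.Agent.Flat

open MvPolynomial Fermat.Agent.Places Fermat.Agent.RedMod

local notation "Ω" => AlgebraicClosure ℚ

variable {A : ValuationSubring (AlgebraicClosure ℚ)} {p : ℕ} [Fact p.Prime]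
variable {R : Type} [CommRing R] [Algebra R Ω] [Algebra R (R0 A)] [IsScalarTower R (R0 A) Ω]
variable [Algebra R (kk A)] [IsScalarTower R (R0 A) (kk A)]
variable {H : Type} [CommRing H] [HopfAlgebra R H] [Module.Finite R H] [Module.Flat R H]
variable {P0 : H →ₐ[R] Ω} {e : (R0 A) ⊗[R] H} (he : IsIdem P0 e)

theorem not_isUnit_p_R0 (hA : A.LiesOverPrime p) : ¬ IsUnit (p : R0 A) := by
  intro h
  have h1 := h.map (inclR0 A)
  rw [map_natCast] at h1
  exact p_mem_max hA h1

/-- Data for the Newton iteration. -/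
theorem exists_data (hA : A.LiesOverPrime p) [Finite (H →ₐ[R] Ω)]
    (hinj : Function.Injective (algebraMap R Ω))
    (hkill : ∀ w : WithConv (H →ₐ[R] Ω), w ^ p = 1) :
    ∃ (d : ℕ) (x : Fin d → TT e) (F : Fin d → MvPolynomial (Fin d) (R0 A))
      (V : Matrix (Fin d) (Fin d) (TT e)),
      (∀ i, evT (e_self he) (x i) ∈ A.nonunits) ∧ Function.Surjective (aeval (R := R0 A) x) ∧
      (∀ i, aeval x (F i) = 0) ∧
      (∀ G : MvPolynomial (Fin d) (R0 A), aeval x G = 0 → G ∈ Ideal.span (Set.range F) ⊔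
        (Ideal.span {C (p : R0 A)} ⊔
          Ideal.span (Set.range (X : Fin d → MvPolynomial (Fin d) (R0 A)))) *
          RingHom.ker (aeval (R := R0 A) x)) ∧
      (∀ G : MvPolynomial (Fin d) (R0 A), aeval x G = 0 → ∀ j, ∃ s : TT e,
        aeval x (pderiv j G) = algebraMap (R0 A) (TT e) (p : R0 A) * s) ∧
      (Matrix.of fun k j => aeval x (pderiv j (F k))) * V =
        Matrix.scalar (Fin d) (algebraMap (R0 A) (TT e) (p : R0 A)) := by
  classical
  haveI : IsDiscreteValuationRing (R0 A) := isDVR hA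
  haveI : IsNoetherianRing (TT e) := IsNoetherianRing.of_finite (R0 A) (TT e)
  obtain ⟨d, z, hz0, hzgen, hzcip, hzd⟩ := exists_pres_fib he hA
  choose x hx using fun i => psi_surjective e hA (z i)
  have hxz : (fun i => psi e (x i)) = z := funext hx
  have hq : ∀ r : R0 A, algebraMap (R0 A) (kk A) r = 0 ↔ (p : R0 A) ∣ r := fun r =>
    algebraMap_kk_eq_zero hA
  have hpT : algebraMap (R0 A) (TT e) (p : R0 A) = (p : TT e) := map_natCast _ _
  have hker : ∀ t, psi e t = 0 → ∃ s, t = algebraMap (R0 A) (TT e) (p : R0 A) * s := by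
    intro t ht
    rw [hpT]
    exact psi_eq_zero hA he.mul_self ht
  have hreg : ∀ t, algebraMap (R0 A) (TT e) (p : R0 A) * t = 0 → t = 0 := by
    intro t ht
    rw [hpT] at ht
    exact p_smul_eq_zero he ht
  have hgen : Function.Surjective (aeval (R := R0 A) x) :=
    aeval_surjective_of_fib (psi e) (algebraMap (R0 A) (kk A)) (algebraMap_kk_surjective hA)
      (psi_algebraMap e) (p : R0 A) (psi_surjective e hA) hker x (not_isUnit_p_R0 hA)
      (by rw [hxz]; exact hzgen)
  obtain ⟨F, hF0, hF⟩ := lift_CIP (psi e) (algebraMap (R0 A) (kk A)) (algebraMap_kk_surjective hA)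
    (psi_algebraMap e) (p : R0 A) hq hker hreg x hgen (by rw [hxz]; exact hzcip)
  have hd := lift_deriv (psi e) (algebraMap (R0 A) (kk A))
    (psi_algebraMap e) (p : R0 A) hker x (by rw [hxz]; exact hzd)
  have hx0 : ∀ i, evT (e_self he) (x i) ∈ A.nonunits := by
    intro i
    have h1 := hz0 i
    rw [← hx i, rho_psi] at h1
    exact (mem_nonunits_iff_residue _).2 h1
  -- the maximal ideal
  let 𝔪 : Ideal (TT e) := RingHom.ker ((rho he).toRingHom.comp (psi e))
  have hm : ∀ t : TT e, t ∈ 𝔪 ↔ evT (e_self he) t ∈ A.nonunits := by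
    intro t
    rw [mem_nonunits_iff_residue (evT_mem _ t), ← rho_psi he]
    rfl
  have h𝔪 : 𝔪 ≤ Ideal.jacobson ⊥ := by
    intro t ht
    rw [Ideal.mem_jacobson_bot]
    intro y
    apply isUnit_of_evT he
    apply (unit_of_sub_one (A := A) ?_).2
    rw [map_add, map_one, add_sub_cancel_right, ← hm]
    exact Ideal.mul_mem_right _ _ ht
  have hspan := Urel_le (S := R0 A) x 𝔪 h𝔪 (p : R0 A) (by
      rw [hm, AlgHom.commutes]
      change (((p : R0 A) : Ω)) ∈ A.nonunits
      push_cast
      exact hA) (fun i => (hm _).2 (hx0 i)) F hF0 hF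
  have hsingle := smul_single_mem (S := R0 A) x hgen p
    (nsmul_D p (Fact.out : p.Prime).pos (id_pow_eq_one hinj p hkill) e)
  obtain ⟨V, hV⟩ := exists_matrix x (algebraMap (R0 A) (TT e) (p : R0 A)) F (fun j => by
    rw [hpT]
    exact hspan (hsingle j)) hreg
  exact ⟨d, x, F, V, hx0, hgen, hF0, hF, hd, hV⟩

end Fermat.Agent.Flat
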