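import Fermat.Agent.Flat.Theta

/-!
# The depth of points and tame characters
-/

set_option autoImplicit false
set_option linter.unusedSectionVars false
set_option linter.style.haveILetI false

noncomputable section

open scoped TensorProduct
open WithConv

namespace Fermat.Agent.Flat

open Fermat.Agent.Places Fermat.Agent.RedMod Fermat.Agent.FlatRam

local notation "Ω" => AlgebraicClosure ℚ

local notation "𝒢" => (AlgebraicClosure ℚ) ≃ₐ[ℚ] (AlgebraicClosure ℚ)

variable {A : ValuationSubring (AlgebraicClosure ℚ)} {p : ℕ} [Fact p.Prime]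
variable {R : Type} [CommRing R] [Algebra R Ω] [Algebra R (R0 A)] [IsScalarTower R (R0 A) Ω]
variable [Algebra R (kk A)] [IsScalarTower R (R0 A) (kk A)]
variable {H : Type} [CommRing H] [HopfAlgebra R H] [Module.Finite R H]
variable {U : Type} [AddCommGroup U] (G : PtGrp A R H U)

/-- functionals divisible by `x` -/
def Dv (A : ValuationSubring (AlgebraicClosure ℚ)) (x : Ω) (φ : WithConv (H →ₗ[R] Ω)) : Prop :=
  ∀ h, ∃ a ∈ A, φ h = x * a

theorem Dv.mul {x y : Ω} {φ χ : WithConv (H →ₗ[R] Ω)} (h1 : Dv A x φ) (h2 : Dv A y χ) :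
    Dv A (x * y) (φ * χ) := by
  intro h
  rw [LinearMap.convMul_apply]
  induction CoalgebraStruct.comul (R := R) h using TensorProduct.induction_on with
  | zero => exact ⟨0, A.zero_mem, by simp⟩
  | add s t hs ht =>
    obtain ⟨a, ha, ha'⟩ := hs
    obtain ⟨b, hb, hb'⟩ := ht
    exact ⟨a + b, A.add_mem _ _ ha hb, by rw [map_add, map_add, ha', hb']; ring⟩
  | tmul s t =>
    obtain ⟨a, ha, ha'⟩ := h1 s
    obtain ⟨b, hb, hb'⟩ := h2 t
    refine ⟨a * b, A.mul_mem _ _ ha hb, ?_⟩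
    rw [TensorProduct.map_tmul, LinearMap.mul'_apply]
    change φ s * χ t = _
    rw [ha', hb']; ring

theorem Dv.add {x : Ω} {φ χ : WithConv (H →ₗ[R] Ω)} (h1 : Dv A x φ) (h2 : Dv A x χ) :
    Dv A x (φ + χ) := by
  intro h
  obtain ⟨a, ha, ha'⟩ := h1 h
  obtain ⟨b, hb, hb'⟩ := h2 h
  refine ⟨a + b, A.add_mem _ _ ha hb, ?_⟩
  change φ h + χ h = _
  rw [ha', hb']; ring

theorem Dv.neg {x : Ω} {φ : WithConv (H →ₗ[R] Ω)} (h1 : Dv A x φ) : Dv A x (-φ) := by
  intro h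
  obtain ⟨a, ha, ha'⟩ := h1 h
  refine ⟨-a, A.neg_mem _ ha, ?_⟩
  change -(φ h) = _
  rw [ha']; ring

namespace PtGrp

/-- the functional of a point -/
def f (u : U) : WithConv (H →ₗ[R] Ω) := fn (toConv (G.pt u))

theorem f_apply (u : U) (h : H) : G.f u h = G.pt u h := rfl

theorem f_add (u v : U) : G.f (u + v) = G.f u * G.f v := by
  rw [f, G.add, fn_mul]
  rfl

theorem f_zero : G.f 0 = 1 := by
  have h1 : G.f 0 = G.f 0 * G.f 0 := by
    have := G.f_add 0 0
    rwa [add_zero] at this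
  have h2 := inv'_mul (toConv (G.pt 0))
  have h3 : fn (toConv (G.pt 0)) = G.f 0 := rfl
  rw [h3] at h2
  calc G.f 0 = 1 * G.f 0 := (one_mul _).symm
    _ = (fn (inv' (toConv (G.pt 0))) * G.f 0) * G.f 0 := by rw [h2]
    _ = fn (inv' (toConv (G.pt 0))) * (G.f 0 * G.f 0) := mul_assoc _ _ _
    _ = fn (inv' (toConv (G.pt 0))) * G.f 0 := by rw [← h1]
    _ = 1 := h2

/-- the difference to the origin -/
def D (u : U) (h : H) : Ω := G.pt u h - G.pt 0 h

theorem D_eq (u : U) (h : H) : G.D u h = (G.f u - 1) h := by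
  rw [← G.f_zero]
  rfl

theorem f_int (u : U) : Dv A 1 (G.f u) := fun h => by
  refine ⟨G.pt u h, ?_, by rw [one_mul]; rfl⟩
  have := ev_mem (A := A) (G.pt u) ((1 : R0 A) ⊗ₜ[R] h)
  rwa [ev_one_tmul] at this

theorem D_mem (u : U) (h : H) : G.D u h ∈ A := by
  obtain ⟨a, ha, ha'⟩ := G.f_int u h
  obtain ⟨b, hb, hb'⟩ := G.f_int 0 h
  have h1 : G.D u h = a - b := by
    rw [one_mul] at ha' hb'
    rw [← ha', ← hb']
    rfl
  rw [h1]
  exact A.sub_mem ha hb

theorem pt_zero_fixed (σ : Ω ≃ₐ[K0 A] Ω) (h : H) : σ (G.pt 0 h) = G.pt 0 h := by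
  have h1 : G.pt 0 h = algebraMap R Ω (CoalgebraStruct.counit h) := by
    have := congrArg (fun φ : WithConv (H →ₗ[R] Ω) => φ h) G.f_zero
    exact this
  rw [h1]
  exact σ.commutes ⟨algebraMap R Ω (CoalgebraStruct.counit h), algebraMap_mem_K0 _⟩

theorem D_act (σ : Ω ≃ₐ[K0 A] Ω) (u : U) (h : H) : G.D (G.act σ u) h = σ (G.D u h) := by
  rw [D, D, map_sub, G.pt_zero_fixed, G.act_pt]
  rfl

theorem D_add (u v : U) (h : H) :
    G.D (u + v) h = G.D u h + G.D v h + ((G.f u - 1) * (G.f v - 1)) h := by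
  have h1 : G.f (u + v) - 1 = (G.f u - 1) + (G.f v - 1) + (G.f u - 1) * (G.f v - 1) := by
    rw [G.f_add]
    noncomm_ring
  rw [D_eq, D_eq, D_eq, h1]
  rfl

/-- points of depth at least `x` -/
def Ux (x : Ω) : AddSubgroup U where
  carrier := {u | Dv A x (G.f u - 1)}
  zero_mem' := by
    intro h
    refine ⟨0, A.zero_mem, ?_⟩
    rw [mul_zero, G.f_zero, sub_self]
    rfl
  add_mem' := by
    intro u v hu hv
    have h1 : G.f (u + v) - 1 = (G.f u - 1) + (G.f v - 1) * G.f u := by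
      rw [add_comm, G.f_add]
      noncomm_ring
    change Dv A x (G.f (u + v) - 1)
    rw [h1]
    have := hv.mul (G.f_int u)
    rw [mul_one] at this
    exact hu.add this
  neg_mem' := by
    intro u hu
    have h1 : G.f (-u) - 1 = -((G.f u - 1) * G.f (-u)) := by
      rw [sub_mul, ← G.f_add, add_neg_cancel, G.f_zero, one_mul]
      noncomm_ring
    change Dv A x (G.f (-u) - 1)
    rw [h1]
    have := hu.mul (G.f_int (-u))
    rw [mul_one] at this
    exact this.neg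

theorem mem_Ux {x : Ω} {u : U} : u ∈ G.Ux x ↔ ∀ h, ∃ a ∈ A, G.D u h = x * a := by
  simp only [D_eq]
  exact Iff.rfl

/-- the leading coefficient -/
def lam (x : Ω) (h0 : H) (u : U) : kk A := rs A (G.D u h0 / x)

theorem lam_add {x : Ω} (hx : x ≠ 0) (hxn : x ∈ A.nonunits) (h0 : H) {u v : U} (hu : u ∈ G.Ux x)
    (hv : v ∈ G.Ux x) : G.lam x h0 (u + v) = G.lam x h0 u + G.lam x h0 v := by
  obtain ⟨a, ha, ha'⟩ := G.mem_Ux.1 hu h0
  obtain ⟨b, hb, hb'⟩ := G.mem_Ux.1 hv h0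
  obtain ⟨c, hc, hc'⟩ := Dv.mul (A := A) (x := x) (y := x) hu hv h0
  have h1 : G.D (u + v) h0 / x = a + b + x * c := by
    rw [G.D_add, ha', hb', hc']
    field_simp
  have h2 : G.D u h0 / x = a := by rw [ha']; field_simp
  have h3 : G.D v h0 / x = b := by rw [hb']; field_simp
  have hxA := mem_of_mem_nonunits A hxn
  rw [lam, lam, lam, h1, h2, h3, rs_add (A.add_mem _ _ ha hb) (A.mul_mem _ _ hxA hc), rs_add ha hb,
    rs_mul hxA hc, (rs_eq_zero_iff hxA).2 hxn, zero_mul, add_zero]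

theorem act_mem_Ux (hA : A.LiesOverPrime p) {x : Ω} (hx : x ≠ 0) {u : U} (hu : u ∈ G.Ux x)
    (σ : Ω ≃ₐ[K0 A] Ω) : G.act σ u ∈ G.Ux x := by
  rw [mem_Ux]
  intro h
  obtain ⟨a, ha, ha'⟩ := G.mem_Ux.1 hu h
  have h1 := (pres_of_mem (res_mem σ)).div_mem hA hx
  refine ⟨(σ x / x) * σ a, A.mul_mem _ _ h1 (aut_mem A σ ha), ?_⟩
  rw [G.D_act, ha', map_mul]
  field_simp

theorem lam_act (hA : A.LiesOverPrime p) {x : Ω} (hx : x ≠ 0) (h0 : H) {u : U} (hu : u ∈ G.Ux x)
    (σ : Ω ≃ₐ[K0 A] Ω) :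
    G.lam x h0 (G.act σ u) = th A (AlgEquiv.restrictScalars ℚ σ) x * G.lam x h0 u := by
  obtain ⟨a, ha, ha'⟩ := G.mem_Ux.1 hu h0
  have h1 : σ x / x ∈ A := (pres_of_mem (res_mem σ)).div_mem hA hx
  have h2 : G.D (G.act σ u) h0 / x = (σ x / x) * σ a := by
    rw [G.D_act, ha', map_mul]
    field_simp
  have h3 : G.D u h0 / x = a := by rw [ha']; field_simp
  rw [lam, lam, h2, h3, rs_mul h1 (aut_mem A σ ha), th]
  congr 1
  exact rs_inertia (res_mem σ) ha

/-- **Depth** of a point reducing to the origin. -/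
theorem exists_depth [Module.Flat R H] (hA : A.LiesOverPrime p) (hkill : ∀ w : WithConv (H →ₐ[R] Ω), w ^ p = 1)
    {u : U} (hu0 : u ≠ 0) (hu : Cg A (G.pt u) (G.pt 0)) :
    ∃ (x : Ω) (h0 : H), x ≠ 0 ∧ x ∈ A.nonunits ∧ ((p : ℚ) - 1) * (rval A p hA).w x ≤ 1 ∧
      G.D u h0 = x ∧ u ∈ G.Ux x ∧ G.lam x h0 u = 1 := by
  have hp : p.Prime := Fact.out
  have hne : G.pt u ≠ G.pt 0 := fun h => hu0 (G.inj h)
  obtain ⟨h0, ⟨w, hwA, hw⟩, hdiv⟩ := exists_separating' (A := A) hkill hne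
  have hx0 : G.D u h0 ≠ 0 := by
    intro h
    have h1 : G.pt u h0 - G.pt 0 h0 = 0 := h
    rw [h1, zero_pow (by have := hp.two_le; omega), zero_mul] at hw
    exact hp.ne_zero (by exact_mod_cast hw)
  refine ⟨G.D u h0, h0, hx0, hu h0, ?_, rfl, ?_, ?_⟩
  · have hw' : (p : Ω) = G.D u h0 ^ (p - 1) * w := hw
    have hw0 : w ≠ 0 := by
      rintro rfl
      rw [mul_zero] at hw'
      exact hp.ne_zero (by exact_mod_cast hw')
    have h1 := congrArg (rval A p hA).w hw'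
    rw [(rval A p hA).w_p, RVal.w_mul (pow_ne_zero _ hx0) hw0, RVal.w_pow hx0,
      Nat.cast_sub hp.one_le, Nat.cast_one] at h1
    have h2 : 0 ≤ (rval A p hA).w w := (wA_nonneg_iff hA hw0).2 hwA
    linarith
  · rw [mem_Ux]
    exact hdiv
  · rw [lam, div_self hx0, rs_one]

/-- the valuation of the depth of a point with small orbit -/
theorem card_mul_w (hA : A.LiesOverPrime p) {u : U} {h0 : H} (hx : G.D u h0 ≠ 0)
    (S : Finset U) (hS : ∀ σ, ∀ v ∈ S, G.act σ v ∈ S) (hS' : ∀ v ∈ S, ∃ σ, G.act σ u = v) :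
    ∃ n : ℤ, (S.card : ℚ) * (rval A p hA).w (G.D u h0) = n := by
  classical
  have hw : ∀ v ∈ S, G.D v h0 ≠ 0 ∧ (rval A p hA).w (G.D v h0) = (rval A p hA).w (G.D u h0) := by
    intro v hv
    obtain ⟨σ, rfl⟩ := hS' v hv
    rw [G.D_act]
    exact ⟨by rwa [ne_eq, _root_.map_eq_zero], (rval A p hA).w_gal σ _⟩
  have hfix : ∀ σ : Ω ≃ₐ[K0 A] Ω, σ (∏ v ∈ S, G.D v h0) = ∏ v ∈ S, G.D v h0 := by
    intro σ
    rw [map_prod]
    have hinj : Function.Injective (G.act σ) := by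
      intro a b hab
      apply G.inj
      apply conj_injective (A := A) σ
      rw [← G.act_pt, ← G.act_pt, hab]
    have himg : S.image (G.act σ) = S := by
      apply Finset.eq_of_subset_of_card_le
      · intro v hv
        obtain ⟨w, hw, rfl⟩ := Finset.mem_image.1 hv
        exact hS σ w hw
      · rw [Finset.card_image_of_injective _ hinj]
    conv_rhs => rw [← himg]
    rw [Finset.prod_image fun a _ b _ h => hinj h]
    exact Finset.prod_congr rfl fun v _ => (G.D_act σ v h0).symm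
  have hK := mem_K0_of_fixed A hfix
  have hne : ∏ v ∈ S, G.D v h0 ≠ 0 := Finset.prod_ne_zero_iff.2 fun v hv => (hw v hv).1
  obtain ⟨n, hn⟩ := (rval A p hA).w_int (⟨_, hK⟩ : K0 A) (fun h => hne (congrArg Subtype.val h))
  have hn' : (rval A p hA).w (∏ v ∈ S, G.D v h0) = n := hn
  refine ⟨n, ?_⟩
  rw [← hn', RVal.w_prod _ _ fun v hv => (hw v hv).1, Finset.sum_congr rfl fun v hv => (hw v hv).2,
    Finset.sum_const, nsmul_eq_mul]

/-- Inertia acts trivially modulo the points reducing to the origin. -/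
theorem Cg_sub (σ : Ω ≃ₐ[K0 A] Ω) (u : U) : Cg A (G.pt (G.act σ u - u)) (G.pt 0) := by
  -- `f (σu - u) - 1 = (f (σ u) - f u) * f (-u)`
  intro h
  have h1 : G.f (G.act σ u - u) - 1 = (G.f (G.act σ u) - G.f u) * G.f (-u) := by
    rw [sub_mul, ← G.f_add, ← G.f_add u (-u), add_neg_cancel, G.f_zero, sub_eq_add_neg (G.act σ u) u]
  have h2 : ∀ h, (G.f (G.act σ u) - G.f u) h ∈ A.nonunits := by
    intro h
    change G.pt (G.act σ u) h - G.pt u h ∈ A.nonunits
    rw [G.act_pt]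
    exact Cg.conj σ (G.pt u) h
  change G.D (G.act σ u - u) h ∈ A.nonunits
  rw [G.D_eq, h1, LinearMap.convMul_apply]
  induction CoalgebraStruct.comul (R := R) h using TensorProduct.induction_on with
  | zero => rw [map_zero, map_zero]; exact zero_mem_nonunits A
  | add s t hs ht => rw [map_add, map_add]; exact add_mem_nonunits A hs ht
  | tmul s t =>
    rw [TensorProduct.map_tmul, LinearMap.mul'_apply]
    obtain ⟨b, hb, hb'⟩ := G.f_int (-u) t
    rw [one_mul] at hb'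
    change (G.f (G.act σ u) - G.f u) s * G.f (-u) t ∈ _
    rw [hb']
    exact mul_mem_nonunits A (h2 s) hb

end PtGrp

end Fermat.Agent.Flat
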