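import Fermat.Agent.Flat.KumI

/-!
# Bounded Kummer classes and their invariants
-/

set_option autoImplicit false
set_option linter.unusedSectionVars false
set_option linter.style.haveILetI false

noncomputable section

namespace Fermat.Agent.Flat

open Fermat.Agent.Places Fermat.Agent.RedMod Fermat.Agent.FlatRam

local notation "Ω" => AlgebraicClosure ℚ

local notation "𝒢" => (AlgebraicClosure ℚ) ≃ₐ[ℚ] (AlgebraicClosure ℚ)

variable {A : ValuationSubring (AlgebraicClosure ℚ)} {p : ℕ} [Fact p.Prime]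

/-- inertia elements fixing `M` -/
def NM (A : ValuationSubring (AlgebraicClosure ℚ)) (M : IntermediateField (K0 A) Ω) : Set 𝒢 :=
  {σ | σ ∈ A.inertiaSubgroupIn ℚ ∧ ∀ m ∈ M, σ m = m}

/-- bounded Kummer classes -/
structure KC (A : ValuationSubring (AlgebraicClosure ℚ)) {p : ℕ} (ζ : Ω)
    (M : IntermediateField (K0 A) Ω) (κ : 𝒢 → ZMod p) (y a : Ω) : Prop where
  y0 : y ≠ 0
  aA : a ∈ A
  aM : a ∈ M
  pow : y ^ p = 1 + p * a
  gal : ∀ σ ∈ NM A M, σ y = ζ ^ (κ σ).val * y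

/-- a system of invariants -/
structure Inv (A : ValuationSubring (AlgebraicClosure ℚ)) (p : ℕ) (M : IntermediateField (K0 A) Ω)
    {J : Type} (iv : J → Ω → kk A) : Prop where
  sub : ∀ j, ∀ a ∈ A, a ∈ M → ∀ b ∈ A, b ∈ M → iv j ((a - b) / (1 + p * b)) = iv j a - iv j b
  triv : ∀ y ∈ M, ∀ a ∈ A, y ^ p = 1 + p * a → ∀ j, iv j a = 0
  conv : ∀ y, ∀ a ∈ A, a ∈ M → y ^ p = 1 + p * a → (∀ j, iv j a = 0) → y ∈ M

theorem one_add_unit (hA : A.LiesOverPrime p) {b : Ω} (hb : b ∈ A) :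
    1 + p * b ∈ A ∧ 1 + p * b ∉ A.nonunits := by
  haveI := charP_residue hA
  have hpA := mem_of_mem_nonunits A hA
  have hu : 1 + p * b ∈ A := A.add_mem _ _ A.one_mem (A.mul_mem _ _ hpA hb)
  refine ⟨hu, ?_⟩
  rw [← rs_eq_zero_iff hu, rs_add A.one_mem (A.mul_mem _ _ hpA hb), rs_mul hpA hb, rs_natCast,
    CharP.cast_eq_zero, zero_mul, add_zero, rs_one]
  exact one_ne_zero

variable {ζ : Ω} (hζ : IsPrimitiveRoot ζ p) {M : IntermediateField (K0 A) Ω}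

include hζ in
theorem zeta_pow_val (m : ℕ) : ζ ^ (m : ZMod p).val = ζ ^ m := by
  rw [ZMod.val_natCast]
  exact pow_mod_eq hζ.pow_eq_one m
where
  pow_mod_eq {ζ : Ω} {p : ℕ} (h : ζ ^ p = 1) (m : ℕ) : ζ ^ (m % p) = ζ ^ m := by
    conv_rhs => rw [← Nat.mod_add_div m p, pow_add, pow_mul, h, one_pow, mul_one]

include hζ in
theorem zeta_pow_sub (a b : ZMod p) : ζ ^ (a - b).val = ζ ^ a.val / ζ ^ b.val := by
  have hp : p.Prime := Fact.out
  haveI : NeZero p := ⟨hp.ne_zero⟩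
  have hζ0 : ζ ≠ 0 := hζ.ne_zero hp.ne_zero
  rw [eq_div_iff (pow_ne_zero _ hζ0), ← pow_add]
  have h1 : (((a - b).val + b.val : ℕ) : ZMod p) = a := by
    push_cast
    rw [ZMod.natCast_zmod_val, ZMod.natCast_zmod_val, sub_add_cancel]
  rw [← zeta_pow_val hζ, h1]

include hζ in
theorem zeta_pow_val_eq_one {a : ZMod p} (h : ζ ^ a.val = 1) : a = 0 := by
  have hp : p.Prime := Fact.out
  haveI : NeZero p := ⟨hp.ne_zero⟩
  rw [hζ.pow_eq_one_iff_dvd] at h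
  have h1 := Nat.eq_zero_of_dvd_of_lt h (ZMod.val_lt a)
  exact (ZMod.val_eq_zero a).1 h1

namespace KC

include hζ in
theorem sub (hA : A.LiesOverPrime p) {κ κ' : 𝒢 → ZMod p} {y y' a a' : Ω} (h : KC A ζ M κ y a)
    (h' : KC A ζ M κ' y' a') :
    KC A ζ M (fun σ => κ σ - κ' σ) (y / y') ((a - a') / (1 + p * a')) where
  y0 := div_ne_zero h.y0 h'.y0
  aA := by
    rw [div_eq_mul_inv]
    have h1 := one_add_unit hA h'.aA
    exact A.mul_mem _ _ (A.sub_mem h.aA h'.aA) (inv_mem_of_unit h1.2)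
  aM := div_mem (sub_mem h.aM h'.aM) (add_mem (one_mem _) (mul_mem (_root_.natCast_mem _ p) h'.aM))
  pow := by
    have h1 := one_add_unit hA h'.aA
    have h0 : 1 + p * a' ≠ 0 := fun h => h1.2 (h ▸ zero_mem_nonunits A)
    rw [div_pow, h.pow, h'.pow]
    field_simp
    ring
  gal := fun σ hσ => by
    rw [map_div₀, h.gal σ hσ, h'.gal σ hσ, zeta_pow_sub hζ, mul_div_mul_comm]

theorem congr {κ κ' : 𝒢 → ZMod p} {y a : Ω} (h : KC A ζ M κ y a)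
    (hκ : ∀ σ ∈ NM A M, κ σ = κ' σ) : KC A ζ M κ' y a where
  y0 := h.y0
  aA := h.aA
  aM := h.aM
  pow := h.pow
  gal := fun σ hσ => by rw [h.gal σ hσ, hκ σ hσ]

theorem mem_of_zero {y a : Ω} (h : KC A (p := p) ζ M (fun _ => 0) y a) : y ∈ M := by
  apply mem_of_inertia
  intro σ hσ hM
  have := h.gal σ ⟨hσ, hM⟩
  rwa [ZMod.val_zero, pow_zero, one_mul] at this

include hζ in
theorem eq_zero_of_mem {κ : 𝒢 → ZMod p} {y a : Ω} (h : KC A ζ M κ y a) (hy : y ∈ M) :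
    ∀ σ ∈ NM A M, κ σ = 0 := by
  intro σ hσ
  apply zeta_pow_val_eq_one hζ
  have h1 := h.gal σ hσ
  rw [hσ.2 y hy] at h1
  exact (mul_eq_right₀ h.y0).1 h1.symm

theorem conj_NM {Φ : 𝒢} (hΦ : Pres A Φ) (hM : ∀ x ∈ M, Φ x ∈ M) {σ : 𝒢} (hσ : σ ∈ NM A M) :
    Φ⁻¹ * σ * Φ ∈ NM A M := by
  constructor
  · have := conj_mem_inertia hΦ.inv hσ.1
    rwa [inv_inv] at this
  · intro m hm
    rw [AlgEquiv.mul_apply, AlgEquiv.mul_apply, hσ.2 _ (hM m hm)]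
    exact Φ.symm_apply_apply m

include hζ in
theorem conj {κ : 𝒢 → ZMod p} {y a : Ω} (h : KC A ζ M κ y a) {Φ : 𝒢} (hΦ : Pres A Φ)
    (hM : ∀ x ∈ M, Φ x ∈ M) {m : ℕ} (hm : Φ ζ = ζ ^ m) :
    KC A ζ M (fun σ => (m : ZMod p) * κ (Φ⁻¹ * σ * Φ)) (Φ y) (Φ a) where
  y0 := by rw [ne_eq, _root_.map_eq_zero]; exact h.y0
  aA := (hΦ a).2 h.aA
  aM := hM a h.aM
  pow := by rw [← map_pow, h.pow, map_add, map_one, map_mul, map_natCast]
  gal := fun σ hσ => by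
    have h1 := h.gal _ (conj_NM hΦ hM hσ)
    have h2 : σ (Φ y) = Φ ((Φ⁻¹ * σ * Φ) y) := by
      rw [AlgEquiv.mul_apply, AlgEquiv.mul_apply]
      exact (Φ.apply_symm_apply _).symm
    haveI : NeZero p := ⟨(Fact.out : p.Prime).ne_zero⟩
    have h3 : (m : ZMod p) * κ (Φ⁻¹ * σ * Φ) = ((m * (κ (Φ⁻¹ * σ * Φ)).val : ℕ) : ZMod p) := by
      push_cast
      rw [ZMod.natCast_zmod_val]
    rw [h2, h1, map_mul, map_pow, hm, h3, zeta_pow_val hζ, pow_mul]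

theorem zero (hA : A.LiesOverPrime p) : KC A (p := p) ζ M (fun _ => 0) 1 0 where
  y0 := one_ne_zero
  aA := A.zero_mem
  aM := zero_mem _
  pow := by simp
  gal := fun σ _ => by simp

end KC

variable {J : Type} {iv : J → Ω → kk A} (hiv : Inv A p M iv)

variable (A ζ M p) in
/-- bounded functions -/
def Bdd (κ : 𝒢 → ZMod p) : Prop := ∃ y a, KC A ζ M κ y a

variable (ζ M p iv) in
/-- the invariants of a bounded function -/
def ivk (j : J) (κ : 𝒢 → ZMod p) : kk A := by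
  classical
  exact if h : Bdd A p ζ M κ then iv j h.choose_spec.choose else 0

include hζ hiv in
theorem ivk_eq (hA : A.LiesOverPrime p) {κ : 𝒢 → ZMod p} {y a : Ω} (h : KC A ζ M κ y a) (j : J) :
    ivk p ζ M iv j κ = iv j a := by
  have hb : Bdd A p ζ M κ := ⟨y, a, h⟩
  rw [ivk, dif_pos hb]
  have h1 := hb.choose_spec.choose_spec
  have h2 := KC.sub hζ hA h1 h
  have h3 : KC A (p := p) ζ M (fun _ => 0) _ _ := h2.congr fun σ _ => sub_self _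
  have h4 := hiv.triv _ h3.mem_of_zero _ h3.aA h3.pow j
  rw [hiv.sub j _ h1.aA h1.aM _ h.aA h.aM, sub_eq_zero] at h4
  exact h4

include hζ hiv in
theorem ivk_sub (hA : A.LiesOverPrime p) {κ κ' : 𝒢 → ZMod p} (h : Bdd A p ζ M κ)
    (h' : Bdd A p ζ M κ') (j : J) :
    ivk p ζ M iv j (fun σ => κ σ - κ' σ) = ivk p ζ M iv j κ - ivk p ζ M iv j κ' := by
  obtain ⟨y, a, h⟩ := h
  obtain ⟨y', a', h'⟩ := h'
  rw [ivk_eq hζ hiv hA h, ivk_eq hζ hiv hA h', ivk_eq hζ hiv hA (KC.sub hζ hA h h'),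
    hiv.sub j _ h.aA h.aM _ h'.aA h'.aM]

include hζ hiv in
theorem ivk_congr (hA : A.LiesOverPrime p) {κ κ' : 𝒢 → ZMod p} (h : Bdd A p ζ M κ)
    (hκ : ∀ σ ∈ NM A M, κ σ = κ' σ) (j : J) : ivk p ζ M iv j κ = ivk p ζ M iv j κ' := by
  obtain ⟨y, a, h⟩ := h
  rw [ivk_eq hζ hiv hA h, ivk_eq hζ hiv hA (h.congr hκ)]

include hζ hiv in
theorem eq_zero_of_ivk (hA : A.LiesOverPrime p) {κ : 𝒢 → ZMod p} (h : Bdd A p ζ M κ)
    (h0 : ∀ j, ivk p ζ M iv j κ = 0) : ∀ σ ∈ NM A M, κ σ = 0 := by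
  obtain ⟨y, a, h⟩ := h
  refine h.eq_zero_of_mem hζ (hiv.conv y a h.aA h.aM h.pow fun j => ?_)
  rw [← ivk_eq hζ hiv hA h, h0]

/-! ### functions with values in a finite field -/

variable {k : Type} [Field k] (tr : k →+ ZMod p)

variable (A ζ M) in
/-- bounded functions with values in `k` -/
def BddK (c : 𝒢 → k) : Prop := ∀ u : k, Bdd A p ζ M (fun σ => tr (u * c σ))

variable (ζ M iv) in
/-- the invariants -/
def AA (j : J) (c : 𝒢 → k) (u : k) : kk A := ivk p ζ M iv j (fun σ => tr (u * c σ))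

variable {tr}

include hζ in
theorem BddK.sub (hA : A.LiesOverPrime p) {c c' : 𝒢 → k} (h : BddK A ζ M tr c)
    (h' : BddK A ζ M tr c') : BddK A ζ M tr (fun σ => c σ - c' σ) := by
  intro u
  obtain ⟨y, a, h1⟩ := h u
  obtain ⟨y', a', h1'⟩ := h' u
  refine ⟨_, _, (KC.sub hζ hA h1 h1').congr fun σ _ => ?_⟩
  rw [← map_sub, ← mul_sub]

theorem BddK.zero (hA : A.LiesOverPrime p) : BddK A ζ M tr (fun _ => 0) := by
  intro u
  refine ⟨_, _, (KC.zero hA).congr fun σ _ => ?_⟩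
  rw [mul_zero, map_zero]

theorem BddK.congr {c c' : 𝒢 → k} (h : BddK A ζ M tr c) (hc : ∀ σ ∈ NM A M, c σ = c' σ) :
    BddK A ζ M tr c' := by
  intro u
  obtain ⟨y, a, h1⟩ := h u
  exact ⟨_, _, h1.congr fun σ hσ => by rw [hc σ hσ]⟩

theorem BddK.smul {c : 𝒢 → k} (h : BddK A ζ M tr c) (t : k) :
    BddK A ζ M tr (fun σ => t * c σ) := by
  intro u
  obtain ⟨y, a, h1⟩ := h (u * t)
  exact ⟨_, _, h1.congr fun σ hσ => by rw [mul_assoc]⟩

include hζ in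
theorem BddK.add (hA : A.LiesOverPrime p) {c c' : 𝒢 → k} (h : BddK A ζ M tr c)
    (h' : BddK A ζ M tr c') : BddK A ζ M tr (fun σ => c σ + c' σ) := by
  have h1 := BddK.sub hζ hA h (h'.smul (-1))
  refine h1.congr fun σ _ => ?_
  ring

include hζ hiv in
theorem AA_sub (hA : A.LiesOverPrime p) {c c' : 𝒢 → k} (h : BddK A ζ M tr c)
    (h' : BddK A ζ M tr c') (j : J) (u : k) :
    AA ζ M iv tr j (fun σ => c σ - c' σ) u = AA ζ M iv tr j c u - AA ζ M iv tr j c' u := by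
  rw [AA, AA, AA, ← ivk_sub hζ hiv hA (h u) (h' u)]
  congr 1
  funext σ
  rw [mul_sub, map_sub]

theorem AA_smul {c : 𝒢 → k} (t : k) (j : J) (u : k) :
    AA ζ M iv tr j (fun σ => t * c σ) u = AA ζ M iv tr j c (u * t) := by
  rw [AA, AA]
  congr 1
  funext σ
  rw [mul_assoc]

include hζ hiv in
theorem AA_sub' (hA : A.LiesOverPrime p) {c : 𝒢 → k} (h : BddK A ζ M tr c) (j : J) (u u' : k) :
    AA ζ M iv tr j c (u - u') = AA ζ M iv tr j c u - AA ζ M iv tr j c u' := by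
  rw [AA, AA, AA, ← ivk_sub hζ hiv hA (h u) (h u')]
  congr 1
  funext σ
  rw [sub_mul, map_sub]

include hζ hiv in
theorem AA_congr (hA : A.LiesOverPrime p) {c c' : 𝒢 → k} (h : BddK A ζ M tr c)
    (hc : ∀ σ ∈ NM A M, c σ = c' σ) (j : J) (u : k) :
    AA ζ M iv tr j c u = AA ζ M iv tr j c' u := by
  rw [AA, AA]
  exact ivk_congr hζ hiv hA (h u) (fun σ hσ => by rw [hc σ hσ]) j

variable (iv ζ M) in
/-- the invariants as additive maps -/
def AAh (hζ : IsPrimitiveRoot ζ p) (hiv : Inv A p M iv) (hA : A.LiesOverPrime p) {c : 𝒢 → k}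
    (h : BddK A ζ M tr c) (j : J) : k →+ kk A :=
  AddMonoidHom.ofMapSub (AA ζ M iv tr j c) (AA_sub' hζ hiv hA h j)

theorem AAh_apply (hζ : IsPrimitiveRoot ζ p) (hiv : Inv A p M iv) (hA : A.LiesOverPrime p)
    {c : 𝒢 → k} (h : BddK A ζ M tr c) (j : J) (u : k) :
    AAh ζ M iv hζ hiv hA h j u = AA ζ M iv tr j c u := rfl

include hζ hiv in
theorem eq_zero_of_AA (hA : A.LiesOverPrime p) (htr : tr ≠ 0) {c : 𝒢 → k} (h : BddK A ζ M tr c)
    (h0 : ∀ j u, AA ζ M iv tr j c u = 0) : ∀ σ ∈ NM A M, c σ = 0 := by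
  intro σ hσ
  by_contra hne
  obtain ⟨x, hx⟩ : ∃ x, tr x ≠ 0 := by
    by_contra hcon
    push Not at hcon
    exact htr (AddMonoidHom.ext hcon)
  apply hx
  have h1 := eq_zero_of_ivk hζ hiv hA (h (x / c σ)) (fun j => h0 j _) σ hσ
  rwa [div_mul_cancel₀ _ hne] at h1

include hζ hiv in
/-- conjugation -/
theorem AA_conj (hA : A.LiesOverPrime p) {c : 𝒢 → k} (h : BddK A ζ M tr c) {Φ : 𝒢}
    (hΦ : Pres A Φ) (hM : ∀ x ∈ M, Φ x ∈ M) {m : ℕ} (hm : Φ ζ = ζ ^ m) {μ : k}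
    (hμ : ∀ σ ∈ NM A M, c (Φ⁻¹ * σ * Φ) = μ * c σ) (j : J) {F : kk A → kk A}
    (hF : ∀ a ∈ A, a ∈ M → iv j (Φ a) = F (iv j a)) (u : k) :
    AA ζ M iv tr j c (m * μ * u) = F (AA ζ M iv tr j c u) := by
  obtain ⟨y, a, h1⟩ := h u
  have h2 := KC.conj hζ h1 hΦ hM hm
  have h3 : KC A ζ M (fun σ => tr (m * μ * u * c σ)) (Φ y) (Φ a) := by
    refine h2.congr fun σ hσ => ?_
    rw [hμ σ hσ]
    have : (m : k) * μ * u * c σ = m • (u * (μ * c σ)) := by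
      rw [nsmul_eq_mul]; ring
    rw [this, map_nsmul, nsmul_eq_mul]
  rw [AA, AA, ivk_eq hζ hiv hA h3, ivk_eq hζ hiv hA h1, hF a h1.aA h1.aM]

end Fermat.Agent.Flat
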