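import Fermat.Agent.Flat.KC

/-!
# The two systems of invariants
-/

set_option autoImplicit false
set_option linter.unusedSectionVars false
set_option linter.style.haveILetI false

noncomputable section

namespace Fermat.Agent.Flat

open Fermat.Agent.Places Fermat.Agent.RedMod Fermat.Agent.FlatRam

local notation "Ω" => AlgebraicClosure ℚ

local notation "𝒢" => (AlgebraicClosure ℚ) ≃ₐ[ℚ] (AlgebraicClosure ℚ)

variable {A : ValuationSubring (AlgebraicClosure ℚ)} {p : ℕ} [Fact p.Prime]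
variable {ζ : Ω} (hζ : IsPrimitiveRoot ζ p)

/-! ### the cyclotomic extension -/

/-- the cyclotomic extension -/
abbrev M1 (A : ValuationSubring (AlgebraicClosure ℚ)) (ζ : Ω) : IntermediateField (K0 A) Ω :=
  IntermediateField.adjoin (K0 A) {ζ}

theorem zeta_mem_M1 : ζ ∈ M1 A ζ := IntermediateField.mem_adjoin_simple_self _ _

/-- the invariant -/
def iv1 (A : ValuationSubring (AlgebraicClosure ℚ)) (_ : Unit) (a : Ω) : kk A := rs A a

include hζ in
theorem inv1 (hA : A.LiesOverPrime p) : Inv A p (M1 A ζ) (iv1 A) where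
  sub := fun _ a ha _ b hb _ => by
    haveI := charP_residue hA
    have hpA := mem_of_mem_nonunits A hA
    have h1 := one_add_unit hA hb
    have h0 : 1 + p * b ≠ 0 := fun h => h1.2 (h ▸ zero_mem_nonunits A)
    have hz : (a - b) / (1 + p * b) ∈ A := by
      rw [div_eq_mul_inv]
      exact A.mul_mem _ _ (A.sub_mem ha hb) (inv_mem_of_unit h1.2)
    have h2 : (a - b) / (1 + p * b) = a - b - p * (b * ((a - b) / (1 + p * b))) := by
      have := div_mul_cancel₀ (a - b) h0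
      linear_combination this
    have h3 := A.mul_mem _ _ hb hz
    rw [iv1, iv1, iv1, h2, rs_sub (A.sub_mem ha hb) (A.mul_mem _ _ hpA h3), rs_sub ha hb,
      rs_mul hpA h3, rs_natCast, CharP.cast_eq_zero, zero_mul, sub_zero]
  triv := fun y hy a ha h _ => by
    rw [iv1, rs_eq_zero_iff ha]
    exact nonunit_of_pow hζ hA hy ha h
  conv := fun y a ha haM h h0 => by
    have h1 := h0 ()
    rw [iv1, rs_eq_zero_iff ha] at h1
    obtain ⟨b, hb, hab⟩ := exists_mul_zeta hζ hA haM h1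
    refine mem_of_pow_close hζ hA zeta_mem_M1 hb ?_ ?_
    · rw [h, hab]; ring
    · rw [h]
      exact add_mem (one_mem _) (mul_mem (_root_.natCast_mem _ p) haM)

theorem iv1_inertia {σ : 𝒢} (hσ : σ ∈ A.inertiaSubgroupIn ℚ) {a : Ω} (ha : a ∈ A) (j : Unit) :
    iv1 A j (σ a) = iv1 A j a := rs_inertia hσ ha

theorem iv1_fr {Φ : 𝒢} (hΦ : IsFr A p Φ) {a : Ω} (ha : a ∈ A) (j : Unit) :
    iv1 A j (Φ a) = iv1 A j a ^ p := hΦ.rs ha

/-- stability of the cyclotomic extension -/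
theorem M1_stable {Φ : 𝒢} (hζ : IsPrimitiveRoot ζ p) (hΦ : Pres A Φ) {x : Ω} (hx : x ∈ M1 A ζ) :
    Φ x ∈ M1 A ζ := by
  obtain ⟨m, hm⟩ := exists_zeta_exp hζ Φ
  have h1 : ∀ x ∈ M1 A ζ, Φ x ∈ M1 A ζ := by
    intro x hx
    induction hx using IntermediateField.adjoin_induction with
    | mem x hx =>
      rw [Set.mem_singleton_iff] at hx
      rw [hx, hm]
      exact pow_mem zeta_mem_M1 m
    | algebraMap x =>
      exact (M1 A ζ).algebraMap_mem ⟨Φ x, hΦ.mem_K0 x.2⟩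
    | add x y _ _ hx hy => rw [map_add]; exact add_mem hx hy
    | inv x _ hx => rw [map_inv₀]; exact inv_mem hx
    | mul x y _ _ hx hy => rw [map_mul]; exact mul_mem hx hy
  exact h1 x hx

/-! ### the extension of degree `p ^ 2 - 1` -/

variable {ϖ : Ω} (hϖ : ϖ ^ (p ^ 2 - 1) = p)

/-- the invariants -/
def iv2 (A : ValuationSubring (AlgebraicClosure ℚ)) (p : ℕ) (ϖ : Ω) (i : Fin p) (a : Ω) : kk A :=
  if (i : ℕ) = 1 then dg A p ϖ 1 a - dg A p ϖ p a ^ p else dg A p ϖ i a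

theorem p_lt_e0 : p + 1 ≤ p ^ 2 - 1 := by
  have hp2 := (Fact.out : p.Prime).two_le
  have h1 : p * 2 ≤ p ^ 2 := by rw [sq]; exact Nat.mul_le_mul_left p hp2
  omega

include hϖ in
theorem dg_sub_div (hA : A.LiesOverPrime p) {a b : Ω} (ha : a ∈ A) (haM : a ∈ M2 A ϖ) (hb : b ∈ A)
    (hbM : b ∈ M2 A ϖ) {i : ℕ} (hi : i < p ^ 2 - 1) :
    dg A p ϖ i ((a - b) / (1 + p * b)) = dg A p ϖ i a - dg A p ϖ i b := by
  have hpA := mem_of_mem_nonunits A hA
  have h1 := one_add_unit hA hb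
  have h0 : 1 + p * b ≠ 0 := fun h => h1.2 (h ▸ zero_mem_nonunits A)
  have hz : (a - b) / (1 + p * b) ∈ A := by
    rw [div_eq_mul_inv]
    exact A.mul_mem _ _ (A.sub_mem ha hb) (inv_mem_of_unit h1.2)
  have hzM : (a - b) / (1 + p * b) ∈ M2 A ϖ :=
    div_mem (sub_mem haM hbM) (add_mem (one_mem _) (mul_mem (_root_.natCast_mem _ p) hbM))
  have h2 : a = b + ((a - b) / (1 + p * b) + p * (b * ((a - b) / (1 + p * b)))) := by
    have := div_mul_cancel₀ (a - b) h0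
    linear_combination -this
  have h3 := A.mul_mem _ _ hb hz
  have h3M : b * ((a - b) / (1 + p * b)) ∈ M2 A ϖ := mul_mem hbM hzM
  have h4 : p * (b * ((a - b) / (1 + p * b))) ∈ A := A.mul_mem _ _ hpA h3
  have h4M : p * (b * ((a - b) / (1 + p * b))) ∈ M2 A ϖ := mul_mem (_root_.natCast_mem _ p) h3M
  have h5 : dg A p ϖ i (p * (b * ((a - b) / (1 + p * b)))) = 0 := by
    refine dg_small hϖ hA h4 h4M (s := p ^ 2 - 1) ?_ hi hi
    have h6 : (rval A p hA).Ge 1 (p : Ω) := by right; rw [(rval A p hA).w_p]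
    rw [div_self (by exact_mod_cast (e0_pos (p := p)).ne')]
    exact h6.mul0 ((rval_ge_zero_iff hA).2 h3)
  have h6 := congrArg (dg A p ϖ i) h2
  rw [dg_add hϖ hA hb hbM (A.add_mem _ _ hz h4) (add_mem hzM h4M) hi,
    dg_add hϖ hA hz hzM h4 h4M hi, h5, add_zero] at h6
  rw [h6]
  ring

include hϖ in
theorem inv2 (hA : A.LiesOverPrime p) : Inv A p (M2 A ϖ) (iv2 A p ϖ) where
  sub := fun i a ha haM b hb hbM => by
    haveI := charP_residue hA
    have hpe := p_lt_e0 (p := p)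
    have hi := i.2
    rw [iv2, iv2, iv2]
    split_ifs with h
    · rw [dg_sub_div hϖ hA ha haM hb hbM (by omega), dg_sub_div hϖ hA ha haM hb hbM (by omega),
        sub_pow_char]
      ring
    · rw [dg_sub_div hϖ hA ha haM hb hbM (by omega)]
  triv := fun y hy a ha h i => by
    obtain ⟨h1, h2⟩ := digits_of_pow hϖ hA hy ha h
    rw [iv2]
    split_ifs with hi
    · rw [h2, sub_self]
    · exact h1 i i.2.le hi i.2.ne
  conv := fun y a ha haM h h0 => by
    have hp : p.Prime := Fact.out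
    refine mem_of_digits hϖ hA haM ha h (fun i hi h1 h2 => ?_) ?_
    · have := h0 ⟨i, lt_of_le_of_ne hi h2⟩
      rw [iv2, if_neg h1] at this
      exact this
    · have := h0 ⟨1, hp.one_lt⟩
      rw [iv2, if_pos rfl] at this
      exact sub_eq_zero.1 this

include hϖ in
theorem th_pi_pow (hA : A.LiesOverPrime p) {σ : 𝒢} (hσ : σ ∈ A.inertiaSubgroupIn ℚ) :
    th A σ ϖ ^ (p ^ 2 - 1) = 1 := by
  rw [← th_pow hA (pres_of_mem hσ) (pi_ne_zero hϖ), hϖ, th, map_natCast,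
    div_self (Nat.cast_ne_zero.2 (Fact.out : p.Prime).ne_zero), rs_one]

include hϖ in
theorem iv2_act (hA : A.LiesOverPrime p) {σ : 𝒢} (hσ : σ ∈ A.inertiaSubgroupIn ℚ) {a : Ω}
    (ha : a ∈ A) (haM : a ∈ M2 A ϖ) (i : Fin p) :
    iv2 A p ϖ i (σ a) = th A σ ϖ ^ (i : ℕ) * iv2 A p ϖ i a := by
  have hpe := p_lt_e0 (p := p)
  have hi := i.2
  rw [iv2, iv2]
  split_ifs with h
  · rw [dg_act hϖ hA hσ ha haM (by omega), dg_act hϖ hA hσ ha haM (by omega), h, mul_pow, ← pow_mul]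
    have h1 : th A σ ϖ ^ (p * p) = th A σ ϖ ^ 1 := by
      have h2 : p * p = p ^ 2 - 1 + 1 := by rw [← sq]; omega
      rw [h2, pow_succ, th_pi_pow hϖ hA hσ, one_mul, pow_one]
    rw [h1]
    ring
  · exact dg_act hϖ hA hσ ha haM (by omega)

include hϖ in
theorem iv2_fr (hA : A.LiesOverPrime p) {Φ : 𝒢} (hΦ : IsFr A p Φ) (hΦϖ : Φ ϖ = ϖ) {a : Ω}
    (ha : a ∈ A) (haM : a ∈ M2 A ϖ) (i : Fin p) :
    iv2 A p ϖ i (Φ a) = iv2 A p ϖ i a ^ p := by
  haveI := charP_residue hA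
  have hpe := p_lt_e0 (p := p)
  have hi := i.2
  rw [iv2, iv2]
  split_ifs with h
  · rw [dg_fr hϖ hA hΦ hΦϖ ha haM (by omega), dg_fr hϖ hA hΦ hΦϖ ha haM (by omega), sub_pow_char]
  · exact dg_fr hϖ hA hΦ hΦϖ ha haM (by omega)

include hϖ in
/-- stability under inertia -/
theorem M2_stable_inertia (hA : A.LiesOverPrime p) {σ : 𝒢} (hσ : σ ∈ A.inertiaSubgroupIn ℚ) {x : Ω}
    (hx : x ∈ M2 A ϖ) : σ x ∈ M2 A ϖ := by
  have h1 : ∀ x ∈ M2 A ϖ, σ x ∈ M2 A ϖ := by
    intro x hx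
    induction hx using IntermediateField.adjoin_induction with
    | mem x hx =>
      rw [Set.mem_singleton_iff] at hx
      rw [hx]
      have h2 := (root_mem_K0 hϖ hA hσ).1
      have h3 : σ ϖ = σ ϖ / ϖ * ϖ := (div_mul_cancel₀ _ (pi_ne_zero hϖ)).symm
      rw [h3]
      exact mul_mem ((M2 A ϖ).algebraMap_mem (⟨_, h2⟩ : K0 A)) mem_M2_pi
    | algebraMap x =>
      exact (M2 A ϖ).algebraMap_mem ⟨σ x, (pres_of_mem hσ).mem_K0 x.2⟩
    | add x y _ _ hx hy => rw [map_add]; exact add_mem hx hy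
    | inv x _ hx => rw [map_inv₀]; exact inv_mem hx
    | mul x y _ _ hx hy => rw [map_mul]; exact mul_mem hx hy
  exact h1 x hx

theorem M2_stable_of_fix {Φ : 𝒢} (hΦ : Pres A Φ) (hΦϖ : Φ ϖ = ϖ) {x : Ω}
    (hx : x ∈ M2 A ϖ) : Φ x ∈ M2 A ϖ := by
  have h1 : ∀ x ∈ M2 A ϖ, Φ x ∈ M2 A ϖ := by
    intro x hx
    induction hx using IntermediateField.adjoin_induction with
    | mem x hx =>
      rw [Set.mem_singleton_iff] at hx
      rw [hx, hΦϖ]
      exact mem_M2_pi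
    | algebraMap x =>
      exact (M2 A ϖ).algebraMap_mem ⟨Φ x, hΦ.mem_K0 x.2⟩
    | add x y _ _ hx hy => rw [map_add]; exact add_mem hx hy
    | inv x _ hx => rw [map_inv₀]; exact inv_mem hx
    | mul x y _ _ hx hy => rw [map_mul]; exact mul_mem hx hy
  exact h1 x hx

end Fermat.Agent.Flat
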