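import Fermat.Agent.Flat.Pres

/-!
# Differentials of finite flat group schemes killed by `p` are killed by `p`
-/

set_option autoImplicit false
set_option linter.unusedSectionVars false
set_option linter.style.haveILetI false

noncomputable section

open scoped TensorProduct
open WithConv

namespace Fermat.Agent.Flat

open Fermat.Agent.Places Fermat.Agent.RedMod MvPolynomial

local notation "Ω" => AlgebraicClosure ℚ

section der

variable {S T ι : Type*} [CommRing S] [CommRing T] [Algebra S T] [Fintype ι] [DecidableEq ι]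
  (x : ι → T) (hgen : Function.Surjective (aeval (R := S) x))

/-- the row of partial derivatives -/
def row (x : ι → T) : MvPolynomial ι S →ₗ[S] (ι → T) where
  toFun G j := aeval x (pderiv j G)
  map_add' G H := by funext j; simp
  map_smul' r G := by funext j; simp [map_smul]

theorem row_apply (G : MvPolynomial ι S) (j : ι) : row x G j = aeval x (pderiv j G) := rfl

theorem row_mul (G H : MvPolynomial ι S) :
    row x (G * H) = aeval x G • row x H + aeval x H • row x G := by
  funext j
  rw [row_apply, pderiv_mul, map_add, map_mul, map_mul, Pi.add_apply, Pi.smul_apply, Pi.smul_apply,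
    row_apply, row_apply, smul_eq_mul, smul_eq_mul]
  ring

theorem row_X (i : ι) : row (S := S) x (X i) = Pi.single i 1 := by
  funext j
  rw [row_apply, pderiv_X]
  by_cases h : j = i
  · subst h; simp
  · rw [Pi.single_eq_of_ne h, Pi.single_eq_of_ne (Ne.symm h), map_zero]

/-- the submodule of relations -/
def Urel (S : Type*) [CommRing S] [Algebra S T] (x : ι → T) : Submodule T (ι → T) :=
  Submodule.span T (row (S := S) x '' {G | aeval x G = 0})

include hgen in
/-- If all derivations are killed by `n`, then `n e_j` is a combination of relations. -/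
theorem smul_single_mem (n : ℕ)
    (hkill : ∀ t : T, n • KaehlerDifferential.D S T t = 0) (j : ι) :
    (Pi.single j (n : T) : ι → T) ∈ Urel S x := by
  choose s hs using hgen
  let δ₀ : T → (ι → T) ⧸ Urel S x := fun t => Submodule.Quotient.mk (row x (s t))
  have hind : ∀ G H : MvPolynomial ι S, aeval x G = aeval x H →
      (Submodule.Quotient.mk (row x G) : (ι → T) ⧸ Urel S x) = Submodule.Quotient.mk (row x H) := by
    intro G H h
    rw [Submodule.Quotient.eq, ← map_sub]
    exact Submodule.subset_span ⟨G - H, by change aeval x (G - H) = 0; rw [map_sub, h, sub_self], rfl⟩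
  have hδ : ∀ G : MvPolynomial ι S, δ₀ (aeval x G) = Submodule.Quotient.mk (row x G) := fun G =>
    hind _ _ (hs _)
  let δ : Derivation S T ((ι → T) ⧸ Urel S x) :=
    Derivation.mk'
      { toFun := δ₀
        map_add' := by
          intro a b
          have h1 : a + b = aeval x (s a + s b) := by rw [map_add, hs, hs]
          conv_lhs => rw [h1]
          rw [hδ, map_add]
          rfl
        map_smul' := by
          intro r a
          have h1 : r • a = aeval x (r • s a) := by rw [map_smul, hs]
          conv_lhs => rw [h1]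
          rw [hδ, map_smul]
          rfl } (by
        intro a b
        change δ₀ (a * b) = a • δ₀ b + b • δ₀ a
        have h1 : a * b = aeval x (s a * s b) := by rw [map_mul, hs, hs]
        conv_lhs => rw [h1]
        rw [hδ, row_mul, hs, hs]
        rfl)
  have h1 : n • δ (x j) = 0 := by
    rw [← Derivation.liftKaehlerDifferential_comp_D δ, ← map_nsmul, hkill, map_zero]
  have h2 : δ (x j) = Submodule.Quotient.mk (Pi.single j (1 : T)) := by
    have h3 := hδ (X j)
    rw [aeval_X, row_X] at h3
    exact h3
  rw [h2, ← Submodule.Quotient.mk_smul, Submodule.Quotient.mk_eq_zero] at h1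
  have h3 : n • (Pi.single j (1 : T) : ι → T) = Pi.single j (n : T) := by
    funext i
    rw [Pi.smul_apply]
    by_cases h : i = j
    · subst h; simp
    · rw [Pi.single_eq_of_ne h, Pi.single_eq_of_ne h, smul_zero]
  rwa [h3] at h1

/-- Nakayama: relations are generated by the rows of the `F i`. -/
theorem Urel_le [IsNoetherianRing T] (𝔪 : Ideal T) (h𝔪 : 𝔪 ≤ Ideal.jacobson ⊥) (ϖ : S)
    (hϖ : algebraMap S T ϖ ∈ 𝔪) (hx : ∀ i, x i ∈ 𝔪) (F : ι → MvPolynomial ι S)
    (hF0 : ∀ i, aeval x (F i) = 0)
    (hF : ∀ G : MvPolynomial ι S, aeval x G = 0 →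
        G ∈ Ideal.span (Set.range F) ⊔
          (Ideal.span {C ϖ} ⊔ Ideal.span (Set.range (X : ι → MvPolynomial ι S))) *
            RingHom.ker (aeval (R := S) x)) :
    Urel S x ≤ Submodule.span T (Set.range fun i => row x (F i)) := by
  set V := Submodule.span T (Set.range fun i => row x (F i)) with hV
  refine Submodule.le_of_le_smul_of_le_jacobson_bot (I := 𝔪) (IsNoetherian.noetherian _) h𝔪 ?_
  rw [Urel, Submodule.span_le]
  rintro _ ⟨G, hG, rfl⟩
  obtain ⟨a, ha, b, hb, rfl⟩ := Submodule.mem_sup.1 (hF G hG)
  rw [map_add]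
  refine Submodule.add_mem _ ?_ ?_
  · -- combination of the `F i`
    refine Submodule.mem_sup_left ?_
    refine Submodule.span_induction (p := fun a _ => row x a ∈ V) ?_ ?_ ?_ ?_ ha
    · rintro _ ⟨i, rfl⟩
      exact Submodule.subset_span ⟨i, rfl⟩
    · rw [map_zero]; exact V.zero_mem
    · intro a b _ _ h1 h2
      rw [map_add]; exact V.add_mem h1 h2
    · intro c a ha' h1
      rw [smul_eq_mul, row_mul]
      have h2 : aeval x a = 0 := by
        have h3 : Ideal.span (Set.range F) ≤ RingHom.ker (aeval (R := S) x) := by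
          rw [Ideal.span_le]
          rintro _ ⟨i, rfl⟩
          exact hF0 i
        exact h3 ha'
      rw [h2, zero_smul, add_zero]
      exact V.smul_mem _ h1
  · refine Submodule.mem_sup_right ?_
    clear hG
    induction hb using Submodule.mul_induction_on' with
    | mem_mul_mem m hm n hn =>
      rw [row_mul, (show aeval x n = 0 from hn), zero_smul, add_zero]
      refine Submodule.smul_mem_smul ?_ (Submodule.subset_span ⟨n, hn, rfl⟩)
      have h3 : Ideal.span {C ϖ} ⊔ Ideal.span (Set.range (X : ι → MvPolynomial ι S)) ≤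
          Ideal.comap (aeval (R := S) x) 𝔪 := by
        refine sup_le ?_ ?_
        · rw [Ideal.span_le, Set.singleton_subset_iff]
          change aeval x (C ϖ) ∈ 𝔪
          rw [aeval_C]; exact hϖ
        · rw [Ideal.span_le]
          rintro _ ⟨i, rfl⟩
          change aeval x (X i) ∈ 𝔪
          rw [aeval_X]; exact hx i
      exact h3 hm
    | add a _ b _ h1 h2 =>
      rw [map_add]
      exact Submodule.add_mem _ h1 h2

/-- The matrix relation. -/
theorem exists_matrix (n : T) (F : ι → MvPolynomial ι S)
    (h : ∀ j, (Pi.single j n : ι → T) ∈ Submodule.span T (Set.range fun i => row x (F i)))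
    (hn : ∀ t : T, n * t = 0 → t = 0) :
    ∃ V : Matrix ι ι T, (Matrix.of fun k j => aeval x (pderiv j (F k))) * V =
      Matrix.scalar ι n := by
  choose c hc using fun j => (Submodule.mem_span_range_iff_exists_fun T).1 (h j)
  let V : Matrix ι ι T := Matrix.of fun i k => c i k
  let J : Matrix ι ι T := Matrix.of fun k j => aeval x (pderiv j (F k))
  have h1 : V * J = Matrix.scalar ι n := by
    ext i j
    rw [Matrix.mul_apply]
    have h2 := congrFun (hc i) j
    rw [Finset.sum_apply] at h2
    change ∑ k, c i k * aeval x (pderiv j (F k)) = _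
    have h3 : ∀ k, c i k * aeval x (pderiv j (F k)) = (c i k • row x (F k)) j := fun k => rfl
    simp only [h3]
    rw [h2, Matrix.scalar_apply, Matrix.diagonal_apply]
    by_cases hij : i = j
    · subst hij; rw [if_pos rfl, Pi.single_eq_same]
    · rw [if_neg hij, Pi.single_eq_of_ne (Ne.symm hij)]
  refine ⟨V, ?_⟩
  change J * V = _
  -- `det J` is a nonzerodivisor
  have hdet : ∀ t : T, t * J.det = 0 → t = 0 := by
    intro t ht
    have h2 : V.det * J.det = n ^ Fintype.card ι := by
      rw [← Matrix.det_mul, h1]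
      simp [Matrix.det_diagonal, Matrix.scalar_apply]
    have h3 : n ^ Fintype.card ι * t = 0 := by rw [← h2]; linear_combination V.det * ht
    have h4 : ∀ m : ℕ, ∀ t : T, n ^ m * t = 0 → t = 0 := by
      intro m
      induction m with
      | zero => intro t ht; rwa [pow_zero, one_mul] at ht
      | succ m ih =>
        intro t ht
        rw [pow_succ, mul_assoc] at ht
        exact hn t (ih _ ht)
    exact h4 _ t h3
  have h2 : (J * V - Matrix.scalar ι n) * J = 0 := by
    rw [sub_mul, Matrix.mul_assoc, h1, sub_eq_zero]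
    exact (Matrix.scalar_commute n (fun r => mul_comm n r) J).symm.eq
  have h3 : (J * V - Matrix.scalar ι n) * (J * J.adjugate) = 0 := by
    rw [← Matrix.mul_assoc, h2, Matrix.zero_mul]
  rw [Matrix.mul_adjugate] at h3
  rw [← sub_eq_zero]
  ext i j
  have h4 := congrFun (congrFun h3 i) j
  apply hdet
  rw [Matrix.mul_smul, Matrix.mul_one, Matrix.smul_apply, smul_eq_mul] at h4
  rw [mul_comm]
  exact h4

end der

section kill

variable {A : ValuationSubring (AlgebraicClosure ℚ)} {p : ℕ} [Fact p.Prime]
variable {R : Type} [CommRing R] [Algebra R Ω] [Algebra R (R0 A)] [IsScalarTower R (R0 A) Ω]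
variable {H : Type} [CommRing H] [HopfAlgebra R H] [Module.Finite R H] [Module.Flat R H]

theorem points_separate (hinj : Function.Injective (algebraMap R Ω)) {h : H}
    (hh : ∀ P : H →ₐ[R] Ω, P h = 0) : h = 0 := by
  have hj : Function.Injective (fun h : H => ((1 : Ω) ⊗ₜ[R] h)) :=
    Algebra.TensorProduct.includeRight_injective hinj
  apply hj
  change (1 : Ω) ⊗ₜ[R] h = (1 : Ω) ⊗ₜ[R] 0
  rw [TensorProduct.tmul_zero]
  refine eq_zero_of_points (K := Ω) (H := Ω ⊗[R] H) fun P => ?_
  exact hh ((P.restrictScalars R).comp Algebra.TensorProduct.includeRight)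

/-- multiplication by `n` on `H` is trivial if it is trivial on points -/
theorem id_pow_eq_one (hinj : Function.Injective (algebraMap R Ω)) (n : ℕ)
    (hkill : ∀ w : WithConv (H →ₐ[R] Ω), w ^ n = 1) : (toConv (AlgHom.id R H)) ^ n = 1 := by
  apply ofConv_injective
  ext h
  rw [← sub_eq_zero]
  apply points_separate hinj
  intro P
  rw [map_sub, sub_eq_zero]
  have h1 := comp_pow P (toConv (AlgHom.id R H)) n
  have h2 : (toConv (P.comp (toConv (AlgHom.id R H)).ofConv) : WithConv (H →ₐ[R] Ω)) = toConv P := by
    apply ofConv_injective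
    ext x; rfl
  rw [h2, hkill] at h1
  have h3 := congrArg (fun w : WithConv (H →ₐ[R] Ω) => w h) h1
  refine Eq.trans h3 ?_
  change algebraMap R Ω (CoalgebraStruct.counit h) = P (algebraMap R H (CoalgebraStruct.counit h))
  rw [AlgHom.commutes]

/-- The differentials are killed by `n`. -/
theorem nsmul_D (n : ℕ) (hn : 0 < n) (hid : (toConv (AlgHom.id R H)) ^ n = 1)
    (e : (R0 A) ⊗[R] H) (t : TT e) : n • KaehlerDifferential.D (R0 A) (TT e) t = 0 := by
  let B := (TT e) ⊗[R0 A] (TT e)
  letI : Algebra R B := ((algebraMap (R0 A) B).comp (algebraMap R (R0 A))).toAlgebra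
  let ι : H →+* TT e := (mkT e).toRingHom.comp
    (Algebra.TensorProduct.includeRight : H →ₐ[R] (R0 A) ⊗[R] H).toRingHom
  have hι : ∀ r : R, ι (algebraMap R H r) = algebraMap (R0 A) (TT e) (algebraMap R (R0 A) r) := by
    intro r
    change mkT e ((1 : R0 A) ⊗ₜ[R] (algebraMap R H r)) = _
    rw [Algebra.algebraMap_eq_smul_one, ← TensorProduct.smul_tmul, Algebra.smul_def, mul_one]
    have h1 : ((algebraMap R (R0 A) r) ⊗ₜ[R] (1 : H)) = algebraMap (R0 A) _ (algebraMap R (R0 A) r) :=
      rfl
    rw [h1, AlgHom.commutes]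
  let u : H →ₐ[R] B :=
    { ((Algebra.TensorProduct.includeRight : TT e →ₐ[R0 A] B).toRingHom.comp ι) with
      commutes' := fun r => by
        change (Algebra.TensorProduct.includeRight : TT e →ₐ[R0 A] B) (ι (algebraMap R H r)) = _
        rw [hι, AlgHom.commutes]
        rfl }
  let v : H →ₐ[R] B :=
    { ((Algebra.TensorProduct.includeLeft : TT e →ₐ[R0 A] B).toRingHom.comp ι) with
      commutes' := fun r => by
        change (Algebra.TensorProduct.includeLeft : TT e →ₐ[R0 A] B) (ι (algebraMap R H r)) = _
        rw [hι, AlgHom.commutes]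
        rfl }
  have key : ∀ h : H, (n : B) * ((1 : TT e) ⊗ₜ[R0 A] ι h - ι h ⊗ₜ[R0 A] (1 : TT e)) ∈
      (KaehlerDifferential.ideal (R0 A) (TT e)) ^ 2 := by
    intro h
    refine nsmul_sub_mem (toConv u) (toConv v) hn (fun w => pow_eq_one_of_id hid w) (fun x => ?_) h
    exact KaehlerDifferential.one_smul_sub_smul_one_mem_ideal (R0 A) (ι x)
  have key2 : ∀ t : TT e, (n : B) * ((1 : TT e) ⊗ₜ[R0 A] t - t ⊗ₜ[R0 A] (1 : TT e)) ∈
      (KaehlerDifferential.ideal (R0 A) (TT e)) ^ 2 := by
    intro t
    obtain ⟨z, rfl⟩ := mkT_surjective e t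
    induction z using TensorProduct.induction_on with
    | zero => simp
    | add x y hx hy =>
      rw [map_add, TensorProduct.tmul_add, TensorProduct.add_tmul]
      have := Ideal.add_mem _ hx hy
      convert this using 1
      ring
    | tmul r h =>
      have h1 : mkT e (r ⊗ₜ[R] h) = r • ι h := by
        have h2 : (r ⊗ₜ[R] h : (R0 A) ⊗[R] H) = r • ((1 : R0 A) ⊗ₜ[R] h) := by
          rw [TensorProduct.smul_tmul', smul_eq_mul, mul_one]
        rw [h2, map_smul]
        rfl
      rw [h1, TensorProduct.tmul_smul, ← TensorProduct.smul_tmul', ← smul_sub,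
        Algebra.smul_def]
      have h3 := Ideal.mul_mem_left _ (algebraMap (R0 A) B r) (key h)
      convert h3 using 1
      ring
  rw [KaehlerDifferential.D_apply]
  have h1 := key2 t
  have h2 : n • (KaehlerDifferential.ideal (R0 A) (TT e)).toCotangent
      ⟨1 ⊗ₜ t - t ⊗ₜ 1, KaehlerDifferential.one_smul_sub_smul_one_mem_ideal (R0 A) t⟩ = 0 := by
    rw [← map_nsmul, Ideal.toCotangent_eq_zero]
    rw [← nsmul_eq_mul] at h1
    exact h1
  exact h2

end kill

end Fermat.Agent.Flat
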