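import Fermat.Agent.Flat.KumP

/-!
# Digits in the tame extension of degree `p ^ 2 - 1`
-/

set_option autoImplicit false
set_option linter.unusedSectionVars false
set_option linter.style.haveILetI false

noncomputable section

namespace Fermat.Agent.Flat

open Fermat.Agent.Places Fermat.Agent.RedMod Fermat.Agent.FlatRam

local notation "Ω" => AlgebraicClosure ℚ

local notation "𝒢" => (AlgebraicClosure ℚ) ≃ₐ[ℚ] (AlgebraicClosure ℚ)

theorem one_add_pow_expand {S : Type*} [CommRing S] (p : ℕ) (hp : p.Prime) (n : S) :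
    ∃ g : S, (1 + n) ^ p = 1 + n ^ p + p * n + p * n ^ 2 * g := by
  open Polynomial in
  obtain ⟨r, hr⟩ := exists_add_pow_prime_eq hp (X : ℤ[X]) 1
  open Polynomial in
  have h1 := congrArg (fun P : ℤ[X] => (derivative P).eval 0) hr
  simp only [Polynomial.derivative_add, Polynomial.derivative_pow, Polynomial.derivative_X,
    Polynomial.derivative_one, Polynomial.derivative_mul, Polynomial.derivative_natCast,
    Polynomial.eval_add, Polynomial.eval_mul, Polynomial.eval_pow, Polynomial.eval_X,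
    Polynomial.eval_one, Polynomial.eval_natCast, Polynomial.eval_zero] at h1
  have hp1 : p - 1 ≠ 0 := by have := hp.two_le; omega
  have h2 : r.eval 0 = 1 := by
    have hp0 : (p : ℤ) ≠ 0 := by exact_mod_cast hp.ne_zero
    have h3 : (p : ℤ) * r.eval 0 = p * 1 := by
      simp [hp1] at h1
      linarith
    exact mul_left_cancel₀ hp0 h3
  obtain ⟨g, hg⟩ : (Polynomial.X : Polynomial ℤ) ∣ r - Polynomial.C (r.eval 0) := by
    rw [Polynomial.X_dvd_iff]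
    simp [Polynomial.coeff_zero_eq_eval_zero]
  have h4 := congrArg (Polynomial.aeval n) hr
  have h5 := congrArg (Polynomial.aeval n) hg
  rw [h2] at h5
  simp only [map_add, map_pow, Polynomial.aeval_X, map_one, map_mul, map_natCast, map_sub] at h4 h5
  refine ⟨Polynomial.aeval n g, ?_⟩
  rw [add_comm 1 n, h4]
  have h6 : Polynomial.aeval n r = 1 + n * Polynomial.aeval n g := by
    rw [← h5]; ring
  rw [h6]
  ring

variable {A : ValuationSubring (AlgebraicClosure ℚ)} {p : ℕ} [Fact p.Prime]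
variable {ϖ : Ω} (hϖ : ϖ ^ (p ^ 2 - 1) = p)

theorem e0_pos : 0 < p ^ 2 - 1 := by
  have := (Fact.out : p.Prime).two_le
  have : 2 ^ 2 ≤ p ^ 2 := Nat.pow_le_pow_left this 2
  omega

include hϖ in
theorem pi_ne_zero : ϖ ≠ 0 := by
  rintro rfl
  rw [zero_pow (e0_pos (p := p)).ne'] at hϖ
  exact (Fact.out : p.Prime).ne_zero (by exact_mod_cast hϖ.symm)

include hϖ in
theorem w_pi (hA : A.LiesOverPrime p) : ((p ^ 2 - 1 : ℕ) : ℚ) * (rval A p hA).w ϖ = 1 := by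
  rw [← RVal.w_pow (pi_ne_zero hϖ), hϖ, (rval A p hA).w_p]

/-- the tame extension of degree `p ^ 2 - 1` -/
abbrev M2 (A : ValuationSubring (AlgebraicClosure ℚ)) (ϖ : Ω) : IntermediateField (K0 A) Ω :=
  IntermediateField.adjoin (K0 A) {ϖ}

instance : FiniteDimensional (K0 A) (M2 A ϖ) :=
  IntermediateField.adjoin.finiteDimensional (Algebra.IsIntegral.isIntegral (R := K0 A) ϖ)

include hϖ in
theorem finrank_M2 (hA : A.LiesOverPrime p) : Module.finrank (K0 A) (M2 A ϖ) = p ^ 2 - 1 := by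
  apply le_antisymm
  · rw [IntermediateField.adjoin.finrank (Algebra.IsIntegral.isIntegral (R := K0 A) ϖ)]
    have h1 : minpoly (K0 A) ϖ ∣ Polynomial.X ^ (p ^ 2 - 1) - Polynomial.C (p : K0 A) := by
      apply minpoly.dvd
      simp [hϖ]
    have h2 := Polynomial.natDegree_le_of_dvd h1 (Polynomial.X_pow_sub_C_ne_zero e0_pos _)
    rwa [Polynomial.natDegree_X_pow_sub_C] at h2
  · have h1 := dvd_finrank (rval A p hA) (pi_ne_zero hϖ) (w_pi hϖ hA)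
    exact Nat.le_of_dvd Module.finrank_pos h1

/-- coordinates -/
def Rp (p : ℕ) (ϖ a : Ω) (c : ℕ → R0 A) : Prop :=
  a = ∑ i ∈ Finset.range (p ^ 2 - 1), (c i : Ω) * ϖ ^ i

include hϖ in
theorem Rp_unique (hA : A.LiesOverPrime p) {a : Ω} {c d : ℕ → R0 A} (hc : Rp p ϖ a c)
    (hd : Rp p ϖ a d) {i : ℕ} (hi : i < p ^ 2 - 1) : c i = d i := by
  have h1 := linearIndependent_pow (K := K0 A) ϖ
  have hdeg : (minpoly (K0 A) ϖ).natDegree = p ^ 2 - 1 := by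
    rw [← finrank_M2 hϖ hA, IntermediateField.adjoin.finrank
      (Algebra.IsIntegral.isIntegral (R := K0 A) ϖ)]
  rw [Fintype.linearIndependent_iff] at h1
  let g : ℕ → K0 A := fun j => ⟨(c j : Ω) - d j, (K0 A).sub_mem (c j).2.2 (d j).2.2⟩
  have h2 := h1 (fun j => g j) (by
    rw [Fin.sum_univ_eq_sum_range (fun j => g j • ϖ ^ j), hdeg]
    have h3 : ∀ j, g j • ϖ ^ j = (c j : Ω) * ϖ ^ j - (d j : Ω) * ϖ ^ j := fun j => by
      rw [Algebra.smul_def, ← sub_mul]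
      rfl
    rw [Finset.sum_congr rfl fun j _ => h3 j, Finset.sum_sub_distrib]
    rw [Rp] at hc hd
    rw [← hc, ← hd, sub_self]) ⟨i, by rw [hdeg]; exact hi⟩
  have h4 := congrArg (fun z : K0 A => (z : Ω)) h2
  apply Subtype.ext
  exact sub_eq_zero.1 h4

include hϖ in
theorem exists_Rp (hA : A.LiesOverPrime p) {a : Ω} (ha : a ∈ A) (haM : a ∈ M2 A ϖ) :
    ∃ c : ℕ → R0 A, Rp p ϖ a c ∧ ∀ i < p ^ 2 - 1,
      (rval A p hA).Ge ((rval A p hA).w a) ((c i : Ω) * ϖ ^ i) := by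
  rcases eq_or_ne a 0 with rfl | ha0
  · refine ⟨fun _ => 0, by rw [Rp]; simp, fun i _ => ?_⟩
    left; simp
  have hϖM : ϖ ∈ M2 A ϖ := IntermediateField.mem_adjoin_simple_self _ _
  have hϖ0' : (⟨ϖ, hϖM⟩ : M2 A ϖ) ≠ 0 := fun h => pi_ne_zero hϖ (congrArg Subtype.val h)
  have hϖw : (Module.finrank (K0 A) (M2 A ϖ) : ℚ) * (rval A p hA).w ((⟨ϖ, hϖM⟩ : M2 A ϖ) : Ω) = 1 := by
    rw [finrank_M2 hϖ hA]
    exact w_pi hϖ hA
  have ha0' : (⟨a, haM⟩ : M2 A ϖ) ≠ 0 := fun h => ha0 (congrArg Subtype.val h)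
  obtain ⟨c, hc, hci⟩ := exists_rep (rval A p hA) hϖ0' hϖw ⟨a, haM⟩ ha0'
  have hwa : 0 ≤ (rval A p hA).w a := (wA_nonneg_iff hA ha0).2 ha
  have hfr := finrank_M2 hϖ hA
  have hcA : ∀ i, algebraMap (K0 A) Ω (c i) ∈ A := by
    intro i
    rw [← rval_ge_zero_iff (p := p) hA]
    exact w_coeff (rval A p hA) hϖ0' hϖw (x := ⟨a, haM⟩) i.2 hwa (hci i)
  let c' : ℕ → R0 A := fun i => if h : i < Module.finrank (K0 A) (M2 A ϖ) then
    ⟨algebraMap (K0 A) Ω (c ⟨i, h⟩), hcA _, (c ⟨i, h⟩).2⟩ else 0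
  refine ⟨c', ?_, fun i hi => ?_⟩
  · rw [Rp]
    have h1 : a = ((∑ i, c i • (⟨ϖ, hϖM⟩ : M2 A ϖ) ^ (i : ℕ) : M2 A ϖ) : Ω) := by rw [← hc]
    rw [h1, ← hfr, ← Fin.sum_univ_eq_sum_range (fun i => (c' i : Ω) * ϖ ^ i)]
    push_cast
    refine Finset.sum_congr rfl fun i _ => ?_
    simp only [c', dif_pos i.2]
    rw [Algebra.smul_def]
  · rw [← hfr] at hi
    have := hci ⟨i, hi⟩
    simp only [c', dif_pos hi]
    exact this

/-- the digits -/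
def dg (A : ValuationSubring (AlgebraicClosure ℚ)) (p : ℕ) (ϖ : Ω) (i : ℕ) (a : Ω) : kk A := by
  classical
  exact if h : ∃ c : ℕ → R0 A, Rp p ϖ a c then algebraMap (R0 A) (kk A) (h.choose i) else 0

include hϖ in
theorem dg_eq (hA : A.LiesOverPrime p) {a : Ω} {c : ℕ → R0 A} (hc : Rp p ϖ a c) {i : ℕ}
    (hi : i < p ^ 2 - 1) : dg A p ϖ i a = rs A (c i) := by
  have h : ∃ c : ℕ → R0 A, Rp p ϖ a c := ⟨c, hc⟩
  rw [dg, dif_pos h, Rp_unique hϖ hA h.choose_spec hc hi, rs_eq (c i).2.1]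
  rfl

theorem mem_M2_pi : ϖ ∈ M2 A ϖ := IntermediateField.mem_adjoin_simple_self _ _

theorem R0_mem_M2 (r : R0 A) : (r : Ω) ∈ M2 A ϖ :=
  (M2 A ϖ).algebraMap_mem (⟨(r : Ω), r.2.2⟩ : K0 A)

include hϖ in
theorem dg_add (hA : A.LiesOverPrime p) {a b : Ω} (ha : a ∈ A) (haM : a ∈ M2 A ϖ) (hb : b ∈ A)
    (hbM : b ∈ M2 A ϖ) {i : ℕ} (hi : i < p ^ 2 - 1) :
    dg A p ϖ i (a + b) = dg A p ϖ i a + dg A p ϖ i b := by
  obtain ⟨c, hc, -⟩ := exists_Rp hϖ hA ha haM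
  obtain ⟨d, hd, -⟩ := exists_Rp hϖ hA hb hbM
  have h : Rp p ϖ (a + b) (fun i => c i + d i) := by
    rw [Rp] at hc hd ⊢
    rw [hc, hd, ← Finset.sum_add_distrib]
    refine Finset.sum_congr rfl fun i _ => ?_
    push_cast
    ring
  rw [dg_eq hϖ hA h hi, dg_eq hϖ hA hc hi, dg_eq hϖ hA hd hi]
  push_cast
  exact rs_add (c i).2.1 (d i).2.1

include hϖ in
theorem dg_monomial (hA : A.LiesOverPrime p) (r : R0 A) {i j : ℕ} (hi : i < p ^ 2 - 1)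
    (hj : j < p ^ 2 - 1) : dg A p ϖ i (r * ϖ ^ j) = if i = j then rs A r else 0 := by
  classical
  have h : Rp p ϖ (r * ϖ ^ j) (fun i => if i = j then r else 0) := by
    rw [Rp, Finset.sum_eq_single j]
    · rw [if_pos rfl]
    · intro b _ hb
      rw [if_neg hb]; simp
    · intro h; exact absurd (Finset.mem_range.2 hj) h
  rw [dg_eq hϖ hA h hi]
  split_ifs with hij
  · rfl
  · exact rs_zero

theorem w_pi_eq (hA : A.LiesOverPrime p) (hϖ : ϖ ^ (p ^ 2 - 1) = p) :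
    (rval A p hA).w ϖ = 1 / ((p ^ 2 - 1 : ℕ) : ℚ) := by
  have h1 := w_pi hϖ hA
  have h2 : ((p ^ 2 - 1 : ℕ) : ℚ) ≠ 0 := by exact_mod_cast (e0_pos (p := p)).ne'
  field_simp
  linarith

include hϖ in
theorem dg_small (hA : A.LiesOverPrime p) {a : Ω} (ha : a ∈ A) (haM : a ∈ M2 A ϖ) {s : ℕ}
    (hs : (rval A p hA).Ge (s / ((p ^ 2 - 1 : ℕ) : ℚ)) a) {i : ℕ} (hi : i < p ^ 2 - 1)
    (his : i < s) : dg A p ϖ i a = 0 := by
  obtain ⟨c, hc, hcw⟩ := exists_Rp hϖ hA ha haM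
  rw [dg_eq hϖ hA hc hi, rs_eq_zero_iff (c i).2.1, ← rval_gt_zero_iff (p := p) hA]
  by_cases hc0 : (c i : Ω) = 0
  · left; exact hc0
  right
  have h0 : (0 : ℚ) < ((p ^ 2 - 1 : ℕ) : ℚ) := by exact_mod_cast (e0_pos (p := p))
  have hne := mul_ne_zero hc0 (pow_ne_zero i (pi_ne_zero hϖ))
  have ha0 : a ≠ 0 := by
    rintro rfl
    have h : Rp p ϖ 0 (fun _ => (0 : R0 A)) := by rw [Rp]; simp
    have := Rp_unique hϖ hA hc h hi
    exact hc0 (congrArg Subtype.val this)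
  have h1 := (hcw i hi).le hne
  rw [RVal.w_mul hc0 (pow_ne_zero i (pi_ne_zero hϖ)), RVal.w_pow (pi_ne_zero hϖ),
    w_pi_eq hA hϖ] at h1
  have h2 := hs.le ha0
  have h3 : (i : ℚ) < s := by exact_mod_cast his
  have h4 : (i : ℚ) * (1 / ((p ^ 2 - 1 : ℕ) : ℚ)) < s / ((p ^ 2 - 1 : ℕ) : ℚ) := by
    rw [mul_one_div]
    exact div_lt_div_of_pos_right h3 h0
  linarith

include hϖ in
theorem dg_conv (hA : A.LiesOverPrime p) {a : Ω} (ha : a ∈ A) (haM : a ∈ M2 A ϖ) {s : ℕ}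
    (hs : s ≤ p ^ 2 - 1) (h : ∀ i < s, dg A p ϖ i a = 0) :
    (rval A p hA).Ge (s / ((p ^ 2 - 1 : ℕ) : ℚ)) a := by
  obtain ⟨c, hc, -⟩ := exists_Rp hϖ hA ha haM
  have h0 : (0 : ℚ) < ((p ^ 2 - 1 : ℕ) : ℚ) := by exact_mod_cast (e0_pos (p := p))
  have hp0 := pi_ne_zero hϖ
  rw [Rp] at hc
  rw [hc]
  refine RVal.Ge.sum _ _ fun i hi => ?_
  rw [Finset.mem_range] at hi
  by_cases hc0 : (c i : Ω) = 0
  · left; rw [hc0, zero_mul]
  right
  rw [RVal.w_mul hc0 (pow_ne_zero i hp0), RVal.w_pow hp0, w_pi_eq hA hϖ]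
  obtain ⟨n, hn⟩ := (rval A p hA).w_int (⟨c i, (c i).2.2⟩ : K0 A) (fun h => hc0 (congrArg Subtype.val h))
  have hn' : (rval A p hA).w (c i : Ω) = n := hn
  rcases lt_or_ge i s with his | his
  · have h1 := h i his
    rw [dg_eq hϖ hA hc hi, rs_eq_zero_iff (c i).2.1] at h1
    have h2 : 0 < (rval A p hA).w (c i : Ω) := (wA_pos_iff hA hc0).2 h1
    rw [hn'] at h2 ⊢
    have h3 : (1 : ℤ) ≤ n := by exact_mod_cast h2
    have h4 : (1 : ℚ) ≤ n := by exact_mod_cast h3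
    have h5 : (s : ℚ) / ((p ^ 2 - 1 : ℕ) : ℚ) ≤ 1 := by
      rw [div_le_one h0]
      exact_mod_cast hs
    have h6 : 0 ≤ (i : ℚ) * (1 / ((p ^ 2 - 1 : ℕ) : ℚ)) := by positivity
    linarith
  · have h2 : 0 ≤ (rval A p hA).w (c i : Ω) := (wA_nonneg_iff hA hc0).2 (c i).2.1
    have h3 : (s : ℚ) ≤ i := by exact_mod_cast his
    have h4 : s / ((p ^ 2 - 1 : ℕ) : ℚ) ≤ (i : ℚ) * (1 / ((p ^ 2 - 1 : ℕ) : ℚ)) := by
      rw [mul_one_div]
      exact div_le_div_of_nonneg_right h3 h0.le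
    linarith

include hϖ in
theorem root_mem_K0 (hA : A.LiesOverPrime p) {σ : 𝒢} (hσ : σ ∈ A.inertiaSubgroupIn ℚ) :
    σ ϖ / ϖ ∈ K0 A ∧ σ ϖ / ϖ ∈ A := by
  have hp : p.Prime := Fact.out
  have hp0 := pi_ne_zero hϖ
  have hndvd : ¬ p ∣ p ^ 2 - 1 := by
    intro h
    have h1 : p ∣ p ^ 2 := dvd_pow_self p two_ne_zero
    have h2 : p ∣ 1 := by
      have := (Nat.dvd_sub h1 h)
      have h3 : p ^ 2 - (p ^ 2 - 1) = 1 := by
        have := e0_pos (p := p)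
        omega
      rwa [h3] at this
    exact hp.one_lt.ne' (Nat.dvd_one.1 h2)
  have hA1 := (pres_of_mem hσ).div_mem hA hp0
  have hpow : (σ ϖ / ϖ) ^ (p ^ 2 - 1) = 1 := by
    rw [div_pow, ← map_pow, hϖ, map_natCast, div_self (Nat.cast_ne_zero.2 hp.ne_zero)]
  refine ⟨?_, hA1⟩
  rw [K0, IntermediateField.mem_fixedField_iff]
  intro τ hτ
  have hξ0 : σ ϖ / ϖ ≠ 0 := div_ne_zero (by rwa [ne_eq, _root_.map_eq_zero]) hp0
  have hξn : σ ϖ / ϖ ∉ A.nonunits := by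
    intro h
    have h1 : (σ ϖ / ϖ) ^ (p ^ 2 - 1) ∈ A.nonunits := by
      rw [← Nat.sub_add_cancel (e0_pos (p := p)), pow_succ']
      exact mul_mem_nonunits A h (A.toSubring.pow_mem hA1 _)
    rw [hpow] at h1
    exact one_notMem A h1
  have h1 : (τ (σ ϖ / ϖ) / (σ ϖ / ϖ)) ^ (p ^ 2 - 1) = 1 := by
    rw [div_pow, ← map_pow, hpow, map_one, div_one]
  have h2 := eq_one_of_rs hA hndvd h1 (th_unit hτ hA1 hξn)
  exact (div_eq_one_iff_eq hξ0).1 h2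

include hϖ in
theorem dg_act (hA : A.LiesOverPrime p) {σ : 𝒢} (hσ : σ ∈ A.inertiaSubgroupIn ℚ) {a : Ω}
    (ha : a ∈ A) (haM : a ∈ M2 A ϖ) {i : ℕ} (hi : i < p ^ 2 - 1) :
    dg A p ϖ i (σ a) = th A σ ϖ ^ i * dg A p ϖ i a := by
  obtain ⟨c, hc, -⟩ := exists_Rp hϖ hA ha haM
  obtain ⟨hK, hA1⟩ := root_mem_K0 hϖ hA hσ
  let ξ : R0 A := ⟨σ ϖ / ϖ, hA1, hK⟩
  have hp0 := pi_ne_zero hϖ
  have h : Rp p ϖ (σ a) (fun i => ξ ^ i * c i) := by
    rw [Rp] at hc ⊢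
    rw [hc, map_sum]
    refine Finset.sum_congr rfl fun i _ => ?_
    have h1 : σ (c i : Ω) = c i := by
      have h2 : ((c i : R0 A) : Ω) ∈ K0 A := (c i).2.2
      rw [K0, IntermediateField.mem_fixedField_iff] at h2
      exact h2 σ hσ
    rw [map_mul, map_pow, h1]
    change (c i : Ω) * σ ϖ ^ i = ((σ ϖ / ϖ) ^ i * (c i : Ω)) * ϖ ^ i
    rw [div_pow]
    field_simp
  rw [dg_eq hϖ hA h hi, dg_eq hϖ hA hc hi]
  change rs A ((σ ϖ / ϖ) ^ i * (c i : Ω)) = _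
  rw [rs_mul (A.toSubring.pow_mem hA1 i) (c i).2.1, rs_pow hA1]
  rfl

/-- elements preserving `A` preserve the fixed field of inertia -/
theorem Pres.mem_K0 {Φ : 𝒢} (hΦ : Pres A Φ) {x : Ω} (hx : x ∈ K0 A) : Φ x ∈ K0 A := by
  rw [K0, IntermediateField.mem_fixedField_iff] at hx ⊢
  intro σ hσ
  have h1 := hx _ (conj_mem_inertia hΦ.inv hσ)
  have h2 : σ (Φ x) = Φ ((Φ⁻¹ * σ * Φ⁻¹⁻¹) x) := by
    rw [inv_inv, AlgEquiv.mul_apply, AlgEquiv.mul_apply]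
    exact (Φ.apply_symm_apply _).symm
  rw [h2, h1]

include hϖ in
theorem dg_fr (hA : A.LiesOverPrime p) {Φ : 𝒢} (hΦ : IsFr A p Φ) (hΦϖ : Φ ϖ = ϖ) {a : Ω}
    (ha : a ∈ A) (haM : a ∈ M2 A ϖ) {i : ℕ} (hi : i < p ^ 2 - 1) :
    dg A p ϖ i (Φ a) = dg A p ϖ i a ^ p := by
  obtain ⟨c, hc, -⟩ := exists_Rp hϖ hA ha haM
  let c' : ℕ → R0 A := fun i => ⟨Φ (c i), (hΦ.1 _).2 (c i).2.1, hΦ.1.mem_K0 (c i).2.2⟩
  have h : Rp p ϖ (Φ a) c' := by
    rw [Rp] at hc ⊢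
    rw [hc, map_sum]
    refine Finset.sum_congr rfl fun i _ => ?_
    rw [map_mul, map_pow, hΦϖ]
  rw [dg_eq hϖ hA h hi, dg_eq hϖ hA hc hi]
  exact hΦ.rs (c i).2.1

end Fermat.Agent.Flat
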