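import Fermat.Agent.Flat.KumD

/-!
# Digits of `p`-th powers in the tame extension of degree `p ^ 2 - 1`
-/

set_option autoImplicit false
set_option linter.unusedSectionVars false
set_option linter.style.haveILetI false

noncomputable section

namespace Fermat.Agent.Flat

open Fermat.Agent.Places Fermat.Agent.RedMod Fermat.Agent.FlatRam

local notation "Ω" => AlgebraicClosure ℚ

local notation "𝒢" => (AlgebraicClosure ℚ) ≃ₐ[ℚ] (AlgebraicClosure ℚ)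

variable {A : ValuationSubring (AlgebraicClosure ℚ)} {p : ℕ} [Fact p.Prime]
variable {ϖ : Ω} (hϖ : ϖ ^ (p ^ 2 - 1) = p)

include hϖ in
theorem w_M2_int (hA : A.LiesOverPrime p) {x : Ω} (hx : x ∈ M2 A ϖ) (hx0 : x ≠ 0) :
    ∃ n : ℤ, ((p ^ 2 - 1 : ℕ) : ℚ) * (rval A p hA).w x = n := by
  have hx0' : (⟨x, hx⟩ : M2 A ϖ) ≠ 0 := fun h => hx0 (congrArg Subtype.val h)
  obtain ⟨n, hn⟩ := exists_int (rval A p hA) (M2 A ϖ) hx0'
  rw [finrank_M2 hϖ hA] at hn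
  exact ⟨n, hn⟩

theorem pi_nonunit (hA : A.LiesOverPrime p) (hϖ : ϖ ^ (p ^ 2 - 1) = p) : ϖ ∈ A.nonunits := by
  rw [← wA_pos_iff (p := p) hA (pi_ne_zero hϖ)]
  change 0 < (rval A p hA).w ϖ
  rw [w_pi_eq hA hϖ]
  have h0 : (0 : ℚ) < ((p ^ 2 - 1 : ℕ) : ℚ) := by exact_mod_cast (e0_pos (p := p))
  positivity

theorem pi_mem (hA : A.LiesOverPrime p) (hϖ : ϖ ^ (p ^ 2 - 1) = p) : ϖ ∈ A :=
  mem_of_mem_nonunits A (pi_nonunit hA hϖ)

include hϖ in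
theorem div_pi_pow_mem (hA : A.LiesOverPrime p) {x : Ω} {s : ℕ}
    (hs : (rval A p hA).Ge (s / ((p ^ 2 - 1 : ℕ) : ℚ)) x) : x / ϖ ^ s ∈ A := by
  rw [← rval_ge_zero_iff (p := p) hA]
  have hp0 := pi_ne_zero hϖ
  rcases hs with h | h
  · left; rw [h, zero_div]
  · by_cases hx0 : x = 0
    · left; rw [hx0, zero_div]
    · right
      rw [RVal.w_div hx0 (pow_ne_zero s hp0), RVal.w_pow hp0, w_pi_eq hA hϖ, mul_one_div]
      linarith

include hϖ in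
theorem exists_digit_zero (hA : A.LiesOverPrime p) (x : OE A (M2 A ϖ)) :
    ∃ (c : R0 A) (y : OE A (M2 A ϖ)), (x : Ω) = c + ϖ * y := by
  obtain ⟨c, hc, hcx⟩ := exists_R0_sub_mem hA x.2.1
  have h1 : (x : Ω) - c ∈ A.nonunits := by
    rw [← neg_sub]; exact neg_mem_nonunits A hcx
  have h2 : (x : Ω) - c ∈ M2 A ϖ := sub_mem x.2.2 (R0_mem_M2 ⟨c, hc⟩)
  have h3 : (rval A p hA).Ge ((1 : ℕ) / ((p ^ 2 - 1 : ℕ) : ℚ)) ((x : Ω) - c) := by
    by_cases h0 : (x : Ω) - c = 0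
    · left; exact h0
    right
    obtain ⟨n, hn⟩ := w_M2_int hϖ hA h2 h0
    have h4 : 0 < (rval A p hA).w ((x : Ω) - c) := (wA_pos_iff hA h0).2 h1
    have h5 : (0 : ℚ) < ((p ^ 2 - 1 : ℕ) : ℚ) := by exact_mod_cast (e0_pos (p := p))
    have h6 : (0 : ℚ) < n := by rw [← hn]; positivity
    have h7 : (1 : ℤ) ≤ n := by exact_mod_cast h6
    have h8 : (1 : ℚ) ≤ n := by exact_mod_cast h7
    rw [div_le_iff₀ h5, mul_comm, hn]
    exact_mod_cast h7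
  have h4 := div_pi_pow_mem hϖ hA h3
  rw [pow_one] at h4
  refine ⟨⟨c, hc⟩, ⟨((x : Ω) - c) / ϖ, h4, div_mem h2 mem_M2_pi⟩, ?_⟩
  change (x : Ω) = c + ϖ * (((x : Ω) - c) / ϖ)
  rw [mul_div_cancel₀ _ (pi_ne_zero hϖ)]
  ring

include hϖ in
/-- the digits of a `p`-th power -/
theorem pow_digits (hA : A.LiesOverPrime p) (x : OE A (M2 A ϖ)) (c : R0 A) (y : OE A (M2 A ϖ))
    (hx : (x : Ω) = c + ϖ * y) : ∃ b : OE A (M2 A ϖ),
      (1 + ϖ ^ p * (x : Ω)) ^ p = 1 + p * ((c : Ω) ^ p * ϖ + c * ϖ ^ p + ϖ ^ (p + 1) * b) := by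
  have hp : p.Prime := Fact.out
  let π' : OE A (M2 A ϖ) := ⟨ϖ, pi_mem hA hϖ, mem_M2_pi⟩
  let c' : OE A (M2 A ϖ) := ⟨c, c.2.1, R0_mem_M2 c⟩
  have hxO : x = c' + π' * y := Subtype.ext hx
  have hpi : π' ^ (p ^ 2 - 1) = (p : OE A (M2 A ϖ)) := by
    apply Subtype.ext
    push_cast
    exact hϖ
  have hp2 : p ^ 2 = p ^ 2 - 1 + 1 := by have := e0_pos (p := p); omega
  have hpi2 : π' ^ (p ^ 2) = p * π' := by rw [hp2, pow_succ, hpi]
  obtain ⟨g, hg⟩ := one_add_pow_expand p hp (π' ^ p * x)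
  obtain ⟨r, hr⟩ := exists_add_pow_prime_eq hp c' (π' * y)
  obtain ⟨d, hd⟩ : ∃ d, p = d + 1 := ⟨p - 1, by have := hp.one_le; omega⟩
  have h2p : π' ^ (2 * p) = π' ^ (p + 1) * π' ^ (p - 1) := by
    rw [← pow_add]; congr 1; omega
  have hpp : (p : OE A (M2 A ϖ)) * π' ^ 2 = π' ^ (p + 1) * π' ^ (p ^ 2 - p) := by
    rw [← hpi, ← pow_add, ← pow_add]
    congr 1
    have h1 : p ≤ p ^ 2 := by nlinarith [hp.one_le]
    have := e0_pos (p := p)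
    omega
  refine ⟨y ^ p + π' ^ (p ^ 2 - p) * (c' * y * r) + y + π' ^ (p - 1) * x ^ 2 * g, ?_⟩
  have key : (1 + π' ^ p * x) ^ p = 1 + p * (c' ^ p * π' + c' * π' ^ p + π' ^ (p + 1) *
      (y ^ p + π' ^ (p ^ 2 - p) * (c' * y * r) + y + π' ^ (p - 1) * x ^ 2 * g)) := by
    have e1 : (π' ^ p * x) ^ p = p * π' * x ^ p := by
      rw [mul_pow, ← pow_mul, ← sq, hpi2]
    have e2 : x ^ p = c' ^ p + π' ^ p * y ^ p + p * c' * (π' * y) * r := by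
      rw [hxO, hr, mul_pow]
    rw [hg, e1, e2]
    have e3 : π' ^ (p + 1) * (y ^ p + π' ^ (p ^ 2 - p) * (c' * y * r) + y +
        π' ^ (p - 1) * x ^ 2 * g) = π' ^ (p + 1) * y ^ p +
        (π' ^ (p + 1) * π' ^ (p ^ 2 - p)) * (c' * y * r) + π' ^ (p + 1) * y +
        (π' ^ (p + 1) * π' ^ (p - 1)) * (x ^ 2 * g) := by ring
    rw [e3, ← hpp, ← h2p]
    have e4 : (p : OE A (M2 A ϖ)) * (π' ^ p * x) = p * (c' * π' ^ p + π' ^ (p + 1) * y) := by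
      rw [hxO, pow_succ]; ring
    rw [e4, pow_succ π' p, mul_comm 2 p, pow_mul]
    ring
  have := congrArg (fun z : OE A (M2 A ϖ) => (z : Ω)) key
  push_cast at this
  push_cast
  exact this

end Fermat.Agent.Flat
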