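import Fermat.Agent.Flat.FlC
import Fermat.Agent.Flat.KCInv

/-!
# Kummer theory and boundedness of classes of flat modules
-/

set_option autoImplicit false
set_option linter.unusedSectionVars false
set_option linter.style.haveILetI false

noncomputable section

namespace Fermat.Agent.Flat

open Fermat.Agent.Places Fermat.Agent.RedMod Fermat.Agent.FlatRam

local notation "Ω" => AlgebraicClosure ℚ

local notation "𝒢" => (AlgebraicClosure ℚ) ≃ₐ[ℚ] (AlgebraicClosure ℚ)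

variable {A : ValuationSubring (AlgebraicClosure ℚ)} {p : ℕ} [Fact p.Prime]
variable {ζ : Ω} (hζ : IsPrimitiveRoot ζ p) {M : IntermediateField (K0 A) Ω}

theorem NM.mul {σ τ : 𝒢} (hσ : σ ∈ NM A M) (hτ : τ ∈ NM A M) : σ * τ ∈ NM A M :=
  ⟨Subgroup.mul_mem _ hσ.1 hτ.1, fun m hm => by rw [AlgEquiv.mul_apply, hτ.2 m hm, hσ.2 m hm]⟩

theorem NM.one : (1 : 𝒢) ∈ NM A M := ⟨Subgroup.one_mem _, fun m _ => rfl⟩

theorem NM.inv {σ : 𝒢} (hσ : σ ∈ NM A M) : σ⁻¹ ∈ NM A M :=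
  ⟨Subgroup.inv_mem _ hσ.1, fun m hm => by
    have h1 := hσ.2 m hm
    conv_lhs => rw [← h1]
    exact σ.symm_apply_apply m⟩

include hζ in
theorem zeta_pow_add (a b : ZMod p) : ζ ^ (a + b).val = ζ ^ a.val * ζ ^ b.val := by
  have h1 := zeta_pow_sub hζ (a + b) b
  rw [add_sub_cancel_right] at h1
  rw [h1, div_mul_cancel₀ _ (pow_ne_zero _ (hζ.ne_zero (Fact.out : p.Prime).ne_zero))]

include hζ in
/-- **Kummer theory** (Lagrange resolvents) -/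
theorem exists_kummer (hζM : ζ ∈ M) {κ : 𝒢 → ZMod p}
    (hκ : ∀ σ ∈ NM A M, ∀ τ ∈ NM A M, κ (σ * τ) = κ σ + κ τ)
    {F : IntermediateField ℚ Ω} [FiniteDimensional ℚ F]
    (hF : ∀ σ ∈ NM A M, (∀ x ∈ F, σ x = x) → κ σ = 0) :
    ∃ y : Ω, y ≠ 0 ∧ y ^ p ∈ M ∧ ∀ σ ∈ NM A M, σ y = ζ ^ (κ σ).val * y := by
  classical
  have hp : p.Prime := Fact.out
  have hζ0 : ζ ≠ 0 := hζ.ne_zero hp.ne_zero
  let r : 𝒢 → (F →ₐ[ℚ] Ω) := fun σ => (σ : Ω →ₐ[ℚ] Ω).comp F.val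
  let S : Finset (F →ₐ[ℚ] Ω) := Finset.univ.filter fun f => ∃ σ ∈ NM A M, r σ = f
  have hS : ∀ f, f ∈ S ↔ ∃ σ ∈ NM A M, r σ = f := fun f => by
    rw [Finset.mem_filter]
    exact ⟨fun h => h.2, fun h => ⟨Finset.mem_univ _, h⟩⟩
  have hsel : ∀ f : F →ₐ[ℚ] Ω, ∃ σ, f ∈ S → σ ∈ NM A M ∧ r σ = f := by
    intro f
    by_cases hf : f ∈ S
    · obtain ⟨σ, h1, h2⟩ := (hS f).1 hf
      exact ⟨σ, fun _ => ⟨h1, h2⟩⟩
    · exact ⟨1, fun h => absurd h hf⟩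
  choose sel hsel using hsel
  -- well-definedness
  have hwd : ∀ σ ∈ NM A M, ∀ τ ∈ NM A M, r σ = r τ → κ σ = κ τ := by
    intro σ hσ τ hτ h
    have h1 : τ⁻¹ * σ ∈ NM A M := NM.mul (NM.inv hτ) hσ
    have h2 : κ (τ⁻¹ * σ) = 0 := by
      apply hF _ h1
      intro x hx
      have h3 : σ x = τ x := congrArg (fun f : F →ₐ[ℚ] Ω => f ⟨x, hx⟩) h
      rw [AlgEquiv.mul_apply, h3]
      exact τ.symm_apply_apply x
    have h3 := hκ τ hτ _ h1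
    rw [mul_inv_cancel_left, h2, add_zero] at h3
    exact h3
  let c : (F →ₐ[ℚ] Ω) → Ω := fun f => ζ ^ (-κ (sel f)).val
  have hne : ∃ z : F, ∑ f ∈ S, c f * f z ≠ 0 := by
    by_contra hcon
    push Not at hcon
    have hli := linearIndependent_monoidHom F Ω
    have h1 : LinearIndependent Ω (fun f : F →ₐ[ℚ] Ω => ((f : F →* Ω) : F → Ω)) := by
      refine hli.comp (fun f : F →ₐ[ℚ] Ω => (f : F →* Ω)) ?_
      intro f g hfg
      ext x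
      exact congrArg (fun φ : F →* Ω => φ x) hfg
    have h2 := (linearIndependent_iff'.1 h1) S c (by
      funext z
      rw [Finset.sum_apply]
      exact hcon z) (r 1) ((hS _).2 ⟨1, NM.one, rfl⟩)
    exact pow_ne_zero _ hζ0 h2
  obtain ⟨z, hz⟩ := hne
  have hgal : ∀ σ ∈ NM A M, σ (∑ f ∈ S, c f * f z) = ζ ^ (κ σ).val * ∑ f ∈ S, c f * f z := by
    intro σ hσ
    have hσζ : σ ζ = ζ := hσ.2 ζ hζM
    have hmem : ∀ f ∈ S, (σ : Ω →ₐ[ℚ] Ω).comp f ∈ S := by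
      intro f hf
      obtain ⟨τ, hτ, rfl⟩ := (hS f).1 hf
      exact (hS _).2 ⟨σ * τ, NM.mul hσ hτ, rfl⟩
    have hinj : Set.InjOn (fun f : F →ₐ[ℚ] Ω => (σ : Ω →ₐ[ℚ] Ω).comp f) S := by
      intro f _ g _ h
      ext x
      exact σ.injective (congrArg (fun φ : F →ₐ[ℚ] Ω => φ x) h)
    have himg : S.image (fun f : F →ₐ[ℚ] Ω => (σ : Ω →ₐ[ℚ] Ω).comp f) = S := by
      apply Finset.eq_of_subset_of_card_le
      · intro f hf
        obtain ⟨g, hg, rfl⟩ := Finset.mem_image.1 hf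
        exact hmem g hg
      · rw [Finset.card_image_of_injOn hinj]
    conv_rhs => rw [← himg, Finset.sum_image hinj, Finset.mul_sum]
    rw [map_sum]
    refine Finset.sum_congr rfl fun f hf => ?_
    obtain ⟨h1, h2⟩ := hsel f hf
    obtain ⟨h3, h4⟩ := hsel _ (hmem f hf)
    have h5 : κ (sel ((σ : Ω →ₐ[ℚ] Ω).comp f)) = κ σ + κ (sel f) := by
      rw [← hκ σ hσ _ h1]
      apply hwd _ h3 _ (NM.mul hσ h1)
      rw [h4]
      conv_lhs => rw [← h2]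
      rfl
    rw [map_mul, map_pow, hσζ]
    change ζ ^ (-κ (sel f)).val * σ (f z) =
      ζ ^ (κ σ).val * (ζ ^ (-κ (sel ((σ : Ω →ₐ[ℚ] Ω).comp f))).val * σ (f z))
    rw [h5, ← mul_assoc, ← zeta_pow_add hζ]
    congr 3
    ring
  refine ⟨_, hz, ?_, hgal⟩
  apply mem_of_inertia
  intro σ hσ hM
  rw [map_pow, hgal σ ⟨hσ, hM⟩, mul_pow, ← pow_mul, mul_comm (κ σ).val p, pow_mul, hζ.pow_eq_one,
    one_pow, one_mul]

include hζ in
/-- classes coming from flat modules are bounded -/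
theorem bdd_of_flat {hA : A.LiesOverPrime p} {U : Type} [AddCommGroup U] {act : 𝒢 → U → U}
    (hfl : FlC A hA U act) (hζM : ζ ∈ M)
    (hM : ∀ σ ∈ A.inertiaSubgroupIn ℚ, (∀ u, act σ u = u) → ∀ m ∈ M, σ m = m)
    {κ : 𝒢 → ZMod p}
    (hκ : ∀ σ ∈ NM A M, ∀ τ ∈ NM A M, κ (σ * τ) = κ σ + κ τ)
    {F : IntermediateField ℚ Ω} [FiniteDimensional ℚ F]
    (hF : ∀ σ ∈ NM A M, (∀ x ∈ F, σ x = x) → κ σ = 0)
    (hκ0 : ∀ σ ∈ A.inertiaSubgroupIn ℚ, (∀ u, act σ u = u) → κ σ = 0) :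
    Bdd A p ζ M κ := by
  obtain ⟨y, hy0, hyM, hy⟩ := exists_kummer hζ hζM hκ hF
  obtain ⟨a, haM, haA, b, hbM, hb0, hab⟩ := hfl.kummer M y hM (fun σ hσ hu => by
    rw [hy σ ⟨hσ, hM σ hσ hu⟩, hκ0 σ hσ hu, ZMod.val_zero, pow_zero, one_mul]) hyM hy0
  refine ⟨y / b, a, div_ne_zero hy0 hb0, haA, haM, ?_, fun σ hσ => ?_⟩
  · rw [div_pow, hab, mul_div_assoc, div_self (pow_ne_zero _ hb0), mul_one]
  · rw [map_div₀, hy σ hσ, hσ.2 b hbM, mul_div_assoc]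

/-- commutators with Frobenius are in the inertia group -/
theorem comm_mem_inertia {Φ g : 𝒢} (hΦ : IsFr A p Φ) (hg : Pres A g) :
    Φ⁻¹ * g⁻¹ * Φ * g ∈ A.inertiaSubgroupIn ℚ := by
  rw [mem_inertia_iff]
  intro x hx
  have hgx := (hg x).2 hx
  have h1 : Φ (g x) - g x ^ p ∈ A.nonunits := hΦ.2 _ hgx
  have h2 : g (Φ x - x ^ p) ∈ A.nonunits := hg.nonunits (hΦ.2 x hx)
  have h3 : Φ (g x) - g (Φ x) ∈ A.nonunits := by
    have := sub_mem_nonunits A h1 h2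
    rw [map_sub, map_pow] at this
    convert this using 1
    ring
  have h4 := (hΦ.1.inv.mul hg.inv).nonunits h3
  have h5 : (Φ⁻¹ * g⁻¹) (Φ (g x) - g (Φ x)) = (Φ⁻¹ * g⁻¹ * Φ * g) x - x := by
    rw [map_sub]
    congr 1
    rw [AlgEquiv.mul_apply]
    have h6 : g⁻¹ (g (Φ x)) = Φ x := g.symm_apply_apply _
    rw [h6]
    exact Φ.symm_apply_apply x
  rwa [h5] at h4

end Fermat.Agent.Flat
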