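import Fermat.Agent.Flat.Theta

/-!
# `p`-th powers in tame extensions of the fixed field of inertia
-/

set_option autoImplicit false
set_option linter.unusedSectionVars false
set_option linter.style.haveILetI false

noncomputable section

namespace Fermat.Agent.Flat

open Fermat.Agent.Places Fermat.Agent.RedMod Fermat.Agent.FlatRam

local notation "Ω" => AlgebraicClosure ℚ

local notation "𝒢" => (AlgebraicClosure ℚ) ≃ₐ[ℚ] (AlgebraicClosure ℚ)

variable {A : ValuationSubring (AlgebraicClosure ℚ)} {p : ℕ} [Fact p.Prime]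
variable {ζ : Ω} (hζ : IsPrimitiveRoot ζ p)

/-- membership in `M` -/
theorem mem_of_fixed {M : IntermediateField (K0 A) Ω} {x : Ω}
    (h : ∀ σ : Ω ≃ₐ[K0 A] Ω, (∀ y ∈ M, σ y = y) → σ x = x) : x ∈ M := by
  rw [← InfiniteGalois.fixedField_fixingSubgroup M, IntermediateField.mem_fixedField_iff]
  intro σ hσ
  exact h σ ((IntermediateField.mem_fixingSubgroup_iff _ _).1 hσ)

theorem mem_of_rs_pow {x a : Ω} (ha : a ∈ A) (h : x ^ p = a) : x ∈ A := by
  have h4 : IsIntegral A x := by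
    refine ⟨Polynomial.X ^ p - Polynomial.C (⟨a, ha⟩ : A), Polynomial.monic_X_pow_sub_C _
      (Fact.out : p.Prime).ne_zero, ?_⟩
    rw [Polynomial.eval₂_sub, Polynomial.eval₂_X_pow, Polynomial.eval₂_C, h]
    exact sub_self _
  obtain ⟨y, hy⟩ := (IsIntegrallyClosed.isIntegral_iff).1 h4
  rw [← hy]
  exact y.2

include hζ in
/-- `x ^ p - 1 = ∏ (x - ζ ^ j)` -/
theorem pow_sub_one_eq_prod (x : Ω) : x ^ p - 1 = ∏ j ∈ Finset.range p, (x - ζ ^ j) := by
  have hp : p.Prime := Fact.out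
  have h1 := Polynomial.X_pow_sub_one_eq_prod hp.pos hζ
  have h2 := congrArg (Polynomial.eval x) h1
  rw [Polynomial.eval_sub, Polynomial.eval_pow, Polynomial.eval_X, Polynomial.eval_one,
    Polynomial.eval_prod] at h2
  rw [h2]
  refine (Finset.prod_bij (fun j _ => ζ ^ j) ?_ ?_ ?_ ?_).symm
  · intro j _
    rw [Polynomial.mem_nthRootsFinset hp.pos, ← pow_mul, mul_comm, pow_mul, hζ.pow_eq_one, one_pow]
  · intro i hi j hj h
    exact hζ.pow_inj (Finset.mem_range.1 hi) (Finset.mem_range.1 hj) h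
  · intro y hy
    rw [Polynomial.mem_nthRootsFinset hp.pos] at hy
    haveI : NeZero p := ⟨hp.ne_zero⟩
    obtain ⟨i, hi, h⟩ := hζ.eq_pow_of_pow_eq_one hy
    exact ⟨i, Finset.mem_range.2 hi, h⟩
  · intro j _
    rw [Polynomial.eval_sub, Polynomial.eval_X, Polynomial.eval_C]

include hζ in
/-- **P**: elements close to one are `p`-th powers -/
theorem mem_of_pow_close (hA : A.LiesOverPrime p) {M : IntermediateField (K0 A) Ω} (hζM : ζ ∈ M)
    {x a : Ω} (ha : a ∈ A) (hx : x ^ p = 1 + p * (ζ - 1) * a) (hxM : x ^ p ∈ M) : x ∈ M := by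
  classical
  have hp : p.Prime := Fact.out
  have hζ1 : ζ - 1 ≠ 0 := sub_ne_zero.2 (hζ.ne_one hp.one_lt)
  have hζA : ζ ∈ A := root_mem hζ.pow_eq_one
  have hp0 : (p : Ω) ≠ 0 := Nat.cast_ne_zero.2 hp.ne_zero
  set V := rval A p hA with hV
  have hpQ : (0 : ℚ) < (p : ℚ) - 1 := by
    have : (1 : ℚ) < p := by exact_mod_cast hp.one_lt
    linarith
  have hwζ : V.w (ζ - 1) = 1 / ((p : ℚ) - 1) := by
    have := RVal.w_zeta (V := V) hζ
    field_simp
    linarith
  -- some factor is small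
  obtain ⟨j, hj⟩ : ∃ j : ℕ, V.Ge (V.w (ζ - 1)) (x - ζ ^ j) := by
    by_contra hcon
    push Not at hcon
    have h1 : ∀ j, x - ζ ^ j ≠ 0 ∧ V.w (x - ζ ^ j) < V.w (ζ - 1) := by
      intro j
      have := hcon j
      rw [RVal.Ge, not_or, not_le] at this
      exact this
    have h2 : x ^ p - 1 ≠ 0 := by
      rw [pow_sub_one_eq_prod hζ]
      exact Finset.prod_ne_zero_iff.2 fun j _ => (h1 j).1
    have h3 : V.w (x ^ p - 1) < p * V.w (ζ - 1) := by
      rw [pow_sub_one_eq_prod hζ, RVal.w_prod _ _ fun j _ => (h1 j).1]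
      calc ∑ j ∈ Finset.range p, V.w (x - ζ ^ j) < ∑ _j ∈ Finset.range p, V.w (ζ - 1) :=
            Finset.sum_lt_sum_of_nonempty ⟨0, Finset.mem_range.2 hp.pos⟩ fun j _ => (h1 j).2
        _ = p * V.w (ζ - 1) := by rw [Finset.sum_const, Finset.card_range, nsmul_eq_mul]
    have h4 : x ^ p - 1 = p * (ζ - 1) * a := by rw [hx]; ring
    have ha0 : a ≠ 0 := by
      rintro rfl
      rw [h4, mul_zero] at h2
      exact h2 rfl
    rw [h4, RVal.w_mul (mul_ne_zero hp0 hζ1) ha0, RVal.w_mul hp0 hζ1, V.w_p, hwζ] at h3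
    have h5 : 0 ≤ V.w a := (wA_nonneg_iff hA ha0).2 ha
    have h6 : (p : ℚ) * (1 / ((p : ℚ) - 1)) = 1 + 1 / ((p : ℚ) - 1) := by
      field_simp
      ring
    rw [h6] at h3
    linarith
  have hx0 : x ≠ 0 := by
    rintro rfl
    rw [zero_pow hp.ne_zero] at hx
    have h1 : (1 : Ω) = (ζ - 1) * (-(p * a)) := by linear_combination -hx
    have h2 : (ζ - 1) * (-(p * a)) ∈ A.nonunits := mul_mem_nonunits A (zeta_sub_one_mem hA hζ)
      (A.neg_mem _ (A.mul_mem _ _ (mem_of_mem_nonunits A hA) ha))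
    rw [← h1] at h2
    exact one_notMem A h2
  have hxA : x ∈ A := by
    refine mem_of_rs_pow (a := 1 + p * (ζ - 1) * a) ?_ hx
    exact A.add_mem _ _ A.one_mem (A.mul_mem _ _ (A.mul_mem _ _ (mem_of_mem_nonunits A hA)
      (A.sub_mem hζA A.one_mem)) ha)
  -- Galois elements fixing `M`
  apply mem_of_fixed
  intro σ hσ
  have hσζ : σ ζ = ζ := hσ ζ hζM
  have h1 : (σ x / x) ^ p = 1 := by
    rw [div_pow, ← map_pow, hσ _ hxM, div_self (pow_ne_zero _ hx0)]
  by_contra hne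
  have hη1 : σ x / x ≠ 1 := fun h => hne ((div_eq_one_iff_eq hx0).1 h)
  have h2 : V.w (σ x / x - 1) = 1 / ((p : ℚ) - 1) := RVal.w_root_sub_one (V := V) h1 hη1
  -- `z = (x - ζ ^ j) / (ζ - 1)` is integral and almost fixed
  have hz : (x - ζ ^ j) / (ζ - 1) ∈ A := by
    rw [← rval_ge_zero_iff (p := p) hA]
    rcases hj with hj | hj
    · left; rw [hj, zero_div]
    · by_cases h0 : x - ζ ^ j = 0
      · left; rw [h0, zero_div]
      · right
        rw [RVal.w_div h0 hζ1]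
        linarith
  have h3 := aut_sub_mem A σ hz
  have h4 : σ ((x - ζ ^ j) / (ζ - 1)) - (x - ζ ^ j) / (ζ - 1) = x * (σ x / x - 1) / (ζ - 1) := by
    rw [map_div₀, map_sub, map_sub, map_one, map_pow, hσζ]
    field_simp
    ring
  rw [h4] at h3
  have h5 : σ x / x - 1 ≠ 0 := sub_ne_zero.2 hη1
  have h6 : x * (σ x / x - 1) / (ζ - 1) ≠ 0 := div_ne_zero (mul_ne_zero hx0 h5) hζ1
  have h7 : 0 < V.w (x * (σ x / x - 1) / (ζ - 1)) := (wA_pos_iff hA h6).2 h3
  have hwx : V.w x = 0 := by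
    rw [w_eq_zero_iff hA hx0]
    refine ⟨hxA, fun hxn => ?_⟩
    have h8 : x ^ p ∈ A.nonunits := by
      rw [← Nat.sub_add_cancel hp.one_le, pow_succ']
      exact mul_mem_nonunits A hxn (A.toSubring.pow_mem hxA _)
    have h9 : (1 : Ω) = x ^ p - (ζ - 1) * (p * a) := by rw [hx]; ring
    have h10 := sub_mem_nonunits A h8 (mul_mem_nonunits A (zeta_sub_one_mem hA hζ)
      (A.mul_mem _ _ (mem_of_mem_nonunits A hA) ha))
    rw [← h9] at h10
    exact one_notMem A h10
  rw [RVal.w_div (mul_ne_zero hx0 h5) hζ1, RVal.w_mul hx0 h5, h2, hwx, hwζ] at h7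
  linarith

include hζ in
/-- **F1** for `K0(ζ)`: a `p`-th power `1 + p a` has `a` in the maximal ideal. -/
theorem nonunit_of_pow (hA : A.LiesOverPrime p) {y a : Ω}
    (hyM : y ∈ IntermediateField.adjoin (K0 A) {ζ}) (ha : a ∈ A) (hy : y ^ p = 1 + p * a) :
    a ∈ A.nonunits := by
  classical
  have hp : p.Prime := Fact.out
  have hζ1 : ζ - 1 ≠ 0 := sub_ne_zero.2 (hζ.ne_one hp.one_lt)
  have hζA : ζ ∈ A := root_mem hζ.pow_eq_one
  have hp0 : (p : Ω) ≠ 0 := Nat.cast_ne_zero.2 hp.ne_zero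
  rcases eq_or_ne a 0 with rfl | ha0
  · exact zero_mem_nonunits A
  have hpA := mem_of_mem_nonunits A hA
  have hyA : y ∈ A := mem_of_rs_pow (A.add_mem _ _ A.one_mem (A.mul_mem _ _ hpA ha)) hy
  set V := rval A p hA with hV
  have hpQ : (0 : ℚ) < (p : ℚ) - 1 := by
    have : (1 : ℚ) < p := by exact_mod_cast hp.one_lt
    linarith
  have hwζ : V.w (ζ - 1) = 1 / ((p : ℚ) - 1) := by
    have := RVal.w_zeta (V := V) hζ
    field_simp
    linarith
  haveI := charP_residue hA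
  have hrs : rs A y = 1 := by
    have h1 : rs A y ^ p = 1 := by
      rw [← rs_pow hyA, hy, rs_add A.one_mem (A.mul_mem _ _ hpA ha), rs_mul hpA ha, rs_natCast,
        CharP.cast_eq_zero, zero_mul, add_zero, rs_one]
    have h2 : (rs A y - 1) ^ p = 0 := by rw [sub_pow_char, h1, one_pow, sub_self]
    exact sub_eq_zero.1 (pow_eq_zero_iff hp.ne_zero |>.1 h2)
  have hy1 : y - 1 ∈ A.nonunits := by
    rw [← rs_eq_iff hyA A.one_mem, hrs, rs_one]
  obtain ⟨z, hz, hyz⟩ := exists_mul_zeta hζ hA (sub_mem hyM (one_mem _)) hy1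
  -- every factor is divisible by `ζ - 1`
  have h1 : ∀ j, V.Ge (V.w (ζ - 1)) (y - ζ ^ j) := by
    intro j
    have h2 : y - ζ ^ j = (ζ - 1) * (z - ∑ i ∈ Finset.range j, ζ ^ i) := by
      rw [mul_sub, ← hyz, mul_comm (ζ - 1), geom_sum_mul]; ring
    have h3 : V.Ge 0 (z - ∑ i ∈ Finset.range j, ζ ^ i) := by
      rw [rval_ge_zero_iff]
      exact A.sub_mem hz (A.toSubring.sum_mem fun i _ => A.toSubring.pow_mem hζA i)
    rw [h2]
    have := (V.ge_w (ζ - 1)).mul h3
    rwa [add_zero] at this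
  have h2 : ∀ s : Finset ℕ, V.Ge (s.card * V.w (ζ - 1)) (∏ j ∈ s, (y - ζ ^ j)) := by
    intro s
    induction s using Finset.induction_on with
    | empty =>
      rw [Finset.prod_empty, Finset.card_empty]
      right
      rw [RVal.w_one]; simp
    | insert b s hb ih =>
      rw [Finset.prod_insert hb, Finset.card_insert_of_notMem hb]
      have := (h1 b).mul ih
      refine this.mono ?_
      push_cast
      linarith
  have h3 := h2 (Finset.range p)
  rw [← pow_sub_one_eq_prod hζ, hy, Finset.card_range, add_sub_cancel_left] at h3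
  have h4 := h3.le (mul_ne_zero hp0 ha0)
  rw [RVal.w_mul hp0 ha0, V.w_p, hwζ] at h4
  rw [← wA_pos_iff (p := p) hA ha0]
  change 0 < V.w a
  have h6 : (p : ℚ) * (1 / ((p : ℚ) - 1)) = 1 + 1 / ((p : ℚ) - 1) := by
    field_simp
    ring
  rw [h6] at h4
  have h7 : 0 < 1 / ((p : ℚ) - 1) := by positivity
  linarith

end Fermat.Agent.Flat
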