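import Fermat.Agent.Flat.Sep
import Fermat.Agent.Flat.CI3

/-!
# The connected component of the identity, and translations
-/

set_option autoImplicit false
set_option linter.unusedSectionVars false
set_option linter.style.haveILetI false

noncomputable section

open scoped TensorProduct
open WithConv

namespace Fermat.Agent.Flat

universe u v

section LBQ

variable {k : Type u} {C : Type v} [Field k] [CommRing C] [HopfAlgebra k C]

/-- quotient by the ideal generated by `1 - f` -/
def QQ (f : C) : Type v := C ⧸ Ideal.span {1 - f}

instance (f : C) : CommRing (QQ f) := inferInstanceAs (CommRing (C ⧸ Ideal.span {1 - f}))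

instance (f : C) : Algebra k (QQ f) := inferInstanceAs (Algebra k (C ⧸ Ideal.span {1 - f}))

variable (k) in
/-- the projection -/
def mkQ (f : C) : C →ₐ[k] QQ f := Ideal.Quotient.mkₐ k (Ideal.span {1 - f})

theorem mkQ_surjective (f : C) : Function.Surjective (mkQ k f) := Ideal.Quotient.mkₐ_surjective _ _

theorem mkQ_eq_zero {f : C} {z : C} : mkQ k f z = 0 ↔ ∃ w, z = (1 - f) * w := by
  change Ideal.Quotient.mk (Ideal.span {1 - f}) z = 0 ↔ _
  rw [Ideal.Quotient.eq_zero_iff_mem, Ideal.mem_span_singleton]
  rfl

/-- lifting algebra maps -/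
def liftQ {B : Type*} [CommRing B] [Algebra k B] (f : C) (g : C →ₐ[k] B) (hg : g (1 - f) = 0) :
    QQ f →ₐ[k] B :=
  Ideal.Quotient.liftₐ (Ideal.span {1 - f}) g (by
    intro a ha
    have h1 : Ideal.span {1 - f} ≤ RingHom.ker g := by
      rw [Ideal.span_le, Set.singleton_subset_iff]
      exact hg
    exact h1 ha)

theorem liftQ_mk {B : Type*} [CommRing B] [Algebra k B] (f : C) (g : C →ₐ[k] B)
    (hg : g (1 - f) = 0) (c : C) : liftQ f g hg (mkQ k f c) = g c := rfl

variable (f : C) (hf : f * f = f) (hε : Bialgebra.counitAlgHom k C f = 1)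
  (hnil : ∀ x : C, Bialgebra.counitAlgHom k C x = 0 → IsNilpotent (mkQ k f x))

include hε in
theorem counit_one_sub : Bialgebra.counitAlgHom k C (1 - f) = 0 := by
  rw [map_sub, map_one, hε, sub_self]

/-- the comultiplication with values in the quotient -/
def comulQ : C →ₐ[k] (QQ f) ⊗[k] (QQ f) :=
  (Algebra.TensorProduct.map (mkQ k f) (mkQ k f)).comp (Bialgebra.comulAlgHom k C)

include hf hε hnil in
theorem comulQ_one_sub : comulQ (k := k) f (1 - f) = 0 := by
  have hε' := counit_one_sub f hε
  -- an element of `Q ⊗ Q` is congruent to its augmentation modulo nilpotents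
  let E : (QQ f) →ₐ[k] k := liftQ f (Bialgebra.counitAlgHom k C) hε'
  let EE : (QQ f) ⊗[k] (QQ f) →ₐ[k] k :=
    Algebra.TensorProduct.lift E E (fun _ _ => Commute.all _ _)
  have hn : ∀ y : QQ f, E y = 0 → IsNilpotent y := by
    intro y hy
    obtain ⟨x, rfl⟩ := mkQ_surjective (k := k) f y
    exact hnil x hy
  have hnn : ∀ s : (QQ f) ⊗[k] (QQ f), s - algebraMap k _ (EE s) ∈ nilradical ((QQ f) ⊗[k] (QQ f)) := by
    intro s
    induction s using TensorProduct.induction_on with
    | zero => simp
    | add x y hx hy =>
      rw [map_add, map_add]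
      have := Ideal.add_mem _ hx hy
      convert this using 1
      ring
    | tmul a b =>
      have e1 : EE (a ⊗ₜ b) = E a * E b := rfl
      have h1 : IsNilpotent (a - algebraMap k (QQ f) (E a)) := hn _ (by
        rw [map_sub, AlgHom.commutes]; simp)
      have h2 : IsNilpotent (b - algebraMap k (QQ f) (E b)) := hn _ (by
        rw [map_sub, AlgHom.commutes]; simp)
      have h3 : (a ⊗ₜ[k] b) - algebraMap k _ (EE (a ⊗ₜ b)) =
          (Algebra.TensorProduct.includeLeft (R := k) (S := k) (A := QQ f) (B := QQ f)
            (a - algebraMap k (QQ f) (E a))) *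
            (1 ⊗ₜ b) + (algebraMap k _ (E a)) *
          (Algebra.TensorProduct.includeRight (R := k) (A := QQ f) (B := QQ f)
            (b - algebraMap k (QQ f) (E b))) := by
        rw [map_sub, map_sub, AlgHom.commutes, AlgHom.commutes, e1, map_mul]
        simp only [Algebra.TensorProduct.includeLeft_apply, Algebra.TensorProduct.includeRight_apply,
          sub_mul, mul_sub, Algebra.TensorProduct.tmul_mul_tmul, one_mul, mul_one]
        ring
      rw [h3]
      refine Ideal.add_mem _ (Ideal.mul_mem_right _ _ ?_) (Ideal.mul_mem_left _ _ ?_)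
      · exact h1.map _
      · exact h2.map _
  set g := comulQ (k := k) f (1 - f) with hg
  have hgg : g * g = g := by
    rw [hg, ← map_mul]
    congr 1
    linear_combination hf
  have hEg : EE g = 0 := by
    have h1 : EE.comp (comulQ (k := k) f) = Bialgebra.counitAlgHom k C := by
      ext x
      rw [AlgHom.comp_apply]
      have h2 : ∀ s : C ⊗[k] C, EE ((Algebra.TensorProduct.map (mkQ k f) (mkQ k f)) s) =
          (Bialgebra.counitAlgHom k C) ((TensorProduct.rid k C)
            ((LinearMap.lTensor C (CoalgebraStruct.counit)) s)) := by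
        intro s
        induction s using TensorProduct.induction_on with
        | zero => simp
        | add x y hx hy => simp only [map_add, hx, hy]
        | tmul a b =>
          change Bialgebra.counitAlgHom k C a * Bialgebra.counitAlgHom k C b = _
          rw [LinearMap.lTensor_tmul, TensorProduct.rid_tmul, map_smul, smul_eq_mul, mul_comm]
          rfl
      have h3 := h2 (Bialgebra.comulAlgHom k C x)
      have h4 := Coalgebra.lTensor_counit_comul (R := k) x
      change _ = (Bialgebra.counitAlgHom k C) ((TensorProduct.rid k C)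
            ((LinearMap.lTensor C (CoalgebraStruct.counit)) (CoalgebraStruct.comul x))) at h3
      rw [h4, TensorProduct.rid_tmul, one_smul] at h3
      exact h3
    have h2 := AlgHom.congr_fun h1 (1 - f)
    rw [hε'] at h2
    exact h2
  have h1 := hnn g
  rw [hEg, map_zero, sub_zero] at h1
  obtain ⟨n, hn0⟩ := h1
  have h2 : ∀ m : ℕ, g ^ (m + 1) = g := by
    intro m
    induction m with
    | zero => rw [zero_add, pow_one]
    | succ m ih => rw [pow_succ, ih, hgg]
  rw [← h2 n, pow_succ, hn0, zero_mul]

/-- The counital structure on the connected component of the identity. -/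
def LBQ : LB k (QQ f) where
  ε := liftQ f (Bialgebra.counitAlgHom k C) (counit_one_sub f hε)
  Δ := liftQ f (comulQ f) (comulQ_one_sub f hf hε hnil)
  rid y := by
    obtain ⟨x, rfl⟩ := mkQ_surjective (k := k) f y
    rw [liftQ_mk]
    have h2 : ∀ s : C ⊗[k] C, (TensorProduct.rid k (QQ f)) ((LinearMap.lTensor (QQ f)
        (liftQ f (Bialgebra.counitAlgHom k C) (counit_one_sub f hε)).toLinearMap)
          ((Algebra.TensorProduct.map (mkQ k f) (mkQ k f)) s)) =
        mkQ k f ((TensorProduct.rid k C) ((LinearMap.lTensor C (CoalgebraStruct.counit)) s)) := by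
      intro s
      induction s using TensorProduct.induction_on with
      | zero => simp
      | add x y hx hy => simp only [map_add, hx, hy]
      | tmul a b =>
        change (Bialgebra.counitAlgHom k C b) • mkQ k f a = _
        rw [LinearMap.lTensor_tmul, TensorProduct.rid_tmul, map_smul]
        rfl
    have h3 := h2 (Bialgebra.comulAlgHom k C x)
    have h4 := Coalgebra.lTensor_counit_comul (R := k) x
    change _ = mkQ k f ((TensorProduct.rid k C)
          ((LinearMap.lTensor C (CoalgebraStruct.counit)) (CoalgebraStruct.comul x))) at h3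
    rw [h4, TensorProduct.rid_tmul, one_smul] at h3
    exact h3
  lid y := by
    obtain ⟨x, rfl⟩ := mkQ_surjective (k := k) f y
    rw [liftQ_mk]
    have h2 : ∀ s : C ⊗[k] C, (TensorProduct.lid k (QQ f)) ((LinearMap.rTensor (QQ f)
        (liftQ f (Bialgebra.counitAlgHom k C) (counit_one_sub f hε)).toLinearMap)
          ((Algebra.TensorProduct.map (mkQ k f) (mkQ k f)) s)) =
        mkQ k f ((TensorProduct.lid k C) ((LinearMap.rTensor C (CoalgebraStruct.counit)) s)) := by
      intro s
      induction s using TensorProduct.induction_on with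
      | zero => simp
      | add x y hx hy => simp only [map_add, hx, hy]
      | tmul a b =>
        change (Bialgebra.counitAlgHom k C a) • mkQ k f b = _
        rw [LinearMap.rTensor_tmul, TensorProduct.lid_tmul, map_smul]
        rfl
    have h3 := h2 (Bialgebra.comulAlgHom k C x)
    have h4 := Coalgebra.rTensor_counit_comul (R := k) x
    change _ = mkQ k f ((TensorProduct.lid k C)
          ((LinearMap.rTensor C (CoalgebraStruct.counit)) (CoalgebraStruct.comul x))) at h3
    rw [h4, TensorProduct.lid_tmul, one_smul] at h3
    exact h3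
  nil y hy := by
    obtain ⟨x, rfl⟩ := mkQ_surjective (k := k) f y
    exact hnil x hy

end LBQ

section translation

variable {k : Type u} {C : Type v} [Field k] [CommRing C] [HopfAlgebra k C]

/-- translation by a point -/
def trans (c : C →ₐ[k] k) : C →ₐ[k] C :=
  (toConv ((Algebra.ofId k C).comp c) * toConv (AlgHom.id k C) : WithConv (C →ₐ[k] C)).ofConv

theorem comp_trans {B : Type*} [CommRing B] [Algebra k B] (c : C →ₐ[k] k) (g : C →ₐ[k] B) :
    g.comp (trans c) = (toConv ((Algebra.ofId k B).comp c) * toConv g :
      WithConv (C →ₐ[k] B)).ofConv := by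
  have h := AlgHom.comp_convMul_distrib g (toConv ((Algebra.ofId k C).comp c))
    (toConv (AlgHom.id k C))
  rw [trans, h]
  congr 2
  apply ofConv_injective
  ext x
  exact g.commutes _

theorem counit_trans (c : C →ₐ[k] k) (x : C) : Bialgebra.counitAlgHom k C (trans c x) = c x := by
  have h := comp_trans c (Bialgebra.counitAlgHom k C)
  have h1 : (toConv (Bialgebra.counitAlgHom k C) : WithConv (C →ₐ[k] k)) = 1 := rfl
  rw [h1, mul_one] at h
  exact AlgHom.congr_fun h x

theorem trans_trans (c d : C →ₐ[k] k)
    (h : (toConv d * toConv c : WithConv (C →ₐ[k] k)) = 1) (x : C) :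
    trans c (trans d x) = x := by
  have h1 := comp_trans d (trans c)
  have h2 : (toConv (trans c) : WithConv (C →ₐ[k] C)) =
    toConv ((Algebra.ofId k C).comp c) * toConv (AlgHom.id k C) := rfl
  rw [h2, ← mul_assoc] at h1
  have h3 : (toConv ((Algebra.ofId k C).comp d) * toConv ((Algebra.ofId k C).comp c) :
      WithConv (C →ₐ[k] C)) = 1 := by
    have h4 := AlgHom.comp_convMul_distrib (Algebra.ofId k C) (toConv d) (toConv c)
    have h5 : (toConv ((Algebra.ofId k C).comp (toConv d : WithConv (C →ₐ[k] k)).ofConv) *
      toConv ((Algebra.ofId k C).comp (toConv c : WithConv (C →ₐ[k] k)).ofConv) :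
      WithConv (C →ₐ[k] C)) = toConv ((Algebra.ofId k C).comp
        (toConv d * toConv c : WithConv (C →ₐ[k] k)).ofConv) := by
      apply ofConv_injective
      exact h4.symm
    refine h5.trans ?_
    rw [h]
    apply ofConv_injective
    ext x
    exact (Algebra.ofId k C).commutes _
  rw [h3, one_mul] at h1
  exact AlgHom.congr_fun h1 x

/-- translation as an automorphism -/
def transEquiv (c : C →ₐ[k] k) : C ≃ₐ[k] C :=
  AlgEquiv.ofAlgHom (trans c) (trans ((toConv c : WithConv (C →ₐ[k] k))⁻¹).ofConv)
    (by
      ext x
      exact trans_trans _ _ (inv_mul_cancel (toConv c : WithConv (C →ₐ[k] k))) x)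
    (by
      ext x
      exact trans_trans _ _ (mul_inv_cancel (toConv c : WithConv (C →ₐ[k] k))) x)

theorem transEquiv_apply (c : C →ₐ[k] k) (x : C) : transEquiv c x = trans c x := rfl

end translation

end Fermat.Agent.Flat
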