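import Fermat.Agent.Flat.PL2

/-!
# Unramified quotients of groups of points
-/

set_option autoImplicit false
set_option linter.unusedSectionVars false
set_option linter.style.haveILetI false

noncomputable section

open scoped TensorProduct
open WithConv

namespace Fermat.Agent.Flat

open Fermat.Agent.Places Fermat.Agent.RedMod Fermat.Agent.FlatRam

local notation "Ω" => AlgebraicClosure ℚ

variable {A : ValuationSubring (AlgebraicClosure ℚ)} {p : ℕ} [Fact p.Prime]

section artin

/-- clearing denominators -/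
theorem exists_pow_mul_mem (hA : A.LiesOverPrime p) (x : Ω) : ∃ n : ℕ, (p : Ω) ^ n * x ∈ A := by
  by_cases hx : x ∈ A
  · exact ⟨0, by rwa [pow_zero, one_mul]⟩
  · have hx0 : x ≠ 0 := fun h => hx (h ▸ A.zero_mem)
    have h1 : x⁻¹ ∈ A := (A.mem_or_inv_mem x).resolve_left hx
    obtain ⟨n, y, hy⟩ := rank_one hA (p : A) (⟨x⁻¹, h1⟩ : A)
      ((IsLocalRing.residue_eq_zero_iff _).2 (p_mem_max hA)) (by
        intro h
        exact inv_ne_zero hx0 (congrArg (fun z : A => (z : Ω)) h))
    refine ⟨n, ?_⟩
    have h2 := congrArg (fun z : A => (z : Ω)) hy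
    push_cast at h2
    rw [h2, mul_comm, ← mul_assoc, mul_inv_cancel₀ hx0, one_mul]
    exact y.2

variable {U : Type} (act : (Ω ≃ₐ[K0 A] Ω) → U → U)
  (hbij : ∀ σ, Function.Surjective (act σ))

include hbij in
/-- equivariant functions independent over `R0` are independent over `ℚ̄` -/
theorem artin_li (hA : A.LiesOverPrime p) {ι : Type} (x : ι → (U → Ω))
    (hx : ∀ i σ u, x i (act σ u) = σ (x i u)) (hli : LinearIndependent (R0 A) x) :
    LinearIndependent Ω x := by
  classical
  have key : ∀ (n : ℕ) (s : Finset ι) (c : ι → Ω), s.card = n → (∑ i ∈ s, c i • x i = 0) →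
      ∀ i ∈ s, c i = 0 := by
    intro n
    induction n with
    | zero =>
      intro s c hs _ i hi
      rw [Finset.card_eq_zero] at hs
      rw [hs] at hi
      exact absurd hi (Finset.notMem_empty i)
    | succ n ih =>
      intro s c hs hsum
      by_contra hcon
      push Not at hcon
      obtain ⟨i0, hi0, hc0⟩ := hcon
      obtain ⟨d, hdc⟩ : ∃ d : ι → Ω, ∀ i, d i = (c i0)⁻¹ * c i := ⟨_, fun i => rfl⟩
      have hd : ∑ i ∈ s, d i • x i = 0 := by
        have h1 : ∑ i ∈ s, d i • x i = (c i0)⁻¹ • ∑ i ∈ s, c i • x i := by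
          rw [Finset.smul_sum]
          exact Finset.sum_congr rfl fun i _ => by rw [smul_smul, hdc]
        rw [h1, hsum, smul_zero]
      have hd0 : d i0 = 1 := by rw [hdc]; exact inv_mul_cancel₀ hc0
      have hσ : ∀ σ : Ω ≃ₐ[K0 A] Ω, ∑ i ∈ s, σ (d i) • x i = 0 := by
        intro σ
        funext u
        obtain ⟨v, rfl⟩ := hbij σ u
        have h1 := congrArg σ (congrFun hd v)
        rw [Finset.sum_apply, Pi.zero_apply, map_zero, map_sum] at h1
        rw [Finset.sum_apply, Pi.zero_apply, ← h1]
        refine Finset.sum_congr rfl fun i _ => ?_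
        rw [Pi.smul_apply, Pi.smul_apply, smul_eq_mul, smul_eq_mul, map_mul, hx]
      have hfix : ∀ i ∈ s, ∀ σ : Ω ≃ₐ[K0 A] Ω, σ (d i) = d i := by
        intro i hi σ
        by_cases h : i = i0
        · subst h; rw [hd0, map_one]
        have h1 : ∑ i ∈ s.erase i0, (σ (d i) - d i) • x i = 0 := by
          have h2 : ∑ i ∈ s, (σ (d i) - d i) • x i = 0 := by
            have h3 : ∀ i, (σ (d i) - d i) • x i = σ (d i) • x i - d i • x i := fun i => sub_smul _ _ _
            rw [Finset.sum_congr rfl fun i _ => h3 i, Finset.sum_sub_distrib, hσ σ, hd, sub_zero]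
          rw [← Finset.add_sum_erase s _ hi0, hd0, map_one, sub_self, zero_smul, zero_add] at h2
          exact h2
        have h4 := ih (s.erase i0) _ (by rw [Finset.card_erase_of_mem hi0, hs]; rfl) h1 i
          (Finset.mem_erase.2 ⟨h, hi⟩)
        exact sub_eq_zero.1 h4
      have hK : ∀ i ∈ s, d i ∈ K0 A := fun i hi => mem_K0_of_fixed A (hfix i hi)
      -- clear denominators
      choose N hN using fun i => exists_pow_mul_mem (A := A) (p := p) hA (d i)
      let M := s.sup N
      have hM : ∀ i ∈ s, (p : Ω) ^ M * d i ∈ R0 A := by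
        intro i hi
        refine ⟨?_, (K0 A).mul_mem (pow_mem (_root_.natCast_mem _ p) _) (hK i hi)⟩
        have h1 : (p : Ω) ^ M * d i = (p : Ω) ^ (M - N i) * ((p : Ω) ^ N i * d i) := by
          rw [← mul_assoc, ← pow_add, Nat.sub_add_cancel (Finset.le_sup hi)]
        rw [h1]
        exact A.mul_mem _ _ (A.toSubring.pow_mem (mem_of_mem_nonunits A hA) _) (hN i)
      let r : ι → R0 A := fun i => if h : i ∈ s then ⟨(p : Ω) ^ M * d i, hM i h⟩ else 0
      have hr : ∑ i ∈ s, r i • x i = 0 := by
        have h1 : ∑ i ∈ s, r i • x i = (p : Ω) ^ M • ∑ i ∈ s, d i • x i := by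
          rw [Finset.smul_sum]
          refine Finset.sum_congr rfl fun i hi => ?_
          simp only [r, dif_pos hi]
          rw [smul_smul]
          rfl
        rw [h1, hd, smul_zero]
      have h5 := (linearIndependent_iff'.1 hli) s r hr i0 hi0
      simp only [r, dif_pos hi0] at h5
      have h6 := congrArg Subtype.val h5
      change (p : Ω) ^ M * d i0 = 0 at h6
      rw [hd0, mul_one] at h6
      exact pow_ne_zero _ (Nat.cast_ne_zero.2 (Fact.out : p.Prime).ne_zero) h6
  rw [linearIndependent_iff']
  intro s c hsum i hi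
  exact key s.card s c rfl hsum i hi

end artin

end Fermat.Agent.Flat
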