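import Fermat.Agent.Flat.LemA

/-!
# Unramified quotients of groups of points: the basis of the algebra of functions
-/

set_option autoImplicit false
set_option linter.unusedSectionVars false
set_option linter.style.haveILetI false

noncomputable section

open scoped TensorProduct
open WithConv

namespace Fermat.Agent.Flat

open Fermat.Agent.Places Fermat.Agent.RedMod Fermat.Agent.FlatRam

local notation "Ω" => AlgebraicClosure ℚ

variable (A : ValuationSubring (AlgebraicClosure ℚ)) {p : ℕ} [Fact p.Prime]
variable (R : Type) [CommRing R] [Algebra R Ω] [Algebra R (R0 A)] [IsScalarTower R (R0 A) Ω]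
variable (H : Type) [CommRing H] [HopfAlgebra R H]

/-- A group of points of `H` stable under Galois. -/
structure PtGrp (U : Type) [AddCommGroup U] where
  /-- the points -/
  pt : U → (H →ₐ[R] Ω)
  inj : Function.Injective pt
  add : ∀ u v, toConv (pt (u + v)) = toConv (pt u) * toConv (pt v)
  /-- the action of Galois -/
  act : (Ω ≃ₐ[K0 A] Ω) → U → U
  act_pt : ∀ σ u, pt (act σ u) = conj σ (pt u)

variable {A R H} {U : Type} [AddCommGroup U] (G : PtGrp A R H U)

namespace PtGrp

theorem act_surjective (σ : Ω ≃ₐ[K0 A] Ω) : Function.Surjective (G.act σ) := by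
  intro u
  refine ⟨G.act σ.symm u, ?_⟩
  apply G.inj
  rw [G.act_pt, G.act_pt]
  ext h
  rw [conj_apply, conj_apply, AlgEquiv.apply_symm_apply]

/-- evaluation -/
def r : (R0 A) ⊗[R] H →ₐ[R0 A] (U → Ω) := AlgHom.pi (fun u => ev (G.pt u))

theorem r_apply (z : (R0 A) ⊗[R] H) (u : U) : G.r z u = ev (G.pt u) z := rfl

theorem r_act (z : (R0 A) ⊗[R] H) (σ : Ω ≃ₐ[K0 A] Ω) (u : U) :
    G.r z (G.act σ u) = σ (G.r z u) := by
  rw [r_apply, r_apply, G.act_pt, ev_conj]

variable [Module.Finite R H]

instance : Module.Finite (R0 A) G.r.range :=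
  Module.Finite.of_surjective G.r.rangeRestrict.toLinearMap G.r.rangeRestrict_surjective

/-- the basis of the algebra of functions -/
theorem exists_basis (hA : A.LiesOverPrime p) [Finite U] :
    ∃ (n : ℕ) (b : Fin n → (U → Ω)),
      (∀ i, ∃ z, b i = G.r z) ∧
      (∀ z, ∃ c : Fin n → R0 A, ∀ u, G.r z u = ∑ i, (c i : Ω) * b i u) ∧
      LinearIndependent Ω b ∧ ⊤ ≤ Submodule.span Ω (Set.range b) := by
  classical
  haveI : IsDiscreteValuationRing (R0 A) := isDVR hA
  haveI : Fintype U := Fintype.ofFinite U
  let B := G.r.range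
  haveI : IsPrincipalIdealRing (R0 A) := inferInstance
  haveI : Module.IsTorsionFree (R0 A) (U → Ω) := by
    refine Module.IsTorsionFree.of_smul_eq_zero fun r f h => ?_
    by_cases hr : r = 0
    · exact Or.inl hr
    · right
      funext u
      have h1 : (r : Ω) * f u = 0 := congrFun h u
      exact (mul_eq_zero.1 h1).resolve_left fun h2 => hr (Subtype.ext h2)
  haveI : Module.IsTorsionFree (R0 A) B :=
    Function.Injective.moduleIsTorsionFree (Subtype.val : B → (U → Ω)) Subtype.val_injective
      (fun _ _ => rfl)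
  haveI : Module.Free (R0 A) B := Module.free_of_finite_type_torsion_free'
  let n := Module.finrank (R0 A) B
  let b : Module.Basis (Fin n) (R0 A) B := Module.finBasis (R0 A) B
  have hb : ∀ i, ∃ z, (b i : U → Ω) = G.r z := fun i => by
    obtain ⟨z, hz⟩ := (b i).2
    exact ⟨z, hz.symm⟩
  have hexp : ∀ z, ∃ c : Fin n → R0 A, ∀ u, G.r z u = ∑ i, (c i : Ω) * (b i : U → Ω) u := by
    intro z
    let y : B := ⟨G.r z, ⟨z, rfl⟩⟩
    refine ⟨fun i => b.repr y i, fun u => ?_⟩
    have h1 := congrArg (fun y : B => (y : U → Ω) u) (b.sum_repr y)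
    refine h1.symm.trans ?_
    change ((∑ i, b.repr y i • b i : B) : U → Ω) u = _
    rw [AddSubmonoidClass.coe_finsetSum, Finset.sum_apply]
    rfl
  refine ⟨n, fun i => (b i : U → Ω), hb, hexp, ?_, ?_⟩
  · refine artin_li G.act G.act_surjective hA _ (fun i σ u => ?_) ?_
    · obtain ⟨z, hz⟩ := hb i
      rw [hz, G.r_act]
    · have := b.linearIndependent.map' (Subalgebra.toSubmodule B).subtype
        (Submodule.ker_subtype _)
      exact this
  · by_contra hne
    obtain ⟨f, hf0, hf⟩ := Submodule.exists_le_ker_of_lt_top _ (lt_top_iff_ne_top.2 fun h =>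
      hne h.ge)
    apply hf0
    -- the functional is a combination of points
    have h1 : ∀ h : H, ∑ u, f (Pi.single u 1) * G.pt u h = 0 := by
      intro h
      have h2 : f (G.r ((1 : R0 A) ⊗ₜ[R] h)) = 0 := by
        obtain ⟨c, hc⟩ := hexp ((1 : R0 A) ⊗ₜ[R] h)
        have h3 : G.r ((1 : R0 A) ⊗ₜ[R] h) = ∑ i, (c i : Ω) • (b i : U → Ω) := by
          funext u
          rw [hc, Finset.sum_apply]
          rfl
        have h4 : G.r ((1 : R0 A) ⊗ₜ[R] h) ∈ LinearMap.ker f := by
          apply hf
          rw [h3]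
          exact Submodule.sum_mem _ fun i _ => Submodule.smul_mem _ _ (Submodule.subset_span ⟨i, rfl⟩)
        exact h4
      have h5 : G.r ((1 : R0 A) ⊗ₜ[R] h) = ∑ u, G.pt u h • (Pi.single u (1 : Ω) : U → Ω) := by
        funext v
        rw [Finset.sum_apply, Finset.sum_eq_single v]
        · rw [Pi.smul_apply, Pi.single_eq_same, smul_eq_mul, mul_one, r_apply, ev_tmul,
            OneMemClass.coe_one, one_mul]
        · intro u _ huv
          rw [Pi.smul_apply, Pi.single_eq_of_ne (Ne.symm huv), smul_zero]
        · intro h; exact absurd (Finset.mem_univ v) h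
      rw [h5, map_sum] at h2
      rw [← h2]
      refine Finset.sum_congr rfl fun u _ => ?_
      rw [map_smul, smul_eq_mul, mul_comm]
    have hli : LinearIndependent Ω (fun u : U => ((G.pt u : H →* Ω) : H → Ω)) := by
      have h2 := linearIndependent_monoidHom H Ω
      refine h2.comp (fun u : U => (G.pt u : H →* Ω)) ?_
      intro u v huv
      apply G.inj
      ext h
      exact congrArg (fun φ : H →* Ω => φ h) huv
    have h6 : ∀ u, f (Pi.single u 1) = 0 := by
      have h7 := (Fintype.linearIndependent_iff.1 hli) (fun u => f (Pi.single u 1)) (by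
        funext h
        rw [Finset.sum_apply]
        exact h1 h)
      exact h7
    ext u
    rw [LinearMap.comp_apply, LinearMap.single_apply, h6]
    rfl

end PtGrp

end Fermat.Agent.Flat
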