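import Fermat.Agent.Flat.LemA2

/-!
# Unramified quotients of groups of points: conclusion
-/

set_option autoImplicit false
set_option linter.unusedSectionVars false
set_option linter.style.haveILetI false

noncomputable section

open scoped TensorProduct
open WithConv

namespace Fermat.Agent.Flat

open Fermat.Agent.Places Fermat.Agent.RedMod Fermat.Agent.FlatRam

local notation "Ω" => AlgebraicClosure ℚ

variable {A : ValuationSubring (AlgebraicClosure ℚ)} {p : ℕ} [Fact p.Prime]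

theorem mem_of_isIntegral_R0 {x : Ω} (h : IsIntegral (R0 A) x) : x ∈ A := by
  obtain ⟨F, hF, hF0⟩ := h
  have h4 : IsIntegral A x := by
    refine ⟨F.map (inclR0 A), hF.map _, ?_⟩
    rw [Polynomial.eval₂_map]
    exact hF0
  obtain ⟨y, hy⟩ := (IsIntegrallyClosed.isIntegral_iff).1 h4
  rw [← hy]
  exact y.2

section zeta

variable {ζ : Ω} (hζ : IsPrimitiveRoot ζ p)

include hζ in
theorem finrank_zeta_le : Module.finrank (K0 A) (IntermediateField.adjoin (K0 A) {ζ}) ≤ p - 1 := by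
  have hp : p.Prime := Fact.out
  have hint : IsIntegral (K0 A) ζ := Algebra.IsIntegral.isIntegral (R := K0 A) ζ
  rw [IntermediateField.adjoin.finrank hint]
  obtain ⟨m, hm⟩ : ∃ m, p = m + 1 := ⟨p - 1, by have := hp.one_lt; omega⟩
  have h1 : (∑ i ∈ Finset.range p, (Polynomial.X : Polynomial (K0 A)) ^ i).Monic := by
    rw [hm]
    exact Polynomial.monic_geom_sum_X (Nat.succ_ne_zero m)
  have h2 : Polynomial.aeval ζ (∑ i ∈ Finset.range p, (Polynomial.X : Polynomial (K0 A)) ^ i) = 0 := by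
    rw [map_sum]
    simp only [map_pow, Polynomial.aeval_X]
    exact hζ.geom_sum_eq_zero hp.one_lt
  have h3 := Polynomial.natDegree_le_of_dvd (minpoly.dvd (K0 A) ζ h2) h1.ne_zero
  refine h3.trans ?_
  refine Polynomial.natDegree_sum_le_of_forall_le _ _ fun i hi => ?_
  rw [Finset.mem_range] at hi
  rw [Polynomial.natDegree_X_pow]
  omega

include hζ in
/-- elements of `K0(ζ)` in the maximal ideal are divisible by `ζ - 1` -/
theorem exists_mul_zeta (hA : A.LiesOverPrime p) {x : Ω}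
    (hx : x ∈ IntermediateField.adjoin (K0 A) {ζ}) (hxn : x ∈ A.nonunits) :
    ∃ y ∈ A, x = (ζ - 1) * y := by
  have hp : p.Prime := Fact.out
  haveI : FiniteDimensional (K0 A) (IntermediateField.adjoin (K0 A) {ζ}) :=
    IntermediateField.adjoin.finiteDimensional (Algebra.IsIntegral.isIntegral (R := K0 A) ζ)
  have hζ1 : ζ - 1 ≠ 0 := sub_ne_zero.2 (hζ.ne_one hp.one_lt)
  rcases eq_or_ne x 0 with rfl | hx0
  · exact ⟨0, A.zero_mem, by rw [mul_zero]⟩
  refine ⟨x / (ζ - 1), ?_, by rw [mul_div_cancel₀ _ hζ1]⟩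
  rw [← rval_ge_zero_iff (p := p) hA]
  right
  rw [RVal.w_div hx0 hζ1]
  have h1 := RVal.w_zeta (V := rval A p hA) hζ
  have h2 : 0 < (rval A p hA).w x := (wA_pos_iff hA hx0).2 hxn
  have hx0' : (⟨x, hx⟩ : IntermediateField.adjoin (K0 A) {ζ}) ≠ 0 := fun h => hx0 (congrArg Subtype.val h)
  obtain ⟨n, hn⟩ := exists_int (rval A p hA) (IntermediateField.adjoin (K0 A) {ζ}) hx0'
  have hn' : (Module.finrank (K0 A) (IntermediateField.adjoin (K0 A) {ζ}) : ℚ) *
    (rval A p hA).w x = n := hn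
  have hd : (0 : ℚ) < Module.finrank (K0 A) (IntermediateField.adjoin (K0 A) {ζ}) := by
    exact_mod_cast Module.finrank_pos (R := K0 A) (M := IntermediateField.adjoin (K0 A) {ζ})
  have h3 : (0 : ℚ) < n := by rw [← hn']; positivity
  have h4 : (1 : ℤ) ≤ n := by exact_mod_cast h3
  have h5 : (1 : ℚ) ≤ n := by exact_mod_cast h4
  have h6 : (Module.finrank (K0 A) (IntermediateField.adjoin (K0 A) {ζ}) : ℚ) ≤ (p : ℚ) - 1 := by
    have := finrank_zeta_le (A := A) hζ
    have h7 : ((p - 1 : ℕ) : ℚ) = (p : ℚ) - 1 := by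
      rw [Nat.cast_sub hp.one_le, Nat.cast_one]
    rw [← h7]
    exact_mod_cast this
  have hpQ : (0 : ℚ) < (p : ℚ) - 1 := by
    have : (1 : ℚ) < p := by exact_mod_cast hp.one_lt
    linarith
  have h8 : 1 ≤ ((p : ℚ) - 1) * (rval A p hA).w x := by
    calc (1 : ℚ) ≤ n := h5
      _ = _ := hn'.symm
      _ ≤ _ := mul_le_mul_of_nonneg_right h6 h2.le
  have h9 : ((p : ℚ) - 1) * (rval A p hA).w (ζ - 1) ≤ ((p : ℚ) - 1) * (rval A p hA).w x := by
    rw [h1]; exact h8
  have := le_of_mul_le_mul_left h9 hpQ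
  linarith

include hζ in
/-- `ζ` is not fixed by inertia -/
theorem exists_zeta_pow (hA : A.LiesOverPrime p) (hp2 : p ≠ 2) :
    ∃ (τ : Ω ≃ₐ[K0 A] Ω) (m : ℕ), τ ζ = ζ ^ (m + 1) ∧ ¬ p ∣ m := by
  have hp : p.Prime := Fact.out
  have h1 : ζ ∉ K0 A := by
    intro h
    have hζ1 : ζ - 1 ≠ 0 := sub_ne_zero.2 (hζ.ne_one hp.one_lt)
    obtain ⟨n, hn⟩ := (rval A p hA).w_int (⟨ζ - 1, (K0 A).sub_mem h (K0 A).one_mem⟩ : K0 A)
      (fun h => hζ1 (congrArg Subtype.val h))
    have hn' : (rval A p hA).w (ζ - 1) = n := hn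
    have h2 := RVal.w_zeta (V := rval A p hA) hζ
    rw [hn'] at h2
    have h3 : ((p : ℤ) - 1) * n = 1 := by exact_mod_cast h2
    have h4 : ((p : ℤ) - 1) ∣ 1 := ⟨n, h3.symm⟩
    have h5 : (3 : ℤ) ≤ p := by
      have := hp.two_le
      have : 3 ≤ p := by omega
      exact_mod_cast this
    have h6 := Int.le_of_dvd one_pos h4
    omega
  have h2 : ∃ τ : Ω ≃ₐ[K0 A] Ω, τ ζ ≠ ζ := by
    by_contra hcon
    push Not at hcon
    exact h1 (mem_K0_of_fixed A hcon)
  obtain ⟨τ, hτ⟩ := h2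
  have h3 : (τ ζ) ^ p = 1 := by rw [← map_pow, hζ.pow_eq_one, map_one]
  haveI : NeZero p := ⟨hp.ne_zero⟩
  obtain ⟨i, hi, hi'⟩ := hζ.eq_pow_of_pow_eq_one h3
  have hi0 : i ≠ 0 := by
    rintro rfl
    rw [pow_zero] at hi'
    have : ζ = 1 := τ.injective (by rw [← hi', map_one])
    exact hζ.ne_one hp.one_lt this
  obtain ⟨m, rfl⟩ := Nat.exists_eq_succ_of_ne_zero hi0
  refine ⟨τ, m, hi'.symm, fun hdvd => ?_⟩
  have hm0 : m ≠ 0 := by
    rintro rfl
    apply hτ
    rw [← hi', Nat.succ_eq_add_one, zero_add, pow_one]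
  exact absurd (Nat.le_of_dvd (Nat.pos_of_ne_zero hm0) hdvd) (by omega)

end zeta

end Fermat.Agent.Flat
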