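import Fermat.Agent.Flat.LemA3

/-!
# Unramified quotients of groups of points: the theorem
-/

set_option autoImplicit false
set_option linter.unusedSectionVars false
set_option linter.style.haveILetI false

noncomputable section

open scoped TensorProduct
open WithConv

namespace Fermat.Agent.Flat

open Fermat.Agent.Places Fermat.Agent.RedMod Fermat.Agent.FlatRam

local notation "Ω" => AlgebraicClosure ℚ

variable {A : ValuationSubring (AlgebraicClosure ℚ)} {p : ℕ} [Fact p.Prime]
variable {R : Type} [CommRing R] [Algebra R Ω] [Algebra R (R0 A)] [IsScalarTower R (R0 A) Ω]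
variable {H : Type} [CommRing H] [HopfAlgebra R H] [Module.Finite R H]
variable {U : Type} [AddCommGroup U] (G : PtGrp A R H U)

theorem ev_one_tmul (P : H →ₐ[R] Ω) (h : H) : ev P ((1 : R0 A) ⊗ₜ[R] h) = P h := by
  rw [ev_tmul, OneMemClass.coe_one, one_mul]

theorem exists_comul_matrix {n : ℕ} {b : Fin n → (U → Ω)}
    (hexp : ∀ z, ∃ c : Fin n → R0 A, ∀ u, G.r z u = ∑ i, (c i : Ω) * b i u)
    (z : (R0 A) ⊗[R] H) : ∃ D : Fin n → Fin n → R0 A, ∀ u v,
      G.r z (u + v) = ∑ j, ∑ k, (D j k : Ω) * (b j u * b k v) := by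
  induction z using TensorProduct.induction_on with
  | zero => exact ⟨fun _ _ => 0, fun u v => by simp⟩
  | add x y hx hy =>
    obtain ⟨D, hD⟩ := hx
    obtain ⟨D', hD'⟩ := hy
    refine ⟨fun j k => D j k + D' j k, fun u v => ?_⟩
    rw [map_add, Pi.add_apply, hD, hD', ← Finset.sum_add_distrib]
    refine Finset.sum_congr rfl fun j _ => ?_
    rw [← Finset.sum_add_distrib]
    refine Finset.sum_congr rfl fun k _ => ?_
    push_cast
    ring
  | tmul r h =>
    have key : ∀ t : H ⊗[R] H, ∃ D : Fin n → Fin n → R0 A, ∀ u v,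
        LinearMap.mul' R Ω (TensorProduct.map (G.pt u).toLinearMap (G.pt v).toLinearMap t) =
          ∑ j, ∑ k, (D j k : Ω) * (b j u * b k v) := by
      intro t
      induction t using TensorProduct.induction_on with
      | zero => exact ⟨fun _ _ => 0, fun u v => by simp⟩
      | add x y hx hy =>
        obtain ⟨D, hD⟩ := hx
        obtain ⟨D', hD'⟩ := hy
        refine ⟨fun j k => D j k + D' j k, fun u v => ?_⟩
        rw [map_add, map_add, hD, hD', ← Finset.sum_add_distrib]
        refine Finset.sum_congr rfl fun j _ => ?_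
        rw [← Finset.sum_add_distrib]
        refine Finset.sum_congr rfl fun k _ => ?_
        push_cast
        ring
      | tmul x y =>
        obtain ⟨c, hc⟩ := hexp ((1 : R0 A) ⊗ₜ[R] x)
        obtain ⟨d, hd⟩ := hexp ((1 : R0 A) ⊗ₜ[R] y)
        refine ⟨fun j k => c j * d k, fun u v => ?_⟩
        rw [TensorProduct.map_tmul, LinearMap.mul'_apply]
        change G.pt u x * G.pt v y = _
        have h1 : G.pt u x = ∑ i, (c i : Ω) * b i u := by rw [← hc, PtGrp.r_apply, ev_one_tmul]
        have h2 : G.pt v y = ∑ i, (d i : Ω) * b i v := by rw [← hd, PtGrp.r_apply, ev_one_tmul]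
        rw [h1, h2, Finset.sum_mul_sum]
        refine Finset.sum_congr rfl fun j _ => Finset.sum_congr rfl fun k _ => ?_
        push_cast
        ring
    obtain ⟨D, hD⟩ := key (CoalgebraStruct.comul h)
    refine ⟨fun j k => r * D j k, fun u v => ?_⟩
    rw [PtGrp.r_apply, ev_tmul]
    have h1 : G.pt (u + v) h =
        LinearMap.mul' R Ω (TensorProduct.map (G.pt u).toLinearMap (G.pt v).toLinearMap
          (CoalgebraStruct.comul h)) := by
      have h2 := congrArg (fun w : WithConv (H →ₐ[R] Ω) => fn w h) (G.add u v)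
      simp only [fn_mul] at h2
      exact h2
    rw [h1, hD, Finset.mul_sum]
    refine Finset.sum_congr rfl fun j _ => ?_
    rw [Finset.mul_sum]
    refine Finset.sum_congr rfl fun k _ => ?_
    push_cast
    ring

theorem li_coeff {n : ℕ} {b : Fin n → (U → Ω)} (hli : LinearIndependent Ω b) {c d : Fin n → Ω}
    (h : ∀ u, ∑ i, c i * b i u = ∑ i, d i * b i u) (i : Fin n) : c i = d i := by
  have h1 := (Fintype.linearIndependent_iff.1 hli) (fun i => c i - d i) (by
    funext u
    rw [Finset.sum_apply]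
    have h2 : ∀ i, ((c i - d i) • b i) u = c i * b i u - d i * b i u := fun i => by
      rw [Pi.smul_apply, smul_eq_mul, sub_mul]
    rw [Finset.sum_congr rfl fun i _ => h2 i, Finset.sum_sub_distrib, h u, sub_self]
    rfl) i
  exact sub_eq_zero.1 h1

theorem li_coeff2 {n : ℕ} {b : Fin n → (U → Ω)} (hli : LinearIndependent Ω b)
    {c d : Fin n → Fin n → Ω}
    (h : ∀ u v, ∑ i, ∑ j, c i j * (b i u * b j v) = ∑ i, ∑ j, d i j * (b i u * b j v))
    (i j : Fin n) : c i j = d i j := by
  have h1 : ∀ v, ∀ i, ∑ j, c i j * b j v = ∑ j, d i j * b j v := by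
    intro v i
    refine li_coeff hli (c := fun i => ∑ j, c i j * b j v) (d := fun i => ∑ j, d i j * b j v)
      (fun u => ?_) i
    have h2 := h u v
    have h3 : ∀ e : Fin n → Fin n → Ω, ∑ i, ∑ j, e i j * (b i u * b j v) =
        ∑ i, (∑ j, e i j * b j v) * b i u := by
      intro e
      refine Finset.sum_congr rfl fun i _ => ?_
      rw [Finset.sum_mul]
      refine Finset.sum_congr rfl fun j _ => ?_
      ring
    rw [h3, h3] at h2
    exact h2
  exact li_coeff hli (fun v => h1 v i) j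

variable {ζ : Ω} (hζ : IsPrimitiveRoot ζ p)

include hζ in
theorem zeta_mod (m : ℕ) : ζ ^ (m % p) = ζ ^ m := by
  conv_rhs => rw [← Nat.mod_add_div m p, pow_add, pow_mul, hζ.pow_eq_one, one_pow, mul_one]

include hζ in
theorem zeta_val_add (a b : ZMod p) : ζ ^ (a + b).val = ζ ^ a.val * ζ ^ b.val := by
  haveI : NeZero p := ⟨(Fact.out : p.Prime).ne_zero⟩
  rw [ZMod.val_add, zeta_mod hζ, pow_add]

/-- functions with coefficients in `S` -/
def Bs {n : ℕ} (b : Fin n → (U → Ω)) (S : Set Ω) : Set (U → Ω) :=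
  {f | ∃ c : Fin n → Ω, (∀ i, c i ∈ S) ∧ ∀ u, f u = ∑ i, c i * b i u}

theorem sum_mem_nonunits {ι : Type*} (s : Finset ι) (f : ι → Ω) (h : ∀ i ∈ s, f i ∈ A.nonunits) :
    ∑ i ∈ s, f i ∈ A.nonunits := by
  classical
  induction s using Finset.induction_on with
  | empty => rw [Finset.sum_empty]; exact zero_mem_nonunits A
  | insert a s ha ih =>
    rw [Finset.sum_insert ha]
    exact add_mem_nonunits A (h a (Finset.mem_insert_self _ _))
      (ih fun i hi => h i (Finset.mem_insert_of_mem hi))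

theorem Bs_mul {n : ℕ} {b : Fin n → (U → Ω)}
    (hmul : ∀ i j, ∃ c : Fin n → R0 A, ∀ u, b i u * b j u = ∑ k, (c k : Ω) * b k u)
    {S : Set Ω} (hSadd : ∀ (s : Finset (Fin n)) (f : Fin n → Ω), (∀ i ∈ s, f i ∈ S) →
      ∑ i ∈ s, f i ∈ S) (hSmul : ∀ x ∈ S, ∀ a ∈ A, x * a ∈ S)
    {f g : U → Ω} (hf : f ∈ Bs b (A : Set Ω)) (hg : g ∈ Bs b S) :
    f * g ∈ Bs b S := by
  obtain ⟨c, hc, hf⟩ := hf
  obtain ⟨d, hd, hg⟩ := hg
  choose e he using hmul
  refine ⟨fun k => ∑ i, ∑ j, c i * d j * (e i j k : Ω), fun k => ?_, fun u => ?_⟩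
  · refine hSadd _ _ fun i _ => hSadd _ _ fun j _ => ?_
    have h1 : c i * d j * (e i j k : Ω) = d j * (c i * (e i j k : Ω)) := by ring
    rw [h1]
    exact hSmul _ (hd j) _ (A.mul_mem _ _ (hc i) (e i j k).2.1)
  · rw [Pi.mul_apply, hf, hg, Finset.sum_mul_sum]
    simp only [Finset.sum_mul]
    rw [Finset.sum_comm (s := Finset.univ) (t := Finset.univ)
      (f := fun k i => ∑ j, c i * d j * (e i j k : Ω) * b k u)]
    refine Finset.sum_congr rfl fun i _ => ?_
    rw [Finset.sum_comm]
    refine Finset.sum_congr rfl fun j _ => ?_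
    have h1 : c i * b i u * (d j * b j u) = (c i * d j) * (b i u * b j u) := by ring
    rw [h1, he, Finset.mul_sum]
    refine Finset.sum_congr rfl fun k _ => ?_
    ring

theorem Bs_add {n : ℕ} {b : Fin n → (U → Ω)} {f g : U → Ω} (hf : f ∈ Bs b (A.nonunits : Set Ω))
    (hg : g ∈ Bs b (A.nonunits : Set Ω)) : f + g ∈ Bs b (A.nonunits : Set Ω) := by
  obtain ⟨c, hc, hf⟩ := hf
  obtain ⟨d, hd, hg⟩ := hg
  refine ⟨fun k => c k + d k, fun k => add_mem_nonunits A (hc k) (hd k), fun u => ?_⟩
  rw [Pi.add_apply, hf, hg, ← Finset.sum_add_distrib]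
  exact Finset.sum_congr rfl fun i _ => by rw [add_mul]

/-- **Lemma A.**  Galois invariant characters of a group of points vanish on the points reducing to
the origin. -/
theorem psi_eq_zero' (hA : A.LiesOverPrime p) (hp2 : p ≠ 2) [Finite U] (ψ : U →+ ZMod p)
    (hψ : ∀ σ u, ψ (G.act σ u) = ψ u) (u : U) (hu : Cg A (G.pt u) (G.pt 0)) : ψ u = 0 := by
  classical
  have hp : p.Prime := Fact.out
  haveI : NeZero p := ⟨hp.ne_zero⟩
  haveI : Fintype U := Fintype.ofFinite U
  obtain ⟨n, b, hb, hexp, hli, hspan⟩ := G.exists_basis (p := p) hA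
  obtain ⟨ζ, hζ⟩ : ∃ ζ : Ω, IsPrimitiveRoot ζ p := by
    have := HasEnoughRootsOfUnity.exists_primitiveRoot Ω p
    exact this
  have hbact : ∀ i σ u, b i (G.act σ u) = σ (b i u) := by
    intro i σ u
    obtain ⟨z, hz⟩ := hb i
    rw [hz, G.r_act]
  have hbA : ∀ i u, b i u ∈ A := by
    intro i u
    obtain ⟨z, hz⟩ := hb i
    rw [hz]
    exact ev_mem _ _
  have hmul : ∀ i j, ∃ c : Fin n → R0 A, ∀ u, b i u * b j u = ∑ k, (c k : Ω) * b k u := by
    intro i j
    obtain ⟨z, hz⟩ := hb i
    obtain ⟨w, hw⟩ := hb j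
    obtain ⟨c, hc⟩ := hexp (z * w)
    refine ⟨c, fun u => ?_⟩
    rw [← hc, map_mul, hz, hw]
    rfl
  obtain ⟨e1, he1⟩ := hexp 1
  have he1' : ∀ u, (1 : Ω) = ∑ i, (e1 i : Ω) * b i u := fun u => by
    rw [← he1, map_one]; rfl
  -- the character
  let g : U → Ω := fun u => ζ ^ (ψ u).val
  have hgadd : ∀ u v, g (u + v) = g u * g v := fun u v => by
    simp only [g]
    rw [map_add, zeta_val_add hζ]
  have hgp : ∀ u, g u ^ p = 1 := fun u => by
    simp only [g]
    rw [← pow_mul, mul_comm, pow_mul, hζ.pow_eq_one, one_pow]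
  obtain ⟨γ, hγ⟩ : ∃ γ : Fin n → Ω, ∀ u, g u = ∑ i, γ i * b i u := by
    obtain ⟨c, hc⟩ := (Submodule.mem_span_range_iff_exists_fun Ω).1
      (hspan (Submodule.mem_top (x := g)))
    refine ⟨c, fun u => ?_⟩
    rw [← hc, Finset.sum_apply]
    rfl
  -- integrality
  have hγint : ∀ j, γ j ∈ A := by
    intro j
    apply mem_of_isIntegral_R0
    refine isIntegral_of_smul_mem_submodule (Submodule.span (R0 A) (Set.range γ)) ?_
      (Submodule.fg_span (Set.finite_range γ)) (γ j) ?_
    · intro h0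
      have h1 : ∀ i, γ i = 0 := fun i => by
        have : γ i ∈ Submodule.span (R0 A) (Set.range γ) := Submodule.subset_span ⟨i, rfl⟩
        rw [h0] at this
        exact (Submodule.mem_bot _).1 this
      have h2 := hγ 0
      simp only [h1, zero_mul, Finset.sum_const_zero, g] at h2
      exact pow_ne_zero _ (hζ.ne_zero hp.ne_zero) h2
    · -- multiplication table
      choose zb hzb using hb
      choose D hD using fun i => exists_comul_matrix G hexp (zb i)
      have hD' : ∀ i u v, b i (u + v) = ∑ j, ∑ k, (D i j k : Ω) * (b j u * b k v) := fun i u v => by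
        have := hD i u v
        rwa [← hzb i] at this
      have h3 : ∀ j k, γ j * γ k = ∑ i, γ i * (D i j k : Ω) := by
        intro j k
        refine li_coeff2 hli (c := fun j k => γ j * γ k) (d := fun j k => ∑ i, γ i * (D i j k : Ω))
          (fun u v => ?_) j k
        have h4 : g (u + v) = ∑ j, ∑ k, (∑ i, γ i * (D i j k : Ω)) * (b j u * b k v) := by
          rw [hγ]
          have h5 : ∀ i, γ i * b i (u + v) =
              ∑ j, ∑ k, γ i * (D i j k : Ω) * (b j u * b k v) := by
            intro i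
            rw [hD', Finset.mul_sum]
            refine Finset.sum_congr rfl fun j _ => ?_
            rw [Finset.mul_sum]
            refine Finset.sum_congr rfl fun k _ => ?_
            ring
          rw [Finset.sum_congr rfl fun i _ => h5 i, Finset.sum_comm]
          refine Finset.sum_congr rfl fun j _ => ?_
          rw [Finset.sum_comm]
          refine Finset.sum_congr rfl fun k _ => ?_
          rw [Finset.sum_mul]
        rw [← h4, hgadd, hγ, hγ, Finset.sum_mul_sum]
        refine Finset.sum_congr rfl fun j _ => Finset.sum_congr rfl fun k _ => ?_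
        ring
      intro y hy
      induction hy using Submodule.span_induction with
      | mem x hx =>
        obtain ⟨k, rfl⟩ := hx
        rw [smul_eq_mul, h3]
        refine Submodule.sum_mem _ fun i _ => ?_
        have : γ i * (D i j k : Ω) = (D i j k) • γ i := by
          rw [mul_comm]; rfl
        rw [this]
        exact Submodule.smul_mem _ _ (Submodule.subset_span ⟨i, rfl⟩)
      | zero => rw [smul_zero]; exact Submodule.zero_mem _
      | add x y _ _ hx hy => rw [smul_add]; exact Submodule.add_mem _ hx hy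
      | smul r x _ hx =>
        have : γ j • r • x = r • γ j • x := smul_comm _ _ _
        rw [this]
        exact Submodule.smul_mem _ _ hx
  -- rationality
  have hγK : ∀ i, γ i ∈ IntermediateField.adjoin (K0 A) {ζ} := by
    intro i
    rw [← InfiniteGalois.fixedField_fixingSubgroup (IntermediateField.adjoin (K0 A) {ζ}),
      IntermediateField.mem_fixedField_iff]
    intro σ hσ
    have hσζ : σ ζ = ζ := by
      rw [IntermediateField.mem_fixingSubgroup_iff] at hσ
      exact hσ ζ (IntermediateField.mem_adjoin_simple_self _ _)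
    refine li_coeff hli (c := fun i => σ (γ i)) (d := γ) (fun u => ?_) i
    obtain ⟨v, rfl⟩ := G.act_surjective σ u
    have h1 : ∑ i, σ (γ i) * b i (G.act σ v) = σ (g v) := by
      rw [hγ, map_sum]
      exact Finset.sum_congr rfl fun i _ => by rw [map_mul, hbact]
    rw [h1, ← hγ]
    simp only [g]
    rw [hψ, map_pow, hσζ]
  -- congruence to one
  obtain ⟨τ, m, hτ, hm⟩ := exists_zeta_pow hζ hA hp2
  have hgB : g ∈ Bs b (A : Set Ω) := ⟨γ, hγint, hγ⟩
  have h1 : g ^ (m + 1) - g ∈ Bs b (A.nonunits : Set Ω) := by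
    refine ⟨fun i => τ (γ i) - γ i, fun i => aut_sub_mem A τ (hγint i), fun u => ?_⟩
    obtain ⟨v, rfl⟩ := G.act_surjective τ u
    have h2 : ∑ i, τ (γ i) * b i (G.act τ v) = τ (g v) := by
      rw [hγ, map_sum]
      exact Finset.sum_congr rfl fun i _ => by rw [map_mul, hbact]
    simp only [sub_mul, Finset.sum_sub_distrib]
    rw [h2, ← hγ, Pi.sub_apply, Pi.pow_apply]
    simp only [g]
    rw [hψ, map_pow, hτ, ← pow_mul, ← pow_mul, mul_comm]
  have hone : (1 : U → Ω) ∈ Bs b (A : Set Ω) := ⟨fun i => e1 i, fun i => (e1 i).2.1, he1'⟩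
  have hBpow : ∀ k, g ^ k ∈ Bs b (A : Set Ω) := by
    intro k
    induction k with
    | zero => rw [pow_zero]; exact hone
    | succ k ih =>
      rw [pow_succ']
      exact Bs_mul hmul (fun s f h => A.toSubring.sum_mem h) (fun x hx a ha => A.mul_mem _ _ hx ha)
        hgB ih
  have hmulN : ∀ {f h : U → Ω}, f ∈ Bs b (A : Set Ω) → h ∈ Bs b (A.nonunits : Set Ω) →
      f * h ∈ Bs b (A.nonunits : Set Ω) := fun hf hh =>
    Bs_mul hmul (fun s f h => sum_mem_nonunits s f h) (fun x hx a ha => mul_mem_nonunits A hx ha)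
      hf hh
  have hgp' : g ^ p = 1 := funext fun u => hgp u
  have h2 : g ^ m - 1 ∈ Bs b (A.nonunits : Set Ω) := by
    have h3 := hmulN (hBpow (p - 1)) h1
    have h4 : g ^ (p - 1) * (g ^ (m + 1) - g) = g ^ m - 1 := by
      have h5 : g ^ (p - 1) * g = 1 := by
        rw [← pow_succ, Nat.sub_add_cancel hp.one_le, hgp']
      rw [mul_sub, h5, pow_succ g m, mul_left_comm, h5, mul_one]
    rwa [h4] at h3
  have h3 : ∀ a, g ^ (m * a) - 1 ∈ Bs b (A.nonunits : Set Ω) := by
    intro a
    induction a with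
    | zero =>
      rw [mul_zero, pow_zero, sub_self]
      exact ⟨fun _ => 0, fun _ => zero_mem_nonunits A, fun u => by simp⟩
    | succ a ih =>
      have h4 : g ^ (m * (a + 1)) - 1 = g ^ (m * a) * (g ^ m - 1) + (g ^ (m * a) - 1) := by
        rw [mul_add, mul_one, pow_add]; ring
      rw [h4]
      exact Bs_add (hmulN (hBpow _) h2) ih
  obtain ⟨a, c, hac⟩ : ∃ a c : ℕ, m * a = 1 + p * c := by
    have hcop : Nat.Coprime m p := ((Nat.Prime.coprime_iff_not_dvd hp).2 hm).symm
    obtain ⟨a, ha⟩ := Nat.exists_mul_mod_eq_one_of_coprime hcop hp.one_lt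
    exact ⟨a, (m * a) / p, by rw [← ha.2, Nat.mod_add_div]⟩
  have h4 : g - 1 ∈ Bs b (A.nonunits : Set Ω) := by
    have := h3 a
    rwa [hac, pow_add, pow_one, pow_mul, hgp', one_pow, mul_one] at this
  obtain ⟨d, hd, hd'⟩ := h4
  have hdγ : ∀ i, d i = γ i - (e1 i : Ω) := by
    intro i
    refine li_coeff hli (c := d) (d := fun i => γ i - (e1 i : Ω)) (fun u => ?_) i
    rw [← hd']
    simp only [sub_mul, Finset.sum_sub_distrib]
    rw [← hγ, ← he1']
    rfl
  have hdK : ∀ i, d i ∈ IntermediateField.adjoin (K0 A) {ζ} := by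
    intro i
    rw [hdγ]
    exact sub_mem (hγK i) (IntermediateField.algebraMap_mem _ (⟨_, (e1 i).2.2⟩ : K0 A))
  choose ν hνA hν using fun i => exists_mul_zeta hζ hA (hdK i) (hd i)
  have hζ1 : ζ - 1 ≠ 0 := sub_ne_zero.2 (hζ.ne_one hp.one_lt)
  have hN : ∀ u, g u - 1 = (ζ - 1) * ∑ i, ν i * b i u := by
    intro u
    have h5 := hd' u
    rw [Pi.sub_apply, Pi.one_apply] at h5
    rw [h5, Finset.mul_sum]
    refine Finset.sum_congr rfl fun i _ => ?_
    rw [hν i]; ring
  have hN0 : ∑ i, ν i * b i 0 = 0 := by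
    have h5 := hN 0
    have h6 : g 0 = 1 := by simp only [g]; rw [map_zero, ZMod.val_zero, pow_zero]
    rw [h6, sub_self] at h5
    exact (mul_eq_zero.1 h5.symm).resolve_left hζ1
  have hNu : ∑ i, ν i * b i u ∈ A.nonunits := by
    have h5 : ∑ i, ν i * b i u = ∑ i, (b i u - b i 0) * ν i := by
      have h6 : ∀ i, (b i u - b i 0) * ν i = ν i * b i u - ν i * b i 0 := fun i => by ring
      rw [Finset.sum_congr rfl fun i _ => h6 i, Finset.sum_sub_distrib, hN0, sub_zero]
    rw [h5]
    refine sum_mem_nonunits _ _ fun i _ => mul_mem_nonunits A ?_ (hνA i)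
    obtain ⟨z, hz⟩ := hb i
    rw [hz]
    exact hu.ev z
  by_contra hne
  have hval : ¬ p ∣ (ψ u).val := by
    intro hdvd
    apply hne
    rw [← ZMod.natCast_zmod_val (ψ u)]
    exact (ZMod.natCast_eq_zero_iff _ _).2 hdvd
  have h5 := RVal.w_zeta_pow (V := rval A p hA) hζ hval
  have h6 : ζ ^ (ψ u).val - 1 = (ζ - 1) * ∑ i, ν i * b i u := hN u
  have h7 : ζ ^ (ψ u).val - 1 ≠ 0 := by
    intro h0
    rw [sub_eq_zero, hζ.pow_eq_one_iff_dvd] at h0
    exact hval h0
  have h8 : ∑ i, ν i * b i u ≠ 0 := by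
    intro h0
    rw [h6, h0, mul_zero] at h7
    exact h7 rfl
  rw [h6, RVal.w_mul hζ1 h8] at h5
  have h9 : 0 < (rval A p hA).w (∑ i, ν i * b i u) := (wA_pos_iff hA h8).2 hNu
  linarith

end Fermat.Agent.Flat
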