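import Fermat.Agent.Flat.Kill

/-!
# Newton iteration for finite flat complete intersections with differentials killed by `p`
-/

set_option autoImplicit false
set_option linter.unusedSectionVars false
set_option linter.style.haveILetI false

noncomputable section

open scoped TensorProduct

namespace Fermat.Agent.Flat

open MvPolynomial

section taylor

variable {B ι : Type*} [CommRing B] [Fintype ι] [DecidableEq ι]

/-- the directional derivative -/
def dirD (h : ι → B) : MvPolynomial ι B →ₗ[B] MvPolynomial ι B where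
  toFun G := ∑ j, C (h j) * pderiv j G
  map_add' G H := by simp [mul_add, Finset.sum_add_distrib]
  map_smul' r G := by simp [Finset.mul_sum, smul_eq_C_mul, mul_left_comm]

theorem dirD_apply (h : ι → B) (G : MvPolynomial ι B) : dirD h G = ∑ j, C (h j) * pderiv j G := rfl

/-- restriction to a line -/
def line (a h : ι → B) : MvPolynomial ι B →ₐ[B] Polynomial B :=
  aeval fun j => Polynomial.C (a j) + Polynomial.X * Polynomial.C (h j)

theorem derivative_line (a h : ι → B) (G : MvPolynomial ι B) :
    Polynomial.derivative (line a h G) = line a h (dirD h G) := by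
  induction G using MvPolynomial.induction_on with
  | C r =>
    rw [dirD_apply]
    simp [line]
  | add P Q hP hQ => rw [map_add, map_add, hP, hQ, map_add, map_add]
  | mul_X P i hP =>
    rw [map_mul, Polynomial.derivative_mul, hP, dirD_apply, dirD_apply, map_sum, map_sum,
      Finset.sum_mul]
    have h1 : line a h (X i) = Polynomial.C (a i) + Polynomial.X * Polynomial.C (h i) := aeval_X _ _
    have h2 : ∀ j, line a h (C (h j) * pderiv j (P * X i)) =
        line a h (C (h j) * pderiv j P) * line a h (X i) +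
          (if j = i then line a h P * Polynomial.C (h i) else 0) := by
      intro j
      rw [pderiv_mul, pderiv_X]
      by_cases hj : j = i
      · subst hj
        rw [Pi.single_eq_same, if_pos rfl, mul_add, map_add, mul_one]
        simp only [map_mul]
        have h3 : line a h (C (h j)) = Polynomial.C (h j) := by
          rw [line, aeval_C]; rfl
        rw [h3]
        ring
      · rw [Pi.single_eq_of_ne (Ne.symm hj), if_neg hj, mul_zero, add_zero, add_zero]
        simp only [map_mul]
        ring
    rw [Finset.sum_congr rfl fun j _ => h2 j, Finset.sum_add_distrib, Finset.sum_ite_eq' _ i,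
      if_pos (Finset.mem_univ _)]
    congr 1
    rw [h1]
    simp [Polynomial.derivative_mul]

theorem iterate_derivative_line (a h : ι → B) (G : MvPolynomial ι B) (m : ℕ) :
    Polynomial.derivative^[m] (line a h G) = line a h ((dirD h)^[m] G) := by
  induction m generalizing G with
  | zero => rfl
  | succ m ih => rw [Function.iterate_succ_apply, derivative_line, ih, Function.iterate_succ_apply]

theorem eval_line (a h : ι → B) (G : MvPolynomial ι B) (s : B) :
    (line a h G).eval s = eval (fun j => a j + s * h j) G := by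
  have h1 : (Polynomial.evalRingHom s).comp ((line a h : _ →+* Polynomial B)) =
      (eval fun j => a j + s * h j) := by
    apply MvPolynomial.ringHom_ext
    · intro r
      simp [line]
    · intro i
      simp [line]
      ring
  exact RingHom.congr_fun h1 G

theorem factorial_mul_coeff_line (a h : ι → B) (G : MvPolynomial ι B) (m : ℕ) :
    (m.factorial : B) * (line a h G).coeff m = eval a ((dirD h)^[m] G) := by
  have h1 := iterate_derivative_line a h G m
  have h2 := congrArg (Polynomial.eval 0) h1
  rw [eval_line] at h2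
  simp only [zero_mul, add_zero] at h2
  rw [← h2, ← Polynomial.coeff_zero_eq_eval_zero, Polynomial.coeff_iterate_derivative]
  simp [Nat.descFactorial_self]

/-- Taylor expansion. -/
theorem eval_add (a h : ι → B) (G : MvPolynomial ι B) :
    eval (fun j => a j + h j) G = eval a G + ∑ j, h j * eval a (pderiv j G) +
      ∑ m ∈ Finset.range ((line a h G).natDegree - 1), (line a h G).coeff (m + 2) := by
  have h1 := eval_line a h G 1
  simp only [one_mul] at h1
  rw [← h1, Polynomial.eval_eq_sum_range' (n := (line a h G).natDegree - 1 + 2) (by omega),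
    Finset.sum_range_succ', Finset.sum_range_succ']
  simp only [one_pow, mul_one]
  have h2 := factorial_mul_coeff_line a h G 0
  have h3 := factorial_mul_coeff_line a h G 1
  simp only [Nat.factorial_zero, Nat.cast_one, one_mul, Function.iterate_zero, id_eq,
    Nat.factorial_one, Function.iterate_one, dirD_apply, map_sum, map_mul, eval_C] at h2 h3
  rw [zero_add, h2, h3]
  ring

end taylor

section factorial

variable {B : Type*} [CommRing B] [IsDomain B]

theorem factorial_dvd (p : ℕ) [Fact p.Prime] (hunit : ∀ n : ℕ, ¬ p ∣ n → IsUnit (n : B)) (lam u : B)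
    (hlam : lam ^ (p - 1) = p * u) (m : ℕ) (hm : 0 < m) :
    (m.factorial : B) ∣ lam ^ (m - 1) := by
  have hp := (Fact.out : p.Prime)
  set v := padicValNat p m.factorial with hv
  obtain ⟨w, hw⟩ : p ^ v ∣ m.factorial := pow_padicValNat_dvd
  have hw' : ¬ p ∣ w := by
    intro h
    have h1 : p ^ (v + 1) ∣ m.factorial := by
      rw [hw, pow_succ]
      exact mul_dvd_mul_left _ h
    exact pow_succ_padicValNat_not_dvd (Nat.factorial_ne_zero m) h1
  have hle : (p - 1) * v ≤ m - 1 := by
    have h1 := sub_one_mul_padicValNat_factorial (p := p) m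
    rw [← hv] at h1
    rw [h1]
    have h2 : 0 < (p.digits m).sum := by
      rw [Nat.pos_iff_ne_zero]
      intro h0
      have h3 : p.digits m ≠ [] := Nat.digits_ne_nil_iff_ne_zero.2 hm.ne'
      have h4 := Nat.getLast_digit_ne_zero p hm.ne'
      have h5 : (p.digits m).getLast h3 ∈ p.digits m := List.getLast_mem h3
      have h6 : ∀ x ∈ p.digits m, x = 0 := by
        intro x hx
        exact List.sum_eq_zero_iff.1 h0 x hx
      exact h4 (h6 _ h5)
    omega
  rw [hw]
  push_cast
  have h1 : (p : B) ^ v ∣ lam ^ (m - 1) := by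
    refine dvd_trans ?_ (pow_dvd_pow lam hle)
    rw [pow_mul, hlam, mul_pow]
    exact dvd_mul_right _ _
  exact ((hunit w hw').mul_right_dvd).2 h1

end factorial

section step

variable {S B ι : Type*} [CommRing S] [CommRing B] [IsDomain B] [CharZero B] [IsLocalRing B]
  [Algebra S B] [Fintype ι] [DecidableEq ι]

theorem newton_step (p : ℕ) [Fact p.Prime] (hpm : (p : B) ∈ IsLocalRing.maximalIdeal B)
    (hunit : ∀ n : ℕ, ¬ p ∣ n → IsUnit (n : B)) (lam u c : B)
    (hlam : lam ^ (p - 1) = p * u) (hlam0 : lam ≠ 0)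
    (N : Ideal (MvPolynomial ι S)) (hN : N.FG)
    (F : ι → MvPolynomial ι S) (V : ι → ι → MvPolynomial ι S) (h1 : ∀ i, F i ∈ N)
    (h2 : ∀ G ∈ N, G ∈ Ideal.span (Set.range F) ⊔
      (Ideal.span {C (p : S)} ⊔ Ideal.span (Set.range (X : ι → MvPolynomial ι S))) * N)
    (h3 : ∀ G ∈ N, ∀ j, pderiv j G ∈ Ideal.span {C (p : S)} ⊔ N)
    (h4 : ∀ k i, (∑ j, pderiv j (F k) * V j i) - (if k = i then C (p : S) else 0) ∈ N)
    (a : ι → B) (ha : ∀ i, a i ∈ IsLocalRing.maximalIdeal B) (b : B)
    (hcm : c * b ∈ IsLocalRing.maximalIdeal B)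
    (hb : ∀ G ∈ N, (p : B) * lam * (c * b) ∣ aeval a G) :
    ∃ h : ι → B, (∀ j, lam * (c * b) ∣ h j) ∧
      (∀ j, (p : B) * h j = ∑ i, aeval a (V j i) * aeval a (F i)) ∧
      ∀ G ∈ N, (p : B) * lam * (c * (b * c)) ∣ aeval (fun i => a i - h i) G := by
  classical
  have hp := (Fact.out : p.Prime)
  have hp0 : (p : B) ≠ 0 := Nat.cast_ne_zero.2 hp.ne_zero
  set μ := c * b with hμ
  choose y hy using fun i => hb (F i) (h1 i)
  let h : ι → B := fun j => lam * μ * ∑ i, aeval a (V j i) * y i
  have hh : ∀ j, h j = lam * μ * ∑ i, aeval a (V j i) * y i := fun j => rfl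
  have hph : ∀ j, (p : B) * h j = ∑ i, aeval a (V j i) * aeval a (F i) := by
    intro j
    rw [hh, ← mul_assoc, ← mul_assoc, Finset.mul_sum]
    refine Finset.sum_congr rfl fun i _ => ?_
    rw [hy i]; ring
  refine ⟨h, fun j => ⟨_, hh j⟩, hph, ?_⟩
  -- the submodules controlling higher derivatives
  set ν := lam * μ with hν
  let 𝒬 : Ideal (MvPolynomial ι S) := Ideal.span {C (p : S)} ⊔ N
  have h𝒬 : ∀ Q ∈ 𝒬, ∀ j, pderiv j Q ∈ 𝒬 := by
    intro Q hQ j
    obtain ⟨x, hx, z, hz, rfl⟩ := Submodule.mem_sup.1 hQ
    rw [map_add]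
    refine Ideal.add_mem _ ?_ (h3 z hz j)
    obtain ⟨w, rfl⟩ := Ideal.mem_span_singleton.1 hx
    rw [pderiv_mul, pderiv_C, zero_mul, zero_add]
    exact Ideal.mem_sup_left (Ideal.mul_mem_right _ _ (Ideal.mem_span_singleton_self _))
  let q : MvPolynomial ι S →+* MvPolynomial ι B := map (algebraMap S B)
  have hq : ∀ G : MvPolynomial ι S, eval a (q G) = aeval a G := by
    intro G
    rw [eval_map]; rfl
  have hq' : ∀ (a' : ι → B) (G : MvPolynomial ι S), eval a' (q G) = aeval a' G := by
    intro a' G
    rw [eval_map]; rfl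
  have hqd : ∀ (j : ι) (G : MvPolynomial ι S), pderiv j (q G) = q (pderiv j G) := by
    intro j G
    exact pderiv_map
  let 𝒟 : ℕ → Submodule B (MvPolynomial ι B) := fun m =>
    Submodule.span B {Q | ∃ Q' ∈ 𝒬, Q = C (ν ^ m) * q Q'}
  let h' : ι → B := fun j => - h j
  have hD1 : ∀ G ∈ N, dirD h' (q G) ∈ 𝒟 1 := by
    intro G hG
    rw [dirD_apply]
    refine Submodule.sum_mem _ fun j _ => ?_
    have : C (h' j) * pderiv j (q G) = (-(∑ i, aeval a (V j i) * y i)) •
        (C (ν ^ 1) * q (pderiv j G)) := by
      rw [hqd, smul_eq_C_mul, pow_one, ← mul_assoc, ← C_mul]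
      congr 2
      change - h j = _
      rw [hh]; ring
    rw [this]
    exact Submodule.smul_mem _ _ (Submodule.subset_span ⟨_, h3 G hG j, rfl⟩)
  have hD2 : ∀ m, ∀ Q ∈ 𝒟 m, dirD h' Q ∈ 𝒟 (m + 1) := by
    intro m Q hQ
    induction hQ using Submodule.span_induction with
    | mem Q hQ =>
      obtain ⟨Q', hQ', rfl⟩ := hQ
      rw [dirD_apply]
      refine Submodule.sum_mem _ fun j _ => ?_
      have : C (h' j) * pderiv j (C (ν ^ m) * q Q') = (-(∑ i, aeval a (V j i) * y i)) •
          (C (ν ^ (m + 1)) * q (pderiv j Q')) := by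
        rw [pderiv_mul, pderiv_C, zero_mul, zero_add, hqd, smul_eq_C_mul, ← mul_assoc, ← C_mul,
          ← mul_assoc, ← C_mul]
        congr 2
        change - h j * _ = _
        rw [hh, pow_succ]; ring
      rw [this]
      exact Submodule.smul_mem _ _ (Submodule.subset_span ⟨_, h𝒬 _ hQ' j, rfl⟩)
    | zero => rw [map_zero]; exact Submodule.zero_mem _
    | add x y _ _ hx hy => rw [map_add]; exact Submodule.add_mem _ hx hy
    | smul r x _ hx => rw [map_smul]; exact Submodule.smul_mem _ _ hx
  have hD3 : ∀ m, ∀ G ∈ N, (dirD h')^[m + 1] (q G) ∈ 𝒟 (m + 1) := by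
    intro m G hG
    induction m with
    | zero => exact hD1 G hG
    | succ m ih =>
      rw [Function.iterate_succ_apply']
      exact hD2 _ _ ih
  have hD4 : ∀ m, ∀ Q ∈ 𝒟 m, (p : B) * ν ^ m ∣ eval a Q := by
    intro m Q hQ
    induction hQ using Submodule.span_induction with
    | mem Q hQ =>
      obtain ⟨Q', hQ', rfl⟩ := hQ
      rw [map_mul, eval_C, hq, mul_comm (p : B)]
      refine mul_dvd_mul_left _ ?_
      obtain ⟨x, hx, z, hz, rfl⟩ := Submodule.mem_sup.1 hQ'
      rw [map_add]
      refine dvd_add ?_ ?_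
      · obtain ⟨w, rfl⟩ := Ideal.mem_span_singleton.1 hx
        rw [map_mul, aeval_C, map_natCast]
        exact dvd_mul_right _ _
      · refine dvd_trans ?_ (hb z hz)
        rw [mul_assoc]
        exact dvd_mul_right _ _
    | zero => rw [map_zero]; exact dvd_zero _
    | add x y _ _ hx hy => rw [map_add]; exact dvd_add hx hy
    | smul r x _ hx => rw [smul_eval]; exact Dvd.dvd.mul_left hx r
  -- higher Taylor coefficients
  have hT : ∀ G ∈ N, ∀ m, (p : B) * lam * μ ^ (m + 2) ∣ (line a h' (q G)).coeff (m + 2) := by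
    intro G hG m
    have e1 := factorial_mul_coeff_line a h' (q G) (m + 2)
    obtain ⟨z, hz⟩ := hD4 _ _ (hD3 (m + 1) G hG)
    obtain ⟨w, hw⟩ := factorial_dvd p hunit lam u hlam (m + 2) (by omega)
    have hfac : ((m + 2).factorial : B) ≠ 0 := Nat.cast_ne_zero.2 (Nat.factorial_ne_zero _)
    refine ⟨w * z, mul_left_cancel₀ hfac ?_⟩
    rw [e1, show m + 2 = m + 1 + 1 from rfl, hz, hν, mul_pow]
    have e2 : lam ^ (m + 1 + 1) = lam * (((m + 2).factorial : B) * w) := by
      rw [← hw, ← pow_succ']
      congr 1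
    rw [e2]
    ring
  have hμ2 : ∀ m, (p : B) * lam * (c * (b * c)) ∣ (p : B) * lam * μ ^ (m + 2) := by
    intro m
    refine mul_dvd_mul_left _ ?_
    rw [hμ]
    exact ⟨b * (c * b) ^ m, by ring⟩
  -- values of the `F k`
  have hFk : ∀ k, (p : B) * lam * (c * (b * c)) ∣ aeval (fun i => a i - h i) (F k) := by
    intro k
    have e1 := eval_add a h' (q (F k))
    have e2 : (fun j => a j + h' j) = fun i => a i - h i := by
      funext j; exact (sub_eq_add_neg _ _).symm
    rw [e2, hq', hq] at e1
    -- first order term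
    choose e he using fun i => hb _ (h4 k i)
    have e3 : (p : B) * ∑ j, h j * aeval a (pderiv j (F k)) =
        p * aeval a (F k) + ∑ i, (p * lam * μ * e i) * aeval a (F i) := by
      rw [Finset.mul_sum]
      have e4 : ∀ j, (p : B) * (h j * aeval a (pderiv j (F k))) =
          ∑ i, aeval a (pderiv j (F k)) * aeval a (V j i) * aeval a (F i) := by
        intro j
        rw [← mul_assoc, hph, Finset.sum_mul]
        refine Finset.sum_congr rfl fun i _ => ?_
        ring
      rw [Finset.sum_congr rfl fun j _ => e4 j, Finset.sum_comm]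
      have e5 : ∀ i, ∑ j, aeval a (pderiv j (F k)) * aeval a (V j i) * aeval a (F i) =
          (if k = i then (p : B) * aeval a (F i) else 0) + (p * lam * μ * e i) * aeval a (F i) := by
        intro i
        rw [← Finset.sum_mul]
        have e6 := he i
        rw [map_sub, map_sum, sub_eq_iff_eq_add] at e6
        simp only [map_mul] at e6
        rw [e6, add_mul, add_comm]
        congr 1
        split_ifs with hki
        · rw [aeval_C, map_natCast]
        · rw [map_zero, zero_mul]
      rw [Finset.sum_congr rfl fun i _ => e5 i, Finset.sum_add_distrib, Finset.sum_ite_eq,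
        if_pos (Finset.mem_univ _)]
    have e7 : ∑ j, h j * aeval a (pderiv j (F k)) = aeval a (F k) +
        (p : B) * lam * μ ^ 2 * (lam * ∑ i, e i * y i) := by
      apply mul_left_cancel₀ hp0
      rw [e3, mul_add]
      congr 1
      rw [Finset.mul_sum, Finset.mul_sum, Finset.mul_sum]
      refine Finset.sum_congr rfl fun i _ => ?_
      rw [hy i]; ring
    have e8 : ∑ j, h' j * eval a (pderiv j (q (F k))) = - ∑ j, h j * aeval a (pderiv j (F k)) := by
      rw [← Finset.sum_neg_distrib]
      refine Finset.sum_congr rfl fun j _ => ?_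
      rw [hqd, hq]
      change - h j * _ = _
      ring
    rw [e8, e7] at e1
    have e9 : aeval (fun i => a i - h i) (F k) = -((p : B) * lam * μ ^ 2 * (lam * ∑ i, e i * y i)) +
        ∑ m ∈ Finset.range ((line a h' (q (F k))).natDegree - 1),
          (line a h' (q (F k))).coeff (m + 2) := by
      rw [e1]; ring
    rw [e9]
    refine dvd_add ((dvd_neg).2 ?_) (Finset.dvd_sum fun m _ => (hμ2 m).trans (hT _ (h1 k) m))
    exact Dvd.dvd.mul_right (hμ2 0) _
  -- Nakayama
  set a' : ι → B := fun i => a i - h i with ha'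
  have ham : ∀ i, a' i ∈ IsLocalRing.maximalIdeal B := by
    intro i
    refine Ideal.sub_mem _ (ha i) ?_
    rw [hh, mul_assoc]
    exact Ideal.mul_mem_left _ _ (Ideal.mul_mem_right _ _ hcm)
  let W : Ideal B := Ideal.map (aeval a' : MvPolynomial ι S →ₐ[S] B) N
  have hW : W ≤ Ideal.span {(p : B) * lam * (c * (b * c))} := by
    have hWfg : (W : Submodule B B).FG := Ideal.FG.map hN _
    refine Submodule.le_of_le_smul_of_le_jacobson_bot (I := IsLocalRing.maximalIdeal B) hWfg
      (IsLocalRing.maximalIdeal_le_jacobson _) ?_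
    change W ≤ _
    refine Ideal.map_le_iff_le_comap.2 fun G hG => ?_
    have h5 := h2 G hG
    have h6 : aeval a' G ∈ Ideal.map (aeval a' : MvPolynomial ι S →ₐ[S] B)
      (Ideal.span (Set.range F) ⊔
      (Ideal.span {C (p : S)} ⊔ Ideal.span (Set.range (X : ι → MvPolynomial ι S))) * N) :=
      Ideal.mem_map_of_mem _ h5
    rw [Ideal.map_sup, Ideal.map_mul] at h6
    have hle : ∀ {I J : Ideal B}, I ≤ J → ∀ {z}, z ∈ I → z ∈ J := fun h z hz => h hz
    refine hle (sup_le_sup ?_ ?_) h6
    · rw [Ideal.map_span, Ideal.span_le]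
      rintro _ ⟨_, ⟨k, rfl⟩, rfl⟩
      exact Ideal.mem_span_singleton.2 (hFk k)
    · refine Ideal.mul_mono ?_ le_rfl
      rw [Ideal.map_sup, Ideal.map_span, Ideal.map_span]
      refine sup_le ?_ ?_
      · rw [Ideal.span_le]
        rintro _ ⟨_, rfl, rfl⟩
        change aeval a' (C (p : S)) ∈ _
        rw [aeval_C, map_natCast]; exact hpm
      · rw [Ideal.span_le]
        rintro _ ⟨_, ⟨i, rfl⟩, rfl⟩
        change aeval a' (X i) ∈ _
        rw [aeval_X]; exact ham i
  intro G hG
  exact Ideal.mem_span_singleton.1 (hW (Ideal.mem_map_of_mem _ hG))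

end step

end Fermat.Agent.Flat
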