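import Fermat.Agent.Flat.SS3

/-!
# The supersingular case: the bound
-/

set_option autoImplicit false
set_option linter.unusedSectionVars false
set_option linter.style.haveILetI false

noncomputable section

namespace Fermat.Agent.Flat

open Fermat.Agent.Places Fermat.Agent.RedMod Fermat.Agent.FlatRam

local notation "Ω" => AlgebraicClosure ℚ

local notation "𝒢" => (AlgebraicClosure ℚ) ≃ₐ[ℚ] (AlgebraicClosure ℚ)

section linear

variable {k : Type} [Field k] [Finite k] {F : Type} [AddCommGroup F] [Module k F]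

/-- bounding the dimension of a quotient by counting -/
theorem exists_linear_of_card (B : Submodule k F) {S : Type} [Finite S] (g : F → S)
    (hg : ∀ x y, g x = g y → x - y ∈ B) {d : ℕ} (hS : Nat.card S ≤ Nat.card k ^ d) :
    ∃ Λ : F →ₗ[k] (Fin d → k), ∀ x, Λ x = 0 → x ∈ B := by
  classical
  have hinj : Function.Injective (fun q : F ⧸ B => g q.out) := by
    intro q r h
    have h1 := hg _ _ h
    rw [← Submodule.Quotient.mk_eq_zero, Submodule.Quotient.mk_sub, sub_eq_zero] at h1
    have h2 : ∀ q : F ⧸ B, Submodule.Quotient.mk (p := B) q.out = q := fun q => Quotient.out_eq' q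
    rw [h2, h2] at h1
    exact h1
  haveI : Finite (F ⧸ B) := Finite.of_injective _ hinj
  haveI : Module.Finite k (F ⧸ B) := Module.Finite.of_finite
  have hcard : Nat.card (F ⧸ B) ≤ Nat.card k ^ d :=
    (Nat.card_le_card_of_injective _ hinj).trans hS
  rw [Module.natCard_eq_pow_finrank (K := k)] at hcard
  have hk : 1 < Nat.card k := Finite.one_lt_card
  have hd : Module.finrank k (F ⧸ B) ≤ d := (Nat.pow_le_pow_iff_right hk).1 hcard
  let e := (Module.finBasis k (F ⧸ B)).equivFun
  let j : (Fin (Module.finrank k (F ⧸ B)) → k) →ₗ[k] (Fin d → k) :=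
    { toFun := fun v i => if h : (i : ℕ) < Module.finrank k (F ⧸ B) then v ⟨i, h⟩ else 0
      map_add' := fun v w => by
        funext i
        simp only [Pi.add_apply]
        split_ifs <;> simp
      map_smul' := fun c v => by
        funext i
        simp only [Pi.smul_apply, RingHom.id_apply]
        split_ifs <;> simp }
  have hj : ∀ v, j v = 0 → v = 0 := by
    intro v hv
    funext i
    have h1 := congrFun hv ⟨i, i.2.trans_le hd⟩
    change (if h : (i : ℕ) < Module.finrank k (F ⧸ B) then v ⟨i, h⟩ else 0) = 0 at h1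
    rw [dif_pos i.2] at h1
    exact h1
  refine ⟨j.comp (e.toLinearMap.comp B.mkQ), fun x hx => ?_⟩
  have h1 : e (B.mkQ x) = 0 := hj _ hx
  have h2 := e.map_eq_zero_iff.1 h1
  exact (Submodule.Quotient.mk_eq_zero B).1 h2

end linear

variable {A : ValuationSubring (AlgebraicClosure ℚ)} {p : ℕ} [Fact p.Prime]

/-- the field generated by the square of an element of order `p ^ 2 - 1` has `p ^ 2` elements -/
theorem card_F0 {k : Type} [Field k] [Finite k] [CharP k p] (hp2 : p ≠ 2) {z : k}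
    (hz : IsPrimitiveRoot z (p ^ 2 - 1)) :
    Nat.card (Subfield.closure {z ^ 2} : Subfield k) = p ^ 2 := by
  classical
  have hp : p.Prime := Fact.out
  have he := e0_pos (p := p)
  have h2p := two_p_lt (p := p) hp2
  set F : Subfield k := Subfield.closure {z ^ 2} with hF
  have hup : ∀ x ∈ F, x ^ (p ^ 2) = x := by
    intro x hx
    induction hx using Subfield.closure_induction with
    | mem x hx =>
      rw [Set.mem_singleton_iff] at hx
      have h1 : z ^ (p ^ 2) = z := by
        have h1 : p ^ 2 = p ^ 2 - 1 + 1 := by omega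
        rw [h1, pow_succ, hz.pow_eq_one, one_mul]
      rw [hx, ← pow_mul, mul_comm, pow_mul, h1]
    | one => rw [one_pow]
    | add x y _ _ hx hy => rw [add_pow_char_pow, hx, hy]
    | neg x _ hx =>
      have : (-x) ^ (p ^ 2) = -(x ^ (p ^ 2)) := by
        have h3 := sub_pow_char_pow (p := p) (n := 2) (0 : k) x
        rw [zero_sub, zero_pow (pow_ne_zero 2 hp.ne_zero), zero_sub] at h3
        exact h3
      rw [this, hx]
    | inv x _ hx => rw [inv_pow, hx]
    | mul x y _ _ hx hy => rw [mul_pow, hx, hy]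
  have hcard : Nat.card F ≤ p ^ 2 := by
    have hP : (Polynomial.X ^ (p ^ 2) - Polynomial.X : Polynomial k) ≠ 0 :=
      FiniteField.X_pow_card_sub_X_ne_zero k (Nat.one_lt_pow two_ne_zero hp.one_lt)
    have h1 : ((F : Set k)) ⊆
        ((Polynomial.X ^ (p ^ 2) - Polynomial.X : Polynomial k).roots.toFinset : Set k) := by
      intro x hx
      rw [Finset.mem_coe, Multiset.mem_toFinset, Polynomial.mem_roots hP, Polynomial.IsRoot.def,
        Polynomial.eval_sub, Polynomial.eval_pow, Polynomial.eval_X, sub_eq_zero]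
      exact hup x hx
    have h2 := Set.ncard_le_ncard h1 (Finset.finite_toSet _)
    rw [Set.ncard_coe_finset] at h2
    have h3 := h2.trans ((Multiset.toFinset_card_le _).trans (Polynomial.card_roots' _))
    rw [FiniteField.X_pow_card_sub_X_natDegree_eq k (Nat.one_lt_pow two_ne_zero hp.one_lt)] at h3
    exact h3
  haveI := Fintype.ofFinite F
  haveI : CharP F p := by
    haveI : CharP k p := inferInstance
    exact (F.subtype.charP_iff F.subtype.injective p).2 inferInstance
  obtain ⟨f, -, hf⟩ := FiniteField.card F p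
  rw [Nat.card_eq_fintype_card] at hcard ⊢
  rw [hf] at hcard ⊢
  have hz2 : z ^ 2 ∈ F := Subfield.subset_closure rfl
  have hz0 : z ≠ 0 := by
    rintro rfl
    have := hz.pow_eq_one
    rw [zero_pow he.ne'] at this
    exact zero_ne_one this
  have h1 : (z ^ 2) ^ (p ^ (f : ℕ) - 1) = 1 := by
    have h2 := FiniteField.pow_card_sub_one_eq_one (⟨z ^ 2, hz2⟩ : F)
      (fun h => pow_ne_zero 2 hz0 (congrArg Subtype.val h))
    rw [hf] at h2
    exact congrArg Subtype.val h2
  rw [← pow_mul] at h1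
  have h2 := hz.dvd_of_pow_eq_one _ h1
  have hf1 : (f : ℕ) ≠ 1 := by
    intro h
    rw [h, pow_one] at h2
    have := Nat.le_of_dvd (by have := hp.two_le; omega) h2
    have := hp.two_le
    omega
  have hf2 : (f : ℕ) ≤ 2 := (Nat.pow_le_pow_iff_right hp.one_lt).1 hcard
  have hf0 := f.pos
  have : (f : ℕ) = 2 := by omega
  rw [this]

variable {k : Type} [Field k] {V : Type} [AddCommGroup V] [Module k V]
variable {ρ : 𝒢 →* Module.End k V}
variable {ϖ : Ω} (hϖ : ϖ ^ (p ^ 2 - 1) = p) {ζ : Ω} (hζ : IsPrimitiveRoot ζ p)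
variable {tr : k →+ ZMod p}
variable {b : Module.Basis (Fin 2) k V} {ι : k →+* kk A} {χ : 𝒢 → k} {Φ : 𝒢} {s : k}

include hϖ hζ in
/-- **The supersingular bound.** -/
theorem ss_bound [Finite k] [CharP k p] (hA : A.LiesOverPrime p) (hp2 : p ≠ 2) (htr : tr ≠ 0)
    (D : SSD A p ρ ϖ b ι χ Φ s) (hs : s ≠ 0)
    (hdet : ∀ σ ∈ A.inertiaSubgroupIn ℚ, ∀ m : ℕ, σ ζ = ζ ^ m → LinearMap.det (ρ σ) = (m : k))
    (hρ : ∃ F : IntermediateField ℚ Ω, FiniteDimensional ℚ F ∧
      ∀ σ, (∀ x ∈ F, σ x = x) → ρ σ = 1)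
    (F : Submodule k (𝒢 → Module.End k V)) (hF : ∀ c ∈ F, Coc A ρ c ∧
      ∀ i j, BddK A ζ (M2 A ϖ) tr (fun σ => ent b i j (c σ))) :
    ∃ Λ : F →ₗ[k] (Fin 1 → k), ∀ c : F, Λ c = 0 →
      ∃ X : Module.End k V, ∀ g, Pres A g → (c : 𝒢 → Module.End k V) g = ρ g * X * ρ g⁻¹ - X := by
  classical
  have hp : p.Prime := Fact.out
  obtain ⟨τ, hτ, hprim⟩ := exists_pi_gen hϖ hA
  have hz : IsPrimitiveRoot (χ τ) (p ^ 2 - 1) := by
    rw [← D.hι τ hτ] at hprim
    exact hprim.of_map_of_injective ι.injective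
  set F0 : Subfield k := Subfield.closure {χ τ ^ 2} with hF0
  have hcard : Nat.card F0 = p ^ 2 := card_F0 hp2 hz
  letI : Algebra F0 (kk A) := (ι.comp F0.subtype).toAlgebra
  have halg : ∀ f : F0, algebraMap F0 (kk A) f = ι f := fun f => rfl
  obtain ⟨m, hm⟩ := exists_zeta_exp hζ (Φ * Φ)
  have hm0 : (m : k) ≠ 0 := by
    intro h
    rw [CharP.cast_eq_zero_iff k p] at h
    have h1 : (Φ * Φ) ζ = 1 := by
      obtain ⟨d, rfl⟩ := h
      rw [hm, pow_mul, hζ.pow_eq_one, one_pow]
    have h2 : ζ = 1 := (Φ * Φ).injective (by rw [h1, map_one])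
    exact hζ.ne_one hp.one_lt h2
  have hT : Function.Surjective (fun u : k => (m : k) * u) := fun u =>
    ⟨(m : k)⁻¹ * u, by simp only; rw [mul_inv_cancel_left₀ hm0]⟩
  let l2 : Fin p := ⟨2, by have := hp.two_le; omega⟩
  let iv := iv2 A p ϖ
  let M := M2 A ϖ
  -- the invariant
  have hmem : ∀ c : F, AA ζ M iv tr l2 (fun σ => ent b 1 0 ((c : 𝒢 → Module.End k V) σ)) ∈
      Sol F0 (kk A) k (fun u : k => (m : k) * u) := by
    intro c
    obtain ⟨hc, hb⟩ := hF c c.2
    have hadd : ∀ x y, AA ζ M iv tr l2 (fun σ => ent b 1 0 ((c : 𝒢 → Module.End k V) σ)) (x + y) =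
        AA ζ M iv tr l2 (fun σ => ent b 1 0 ((c : 𝒢 → Module.End k V) σ)) x +
        AA ζ M iv tr l2 (fun σ => ent b 1 0 ((c : 𝒢 → Module.End k V) σ)) y := fun x y =>
      map_add (AAh ζ M iv hζ (inv2 hϖ hA) hA (hb 1 0) l2) x y
    have hneg : ∀ x, AA ζ M iv tr l2 (fun σ => ent b 1 0 ((c : 𝒢 → Module.End k V) σ)) (-x) =
        -AA ζ M iv tr l2 (fun σ => ent b 1 0 ((c : 𝒢 → Module.End k V) σ)) x := fun x =>
      map_neg (AAh ζ M iv hζ (inv2 hϖ hA) hA (hb 1 0) l2) x
    have hzero : AA ζ M iv tr l2 (fun σ => ent b 1 0 ((c : 𝒢 → Module.End k V) σ)) 0 = 0 :=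
      map_zero (AAh ζ M iv hζ (inv2 hϖ hA) hA (hb 1 0) l2)
    refine ⟨hadd, ?_, ?_⟩
    · rintro ⟨f, hf⟩ x
      rw [halg]
      change AA ζ M iv tr l2 _ (f * x) = ι f * _
      induction hf using Subfield.closure_induction generalizing x with
      | mem f hf =>
        rw [Set.mem_singleton_iff] at hf
        rw [hf]
        have h1 := AA_low hϖ hζ hA D hdet hc (hb 1 0) hτ l2 x
        rw [map_pow, D.hι τ hτ]
        exact h1
      | one => rw [one_mul, map_one, one_mul]
      | add f g _ _ hf hg => rw [add_mul, hadd, hf, hg, map_add, add_mul]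
      | neg f _ hf => rw [neg_mul, hneg, hf, map_neg, neg_mul]
      | inv f _ hf =>
        by_cases hf0 : f = 0
        · rw [hf0, inv_zero, zero_mul, hzero, map_zero, zero_mul]
        · have h1 := hf (f⁻¹ * x)
          rw [mul_inv_cancel_left₀ hf0] at h1
          rw [h1, map_inv₀, inv_mul_cancel_left₀]
          rwa [ne_eq, _root_.map_eq_zero]
      | mul f g _ _ hf hg => rw [mul_assoc, hf, hg, map_mul, mul_assoc]
    · intro x
      rw [hcard]
      exact AA_low_frob hϖ hζ hA D hs hc (hb 1 0) hm l2 x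
  obtain ⟨hfin, hSol⟩ := card_sol (F := F0) (K := kk A) (X := k) hT
  let B : Submodule k F :=
    { carrier := {c | ∃ X : Module.End k V, ∀ g, Pres A g →
        (c : 𝒢 → Module.End k V) g = ρ g * X * ρ g⁻¹ - X}
      zero_mem' := ⟨0, fun g _ => by simp⟩
      add_mem' := by
        rintro c d ⟨X, hX⟩ ⟨Y, hY⟩
        refine ⟨X + Y, fun g hg => ?_⟩
        change (c : 𝒢 → Module.End k V) g + (d : 𝒢 → Module.End k V) g = _
        rw [hX g hg, hY g hg]
        noncomm_ring
      smul_mem' := by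
        rintro t c ⟨X, hX⟩
        refine ⟨t • X, fun g hg => ?_⟩
        change t • (c : 𝒢 → Module.End k V) g = _
        rw [hX g hg, smul_sub, mul_smul_comm, smul_mul_assoc] }
  let g : F → Sol F0 (kk A) k (fun u : k => (m : k) * u) := fun c => ⟨_, hmem c⟩
  have hg : ∀ c d, g c = g d → c - d ∈ B := by
    intro c d h
    obtain ⟨hc, hbc⟩ := hF c c.2
    obtain ⟨hd, hbd⟩ := hF d d.2
    obtain ⟨hcd, hbcd⟩ := hF _ (c - d).2
    have h0 : ∀ l : Fin p, (l : ℕ) = 2 → ∀ u, AA ζ M iv tr l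
        (fun σ => ent b 1 0 (((c - d : F) : 𝒢 → Module.End k V) σ)) u = 0 := by
      intro l hl u
      have hl' : l = l2 := Fin.ext hl
      subst hl'
      have h1 : (fun σ => ent b 1 0 (((c - d : F) : 𝒢 → Module.End k V) σ)) =
          fun σ => ent b 1 0 ((c : 𝒢 → Module.End k V) σ) -
            ent b 1 0 ((d : 𝒢 → Module.End k V) σ) := by
        funext σ
        rw [← ent_sub]
        rfl
      rw [h1, AA_sub hζ (inv2 hϖ hA) hA (hbc 1 0) (hbd 1 0)]
      have h2 := congrArg Subtype.val h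
      have h3 := congrFun h2 u
      exact sub_eq_zero.2 h3
    have h1 := ss_eq_zero hϖ hζ hA hp2 htr D hs hdet hcd hbcd h0
    exact D.cob hϖ hA hp2 hs hρ hcd h1
  have hle : Nat.card (Sol F0 (kk A) k (fun u : k => (m : k) * u)) ≤ Nat.card k ^ 1 := by
    rw [pow_one]; exact hSol
  obtain ⟨Λ, hΛ⟩ := exists_linear_of_card B g hg hle
  exact ⟨Λ, fun c hc => hΛ c hc⟩

end Fermat.Agent.Flat
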