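import Fermat.Agent.Flat.PC
import Fermat.Agent.Flat.SS4

/-!
# The ordinary case
-/

set_option autoImplicit false
set_option linter.unusedSectionVars false
set_option linter.style.haveILetI false

noncomputable section

namespace Fermat.Agent.Flat

open Fermat.Agent.Places Fermat.Agent.RedMod Fermat.Agent.FlatRam

local notation "Ω" => AlgebraicClosure ℚ

local notation "𝒢" => (AlgebraicClosure ℚ) ≃ₐ[ℚ] (AlgebraicClosure ℚ)

variable {A : ValuationSubring (AlgebraicClosure ℚ)} {p : ℕ} [Fact p.Prime]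
variable {k : Type} [Field k] {V : Type} [AddCommGroup V] [Module k V]
variable {ρ : 𝒢 →* Module.End k V}
variable {ζ : Ω} (hζ : IsPrimitiveRoot ζ p)

/-- Data of the ordinary case. -/
structure OrdD (A : ValuationSubring (AlgebraicClosure ℚ)) (ρ : 𝒢 →* Module.End k V)
    (ζ : Ω) (b : Module.Basis (Fin 2) k V) (x y w : 𝒢 → k) : Prop where
  h0 : ∀ g, Pres A g → ρ g (b 0) = x g • b 0
  h1 : ∀ g, Pres A g → ρ g (b 1) = y g • b 0 + w g • b 1
  hw : ∀ σ ∈ A.inertiaSubgroupIn ℚ, w σ = 1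
  hx : ∀ σ ∈ A.inertiaSubgroupIn ℚ, ∀ m : ℕ, σ ζ = ζ ^ m → x σ = m

include hζ in
/-- an element of inertia moving `ζ` -/
theorem exists_move (hA : A.LiesOverPrime p) (hp2 : p ≠ 2) :
    ∃ σ ∈ A.inertiaSubgroupIn ℚ, ∃ m : ℕ, σ ζ = ζ ^ (m + 1) ∧ ¬ p ∣ m := by
  obtain ⟨τ, m, h1, h2⟩ := exists_zeta_pow hζ hA hp2
  exact ⟨_, res_mem τ, m, h1, h2⟩

include hζ in
/-- existence of ordinary data -/
theorem exists_ordD [CharP k p] (hA : A.LiesOverPrime p) (hp2 : p ≠ 2)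
    (hV : Module.finrank k V = 2)
    (hdet : ∀ σ ∈ A.inertiaSubgroupIn ℚ, ∀ m : ℕ, σ ζ = ζ ^ m → LinearMap.det (ρ σ) = (m : k))
    (hord : Submodule.span k {w | ∃ σ ∈ A.inertiaSubgroupIn ℚ, ∃ v, w = ρ σ v - v} ≠ ⊤) :
    ∃ (b : Module.Basis (Fin 2) k V) (x y w : 𝒢 → k), OrdD A ρ ζ b x y w := by
  haveI : FiniteDimensional k V := Module.finite_of_finrank_eq_succ hV
  set W := Submodule.span k {w | ∃ σ ∈ A.inertiaSubgroupIn ℚ, ∃ v, w = ρ σ v - v} with hW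
  have hmemW : ∀ σ ∈ A.inertiaSubgroupIn ℚ, ∀ v, ρ σ v - v ∈ W := fun σ hσ v =>
    Submodule.subset_span ⟨σ, hσ, v, rfl⟩
  obtain ⟨σ₁, hσ₁, m, hm, hpm⟩ := exists_move hζ hA hp2
  have hW0 : W ≠ ⊥ := by
    intro h
    have h1 : ρ σ₁ = 1 := by
      ext v
      have := hmemW σ₁ hσ₁ v
      rw [h, Submodule.mem_bot, sub_eq_zero] at this
      exact this
    have h2 := hdet σ₁ hσ₁ _ hm
    rw [h1, map_one] at h2
    push_cast at h2
    have h3 : (m : k) = 0 := by linear_combination -h2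
    rw [CharP.cast_eq_zero_iff k p] at h3
    exact hpm h3
  obtain ⟨v₀, hv₀W, hv₀⟩ := Submodule.exists_mem_ne_zero_of_ne_bot hW0
  have hfin : Module.finrank k W = 1 := by
    have h1 : Module.finrank k W < 2 := by
      rw [← hV]
      exact Submodule.finrank_lt hord
    have h2 : 0 < Module.finrank k W := by
      haveI : Nontrivial W := ⟨⟨⟨v₀, hv₀W⟩, 0, fun h => hv₀ (congrArg Subtype.val h)⟩⟩
      exact Module.finrank_pos
    omega
  have hline : ∀ u ∈ W, ∃ c : k, u = c • v₀ := by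
    intro u hu
    obtain ⟨c, hc⟩ := (finrank_eq_one_iff_of_nonzero' (⟨v₀, hv₀W⟩ : W)
      (fun h => hv₀ (congrArg Subtype.val h))).1 hfin ⟨u, hu⟩
    exact ⟨c, (congrArg Subtype.val hc).symm⟩
  obtain ⟨v₁, hv₁⟩ : ∃ v₁ : V, v₁ ∉ W := by
    by_contra hcon
    push Not at hcon
    exact hord (eq_top_iff.2 fun v _ => hcon v)
  obtain ⟨b, hb0, hb1⟩ := exists_basis2 hV hv₀ (w := v₁) (fun c hc => hv₁ (by
    rw [hc]; exact W.smul_mem c hv₀W))
  have hstab : ∀ g, Pres A g → ∀ u ∈ W, ρ g u ∈ W := by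
    intro g hg u hu
    rw [hW] at hu
    induction hu using Submodule.span_induction with
    | mem u hu =>
      obtain ⟨σ, hσ, v, rfl⟩ := hu
      have h1 : ρ g (ρ σ v - v) = ρ (g * σ * g⁻¹) (ρ g v) - ρ g v := by
        rw [map_sub]
        congr 1
        rw [← Module.End.mul_apply, ← map_mul, ← Module.End.mul_apply, ← map_mul]
        congr 2
        group
      rw [h1]
      exact hmemW _ (conj_mem_inertia hg hσ) _
    | zero => rw [map_zero]; exact W.zero_mem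
    | add u v _ _ hu hv => rw [map_add]; exact W.add_mem hu hv
    | smul c u _ hu => rw [map_smul]; exact W.smul_mem c hu
  refine ⟨b, fun g => ent b 0 0 (ρ g), fun g => ent b 0 1 (ρ g), fun g => ent b 1 1 (ρ g), ?_, ?_,
    ?_, ?_⟩
  · intro g hg
    obtain ⟨c, hc⟩ := hline _ (hstab g hg v₀ hv₀W)
    have h1 : ρ g (b 0) = c • b 0 + (0 : k) • b 1 := by rw [hb0, hc, zero_smul, add_zero]
    rw [(ent_of_eq b h1).1, h1, zero_smul, add_zero]
  · intro g _
    exact apply_basis b (ρ g) 1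
  · intro σ hσ
    obtain ⟨c, hc⟩ := hline _ (hmemW σ hσ (b 1))
    have h1 : ρ σ (b 1) = c • b 0 + (1 : k) • b 1 := by
      rw [hb0, ← hc, one_smul, sub_add_cancel]
    exact (ent_of_eq b h1).2
  · intro σ hσ m hm
    obtain ⟨c, hc⟩ := hline _ (hmemW σ hσ (b 1))
    have h1 : ρ σ (b 1) = c • b 0 + (1 : k) • b 1 := by
      rw [hb0, ← hc, one_smul, sub_add_cancel]
    obtain ⟨d, hd⟩ := hline _ (hstab σ (pres_of_mem hσ) v₀ hv₀W)
    have h2 : ρ σ (b 0) = d • b 0 + (0 : k) • b 1 := by rw [hb0, hd, zero_smul, add_zero]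
    have h3 := det_basis2 b (ρ σ) h2 h1
    rw [hdet σ hσ m hm, mul_one, mul_zero, sub_zero] at h3
    rw [(ent_of_eq b h2).1, h3]

namespace OrdD

variable {b : Module.Basis (Fin 2) k V} {x y w : 𝒢 → k} (D : OrdD A ρ ζ b x y w)
include D

theorem x_ne_zero {g : 𝒢} (hg : Pres A g) : x g ≠ 0 := by
  intro h
  have h1 := D.h0 g hg
  rw [h, zero_smul] at h1
  have h2 := rho_inv_apply (ρ := ρ) g (b 0)
  rw [h1, map_zero] at h2
  exact b.ne_zero 0 h2.symm

theorem inv0 {g : 𝒢} (hg : Pres A g) : ρ g⁻¹ (b 0) = (x g)⁻¹ • b 0 := by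
  have h1 := rho_inv_apply (ρ := ρ) g (b 0)
  rw [D.h0 g hg, map_smul] at h1
  conv_rhs => rw [← h1]
  rw [smul_smul, inv_mul_cancel₀ (D.x_ne_zero hg), one_smul]

theorem w_ne_zero {g : 𝒢} (hg : Pres A g) : w g ≠ 0 := by
  intro h
  have h1 := rho_inv_apply (ρ := ρ) g (b 1)
  rw [D.h1 g hg, h, zero_smul, add_zero, map_smul, D.inv0 hg, smul_smul] at h1
  have h2 := congrArg (fun v => b.repr v 1) h1
  simp at h2

theorem inv1 {g : 𝒢} (hg : Pres A g) :
    ρ g⁻¹ (b 1) = (-((w g)⁻¹ * y g * (x g)⁻¹)) • b 0 + (w g)⁻¹ • b 1 := by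
  have h1 := rho_inv_apply (ρ := ρ) g (b 1)
  rw [D.h1 g hg, map_add, map_smul, map_smul, D.inv0 hg] at h1
  have h2 : w g • ρ g⁻¹ (b 1) = b 1 - y g • (x g)⁻¹ • b 0 := eq_sub_of_add_eq' h1
  have h3 : ρ g⁻¹ (b 1) = (w g)⁻¹ • (w g • ρ g⁻¹ (b 1)) := by
    rw [smul_smul, inv_mul_cancel₀ (D.w_ne_zero hg), one_smul]
  rw [h3, h2]
  module

/-- conjugation, lower left entry -/
theorem conj10 {g : 𝒢} (hg : Pres A g) (f : Module.End k V) :
    ent b 1 0 (ρ g * f * ρ g⁻¹) = w g * (x g)⁻¹ * ent b 1 0 f := by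
  have h2 : (ρ g * f * ρ g⁻¹) (b 0) = ((x g)⁻¹ * (x g * ent b 0 0 f + y g * ent b 1 0 f)) • b 0 +
      (w g * (x g)⁻¹ * ent b 1 0 f) • b 1 := by
    rw [Module.End.mul_apply, Module.End.mul_apply, D.inv0 hg, map_smul, map_smul,
      apply_basis b f 0, map_add, map_smul, map_smul, D.h0 g hg, D.h1 g hg]
    module
  exact (ent_of_eq b h2).2

/-- conjugation of triangular endomorphisms -/
theorem conj_tri {g : 𝒢} (hg : Pres A g) {f : Module.End k V} (hf : ent b 1 0 f = 0) :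
    ent b 0 0 (ρ g * f * ρ g⁻¹) = ent b 0 0 f ∧ ent b 1 1 (ρ g * f * ρ g⁻¹) = ent b 1 1 f ∧
    ent b 0 1 (ρ g * f * ρ g⁻¹) =
      (w g)⁻¹ * (x g * ent b 0 1 f - y g * ent b 0 0 f + y g * ent b 1 1 f) := by
  have hx := D.x_ne_zero hg
  have hw := D.w_ne_zero hg
  have hf0 : f (b 0) = ent b 0 0 f • b 0 := by
    rw [apply_basis b f 0, hf, zero_smul, add_zero]
  have h2 : (ρ g * f * ρ g⁻¹) (b 0) = (ent b 0 0 f) • b 0 + (0 : k) • b 1 := by
    rw [Module.End.mul_apply, Module.End.mul_apply, D.inv0 hg, map_smul, map_smul,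
      hf0, map_smul, D.h0 g hg, zero_smul, add_zero, smul_smul, smul_smul]
    congr 1
    field_simp
  have h3 : (ρ g * f * ρ g⁻¹) (b 1) =
      ((w g)⁻¹ * (x g * ent b 0 1 f - y g * ent b 0 0 f + y g * ent b 1 1 f)) • b 0 +
      (ent b 1 1 f) • b 1 := by
    rw [Module.End.mul_apply, Module.End.mul_apply, D.inv1 hg, map_add, map_smul, map_smul, hf0,
      apply_basis b f 1, map_add, map_smul, map_smul, map_smul, map_add, map_smul, map_smul,
      D.h0 g hg, D.h1 g hg]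
    simp only [smul_add, smul_smul]
    rw [← add_assoc, ← add_assoc, ← add_smul, ← add_smul]
    congr 2
    · field_simp
      ring
    · field_simp
  have h4 := ent_of_eq b h2
  have h5 := ent_of_eq b h3
  exact ⟨h4.1, h5.2, h5.1⟩

theorem repr_one {σ : 𝒢} (hσ : σ ∈ A.inertiaSubgroupIn ℚ) (v : V) :
    b.repr (ρ σ v) 1 = b.repr v 1 := by
  obtain ⟨s, t, rfl⟩ := basis2_ext b v
  rw [map_add, map_smul, map_smul, D.h0 σ (pres_of_mem hσ), D.h1 σ (pres_of_mem hσ), D.hw σ hσ]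
  simp

theorem sub_line {σ : 𝒢} (hσ : σ ∈ A.inertiaSubgroupIn ℚ) (v : V) :
    ∃ t : k, ρ σ v - v = t • b 0 := by
  obtain ⟨s, t, h⟩ := basis2_ext b (ρ σ v - v)
  have h1 : b.repr (ρ σ v - v) 1 = 0 := by
    rw [map_sub, Finsupp.sub_apply, D.repr_one hσ, sub_self]
  rw [h] at h1
  have h2 : t = 0 := by simpa using h1
  exact ⟨s, by rw [h, h2, zero_smul, add_zero]⟩

end OrdD

end Fermat.Agent.Flat
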