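import Fermat.Agent.Flat.Ord1

/-!
# The ordinary case: normal form of flat cocycles
-/

set_option autoImplicit false
set_option linter.unusedSectionVars false
set_option linter.style.haveILetI false

noncomputable section

namespace Fermat.Agent.Flat

open Fermat.Agent.Places Fermat.Agent.RedMod Fermat.Agent.FlatRam

local notation "Ω" => AlgebraicClosure ℚ

local notation "𝒢" => (AlgebraicClosure ℚ) ≃ₐ[ℚ] (AlgebraicClosure ℚ)

variable {A : ValuationSubring (AlgebraicClosure ℚ)} {p : ℕ} [Fact p.Prime]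
variable {k : Type} [Field k] {V : Type} [AddCommGroup V] [Module k V]
variable {ρ : 𝒢 →* Module.End k V}
variable {ζ : Ω} (hζ : IsPrimitiveRoot ζ p)
variable {b : Module.Basis (Fin 2) k V} {x y w : 𝒢 → k} {tr : k →+ ZMod p}

/-- elements of inertia fixing `ζ` -/
theorem mem_NM_M1 {σ : 𝒢} (hσ : σ ∈ A.inertiaSubgroupIn ℚ) (h : σ ζ = ζ) :
    σ ∈ NM A (M1 A ζ) := by
  refine ⟨hσ, fun x hx => ?_⟩
  induction hx using IntermediateField.adjoin_induction with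
  | mem x hx =>
    rw [Set.mem_singleton_iff] at hx
    rw [hx, h]
  | algebraMap x =>
    have h1 : (x : Ω) ∈ IntermediateField.fixedField (A.inertiaSubgroupIn ℚ) := x.2
    exact (IntermediateField.mem_fixedField_iff _ _).1 h1 σ hσ
  | add x y _ _ hx hy => rw [map_add, hx, hy]
  | inv x _ hx => rw [map_inv₀, hx]
  | mul x y _ _ hx hy => rw [map_mul, hx, hy]

/-- cocycles in normal form -/
structure GoodOrd (A : ValuationSubring (AlgebraicClosure ℚ)) (ρ : 𝒢 →* Module.End k V) (ζ : Ω)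
    (b : Module.Basis (Fin 2) k V) (tr : k →+ ZMod p) (c : 𝒢 → Module.End k V) : Prop where
  coc : Coc A ρ c
  tri : ∀ g, Pres A g → ent b 1 0 (c g) = 0
  nil : ∀ σ ∈ A.inertiaSubgroupIn ℚ, ent b 0 0 (c σ) = 0 ∧ ent b 1 1 (c σ) = 0
  bdd : BddK A ζ (M1 A ζ) tr (fun σ => ent b 0 1 (c σ))

namespace GoodOrd

variable {c d : 𝒢 → Module.End k V}

include hζ in
theorem add (hA : A.LiesOverPrime p) (hc : GoodOrd A ρ ζ b tr c) (hd : GoodOrd A ρ ζ b tr d) :
    GoodOrd A ρ ζ b tr (fun σ => c σ + d σ) where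
  coc := hc.coc.add hd.coc
  tri := fun g hg => by rw [ent_add, hc.tri g hg, hd.tri g hg, add_zero]
  nil := fun σ hσ => by
    rw [ent_add, ent_add, (hc.nil σ hσ).1, (hc.nil σ hσ).2, (hd.nil σ hσ).1, (hd.nil σ hσ).2,
      add_zero]
    exact ⟨rfl, rfl⟩
  bdd := by
    have := BddK.add hζ hA hc.bdd hd.bdd
    refine this.congr fun σ _ => ?_
    rw [ent_add]

theorem smul (hc : GoodOrd A ρ ζ b tr c) (t : k) : GoodOrd A ρ ζ b tr (fun σ => t • c σ) where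
  coc := hc.coc.smul t
  tri := fun g hg => by rw [ent_smul, hc.tri g hg, mul_zero]
  nil := fun σ hσ => by
    rw [ent_smul, ent_smul, (hc.nil σ hσ).1, (hc.nil σ hσ).2, mul_zero]
    exact ⟨rfl, rfl⟩
  bdd := by
    refine (hc.bdd.smul t).congr fun σ _ => ?_
    rw [ent_smul]

include hζ in
theorem sub (hA : A.LiesOverPrime p) (hc : GoodOrd A ρ ζ b tr c) (hd : GoodOrd A ρ ζ b tr d) :
    GoodOrd A ρ ζ b tr (fun σ => c σ - d σ) := by
  have h1 := hc.add hζ hA (hd.smul (-1))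
  have h2 : (fun σ => c σ + (-1 : k) • d σ) = fun σ => c σ - d σ := by
    funext σ
    rw [neg_one_smul, sub_eq_add_neg]
  rwa [h2] at h1

end GoodOrd

/-- additivity of the upper right entry on the kernel of the cyclotomic character -/
theorem OrdD.ent01_add (D : OrdD A ρ ζ b x y w) {c : 𝒢 → Module.End k V} (hc : Coc A ρ c)
    (htri : ∀ g, Pres A g → ent b 1 0 (c g) = 0)
    {g h : 𝒢} (hg : Pres A g) (hh : Pres A h) (h0 : ent b 0 0 (c h) = 0)
    (h1 : ent b 1 1 (c h) = 0) :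
    ent b 0 1 (c (g * h)) = ent b 0 1 (c g) + (w g)⁻¹ * x g * ent b 0 1 (c h) := by
  rw [hc.mul g h hg hh, ent_add, (D.conj_tri hg (htri h hh)).2.2, h0, h1]
  ring

/-- boundedness of the upper right entry -/
theorem OrdD.bdd_of_flat (hζ : IsPrimitiveRoot ζ p) (D : OrdD A ρ ζ b x y w)
    {hA : A.LiesOverPrime p} {U : Type} [AddCommGroup U] {act : 𝒢 → U → U}
    (hfl : FlC A hA U act)
    (hact : ∀ σ ∈ A.inertiaSubgroupIn ℚ, (∀ u, act σ u = u) → ρ σ = 1)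
    (hdet : ∀ σ ∈ A.inertiaSubgroupIn ℚ, ∀ m : ℕ, σ ζ = ζ ^ m → LinearMap.det (ρ σ) = (m : k))
    [CharP k p]
    {c : 𝒢 → Module.End k V} (hc : Coc A ρ c) (htri : ∀ g, Pres A g → ent b 1 0 (c g) = 0)
    (hnil : ∀ σ ∈ A.inertiaSubgroupIn ℚ, ent b 0 0 (c σ) = 0 ∧ ent b 1 1 (c σ) = 0)
    (hact0 : ∀ σ ∈ A.inertiaSubgroupIn ℚ, (∀ u, act σ u = u) → c σ = 0) :
    BddK A ζ (M1 A ζ) tr (fun σ => ent b 0 1 (c σ)) := by
  intro u
  obtain ⟨F, hF, hF0⟩ := hc.lc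
  have hx1 : ∀ σ ∈ NM A (M1 A ζ), x σ = 1 := by
    intro σ hσ
    have h1 := D.hx σ hσ.1 1 (by rw [pow_one]; exact hσ.2 ζ zeta_mem_M1)
    rw [h1, Nat.cast_one]
  refine Fermat.Agent.Flat.bdd_of_flat hζ hfl zeta_mem_M1 ?_ ?_ (F := F) ?_ ?_
  · intro σ hσ hu
    have h1 := hact σ hσ hu
    obtain ⟨m, hm⟩ := exists_zeta_exp hζ σ
    have h2 := hdet σ hσ m hm
    rw [h1, map_one] at h2
    have h3 : σ ζ = ζ := by
      rw [hm]
      conv_rhs => rw [← pow_one ζ]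
      rw [zeta_pow_eq hA hζ]
      haveI := charP_residue hA
      have h4 : ((m : ℕ) : k) = ((1 : ℕ) : k) := by rw [← h2, Nat.cast_one]
      rw [CharP.natCast_eq_natCast k p] at h4
      rw [CharP.natCast_eq_natCast (kk A) p]
      exact h4
    exact (mem_NM_M1 hσ h3).2
  · intro σ hσ τ hτ
    simp only
    rw [D.ent01_add hc htri (pres_of_mem hσ.1) (pres_of_mem hτ.1) (hnil τ hτ.1).1
      (hnil τ hτ.1).2, D.hw σ hσ.1, hx1 σ hσ, inv_one, one_mul, one_mul, mul_add, map_add]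
  · intro σ hσ hx
    simp only
    rw [hF0 σ (pres_of_mem hσ.1) hx, ent_zero, mul_zero, map_zero]
  · intro σ hσ hu
    simp only
    rw [hact0 σ hσ hu, ent_zero, mul_zero, map_zero]

/-- **Normal form of flat cocycles.** -/
theorem OrdD.exists_good (hζ : IsPrimitiveRoot ζ p) [CharP k p] (D : OrdD A ρ ζ b x y w)
    {hA : A.LiesOverPrime p} (hp2 : p ≠ 2) (htr : tr ≠ 0)
    (hρ : ∃ F : IntermediateField ℚ Ω, FiniteDimensional ℚ F ∧
      ∀ σ, (∀ x ∈ F, σ x = x) → ρ σ = 1)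
    (hdet : ∀ σ ∈ A.inertiaSubgroupIn ℚ, ∀ m : ℕ, σ ζ = ζ ^ m → LinearMap.det (ρ σ) = (m : k))
    {c : 𝒢 → Module.End k V} (hc : Coc A ρ c) (hfl : FlC A hA (V × V) (actE ρ c)) :
    ∃ X : Module.End k V, GoodOrd A ρ ζ b tr (fun σ => c σ - (ρ σ * X * ρ σ⁻¹ - X)) := by
  obtain ⟨U0, hU0, hψ, -⟩ := hfl.conn
  obtain ⟨τ₀, hτ₀⟩ : ∃ t : k, tr t ≠ 0 := by
    by_contra hcon
    push Not at hcon
    exact htr (AddMonoidHom.ext hcon)
  -- the connected part of the submodule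
  have hsub : ∀ v : V, ((0 : V), v) ∈ U0 → b.repr v 1 = 0 := by
    intro v hv
    by_contra hne
    let U' : AddSubgroup (V × V) := (AddMonoidHom.fst V V).ker
    let ψ : U' →+ ZMod p :=
      { toFun := fun u => tr (τ₀ / b.repr v 1 * b.repr (u : V × V).2 1)
        map_zero' := by simp
        map_add' := fun u u' => by
          rw [← map_add, ← mul_add]
          simp }
    have h1 := hψ U' (fun σ hσ u hu => by
      have hu' : u.1 = 0 := hu
      change ρ σ u.1 = 0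
      rw [hu', map_zero]) ψ (fun σ hσ u u' h => by
      have hu : (u : V × V).1 = 0 := u.2
      change tr (τ₀ / b.repr v 1 * b.repr (u' : V × V).2 1) = tr (τ₀ / b.repr v 1 * b.repr (u : V × V).2 1)
      rw [h]
      change tr (τ₀ / b.repr v 1 * b.repr (ρ σ (u : V × V).2 + c σ (ρ σ (u : V × V).1)) 1) = _
      rw [hu, map_zero, map_zero, add_zero, D.repr_one hσ]) ⟨(0, v), rfl⟩ hv
    change tr (τ₀ / b.repr v 1 * b.repr v 1) = 0 at h1
    rw [div_mul_cancel₀ _ hne] at h1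
    exact hτ₀ h1
  obtain ⟨σ₁, hσ₁, m, hm, hpm⟩ := exists_move hζ hA hp2
  have hxσ : x σ₁ = m + 1 := by rw [D.hx σ₁ hσ₁ _ hm]; push_cast; ring
  have hm0 : (m : k) ≠ 0 := by rwa [ne_eq, CharP.cast_eq_zero_iff k p]
  have hx1 : x σ₁ - 1 ≠ 0 := by rw [hxσ]; simpa using hm0
  obtain ⟨w₀, hw₀⟩ : ∃ w₀ : V, w₀ = (x σ₁ / (x σ₁ - 1)) • c σ₁ (b 0) := ⟨_, rfl⟩
  have hline : ∀ t : k, ((t • b 0, t • w₀) : V × V) ∈ U0 := by
    intro t
    have h1 := hU0 σ₁ hσ₁ ((t / (x σ₁ - 1)) • b 0, 0)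
    have h2 : actE ρ c σ₁ ((t / (x σ₁ - 1)) • b 0, 0) - ((t / (x σ₁ - 1)) • b 0, 0) =
        (t • b 0, t • w₀) := by
      rw [actE]
      simp only [map_zero, zero_add, map_smul, D.h0 σ₁ (pres_of_mem hσ₁), Prod.mk_sub_mk, sub_zero]
      rw [hw₀, Prod.mk.injEq]
      constructor
      · rw [smul_smul, ← sub_smul]
        congr 1
        field_simp
      · rw [smul_smul, smul_smul]
        congr 1
        field_simp
    rwa [h2] at h1
  obtain ⟨X, hX⟩ : ∃ X : Module.End k V, X (b 0) = -w₀ :=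
    ⟨b.constr k fun j => if j = 0 then -w₀ else 0, by rw [Module.Basis.constr_basis, if_pos rfl]⟩
  obtain ⟨c', hc'⟩ : ∃ c' : 𝒢 → Module.End k V, c' = fun σ => c σ - (ρ σ * X * ρ σ⁻¹ - X) :=
    ⟨_, rfl⟩
  have hcoc : Coc A ρ c' := hc' ▸ hc.sub (Coc.cob hρ X)
  have hval : ∀ σ ∈ A.inertiaSubgroupIn ℚ, ∀ v, b.repr (c' σ v) 1 = 0 := by
    intro σ hσ v
    obtain ⟨u, hu⟩ : ∃ u, v = ρ σ u := ⟨ρ σ⁻¹ v, (rho_apply_inv σ v).symm⟩
    obtain ⟨t, ht⟩ := D.sub_line hσ u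
    have h1 := hU0 σ hσ (u, 0)
    have h2 : actE ρ c σ (u, 0) - (u, 0) = (t • b 0, c σ (ρ σ u)) := by
      rw [actE]
      simp only [map_zero, zero_add, Prod.mk_sub_mk, sub_zero, ht]
    rw [h2] at h1
    have h3 := U0.sub_mem h1 (hline t)
    rw [Prod.mk_sub_mk, sub_self] at h3
    have h4 := hsub _ h3
    have h5 : c' σ v = (c σ (ρ σ u) - t • w₀) - (ρ σ (X u) - X u) := by
      rw [hc', hu]
      simp only [LinearMap.sub_apply, Module.End.mul_apply, rho_inv_apply]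
      have h6 : X (ρ σ u) = X u - t • w₀ := by
        have h7 : ρ σ u = u + t • b 0 := by rw [← ht]; abel
        rw [h7, map_add, map_smul, hX, smul_neg, sub_eq_add_neg]
      rw [h6]
      abel
    obtain ⟨t', ht'⟩ := D.sub_line hσ (X u)
    rw [h5, ht', map_sub, Finsupp.sub_apply, h4]
    simp
  have hnil : ∀ σ ∈ A.inertiaSubgroupIn ℚ, ent b 0 0 (c' σ) = 0 ∧ ent b 1 1 (c' σ) = 0 := by
    intro σ hσ
    have h1 : ent b 1 1 (c' σ) = 0 := hval σ hσ (b 1)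
    have h2 := hcoc.tr σ (pres_of_mem hσ)
    rw [trace_eq b, h1, add_zero] at h2
    exact ⟨h2, h1⟩
  have htri0 : ∀ σ ∈ A.inertiaSubgroupIn ℚ, ent b 1 0 (c' σ) = 0 := fun σ hσ => hval σ hσ (b 0)
  have htri : ∀ g, Pres A g → ent b 1 0 (c' g) = 0 := by
    intro g hg
    have h1 := hcoc.mul σ₁ g (pres_of_mem hσ₁) hg
    have h2 := conj_inv_mem hg hσ₁
    have h3 := hcoc.mul g (g⁻¹ * σ₁ * g) hg (pres_of_mem h2)
    have h4 : g * (g⁻¹ * σ₁ * g) = σ₁ * g := by group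
    rw [h4, h1] at h3
    have h5 := congrArg (ent b 1 0) h3
    rw [ent_add, ent_add, htri0 σ₁ hσ₁, D.conj10 (pres_of_mem hσ₁), D.conj10 hg, htri0 _ h2,
      D.hw σ₁ hσ₁, zero_add, one_mul, mul_zero, add_zero] at h5
    have hxne := D.x_ne_zero (pres_of_mem hσ₁)
    have h6 : (x σ₁ - 1) * ent b 1 0 (c' g) = 0 := by
      have : ent b 1 0 (c' g) = x σ₁ * ent b 1 0 (c' g) := by
        conv_rhs => rw [← h5]
        rw [mul_inv_cancel_left₀ hxne]
      linear_combination -this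
    exact (mul_eq_zero.1 h6).resolve_left hx1
  refine ⟨X, ?_⟩
  rw [← hc']
  refine ⟨hcoc, htri, hnil, ?_⟩
  have hact : ∀ σ ∈ A.inertiaSubgroupIn ℚ, (∀ u, actE ρ c σ u = u) → ρ σ = 1 := by
    intro σ _ hu
    ext v
    exact congrArg Prod.fst (hu (v, 0))
  refine D.bdd_of_flat hζ hfl hact hdet hcoc htri hnil ?_
  intro σ hσ hu
  have h1 := hact σ hσ hu
  have h2 : c σ = 0 := by
    ext v
    have h3 := congrArg Prod.snd (hu (v, 0))
    rw [actE] at h3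
    simp only [map_zero, zero_add, h1] at h3
    exact h3
  have h3 : ρ σ⁻¹ = 1 := by
    have := rho_mul_inv (ρ := ρ) σ
    rwa [h1, one_mul] at this
  rw [hc']
  simp only [h1, h2, h3, one_mul, mul_one, sub_self]

end Fermat.Agent.Flat
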