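import Fermat.Agent.Flat.Ord2

/-!
# The ordinary case: nilpotent cocycles
-/

set_option autoImplicit false
set_option linter.unusedSectionVars false
set_option linter.style.haveILetI false

noncomputable section

namespace Fermat.Agent.Flat

open Fermat.Agent.Places Fermat.Agent.RedMod Fermat.Agent.FlatRam

local notation "Ω" => AlgebraicClosure ℚ

local notation "𝒢" => (AlgebraicClosure ℚ) ≃ₐ[ℚ] (AlgebraicClosure ℚ)

variable {A : ValuationSubring (AlgebraicClosure ℚ)} {p : ℕ} [Fact p.Prime]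
variable {k : Type} [Field k] {V : Type} [AddCommGroup V] [Module k V]
variable {ρ : 𝒢 →* Module.End k V}
variable {ζ : Ω} (hζ : IsPrimitiveRoot ζ p)
variable {b : Module.Basis (Fin 2) k V} {x y w : 𝒢 → k} {tr : k →+ ZMod p}

/-- the coboundary of an endomorphism -/
def dd (ρ : 𝒢 →* Module.End k V) (X : Module.End k V) (σ : 𝒢) : Module.End k V :=
  ρ σ * X * ρ σ⁻¹ - X

theorem dd_add (X Y : Module.End k V) (σ : 𝒢) : dd ρ (X + Y) σ = dd ρ X σ + dd ρ Y σ := by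
  rw [dd, dd, dd]; noncomm_ring

theorem dd_sub (X Y : Module.End k V) (σ : 𝒢) : dd ρ (X - Y) σ = dd ρ X σ - dd ρ Y σ := by
  rw [dd, dd, dd]; noncomm_ring

theorem dd_smul (t : k) (X : Module.End k V) (σ : 𝒢) : dd ρ (t • X) σ = t • dd ρ X σ := by
  rw [dd, dd, smul_sub, mul_smul_comm, smul_mul_assoc]

/-- the unramified invariant of a cocycle in normal form -/
theorem OrdD.unram (hA : A.LiesOverPrime p) (D : OrdD A ρ ζ b x y w) {Φ : 𝒢} (hΦ : IsFr A p Φ)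
    {c : 𝒢 → Module.End k V} (hc : GoodOrd A ρ ζ b tr c) (h0 : ent b 1 1 (c Φ) = 0) :
    ∀ g, Pres A g → ent b 0 0 (c g) = 0 ∧ ent b 1 1 (c g) = 0 := by
  have hadd : ∀ g h, Pres A g → Pres A h →
      ent b 1 1 (c (g * h)) = ent b 1 1 (c g) + ent b 1 1 (c h) := by
    intro g h hg hh
    rw [hc.coc.mul g h hg hh, ent_add, (D.conj_tri hg (hc.tri h hh)).2.1]
  obtain ⟨F, hF, hF0⟩ := hc.coc.lc
  have h1 : ∀ g, Pres A g → ent b 1 1 (c g) = 0 := by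
    intro g hg
    obtain ⟨n, τ, ν, hτ, hν, hνF, rfl⟩ := decomp_gen hA hΦ F hg
    have hpow : ∀ n : ℕ, ent b 1 1 (c (Φ ^ n)) = 0 := by
      intro n
      induction n with
      | zero => rw [pow_zero, hc.coc.one, ent_zero]
      | succ n ih => rw [pow_succ, hadd _ _ (hΦ.1.pow n) hΦ.1, ih, h0, add_zero]
    rw [hadd _ ν ((hΦ.1.pow n).mul (pres_of_mem hτ)) hν, hadd _ τ (hΦ.1.pow n) (pres_of_mem hτ),
      hpow, (hc.nil τ hτ).2, hF0 ν hν hνF, ent_zero, add_zero, add_zero]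
  intro g hg
  have h2 := hc.coc.tr g hg
  rw [trace_eq b, h1 g hg, add_zero] at h2
  exact ⟨h2, h1 g hg⟩

include hζ in
/-- the action of Frobenius on the invariant of a nilpotent cocycle -/
theorem OrdD.AA_frob (hA : A.LiesOverPrime p) (D : OrdD A ρ ζ b x y w) {Φ : 𝒢}
    (hΦ : IsFr A p Φ) {m : ℕ} (hm : Φ ζ = ζ ^ m)
    {c : 𝒢 → Module.End k V} (hc : GoodOrd A ρ ζ b tr c)
    (h0 : ∀ g, Pres A g → ent b 0 0 (c g) = 0 ∧ ent b 1 1 (c g) = 0) (u : k) :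
    AA ζ (M1 A ζ) (iv1 A) tr () (fun σ => ent b 0 1 (c σ)) (m * (w Φ * (x Φ)⁻¹) * u) =
      AA ζ (M1 A ζ) (iv1 A) tr () (fun σ => ent b 0 1 (c σ)) u ^ p := by
  refine AA_conj (F := fun z => z ^ p) hζ (_root_.Fermat.Agent.Flat.inv1 hζ hA) hA hc.bdd hΦ.1
    (fun z hz => M1_stable hζ hΦ.1 hz) hm (fun σ hσ => ?_) () (fun a ha _ => iv1_fr hΦ ha ()) u
  have hσ' := pres_of_mem hσ.1
  have h2 := conj_inv_mem hΦ.1 hσ.1
  have e1 := D.ent01_add hc.coc hc.tri hσ' hΦ.1 (h0 Φ hΦ.1).1 (h0 Φ hΦ.1).2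
  have e2 := D.ent01_add hc.coc hc.tri hΦ.1 (pres_of_mem h2) (h0 _ (pres_of_mem h2)).1
    (h0 _ (pres_of_mem h2)).2
  have e3 : Φ * (Φ⁻¹ * σ * Φ) = σ * Φ := by group
  have hx1 : x σ = 1 := by
    have h1 := D.hx σ hσ.1 1 (by rw [pow_one]; exact hσ.2 ζ zeta_mem_M1)
    rw [h1, Nat.cast_one]
  rw [D.hw σ hσ.1, hx1, inv_one, one_mul, one_mul] at e1
  rw [e3, e1, add_comm] at e2
  have e4 := add_left_cancel e2
  have hx := D.x_ne_zero hΦ.1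
  have hw := D.w_ne_zero hΦ.1
  rw [e4]
  field_simp

include hζ in
/-- nilpotent cocycles with vanishing invariant are coboundaries -/
theorem OrdD.cob [CharP k p] (hA : A.LiesOverPrime p) (hp2 : p ≠ 2) (htr : tr ≠ 0)
    (D : OrdD A ρ ζ b x y w)
    {c : 𝒢 → Module.End k V} (hc : GoodOrd A ρ ζ b tr c)
    (h0 : ∀ g, Pres A g → ent b 0 0 (c g) = 0 ∧ ent b 1 1 (c g) = 0)
    (hAA : ∀ u, AA ζ (M1 A ζ) (iv1 A) tr () (fun σ => ent b 0 1 (c σ)) u = 0) :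
    ∃ Y : Module.End k V, ent b 0 0 Y = 0 ∧ ent b 1 1 Y = 0 ∧ ent b 1 0 Y = 0 ∧
      ∀ g, Pres A g → c g = dd ρ Y g := by
  have hN : ∀ σ ∈ NM A (M1 A ζ), ent b 0 1 (c σ) = 0 :=
    eq_zero_of_AA hζ (_root_.Fermat.Agent.Flat.inv1 hζ hA) hA htr hc.bdd fun _ u => hAA u
  obtain ⟨σ₁, hσ₁, m, hm, hpm⟩ := exists_move hζ hA hp2
  have hxσ : x σ₁ = m + 1 := by rw [D.hx σ₁ hσ₁ _ hm]; push_cast; ring
  have hm0 : (m : k) ≠ 0 := by rwa [ne_eq, CharP.cast_eq_zero_iff k p]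
  have hx1 : x σ₁ - 1 ≠ 0 := by rw [hxσ]; simpa using hm0
  obtain ⟨q, hq⟩ : ∃ q : k, q = ent b 0 1 (c σ₁) / (x σ₁ - 1) := ⟨_, rfl⟩
  obtain ⟨Y, hY⟩ := mk_end b (fun i j => if i = 0 ∧ j = 1 then q else 0)
  have hY00 : ent b 0 0 Y = 0 := by rw [hY]; simp
  have hY11 : ent b 1 1 Y = 0 := by rw [hY]; simp
  have hY10 : ent b 1 0 Y = 0 := by rw [hY]; simp
  have hY01 : ent b 0 1 Y = q := by rw [hY]; simp
  refine ⟨Y, hY00, hY11, hY10, fun g hg => ?_⟩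
  obtain ⟨t1, t2, t3⟩ := D.conj_tri hg hY10
  have t4 := D.conj10 hg Y
  -- the value of the entry
  have hval : ent b 0 1 (c g) = ((w g)⁻¹ * x g - 1) * q := by
    -- commutators
    have hν : g * σ₁ * g⁻¹ * σ₁⁻¹ ∈ NM A (M1 A ζ) := by
      have h1 : g * σ₁ * g⁻¹ * σ₁⁻¹ ∈ A.inertiaSubgroupIn ℚ :=
        Subgroup.mul_mem _ (conj_mem_inertia hg hσ₁) (Subgroup.inv_mem _ hσ₁)
      apply mem_NM_M1 h1
      obtain ⟨n, hn⟩ := exists_zeta_exp hζ g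
      have h2 : (g * σ₁) ζ = (σ₁ * g) ζ := by
        rw [AlgEquiv.mul_apply, AlgEquiv.mul_apply, hm, hn, map_pow, map_pow, hm, hn, ← pow_mul,
          ← pow_mul, mul_comm]
      have h3 : ∀ z : Ω, z ∈ M1 A ζ → True := fun _ _ => trivial
      have h4 : (σ₁ * g)⁻¹ ((g * σ₁) ζ) = ζ := by
        rw [h2]
        exact (σ₁ * g).symm_apply_apply ζ
      -- the commutator acts on all `p`-th roots of unity trivially
      obtain ⟨l, hl⟩ := exists_zeta_exp hζ (σ₁ * g)⁻¹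
      have h5 : ∀ (τ : 𝒢) (a : ℕ), τ ζ = ζ ^ a → ∀ e : ℕ, τ (ζ ^ e) = (ζ ^ a) ^ e := by
        intro τ a ha e
        rw [map_pow, ha]
      have h6 : (g * σ₁) ((σ₁ * g)⁻¹ ζ) = ζ := by
        have h7 : (σ₁ * g) ((σ₁ * g)⁻¹ ζ) = ζ := (σ₁ * g).apply_symm_apply ζ
        rw [hl, map_pow] at h7 ⊢
        rw [h2]
        exact h7
      have h8 : g * σ₁ * g⁻¹ * σ₁⁻¹ = (g * σ₁) * (σ₁ * g)⁻¹ := by group
      rw [h8, AlgEquiv.mul_apply]
      exact h6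
    have hg1 : g * σ₁ = (g * σ₁ * g⁻¹ * σ₁⁻¹) * (σ₁ * g) := by group
    have hσp := pres_of_mem hσ₁
    have hνp := pres_of_mem hν.1
    have e1 := D.ent01_add hc.coc hc.tri hg hσp (h0 σ₁ hσp).1 (h0 σ₁ hσp).2
    have e2 := D.ent01_add hc.coc hc.tri hνp (hσp.mul hg) (h0 _ (hσp.mul hg)).1
      (h0 _ (hσp.mul hg)).2
    have e3 := D.ent01_add hc.coc hc.tri hσp hg (h0 g hg).1 (h0 g hg).2
    have hxν : x (g * σ₁ * g⁻¹ * σ₁⁻¹) = 1 := by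
      have h1 := D.hx _ hν.1 1 (by rw [pow_one]; exact hν.2 ζ zeta_mem_M1)
      rw [h1, Nat.cast_one]
    rw [← hg1, hN _ hν, D.hw _ hν.1, hxν, inv_one, one_mul, one_mul, zero_add, e3, e1,
      D.hw σ₁ hσ₁, inv_one, one_mul] at e2
    rw [hq]
    have h5 : (x σ₁ - 1) * ent b 0 1 (c g) = ((w g)⁻¹ * x g - 1) * ent b 0 1 (c σ₁) := by
      linear_combination -e2
    field_simp
    linear_combination h5
  apply ent_ext b
  intro i j
  rw [dd, ent_sub]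
  fin_cases i <;> fin_cases j
  · change ent b 0 0 (c g) = ent b 0 0 (ρ g * Y * ρ g⁻¹) - ent b 0 0 Y
    rw [t1, (h0 g hg).1, sub_self]
  · change ent b 0 1 (c g) = ent b 0 1 (ρ g * Y * ρ g⁻¹) - ent b 0 1 Y
    rw [t3, hY00, hY11, hY01, hval]
    ring
  · change ent b 1 0 (c g) = ent b 1 0 (ρ g * Y * ρ g⁻¹) - ent b 1 0 Y
    rw [t4, hY10, hc.tri g hg]
    ring
  · change ent b 1 1 (c g) = ent b 1 1 (ρ g * Y * ρ g⁻¹) - ent b 1 1 Y
    rw [t2, (h0 g hg).2, sub_self]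

end Fermat.Agent.Flat
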