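import Fermat.Agent.Flat.Ord3
import Fermat.Agent.Flat.SS4

/-!
# The ordinary case: the bound
-/

set_option autoImplicit false
set_option linter.unusedSectionVars false
set_option linter.style.haveILetI false

noncomputable section

namespace Fermat.Agent.Flat

open Fermat.Agent.Places Fermat.Agent.RedMod Fermat.Agent.FlatRam

local notation "Ω" => AlgebraicClosure ℚ

local notation "𝒢" => (AlgebraicClosure ℚ) ≃ₐ[ℚ] (AlgebraicClosure ℚ)

variable {A : ValuationSubring (AlgebraicClosure ℚ)} {p : ℕ} [Fact p.Prime]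
variable {k : Type} [Field k] {V : Type} [AddCommGroup V] [Module k V]
variable {ρ : 𝒢 →* Module.End k V}
variable {ζ : Ω} (hζ : IsPrimitiveRoot ζ p)
variable {b : Module.Basis (Fin 2) k V} {x y w : 𝒢 → k} {tr : k →+ ZMod p}

/-- the submodule of cocycles which are coboundaries on the decomposition group -/
def locB (A : ValuationSubring (AlgebraicClosure ℚ)) (ρ : 𝒢 →* Module.End k V)
    (F : Submodule k (𝒢 → Module.End k V)) : Submodule k F where
  carrier := {c | ∃ X : Module.End k V, ∀ g, Pres A g →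
    (c : 𝒢 → Module.End k V) g = ρ g * X * ρ g⁻¹ - X}
  zero_mem' := ⟨0, fun g _ => by simp⟩
  add_mem' := by
    rintro c d ⟨X, hX⟩ ⟨Y, hY⟩
    refine ⟨X + Y, fun g hg => ?_⟩
    change (c : 𝒢 → Module.End k V) g + (d : 𝒢 → Module.End k V) g = _
    rw [hX g hg, hY g hg]
    noncomm_ring
  smul_mem' := by
    rintro t c ⟨X, hX⟩
    refine ⟨t • X, fun g hg => ?_⟩
    change t • (c : 𝒢 → Module.End k V) g = _
    rw [hX g hg, smul_sub, mul_smul_comm, smul_mul_assoc]

include hζ in
/-- **The ordinary bound.** -/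
theorem ord_bound [Finite k] [CharP k p] (hA : A.LiesOverPrime p) (hp2 : p ≠ 2) (htr : tr ≠ 0)
    (D : OrdD A ρ ζ b x y w)
    (hdet : ∀ σ ∈ A.inertiaSubgroupIn ℚ, ∀ m : ℕ, σ ζ = ζ ^ m → LinearMap.det (ρ σ) = (m : k))
    (hρ : ∃ F : IntermediateField ℚ Ω, FiniteDimensional ℚ F ∧
      ∀ σ, (∀ x ∈ F, σ x = x) → ρ σ = 1)
    (hfl : FlC A hA V (fun σ v => ρ σ v))
    (F : Submodule k (𝒢 → Module.End k V))
    (hF : ∀ c ∈ F, ∃ X : Module.End k V, GoodOrd A ρ ζ b tr (fun σ => c σ - dd ρ X σ)) :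
    (∃ Λ : F →ₗ[k] (Fin 1 → k), ∀ c : F, Λ c = 0 → c ∈ locB A ρ F) ∨
    ((∃ H : Module.End k V, H ≠ 0 ∧ LinearMap.trace k V H = 0 ∧
      ∀ g, Pres A g → ρ g * H = H * ρ g) ∧
     ∃ Λ : F →ₗ[k] (Fin 2 → k), ∀ c : F, Λ c = 0 → c ∈ locB A ρ F) := by
  classical
  have hp : p.Prime := Fact.out
  obtain ⟨Φ, hΦ⟩ := exists_isFr (p := p) hA
  obtain ⟨m, hm⟩ := exists_zeta_exp hζ Φ
  have hm0 : (m : k) ≠ 0 := by
    intro h
    rw [CharP.cast_eq_zero_iff k p] at h
    have h1 : Φ ζ = 1 := by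
      obtain ⟨d, rfl⟩ := h
      rw [hm, pow_mul, hζ.pow_eq_one, one_pow]
    have h2 : ζ = 1 := Φ.injective (by rw [h1, map_one])
    exact hζ.ne_one hp.one_lt h2
  have hxne := D.x_ne_zero hΦ.1
  have hwne := D.w_ne_zero hΦ.1
  obtain ⟨μ, hμ⟩ : ∃ μ : k, μ = m * (w Φ * (x Φ)⁻¹) := ⟨_, rfl⟩
  have hμ0 : μ ≠ 0 := by
    rw [hμ]
    exact mul_ne_zero hm0 (mul_ne_zero hwne (inv_ne_zero hxne))
  have hT : Function.Surjective (fun u : k => μ * u) := fun u =>
    ⟨μ⁻¹ * u, by simp only; rw [mul_inv_cancel_left₀ hμ0]⟩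
  haveI := charP_residue hA
  letI : Algebra (ZMod p) (kk A) := ZMod.algebra _ p
  letI : Algebra (ZMod p) k := ZMod.algebra _ p
  let M := M1 A ζ
  let iv := iv1 A
  have hinv := inv1 (p := p) hζ hA
  -- invariants of nilpotent good cocycles
  have hSolmem : ∀ c : 𝒢 → Module.End k V, GoodOrd A ρ ζ b tr c → ent b 1 1 (c Φ) = 0 →
      AA ζ M iv tr () (fun σ => ent b 0 1 (c σ)) ∈ Sol (ZMod p) (kk A) k (fun u : k => μ * u) := by
    intro c hc h0
    have h1 := D.unram hA hΦ hc h0
    refine ⟨fun u u' => map_add (AAh ζ M iv hζ hinv hA hc.bdd ()) u u', fun f u => ?_, fun u => ?_⟩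
    · have h2 : f • u = (ZMod.val f) • u := by
        rw [Algebra.smul_def, nsmul_eq_mul]
        congr 1
        conv_lhs => rw [← ZMod.natCast_zmod_val f]
        rw [map_natCast]
      have h3 : algebraMap (ZMod p) (kk A) f = ((ZMod.val f : ℕ) : kk A) := by
        conv_lhs => rw [← ZMod.natCast_zmod_val f]
        rw [map_natCast]
      rw [h2, h3, ← nsmul_eq_mul]
      exact map_nsmul (AAh ζ M iv hζ hinv hA hc.bdd ()) _ u
    · rw [Nat.card_zmod]
      have h2 := D.AA_frob hζ hA hΦ hm hc h1 u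
      rw [← hμ] at h2
      exact h2
  obtain ⟨hfin, hSol⟩ := card_sol (F := ZMod p) (K := kk A) (X := k) hT
  -- the standard nilpotent coboundary
  obtain ⟨E, hE⟩ := mk_end b (fun i j => if i = 0 ∧ j = 0 then (1 : k) else 0)
  have hE00 : ent b 0 0 E = 1 := by rw [hE]; simp
  have hE11 : ent b 1 1 E = 0 := by rw [hE]; simp
  have hE10 : ent b 1 0 E = 0 := by rw [hE]; simp
  have hE01 : ent b 0 1 E = 0 := by rw [hE]; simp
  have hEd : ∀ g, Pres A g → ent b 0 0 (dd ρ E g) = 0 ∧ ent b 1 1 (dd ρ E g) = 0 ∧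
      ent b 1 0 (dd ρ E g) = 0 := by
    intro g hg
    obtain ⟨t1, t2, t3⟩ := D.conj_tri hg hE10
    rw [dd, ent_sub, ent_sub, ent_sub, t1, t2, D.conj10 hg, hE10, mul_zero, sub_self, sub_self,
      sub_self]
    exact ⟨rfl, rfl, rfl⟩
  have hEgood : GoodOrd A ρ ζ b tr (dd ρ E) := by
    have hcoc : Coc A ρ (dd ρ E) := Coc.cob hρ E
    refine ⟨hcoc, fun g hg => (hEd g hg).2.2, fun σ hσ => ?_, ?_⟩
    · exact ⟨(hEd σ (pres_of_mem hσ)).1, (hEd σ (pres_of_mem hσ)).2.1⟩
    · refine D.bdd_of_flat hζ hfl ?_ hdet hcoc (fun g hg => (hEd g hg).2.2) (fun σ hσ =>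
        ⟨(hEd σ (pres_of_mem hσ)).1, (hEd σ (pres_of_mem hσ)).2.1⟩) ?_
      · intro σ _ hu
        ext v
        exact hu v
      · intro σ _ hu
        have h1 : ρ σ = 1 := by ext v; exact hu v
        have h3 : ρ σ⁻¹ = 1 := by
          have := rho_mul_inv (ρ := ρ) σ
          rwa [h1, one_mul] at this
        rw [dd, h1, h3, one_mul, mul_one, sub_self]
  -- normal forms
  choose! X hX using hF
  have hX' : ∀ c : F, GoodOrd A ρ ζ b tr (fun σ => (c : 𝒢 → Module.End k V) σ - dd ρ (X c) σ) :=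
    fun c => hX c c.2
  let n : F → 𝒢 → Module.End k V := fun c σ => (c : 𝒢 → Module.End k V) σ - dd ρ (X c) σ
  have hn : ∀ c, GoodOrd A ρ ζ b tr (n c) := hX'
  let t : F → k := fun c => ent b 1 1 (n c Φ)
  have hdiff : ∀ c d : F, GoodOrd A ρ ζ b tr (fun σ => n c σ - n d σ) := fun c d =>
    (hn c).sub hζ hA (hn d)
  have hdiff0 : ∀ c d : F, t c = t d → ent b 1 1 (n c Φ - n d Φ) = 0 := fun c d h => by
    rw [ent_sub]; exact sub_eq_zero.2 h
  -- criterion for being a coboundary
  have hcrit : ∀ c d : F, t c = t d → (∃ l : k, ∀ u,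
      AA ζ M iv tr () (fun σ => ent b 0 1 (n c σ - n d σ)) u =
      AA ζ M iv tr () (fun σ => ent b 0 1 (l • dd ρ E σ)) u) → c - d ∈ locB A ρ F := by
    rintro c d htcd ⟨l, hl⟩
    have hlg := hEgood.smul l
    have hg := (hdiff c d).sub hζ hA hlg
    have h0 : ent b 1 1 ((n c Φ - n d Φ) - l • dd ρ E Φ) = 0 := by
      rw [ent_sub, hdiff0 c d htcd, ent_smul, (hEd Φ hΦ.1).2.1, mul_zero, sub_zero]
    have h1 := D.unram hA hΦ hg h0
    have h2 : ∀ u, AA ζ M iv tr () (fun σ => ent b 0 1 ((n c σ - n d σ) - l • dd ρ E σ)) u = 0 := by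
      intro u
      have h3 : (fun σ => ent b 0 1 ((n c σ - n d σ) - l • dd ρ E σ)) =
          fun σ => ent b 0 1 (n c σ - n d σ) - ent b 0 1 (l • dd ρ E σ) := by
        funext σ
        rw [ent_sub]
      rw [h3, AA_sub hζ hinv hA (hdiff c d).bdd hlg.bdd, hl u, sub_self]
    obtain ⟨Y, -, -, -, hY⟩ := D.cob hζ hA hp2 htr hg h1 h2
    refine ⟨Y + l • E + X c - X d, fun g hg => ?_⟩
    have h4 := hY g hg
    change (c : 𝒢 → Module.End k V) g - (d : 𝒢 → Module.End k V) g = dd ρ _ g
    rw [dd_sub, dd_add, dd_add, dd_smul]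
    simp only [n] at h4
    rw [← h4]
    abel
  have hAsub : ∀ c d e : F, ∀ u, AA ζ M iv tr () (fun σ => ent b 0 1 (n c σ - n d σ)) u =
      AA ζ M iv tr () (fun σ => ent b 0 1 (n c σ - n e σ)) u -
      AA ζ M iv tr () (fun σ => ent b 0 1 (n d σ - n e σ)) u := by
    intro c d e u
    rw [← AA_sub hζ hinv hA (hdiff c e).bdd (hdiff d e).bdd]
    congr 1
    funext σ
    rw [← ent_sub]
    congr 1
    abel
  by_cases hinj : ∃ l : k, l ≠ 0 ∧ ∀ u, AA ζ M iv tr () (fun σ => ent b 0 1 (l • dd ρ E σ)) u = 0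
  · right
    constructor
    · obtain ⟨l, hl0, hl⟩ := hinj
      obtain ⟨Y, hY0, hY1, hY10, hY⟩ := D.cob hζ hA hp2 htr (hEgood.smul l) (fun g hg => by
        rw [ent_smul, ent_smul, (hEd g hg).1, (hEd g hg).2.1, mul_zero]
        exact ⟨rfl, rfl⟩) hl
      have h2k : (2 : k) ≠ 0 := two_ne_zero_k hp2
      refine ⟨l • E - Y - (l / 2) • 1, ?_, ?_, ?_⟩
      · intro h
        have h1 := congrArg (fun f => ent b 0 0 f - ent b 1 1 f) h
        simp only [ent_sub, ent_smul, hE00, hE11, hY0, hY1, ent_zero, sub_self] at h1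
        have h2 : ent b 0 0 (1 : Module.End k V) = 1 := by simp [ent]
        have h3 : ent b 1 1 (1 : Module.End k V) = 1 := by simp [ent]
        rw [h2, h3] at h1
        apply hl0
        linear_combination h1
      · rw [trace_eq b]
        simp only [ent_sub, ent_smul, hE00, hE11, hY0, hY1]
        have h2 : ent b 0 0 (1 : Module.End k V) = 1 := by simp [ent]
        have h3 : ent b 1 1 (1 : Module.End k V) = 1 := by simp [ent]
        rw [h2, h3]
        field_simp
        ring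
      · intro g hg
        have h1 := hY g hg
        rw [← dd_smul] at h1
        have h2 : dd ρ (l • E - Y) g = 0 := by rw [dd_sub, h1, sub_self]
        rw [dd, sub_eq_zero] at h2
        have h3 : ρ g * (l • E - Y) = (l • E - Y) * ρ g := by
          conv_rhs => rw [← h2]
          rw [mul_assoc, mul_assoc, rho_inv_mul, mul_one]
        rw [mul_sub, sub_mul, h3, mul_smul_comm, smul_mul_assoc, mul_one, one_mul]
    · -- counting with two invariants
      let S := k × Sol (ZMod p) (kk A) k (fun u : k => μ * u)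
      let base : k → F := fun s => if h : ∃ c, t c = s then h.choose else 0
      have hbase : ∀ c, t (base (t c)) = t c := by
        intro c
        have h : ∃ d, t d = t c := ⟨c, rfl⟩
        change t (if h : ∃ d, t d = t c then h.choose else 0) = t c
        rw [dif_pos h]
        exact h.choose_spec
      let g : F → S := fun c => (t c, ⟨_, hSolmem _ (hdiff c (base (t c)))
        (hdiff0 c (base (t c)) (hbase c).symm)⟩)
      have hg : ∀ c d, g c = g d → c - d ∈ locB A ρ F := by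
        intro c d h
        have h1 : t c = t d := congrArg Prod.fst h
        have h2 := congrArg (fun s : S => (s.2 : k → kk A)) h
        simp only [g] at h2
        refine hcrit c d h1 ⟨0, fun u => ?_⟩
        have h3 := congrFun h2 u
        rw [hAsub c d (base (t c)) u, h3, h1, sub_self]
        have h4 : (fun σ => ent b 0 1 ((0 : k) • dd ρ E σ)) = fun _ => (0 : k) := by
          funext σ
          rw [zero_smul, ent_zero]
        have h5 := AA_sub hζ hinv hA (hdiff c c).bdd (hdiff c c).bdd () u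
        simp only [sub_self, ent_zero] at h5
        rw [h4, h5]
      haveI : Finite S := inferInstance
      refine exists_linear_of_card _ g hg ?_
      rw [Nat.card_prod, pow_two]
      exact Nat.mul_le_mul_left _ hSol
  · left
    push Not at hinj
    -- the invariants of multiples of the standard coboundary exhaust everything
    have hlg : ∀ l : k, GoodOrd A ρ ζ b tr (fun σ => l • dd ρ E σ) := fun l => hEgood.smul l
    let j : k → Sol (ZMod p) (kk A) k (fun u : k => μ * u) := fun l =>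
      ⟨_, hSolmem _ (hlg l) (by rw [ent_smul, (hEd Φ hΦ.1).2.1, mul_zero])⟩
    have hj : Function.Injective j := by
      intro l l' h
      by_contra hne
      obtain ⟨u, hu⟩ := hinj (l - l') (sub_ne_zero.2 hne)
      apply hu
      have h1 : (fun σ => ent b 0 1 ((l - l') • dd ρ E σ)) =
          fun σ => ent b 0 1 (l • dd ρ E σ) - ent b 0 1 (l' • dd ρ E σ) := by
        funext σ
        rw [← ent_sub, sub_smul]
      rw [h1, AA_sub hζ hinv hA (hlg l).bdd (hlg l').bdd, sub_eq_zero]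
      exact congrFun (congrArg Subtype.val h) u
    haveI : Finite (Sol (ZMod p) (kk A) k (fun u : k => μ * u)) := hfin
    have hsurj : Function.Surjective j :=
      ((Nat.bijective_iff_injective_and_card j).2
        ⟨hj, le_antisymm (Nat.card_le_card_of_injective j hj) hSol⟩).2
    refine exists_linear_of_card _ t (fun c d h => ?_) (by rw [pow_one])
    obtain ⟨l, hl⟩ := hsurj ⟨_, hSolmem _ (hdiff c d) (hdiff0 c d h)⟩
    exact hcrit c d h ⟨l, fun u => (congrFun (congrArg Subtype.val hl) u).symm⟩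

end Fermat.Agent.Flat
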