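import Fermat.Agent.Flat.LiftAt

/-!
# The decomposition group modulo inertia is generated by Frobenius
-/

set_option autoImplicit false
set_option linter.unusedSectionVars false
set_option linter.style.haveILetI false

noncomputable section

namespace Fermat.Agent.Flat

open Fermat.Agent.Places NumberField

attribute [-instance] DivisionRing.toRatAlgebra

/-- automorphisms of finite fields are powers of Frobenius -/
theorem exists_frob_pow {p : ℕ} [Fact p.Prime] {κ : Type*} [Field κ] [Finite κ] [CharP κ p]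
    (e : κ ≃+* κ) : ∃ n : ℕ, ∀ y, e y = y ^ (p ^ n) := by
  letI := ZMod.algebra κ p
  haveI : NeZero p := ⟨(Fact.out : p.Prime).ne_zero⟩
  haveI : Module.Finite (ZMod p) κ := Module.Finite.of_finite
  let f : κ ≃ₐ[ZMod p] κ := AlgEquiv.ofRingEquiv (f := e) (fun r => by
    rw [← ZMod.natCast_zmod_val r, map_natCast, map_natCast])
  obtain ⟨n, hn⟩ := (FiniteField.bijective_frobeniusAlgEquivOfAlgebraic_pow (ZMod p) κ).2 f
  refine ⟨n, fun y => ?_⟩
  have h1 := congrArg (fun g : κ ≃ₐ[ZMod p] κ => g y) hn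
  simp only [AlgEquiv.coe_pow, FiniteField.coe_frobeniusAlgEquivOfAlgebraic_iterate,
    ZMod.card] at h1
  exact h1.symm

variable {L : Type*} [Field L] [CharZero L] [inst : Algebra ℚ L] [IsGalois ℚ L]

theorem exists_residual_pow (A : ValuationSubring L) {p : ℕ} [Fact p.Prime]
    (hA : (p : L) ∈ A.nonunits) (E : IntermediateField ℚ L)
    [hfin : FiniteDimensional ℚ E] [Normal ℚ E] {g : L ≃ₐ[ℚ] L}
    (hg : ∀ x, g x ∈ A.nonunits ↔ x ∈ A.nonunits) :
    ∃ n : ℕ, ∀ x : 𝓞 E, g ((x : E) : L) - ((x : E) : L) ^ (p ^ n) ∈ A.nonunits := by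
  classical
  have hp : p.Prime := Fact.out
  haveI : NumberField E := by
    have h2 : (E.algebra' : Algebra ℚ E) = DivisionRing.toRatAlgebra := Subsingleton.elim _ _
    exact { to_charZero := inferInstance, to_finiteDimensional := h2 ▸ hfin }
  let P : Ideal (𝓞 E) := (center A).comap (inclInt E)
  have hPiff : ∀ x : 𝓞 E, x ∈ P ↔ ((x : E) : L) ∈ A.nonunits := fun x => Iff.rfl
  haveI hPprime : P.IsPrime := Ideal.IsPrime.comap _
  have hpP : (p : 𝓞 E) ∈ P := by
    rw [hPiff]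
    push_cast
    exact hA
  have hP0 : P ≠ ⊥ := by
    intro h
    rw [h, Ideal.mem_bot] at hpP
    exact hp.ne_zero (by exact_mod_cast hpP)
  haveI hPmax : P.IsMaximal := hPprime.isMaximal hP0
  haveI : Finite (𝓞 E ⧸ P) := Ideal.finiteQuotientOfFreeOfNeBot P hP0
  letI : Field (𝓞 E ⧸ P) := Ideal.Quotient.field P
  haveI : CharP (𝓞 E ⧸ P) p := by
    obtain ⟨q, hq⟩ := CharP.exists (𝓞 E ⧸ P)
    have h1 : q ∣ p := by
      rw [← CharP.cast_eq_zero_iff (𝓞 E ⧸ P) q, ← map_natCast (Ideal.Quotient.mk P),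
        Ideal.Quotient.eq_zero_iff_mem]
      exact hpP
    rcases (Nat.dvd_prime hp).1 h1 with h2 | h2
    · exact absurd h2 (CharP.char_ne_one (𝓞 E ⧸ P) q)
    · exact h2 ▸ hq
  let gE : E ≃ₐ[ℚ] E := AlgEquiv.restrictNormal g E
  have hgE : ∀ x : E, ((gE x : E) : L) = g (x : L) := fun x => AlgEquiv.restrictNormal_commutes g E x
  let e : 𝓞 E ≃+* 𝓞 E := MulSemiringAction.toRingEquiv (E ≃ₐ[ℚ] E) (𝓞 E) gE
  have he : ∀ x : 𝓞 E, (((e x : 𝓞 E) : E) : L) = g ((x : E) : L) := fun x => hgE _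
  have hPe : ∀ x : 𝓞 E, e x ∈ P ↔ x ∈ P := fun x => by
    rw [hPiff, hPiff, he, hg]
  have hmap : P = P.map (e : 𝓞 E →+* 𝓞 E) := by
    ext x
    refine Iff.trans ?_ (Ideal.mem_map_of_equiv e x).symm
    constructor
    · intro hx
      refine ⟨e.symm x, ?_, e.apply_symm_apply x⟩
      rw [← hPe, e.apply_symm_apply]
      exact hx
    · rintro ⟨y, hy, rfl⟩
      exact (hPe y).2 hy
  obtain ⟨n, hn⟩ := exists_frob_pow (p := p) (Ideal.quotientEquiv P P e hmap)
  refine ⟨n, fun x => ?_⟩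
  have h2 := hn (Ideal.Quotient.mk P x)
  have h3 : Ideal.Quotient.mk P (e x) = Ideal.Quotient.mk P (x ^ (p ^ n)) := by
    rw [map_pow]
    exact h2
  rw [Ideal.Quotient.eq, hPiff] at h3
  push_cast at h3
  rw [he] at h3
  exact h3

theorem exists_lift_of_congr (A : ValuationSubring L) {p : ℕ} [Fact p.Prime]
    (hA : (p : L) ∈ A.nonunits) (E : IntermediateField ℚ L)
    [hfin : FiniteDimensional ℚ E] [Normal ℚ E] {g : L ≃ₐ[ℚ] L}
    (hg : ∀ x : 𝓞 E, g ((x : E) : L) - ((x : E) : L) ∈ A.nonunits) :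
    ∃ τ ∈ A.inertiaSubgroupIn ℚ, ∀ x ∈ E, g x = τ x := by
  have hp : p.Prime := Fact.out
  haveI : NumberField E := by
    have h2 : (E.algebra' : Algebra ℚ E) = DivisionRing.toRatAlgebra := Subsingleton.elim _ _
    exact { to_charZero := inferInstance, to_finiteDimensional := h2 ▸ hfin }
  let P : Ideal (𝓞 E) := (center A).comap (inclInt E)
  have hPiff : ∀ x : 𝓞 E, x ∈ P ↔ ((x : E) : L) ∈ A.nonunits := fun x => Iff.rfl
  haveI hPprime : P.IsPrime := Ideal.IsPrime.comap _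
  have hpP : (p : 𝓞 E) ∈ P := by
    rw [hPiff]
    push_cast
    exact hA
  have hP0 : P ≠ ⊥ := by
    intro h
    rw [h, Ideal.mem_bot] at hpP
    exact hp.ne_zero (by exact_mod_cast hpP)
  haveI hPmax : P.IsMaximal := hPprime.isMaximal hP0
  obtain ⟨τ, hτ, hτE⟩ := exists_inertia_lift_at A E P rfl
    (AlgEquiv.restrictNormal g E) (fun x => by
      rw [hPiff]
      have h3 := hg x
      have h4 : (((AlgEquiv.restrictNormal g E (x : E)) : E) : L) =
          g ((x : E) : L) := AlgEquiv.restrictNormal_commutes _ E _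
      rw [← h4] at h3
      exact h3)
  refine ⟨τ, hτ, fun x hx => ?_⟩
  have h4 := AlgEquiv.restrictNormal_commutes g E ⟨x, hx⟩
  have h5 := AlgEquiv.restrictNormal_commutes τ E ⟨x, hx⟩
  have h6 : g x = algebraMap E L (AlgEquiv.restrictNormal g E ⟨x, hx⟩) := h4.symm
  rw [h6, ← hτE]
  exact h5

theorem normal_normalClosure (F : IntermediateField ℚ L) :
    Normal ℚ (IntermediateField.normalClosure ℚ F L) := normalClosure.normal ℚ F L

end Fermat.Agent.Flat
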