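import Fermat.Agent.Flat.Coc
import Fermat.Agent.Flat.PC0

/-!
# The decomposition group modulo inertia is generated by Frobenius
-/

set_option autoImplicit false
set_option linter.unusedSectionVars false
set_option linter.style.haveILetI false

noncomputable section

namespace Fermat.Agent.Flat

open Fermat.Agent.Places Fermat.Agent.RedMod Fermat.Agent.FlatRam NumberField

local notation "Ω" => AlgebraicClosure ℚ

local notation "𝒢" => (AlgebraicClosure ℚ) ≃ₐ[ℚ] (AlgebraicClosure ℚ)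

variable {A : ValuationSubring (AlgebraicClosure ℚ)} {p : ℕ} [Fact p.Prime]

theorem IsFr.pow_sub {Φ : 𝒢} (hΦ : IsFr A p Φ) (n : ℕ) {x : Ω} (hx : x ∈ A) :
    (Φ ^ n) x - x ^ (p ^ n) ∈ A.nonunits := by
  induction n with
  | zero => rw [pow_zero, pow_zero, pow_one, AlgEquiv.one_apply, sub_self]; exact zero_mem_nonunits A
  | succ n ih =>
    have h1 : (Φ ^ (n + 1)) x = Φ ((Φ ^ n) x) := by rw [pow_succ', AlgEquiv.mul_apply]
    have h2 : Φ ((Φ ^ n) x - x ^ (p ^ n)) ∈ A.nonunits := hΦ.1.nonunits ih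
    have h3 := hΦ.2 (x ^ (p ^ n)) (A.toSubring.pow_mem hx _)
    have h4 := add_mem_nonunits A h2 h3
    have h5 : Φ ((Φ ^ n) x - x ^ (p ^ n)) + (Φ (x ^ (p ^ n)) - (x ^ (p ^ n)) ^ p) =
        (Φ ^ (n + 1)) x - x ^ (p ^ (n + 1)) := by
      rw [h1, map_sub, ← pow_mul, ← pow_succ]
      ring
    rwa [h5] at h4

theorem Pres.pow {σ : 𝒢} (hσ : Pres A σ) (n : ℕ) : Pres A (σ ^ n) := by
  induction n with
  | zero => rw [pow_zero]; exact Pres.one
  | succ n ih => rw [pow_succ]; exact ih.mul hσ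

/-- **The decomposition group is generated by inertia and Frobenius.** -/
theorem decomp_gen (hA : A.LiesOverPrime p) {Φ : 𝒢} (hΦ : IsFr A p Φ)
    (F : IntermediateField ℚ Ω) [FiniteDimensional ℚ F] {g : 𝒢} (hg : Pres A g) :
    ∃ (n : ℕ) (τ ν : 𝒢), τ ∈ A.inertiaSubgroupIn ℚ ∧ Pres A ν ∧ (∀ x ∈ F, ν x = x) ∧
      g = Φ ^ n * τ * ν := by
  classical
  let E : IntermediateField ℚ Ω := IntermediateField.normalClosure ℚ F Ω
  haveI hfin : FiniteDimensional ℚ E := inferInstance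
  haveI : Normal ℚ E := normal_normalClosure F
  have hFE : F ≤ E := IntermediateField.le_normalClosure F
  obtain ⟨n, h1⟩ := exists_residual_pow A hA E (g := g) (fun x => hg.nonunits_iff)
  have hint : ∀ x : 𝓞 E, ((x : E) : Ω) ∈ A := fun x =>
    mem_of_isIntegral_int A (isIntegral_coe E x)
  have h2 : ∀ x : 𝓞 E, ((Φ ^ n)⁻¹ * g) ((x : E) : Ω) - ((x : E) : Ω) ∈ A.nonunits := by
    intro x
    have h3 := sub_mem_nonunits A (h1 x) (hΦ.pow_sub n (hint x))
    have h4 := (hΦ.1.pow n).inv.nonunits h3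
    have h5 : (Φ ^ n)⁻¹ (g ((x : E) : Ω) - ((x : E) : Ω) ^ (p ^ n) -
        ((Φ ^ n) ((x : E) : Ω) - ((x : E) : Ω) ^ (p ^ n))) =
        ((Φ ^ n)⁻¹ * g) ((x : E) : Ω) - ((x : E) : Ω) := by
      rw [sub_sub_sub_cancel_right, map_sub, AlgEquiv.mul_apply]
      congr 1
      exact (Φ ^ n).symm_apply_apply _
    rwa [h5] at h4
  obtain ⟨τ, hτ, hτE⟩ := exists_lift_of_congr A hA E (g := (Φ ^ n)⁻¹ * g) h2
  refine ⟨n, τ, τ⁻¹ * ((Φ ^ n)⁻¹ * g), hτ,
    (pres_of_mem hτ).inv.mul ((hΦ.1.pow n).inv.mul hg), ?_, by group⟩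
  intro x hx
  rw [AlgEquiv.mul_apply, hτE x (hFE hx)]
  exact τ.symm_apply_apply x

end Fermat.Agent.Flat
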