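import Fermat.Agent.Flat.Data
import Fermat.Agent.Flat.Ram

/-!
# The field of points satisfies the lifting property
-/

set_option autoImplicit false
set_option linter.unusedSectionVars false
set_option linter.style.haveILetI false

noncomputable section

open scoped TensorProduct
open WithConv

namespace Fermat.Agent.Flat

open MvPolynomial Fermat.Agent.Places Fermat.Agent.RedMod

local notation "Ω" => AlgebraicClosure ℚ

section roots

variable {S : Type*} [CommRing S] [IsDomain S] {p : ℕ} [Fact p.Prime]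

/-- `(ζ - 1) ^ (p - 1)` is divisible by `p`. -/
theorem exists_pow_eq_mul {ζ : S} (hζ : ζ ^ p = 1) (hζ1 : ζ ≠ 1) :
    ∃ u, (ζ - 1) ^ (p - 1) = p * u := by
  have hp : p.Prime := Fact.out
  have h1 : ((ζ - 1) + 1) ^ p = 1 := by rw [sub_add_cancel, hζ]
  obtain ⟨r, hr⟩ : ∃ r, ((ζ - 1) + 1) ^ p = (ζ - 1) ^ p + 1 ^ p + p * (ζ - 1) * 1 * r :=
    exists_add_pow_prime_eq hp _ _
  rw [h1, one_pow] at hr
  refine ⟨-r, ?_⟩
  have h2 : (ζ - 1) * ((ζ - 1) ^ (p - 1) + p * r) = 0 := by
    have h3 : (ζ - 1) ^ p = (ζ - 1) * (ζ - 1) ^ (p - 1) := by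
      rw [← pow_succ', Nat.sub_add_cancel hp.one_le]
    rw [mul_add, ← h3]
    linear_combination -hr
  have h3 := (mul_eq_zero.1 h2).resolve_left (sub_ne_zero.2 hζ1)
  linear_combination h3

end roots

section field

variable {A : ValuationSubring (AlgebraicClosure ℚ)} {p : ℕ} [Fact p.Prime]
variable {R : Type} [CommRing R] [Algebra R Ω] [Algebra R (R0 A)] [IsScalarTower R (R0 A) Ω]
variable {H : Type} [CommRing H] [HopfAlgebra R H] [Module.Finite R H] [Module.Flat R H]

variable (A R H) in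
/-- the field generated by the points -/
def ptField : IntermediateField (K0 A) Ω :=
  IntermediateField.adjoin (K0 A) {x | ∃ (P : H →ₐ[R] Ω) (h : H), x = P h}

theorem pt_mem_ptField (P : H →ₐ[R] Ω) (h : H) : P h ∈ ptField A R H :=
  IntermediateField.subset_adjoin _ _ ⟨P, h, rfl⟩

theorem algebraMap_mem_K0 (r : R) : algebraMap R Ω r ∈ K0 A := by
  rw [IsScalarTower.algebraMap_apply R (R0 A) Ω]
  exact (algebraMap R (R0 A) r).2.2

theorem ptField_le {E : IntermediateField (K0 A) Ω} (h : ∀ (P : H →ₐ[R] Ω) (h : H), P h ∈ E) :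
    ptField A R H ≤ E := by
  rw [ptField, IntermediateField.adjoin_le_iff]
  rintro _ ⟨P, x, rfl⟩
  exact h P x

instance [Finite (H →ₐ[R] Ω)] : FiniteDimensional (K0 A) (ptField A R H) := by
  classical
  obtain ⟨s, hs⟩ := (Module.Finite.fg_top : (⊤ : Submodule R H).FG)
  let S : Set Ω := ⋃ P : H →ₐ[R] Ω, (fun h => P h) '' (s : Set H)
  have hS : S.Finite := Set.finite_iUnion fun P => (s.finite_toSet.image _)
  have h1 : FiniteDimensional (K0 A) (IntermediateField.adjoin (K0 A) S) := by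
    haveI := hS.to_subtype
    exact IntermediateField.finiteDimensional_adjoin fun x _ =>
      Algebra.IsIntegral.isIntegral (R := K0 A) x
  have h2 : ptField A R H ≤ IntermediateField.adjoin (K0 A) S := by
    apply ptField_le
    intro P h
    have hmem : h ∈ Submodule.span R (s : Set H) := hs ▸ Submodule.mem_top
    induction hmem using Submodule.span_induction with
    | mem x hx =>
      exact IntermediateField.subset_adjoin _ _ (Set.mem_iUnion.2 ⟨P, ⟨x, hx, rfl⟩⟩)
    | zero => rw [map_zero]; exact zero_mem _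
    | add x y _ _ hx hy => rw [map_add]; exact add_mem hx hy
    | smul r x _ hx =>
      rw [map_smul, Algebra.smul_def]
      refine mul_mem ?_ hx
      exact IntermediateField.algebraMap_mem _ (⟨_, algebraMap_mem_K0 r⟩ : K0 A)
  exact FiniteDimensional.of_injective (IntermediateField.inclusion h2).toLinearMap
    (IntermediateField.inclusion h2).injective

instance : IsGalois (K0 A) (ptField A R H) := by
  haveI : Normal (K0 A) (ptField A R H) := by
    rw [IntermediateField.normal_iff_forall_map_le']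
    intro σ
    rw [ptField, IntermediateField.adjoin_map, IntermediateField.adjoin_le_iff]
    rintro _ ⟨_, ⟨P, x, rfl⟩, rfl⟩
    exact pt_mem_ptField (conj σ P) x
  exact ⟨⟩

end field

section lift

variable {A : ValuationSubring (AlgebraicClosure ℚ)} {p : ℕ} [Fact p.Prime]

theorem aeval_sub_dvd {ι : Type} {z : A} {a b : ι → A} (h : ∀ i, z ∣ b i - a i)
    (G : MvPolynomial ι (R0 A)) : z ∣ aeval b G - aeval a G := by
  induction G using MvPolynomial.induction_on with
  | C r => rw [aeval_C, aeval_C, sub_self]; exact dvd_zero _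
  | add P Q hP hQ =>
    rw [map_add, map_add, add_sub_add_comm]
    exact dvd_add hP hQ
  | mul_X P i hP =>
    rw [map_mul, map_mul, aeval_X, aeval_X]
    have e4 : aeval b P * b i - aeval a P * a i =
        (aeval b P - aeval a P) * b i + aeval a P * (b i - a i) := by ring
    rw [e4]
    exact dvd_add (Dvd.dvd.mul_right hP _) (Dvd.dvd.mul_left (h i) _)

theorem coe_aeval {ι : Type} {E : IntermediateField (K0 A) Ω} {a : ι → A} {a' : ι → OE A E}
    (h : ∀ i, ((a i : A) : Ω) = ((a' i : OE A E) : Ω)) (G : MvPolynomial ι (R0 A)) :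
    ((aeval a G : A) : Ω) = ((aeval a' G : OE A E) : Ω) := by
  induction G using MvPolynomial.induction_on with
  | C r => rw [aeval_C, aeval_C]; rfl
  | add P Q hP hQ => rw [map_add, map_add]; push_cast; rw [hP, hQ]
  | mul_X P i hP => rw [map_mul, map_mul, aeval_X, aeval_X]; push_cast; rw [hP, h]

theorem root_mem {ζ : Ω} (hζ : ζ ^ p = 1) : ζ ∈ A := by
  have h4 : IsIntegral A ζ := by
    refine ⟨Polynomial.X ^ p - 1, Polynomial.monic_X_pow_sub_C 1 (Fact.out : p.Prime).ne_zero, ?_⟩
    simp [hζ]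
  obtain ⟨y, hy⟩ := (IsIntegrallyClosed.isIntegral_iff).1 h4
  rw [← hy]
  exact y.2

variable {R : Type} [CommRing R] [Algebra R Ω] [Algebra R (R0 A)] [IsScalarTower R (R0 A) Ω]
variable [Algebra R (kk A)] [IsScalarTower R (R0 A) (kk A)]
variable {H : Type} [CommRing H] [HopfAlgebra R H] [Module.Finite R H] [Module.Flat R H]

/-- the map to the local algebra -/
def toT (e : (R0 A) ⊗[R] H) : H →+* TT e := (mkT e).toRingHom.comp
    (Algebra.TensorProduct.includeRight : H →ₐ[R] (R0 A) ⊗[R] H).toRingHom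

theorem toT_algebraMap (e : (R0 A) ⊗[R] H) (r : R) :
    toT e (algebraMap R H r) = algebraMap (R0 A) (TT e) (algebraMap R (R0 A) r) := by
  change mkT e ((1 : R0 A) ⊗ₜ[R] (algebraMap R H r)) = _
  rw [Algebra.algebraMap_eq_smul_one, ← TensorProduct.smul_tmul, Algebra.smul_def, mul_one]
  have h1 : ((algebraMap R (R0 A) r) ⊗ₜ[R] (1 : H)) = algebraMap (R0 A) _ (algebraMap R (R0 A) r) :=
    rfl
  rw [h1, AlgHom.commutes]

theorem evT_toT {P : H →ₐ[R] Ω} {e : (R0 A) ⊗[R] H} (hP : ev P e = 1) (h : H) :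
    evT hP (toT e h) = P h := by
  change ev P ((1 : R0 A) ⊗ₜ[R] h) = _
  rw [ev_tmul, OneMemClass.coe_one, one_mul]

theorem ev_mem_ptField (P : H →ₐ[R] Ω) (z : (R0 A) ⊗[R] H) : ev P z ∈ ptField A R H := by
  induction z using TensorProduct.induction_on with
  | zero => rw [map_zero]; exact zero_mem _
  | add x y hx hy => rw [map_add]; exact add_mem hx hy
  | tmul r h =>
    rw [ev_tmul]
    exact mul_mem (IntermediateField.algebraMap_mem _ (⟨_, r.2.2⟩ : K0 A)) (pt_mem_ptField P h)

/-- evaluation with values in the ring of integers of the field of points -/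
def evL {P : H →ₐ[R] Ω} {e : (R0 A) ⊗[R] H} (hP : ev P e = 1) :
    TT e →ₐ[R0 A] OE A (ptField A R H) :=
  AlgHom.codRestrict (evT hP) (OE A (ptField A R H)) (fun t => by
    obtain ⟨z, rfl⟩ := mkT_surjective e t
    exact ⟨ev_mem P z, ev_mem_ptField P z⟩)

theorem coe_evL {P : H →ₐ[R] Ω} {e : (R0 A) ⊗[R] H} (hP : ev P e = 1) (t : TT e) :
    ((evL hP t : OE A (ptField A R H)) : Ω) = evT hP t := rfl

variable (A) in
/-- the value of a point in `O_L` -/
def ptL (P : H →ₐ[R] Ω) (h : H) : OE A (ptField A R H) := ⟨P h, pt_mem P h, pt_mem_ptField P h⟩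

set_option maxHeartbeats 1000000 in
theorem exists_lift_point (hA : A.LiesOverPrime p) [Finite (H →ₐ[R] Ω)]
    (hinj : Function.Injective (algebraMap R Ω))
    (hkill : ∀ w : WithConv (H →ₐ[R] Ω), w ^ p = 1) {ζ : Ω} (hζ : ζ ^ p = 1) (hζ1 : ζ ≠ 1)
    {c : Ω} (hc : c ∈ A.nonunits) (hc0 : c ≠ 0) (E : IntermediateField (K0 A) Ω)
    (η : OE A (ptField A R H) →ₐ[R0 A] (OE A E ⧸ idl A E (p * (ζ - 1) * c)))
    (P : H →ₐ[R] Ω) :
    ∃ (P' : H →ₐ[R] Ω) (s : H → OE A E) (hP' : ∀ h, P' h ∈ OE A E),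
      (∀ h, ∃ y ∈ A, (s h : Ω) = (ζ - 1) * c * y) ∧
      ∀ h, η (ptL A P h) = Ideal.Quotient.mk _ (⟨P' h, hP' h⟩ - s h) := by
  classical
  have hp : p.Prime := Fact.out
  obtain ⟨e, he1, he2⟩ := exists_idem hA P
  have he : IsIdem P e := ⟨he1, he2⟩
  obtain ⟨d, x, F, V, hx0, hgen, hF0, hF, hd, hV⟩ := exists_data he hA hinj hkill
  let I := idl A E (p * (ζ - 1) * c)
  have hcA : c ∈ A := mem_of_mem_nonunits A hc
  have hζA : ζ ∈ A := root_mem hζ
  let lam : A := ⟨ζ - 1, A.sub_mem hζA A.one_mem⟩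
  let cA : A := ⟨c, hcA⟩
  have hlam0 : lam ≠ 0 := fun h => sub_ne_zero.2 hζ1 (congrArg (fun z : A => (z : Ω)) h)
  have hcA0 : cA ≠ 0 := fun h => hc0 (congrArg (fun z : A => (z : Ω)) h)
  have hcm : cA ∈ IsLocalRing.maximalIdeal A := by
    rw [← IsLocalRing.residue_eq_zero_iff]
    exact (mem_nonunits_iff_residue hcA).1 hc
  obtain ⟨u, hu⟩ : ∃ u, lam ^ (p - 1) = (p : A) * u := by
    obtain ⟨u, hu⟩ := exists_pow_eq_mul (p := p) (ζ := (⟨ζ, hζA⟩ : A)) (Subtype.ext hζ)
      (fun h => hζ1 (congrArg (fun z : A => (z : Ω)) h))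
    exact ⟨u, hu⟩
  choose a' ha' using fun j => Ideal.Quotient.mk_surjective (η (evL (e_self he) (x j)))
  let a : Fin d → A := fun j => ⟨(a' j : Ω), (a' j).2.1⟩
  have hmk : ∀ G : MvPolynomial (Fin d) (R0 A), Ideal.Quotient.mk I (aeval a' G) =
      η (evL (e_self he) (aeval x G)) := by
    intro G
    induction G using MvPolynomial.induction_on with
    | C r =>
      rw [aeval_C, aeval_C, AlgHom.commutes, AlgHom.commutes]
      rfl
    | add P Q hP hQ => rw [map_add, map_add, map_add, map_add, map_add, hP, hQ]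
    | mul_X P i hP =>
      rw [map_mul, map_mul, map_mul, map_mul, map_mul, hP, aeval_X, aeval_X, ha']
  have hcoe : ∀ G : MvPolynomial (Fin d) (R0 A), ((aeval a G : A) : Ω) =
      ((aeval a' G : OE A E) : Ω) := fun G => coe_aeval (fun i => rfl) G
  have ham : ∀ i, a i ∈ IsLocalRing.maximalIdeal A := by
    intro i
    have hX : evT (e_self he) (x i) ∈ A := evT_mem _ _
    obtain ⟨n, w, hw⟩ := rank_one hA (⟨_, hX⟩ : A) (p : A)
      ((mem_nonunits_iff_residue hX).1 (hx0 i)) (by
        intro h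
        have := congrArg (fun z : A => (z : Ω)) h
        push_cast at this
        exact hp.ne_zero (by exact_mod_cast this))
    have hw' : (evT (e_self he) (x i)) ^ n = (p : Ω) * (w : Ω) := by
      have := congrArg (fun z : A => (z : Ω)) hw
      push_cast at this
      exact this
    have hp0 : (p : Ω) ≠ 0 := Nat.cast_ne_zero.2 hp.ne_zero
    have hwL : (w : Ω) ∈ ptField A R H := by
      have h1 : (w : Ω) = (evT (e_self he) (x i)) ^ n / (p : Ω) := by
        rw [hw']; field_simp
      rw [h1]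
      refine div_mem (pow_mem ?_ n) (_root_.natCast_mem _ p)
      exact (evL (e_self he) (x i)).2.2
    let W : OE A (ptField A R H) := ⟨w, w.2, hwL⟩
    have hW : (evL (e_self he) (x i)) ^ n = (p : OE A (ptField A R H)) * W := by
      apply Subtype.ext
      push_cast
      exact hw'
    obtain ⟨W', hW'⟩ := Ideal.Quotient.mk_surjective (η W)
    have h1 : Ideal.Quotient.mk I ((a' i) ^ n - (p : OE A E) * W') = 0 := by
      rw [map_sub, map_pow, map_mul, map_natCast, ha', hW', ← map_pow, hW, map_mul, map_natCast,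
        sub_self]
    rw [Ideal.Quotient.eq_zero_iff_mem] at h1
    obtain ⟨y, hy, hy'⟩ := h1
    have h2 : (a i) ^ n = (p : A) * (⟨(W' : Ω), W'.2.1⟩ + lam * cA * ⟨y, hy⟩) := by
      apply Subtype.ext
      push_cast
      push_cast at hy'
      change (a' i : Ω) ^ n = p * ((W' : Ω) + (ζ - 1) * c * y)
      linear_combination hy'
    have h3 : (a i) ^ n ∈ IsLocalRing.maximalIdeal A := by
      rw [h2]
      exact Ideal.mul_mem_right _ _ (p_mem_max hA)
    exact Ideal.IsPrime.mem_of_pow_mem inferInstance n h3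
  have ha : ∀ G : MvPolynomial (Fin d) (R0 A), aeval x G = 0 → (p : A) * lam * cA ∣ aeval a G := by
    intro G hG
    have h1 := hmk G
    rw [hG, map_zero, map_zero, Ideal.Quotient.eq_zero_iff_mem] at h1
    obtain ⟨y, hy, hy'⟩ := h1
    refine ⟨⟨y, hy⟩, ?_⟩
    apply Subtype.ext
    rw [hcoe, hy']
    push_cast
    rfl
  obtain ⟨b, hbE, hba, hb0⟩ := exists_point hA lam u cA hu hlam0 hcm hcA0 x hgen F hF0 hF hd V hV E a
    (fun i => (a' i).2.2) ham ha
  let b' : Fin d → OE A E := fun i => ⟨(b i : Ω), (b i).2, hbE i⟩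
  have hcoeb : ∀ G : MvPolynomial (Fin d) (R0 A), ((aeval b G : A) : Ω) =
      ((aeval b' G : OE A E) : Ω) := fun G => coe_aeval (fun i => rfl) G
  -- the point
  have hb0' : ∀ G : MvPolynomial (Fin d) (R0 A), G ∈ RingHom.ker (aeval (R := R0 A) x) →
      aeval b' G = 0 := by
    intro G hG
    apply Subtype.ext
    rw [← hcoeb, hb0 G hG]
    rfl
  let φ : TT e →ₐ[R0 A] OE A E :=
    (Ideal.Quotient.liftₐ (RingHom.ker (aeval (R := R0 A) x)) (aeval b') hb0').comp
      (Ideal.quotientKerAlgEquivOfSurjective hgen).symm.toAlgHom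
  have hφ : ∀ G : MvPolynomial (Fin d) (R0 A), φ (aeval x G) = aeval b' G := by
    intro G
    change (Ideal.Quotient.liftₐ (RingHom.ker (aeval (R := R0 A) x)) (aeval b') hb0')
      ((Ideal.quotientKerAlgEquivOfSurjective hgen).symm (aeval x G)) = _
    have h1 : (Ideal.quotientKerAlgEquivOfSurjective hgen).symm (aeval x G) =
        Ideal.Quotient.mk _ G := by
      rw [AlgEquiv.symm_apply_eq]
      rfl
    rw [h1]
    rfl
  let P' : H →ₐ[R] Ω :=
    { ((algebraMap (OE A E) Ω).comp φ.toRingHom).comp (toT e) with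
      commutes' := fun r => by
        change ((φ (toT e (algebraMap R H r)) : OE A E) : Ω) = _
        rw [toT_algebraMap, AlgHom.commutes, IsScalarTower.algebraMap_apply R (R0 A) Ω]
        rfl }
  have hP'φ : ∀ h, P' h = ((φ (toT e h) : OE A E) : Ω) := fun h => rfl
  choose g hg using fun h => hgen (toT e h)
  refine ⟨P', fun h => φ (toT e h) - aeval a' (g h),
    fun h => (φ (toT e h)).2, fun h => ?_, fun h => ?_⟩
  · obtain ⟨y, hy⟩ := aeval_sub_dvd hba (g h)
    refine ⟨y, y.2, ?_⟩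
    have h1 := congrArg (fun z : A => (z : Ω)) hy
    change ((φ (toT e h) : OE A E) : Ω) - ((aeval a' (g h) : OE A E) : Ω) = _
    rw [← hg, hφ, ← hcoe, ← hcoeb]
    exact h1
  · have h1 : (⟨P' h, (φ (toT e h)).2⟩ : OE A E) = φ (toT e h) := rfl
    rw [h1, sub_sub_cancel, hmk, hg]
    congr 1
    apply Subtype.ext
    rw [coe_evL, evT_toT]
    rfl

end lift

end Fermat.Agent.Flat
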