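import Fermat.Agent.Flat.PL

/-!
# The field of points satisfies the lifting property, conclusion
-/

set_option autoImplicit false
set_option linter.unusedSectionVars false
set_option linter.style.haveILetI false

noncomputable section

open scoped TensorProduct
open WithConv

namespace Fermat.Agent.Flat

open Fermat.Agent.Places Fermat.Agent.RedMod

local notation "Ω" => AlgebraicClosure ℚ

variable {A : ValuationSubring (AlgebraicClosure ℚ)} {p : ℕ} [Fact p.Prime]
variable {R : Type} [CommRing R] [Algebra R Ω] [Algebra R (R0 A)] [IsScalarTower R (R0 A) Ω]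
variable [Algebra R (kk A)] [IsScalarTower R (R0 A) (kk A)]
variable {H : Type} [CommRing H] [HopfAlgebra R H] [Module.Finite R H] [Module.Flat R H]

/-- two different points are separated up to a `p - 1`-st root of `p` -/
theorem exists_separating' (hkill : ∀ w : WithConv (H →ₐ[R] Ω), w ^ p = 1)
    {P Q : H →ₐ[R] Ω} (hPQ : P ≠ Q) : ∃ h : H, (∃ w ∈ A, (p : Ω) = (P h - Q h) ^ (p - 1) * w) ∧
      ∀ h', ∃ a ∈ A, P h' - Q h' = (P h - Q h) * a := by
  classical
  letI : Algebra R A := ((inclR0 A).comp (algebraMap R (R0 A))).toAlgebra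
  have hmem : ∀ (P : H →ₐ[R] Ω) (h : H), P h ∈ A := fun P h => pt_mem P h
  have hcomm : ∀ r : R, ((algebraMap R A r : A) : Ω) = algebraMap R Ω r := fun r => by
    rw [IsScalarTower.algebraMap_apply R (R0 A) Ω]
    rfl
  let ι : A →ₐ[R] Ω := { A.subtype with commutes' := hcomm }
  let res : (H →ₐ[R] Ω) → (H →ₐ[R] A) := fun P =>
    { toFun := fun h => ⟨P h, hmem P h⟩
      map_one' := Subtype.ext (map_one P)
      map_mul' := fun x y => Subtype.ext (map_mul P x y)
      map_zero' := Subtype.ext (map_zero P)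
      map_add' := fun x y => Subtype.ext (map_add P x y)
      commutes' := fun r => Subtype.ext (by rw [hcomm]; exact P.commutes r) }
  have hkillA : ∀ w : WithConv (H →ₐ[R] A), w ^ p = 1 := by
    intro w
    have h1 := comp_pow ι w p
    rw [hkill] at h1
    apply ofConv_injective
    ext h
    have h2 := congrArg (fun w : WithConv (H →ₐ[R] Ω) => w h) h1
    refine Eq.trans h2 ?_
    change algebraMap R Ω _ = ((algebraMap R A _ : A) : Ω)
    rw [hcomm]
  have hne : (toConv (res P)) ≠ toConv (res Q) := by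
    intro h
    apply hPQ
    ext x
    have h1 := congrArg (fun w : WithConv (H →ₐ[R] A) => ((w x : A) : Ω)) h
    exact h1
  let δ : H →ₗ[R] A := (res P).toLinearMap - (res Q).toLinearMap
  -- the best separating element
  obtain ⟨h0, hh0⟩ : ∃ h0, ∀ h, δ h0 ∣ δ h := by
    obtain ⟨s, hs⟩ := (Module.Finite.fg_top : (⊤ : Submodule R H).FG)
    have h1 : ∀ t : Finset H, ∃ h0, ∀ h ∈ t, δ h0 ∣ δ h := by
      intro t
      induction t using Finset.induction_on with
      | empty => exact ⟨0, fun h hh => absurd hh (Finset.notMem_empty h)⟩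
      | insert a t ha ih =>
        obtain ⟨h0, hh0⟩ := ih
        rcases ValuationRing.dvd_total (δ h0) (δ a) with h | h
        · refine ⟨h0, fun x hx => ?_⟩
          rcases Finset.mem_insert.1 hx with rfl | hx
          · exact h
          · exact hh0 x hx
        · refine ⟨a, fun x hx => ?_⟩
          rcases Finset.mem_insert.1 hx with rfl | hx
          · exact dvd_rfl
          · exact h.trans (hh0 x hx)
    obtain ⟨h0, hh0⟩ := h1 s
    refine ⟨h0, fun h => ?_⟩
    have hmem : h ∈ Submodule.span R (s : Set H) := hs ▸ Submodule.mem_top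
    induction hmem using Submodule.span_induction with
    | mem x hx => exact hh0 x hx
    | zero => rw [map_zero]; exact dvd_zero _
    | add x y _ _ hx hy => rw [map_add]; exact dvd_add hx hy
    | smul r x _ hx =>
      rw [map_smul, Algebra.smul_def]
      exact Dvd.dvd.mul_left hx _
  obtain ⟨w, hw⟩ := pow_dvd_of_forall_dvd p Fact.out hkillA (toConv (res P)) (toConv (res Q)) hne
    (δ h0) hh0
  refine ⟨h0, ⟨w, w.2, ?_⟩, fun h => ?_⟩
  · have h1 := congrArg (fun z : A => (z : Ω)) hw
    push_cast at h1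
    exact h1
  · obtain ⟨a, ha⟩ := hh0 h
    refine ⟨a, a.2, ?_⟩
    have h1 := congrArg (fun z : A => (z : Ω)) ha
    push_cast at h1
    exact h1

theorem exists_separating (hkill : ∀ w : WithConv (H →ₐ[R] Ω), w ^ p = 1)
    {P Q : H →ₐ[R] Ω} (hPQ : P ≠ Q) : ∃ h : H, ∃ w ∈ A, (p : Ω) = (P h - Q h) ^ (p - 1) * w := by
  obtain ⟨h, hw, -⟩ := exists_separating' (A := A) hkill hPQ
  exact ⟨h, hw⟩

set_option maxHeartbeats 1000000 in
/-- **The lifting property of the field of points.** -/
theorem lift_le (hA : A.LiesOverPrime p) [Finite (H →ₐ[R] Ω)]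
    (hinj : Function.Injective (algebraMap R Ω))
    (hkill : ∀ w : WithConv (H →ₐ[R] Ω), w ^ p = 1) {ζ : Ω} (hζ : ζ ^ p = 1) (hζ1 : ζ ≠ 1)
    {c : Ω} (hc : c ∈ A.nonunits) (hc0 : c ≠ 0) (E : IntermediateField (K0 A) Ω)
    (η : OE A (ptField A R H) →ₐ[R0 A] (OE A E ⧸ idl A E (p * (ζ - 1) * c))) :
    ptField A R H ≤ E := by
  classical
  have hp : p.Prime := Fact.out
  choose P' s hP' hs hη using exists_lift_point hA hinj hkill hζ hζ1 hc hc0 E η
  have hinjP : Function.Injective P' := by
    intro P Q hPQ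
    by_contra hne
    obtain ⟨h0, w, hwA, hw⟩ := exists_separating (A := A) hkill hne
    have hp0 : (p : Ω) ≠ 0 := Nat.cast_ne_zero.2 hp.ne_zero
    have hδ0 : (P h0 - Q h0) ^ (p - 1) ≠ 0 := fun h => hp0 (by rw [hw, h, zero_mul])
    have hwL : w ∈ ptField A R H := by
      have h1 : w = (p : Ω) / (P h0 - Q h0) ^ (p - 1) := by
        rw [hw, mul_div_assoc, mul_comm, div_mul_cancel₀ _ hδ0]
      rw [h1]
      exact div_mem (_root_.natCast_mem _ p)
        (pow_mem (sub_mem (pt_mem_ptField P h0) (pt_mem_ptField Q h0)) _)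
    let W : OE A (ptField A R H) := ⟨w, hwA, hwL⟩
    have hW : (p : OE A (ptField A R H)) = (ptL A P h0 - ptL A Q h0) ^ (p - 1) * W := by
      apply Subtype.ext
      push_cast
      exact hw
    obtain ⟨W', hW'⟩ := Ideal.Quotient.mk_surjective (η W)
    have h1 := congrArg η hW
    rw [map_natCast, map_mul, map_pow, map_sub, hη, hη, ← hW', ← map_sub, ← map_pow, ← map_mul,
      ← map_natCast (Ideal.Quotient.mk (idl A E (p * (ζ - 1) * c))), Ideal.Quotient.eq] at h1
    obtain ⟨y, hy, hy'⟩ := h1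
    obtain ⟨y1, hy1, hy1'⟩ := hs P h0
    obtain ⟨y2, hy2, hy2'⟩ := hs Q h0
    have hPQ' : P' P h0 = P' Q h0 := by rw [hPQ]
    push_cast at hy'
    rw [hy1', hy2', hPQ'] at hy'
    obtain ⟨u, hu⟩ := exists_pow_eq_mul (p := p) (ζ := (⟨ζ, root_mem hζ⟩ : A)) (Subtype.ext hζ)
      (fun h => hζ1 (congrArg (fun z : A => (z : Ω)) h))
    have hu' : (ζ - 1) ^ (p - 1) = p * (u : Ω) := by
      have := congrArg (fun z : A => (z : Ω)) hu
      push_cast at this
      exact this
    have e1 : (P' Q h0 - (ζ - 1) * c * y1 - (P' Q h0 - (ζ - 1) * c * y2)) =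
        (ζ - 1) * (c * (y2 - y1)) := by ring
    rw [e1, mul_pow, hu'] at hy'
    obtain ⟨m, hm⟩ : ∃ m, p - 1 = m + 1 := ⟨p - 2, by have := hp.two_le; omega⟩
    rw [hm, pow_succ] at hy'
    have hζA : ζ ∈ A := root_mem hζ
    have e2 : (1 : Ω) = c * (u * ((c * (y2 - y1)) ^ m * (y2 - y1)) * (W' : Ω) + (ζ - 1) * y) := by
      have : (p : Ω) * 1 = p * (c * (u * ((c * (y2 - y1)) ^ m * (y2 - y1)) * (W' : Ω) +
          (ζ - 1) * y)) := by
        linear_combination hy'
      exact mul_left_cancel₀ hp0 this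
    have hcA := mem_of_mem_nonunits A hc
    have e3 : (u * ((c * (y2 - y1)) ^ m * (y2 - y1)) * (W' : Ω) + (ζ - 1) * y) ∈ A := by
      refine A.add_mem _ _ (A.mul_mem _ _ (A.mul_mem _ _ u.2 (A.mul_mem _ _ (A.toSubring.pow_mem
        (A.mul_mem _ _ hcA (A.sub_mem hy2 hy1)) m) (A.sub_mem hy2 hy1))) W'.2.1)
        (A.mul_mem _ _ (A.sub_mem hζA A.one_mem) hy)
    have e4 := mul_mem_nonunits A hc e3
    rw [← e2] at e4
    exact one_notMem A e4
  have hsurj : Function.Surjective P' := Finite.injective_iff_surjective.1 hinjP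
  apply ptField_le
  intro P h
  obtain ⟨Q, rfl⟩ := hsurj P
  exact (hP' Q h).2

end Fermat.Agent.Flat
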