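import Fermat.Agent.Flat.Fib

/-!
# Presentations of the local algebra
-/

set_option autoImplicit false
set_option linter.unusedSectionVars false
set_option linter.style.haveILetI false

noncomputable section

open scoped TensorProduct
open WithConv

namespace Fermat.Agent.Flat

open Fermat.Agent.Places Fermat.Agent.RedMod MvPolynomial

local notation "Ω" => AlgebraicClosure ℚ

section general

universe u v w

variable {κ : Type u} {C : Type v} [Field κ] [CommRing C] [Algebra κ C]

theorem der_aeval {ι : Type w} [DecidableEq ι] (D : ι → Derivation κ C C) (x : ι → C)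
    (hD : ∀ i j, D i (x j) = if i = j then 1 else 0) (i : ι) (G : MvPolynomial ι κ) :
    D i (aeval x G) = aeval x (pderiv i G) := by
  induction G using MvPolynomial.induction_on with
  | C a =>
    rw [pderiv_C, map_zero, aeval_C]
    exact (D i).map_algebraMap a
  | add G₁ G₂ h1 h2 => rw [map_add, map_add, h1, h2, map_add, map_add]
  | mul_X G j h =>
    rw [map_mul, aeval_X, Derivation.leibniz, h, hD, pderiv_mul, pderiv_X, map_add, map_mul,
      map_mul, aeval_X]
    simp only [smul_eq_mul, Pi.single_apply]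
    split_ifs with h1 h2 h2
    · simp; ring
    · exact absurd h1.symm h2
    · exact absurd h2.symm h1
    · simp; ring

/-- Minimal presentations of infinitesimal algebras. -/
theorem exists_pres_LB (p : ℕ) [Fact p.Prime] [CharP κ p] (hκ : Function.Surjective (frobenius κ p))
    [FiniteDimensional κ C] [Nontrivial C] (B : LB κ C) :
    ∃ (d : ℕ) (z : Fin d → C), (∀ i, B.ε (z i) = 0) ∧ Function.Surjective (aeval (R := κ) z) ∧
      CIP (κ := κ) z ∧
      ∀ G : MvPolynomial (Fin d) κ, aeval z G = 0 → ∀ j, aeval z (pderiv j G) = 0 := by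
  classical
  let b := Module.finBasis κ C
  let x : Fin (Module.finrank κ C) → C := fun i => b i - algebraMap κ C (B.ε (b i))
  have hx : ∀ i, B.ε (x i) = 0 := by
    intro i
    simp only [x]
    rw [map_sub, AlgHom.commutes]; simp
  have hgen : Function.Surjective (aeval (R := κ) x) := by
    intro c
    refine ⟨∑ i, MvPolynomial.C (b.repr c i) * (X i + MvPolynomial.C (B.ε (b i))), ?_⟩
    rw [map_sum]
    conv_rhs => rw [← b.sum_repr c]
    refine Finset.sum_congr rfl fun i _ => ?_
    rw [map_mul, map_add, aeval_C, aeval_C, aeval_X, Algebra.smul_def]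
    simp only [x]
    ring
  obtain ⟨d, a, ha, hgen', hdual⟩ := exists_minimal B x hx hgen
  refine ⟨d, x ∘ a, fun i => hx _, hgen', ?_, ?_⟩
  · exact cip_of_LB p hκ _ C B le_rfl (Fin d) (x ∘ a) (fun i => hx _) hgen'
  · obtain ⟨f, hf, hfz⟩ := hdual
    obtain ⟨D, hD⟩ := B.exists_dual_der (x ∘ a) f hf hfz
    intro G hG j
    rw [← der_aeval D _ hD, hG, map_zero]

end general

section lift

universe u v w

variable {S T D κ ι : Type*} [CommRing S] [CommRing T] [Algebra S T] [Field κ] [CommRing D]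
  [Algebra κ D] (ψ : T →+* D) (q : S →+* κ) (hqs : Function.Surjective q)
  (hψ : ∀ r, ψ (algebraMap S T r) = algebraMap κ D (q r)) (ϖ : S) (hq : ∀ r, q r = 0 ↔ ϖ ∣ r)
  (hψs : Function.Surjective ψ)
  (hker : ∀ t, ψ t = 0 → ∃ s, t = algebraMap S T ϖ * s)
  (hreg : ∀ t, algebraMap S T ϖ * t = 0 → t = 0) (x : ι → T)

include hψ in
theorem psi_aeval (G : MvPolynomial ι S) :
    ψ (aeval x G) = aeval (fun i => ψ (x i)) (map q G) := by
  rw [map_aeval, aeval_def, eval₂_map]
  have h1 : ψ.comp (algebraMap S T) = (algebraMap κ D).comp q := RingHom.ext hψ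
  rw [h1]
  rfl

include hψ hψs hqs hker in
theorem aeval_surjective_of_fib [IsLocalRing S] [Module.Finite S T] (hϖ : ¬ IsUnit ϖ)
    (hgen : Function.Surjective (aeval (R := κ) fun i => ψ (x i))) :
    Function.Surjective (aeval (R := S) x) := by
  have h1 : (⊤ : Submodule S T) ≤ LinearMap.range (aeval (R := S) x).toLinearMap := by
    refine Submodule.le_of_le_smul_of_le_jacobson_bot (I := Ideal.span {ϖ})
      Module.Finite.fg_top ?_ ?_
    · rw [IsLocalRing.jacobson_eq_maximalIdeal ⊥ bot_ne_top, Ideal.span_le,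
        Set.singleton_subset_iff]
      exact hϖ
    · intro t _
      obtain ⟨G, hG⟩ := hgen (ψ t)
      obtain ⟨G', rfl⟩ := map_surjective q hqs G
      rw [← psi_aeval ψ q hψ] at hG
      obtain ⟨s, hs⟩ := hker (t - aeval x G') (by rw [map_sub, hG, sub_self])
      have h2 : t = aeval x G' + ϖ • s := by
        rw [Algebra.smul_def, ← hs]; ring
      rw [h2]
      refine Submodule.add_mem_sup ⟨G', rfl⟩ ?_
      exact Submodule.smul_mem_smul (Ideal.mem_span_singleton_self ϖ) Submodule.mem_top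
  intro t
  obtain ⟨G, hG⟩ := h1 (Submodule.mem_top (x := t))
  exact ⟨G, hG⟩

include hψ hqs hker hreg hq in
theorem lift_CIP (hgen : Function.Surjective (aeval (R := S) x))
    (h : CIP (κ := κ) fun i => ψ (x i)) :
    ∃ F : ι → MvPolynomial ι S, (∀ i, aeval x (F i) = 0) ∧
      ∀ G : MvPolynomial ι S, aeval x G = 0 →
        G ∈ Ideal.span (Set.range F) ⊔
          (Ideal.span {C ϖ} ⊔ Ideal.span (Set.range (X : ι → MvPolynomial ι S))) *
            RingHom.ker (aeval (R := S) x) := by
  classical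
  obtain ⟨F0, hF0, hF⟩ := h
  -- lifting elements of the kernel
  have hlift : ∀ G0 : MvPolynomial ι κ, aeval (fun i => ψ (x i)) G0 = 0 →
      ∃ G : MvPolynomial ι S, aeval x G = 0 ∧ map q G = G0 := by
    intro G0 hG0
    obtain ⟨G', rfl⟩ := map_surjective q hqs G0
    rw [← psi_aeval ψ q hψ] at hG0
    obtain ⟨s, hs⟩ := hker _ hG0
    obtain ⟨G'', rfl⟩ := hgen s
    refine ⟨G' - C ϖ * G'', ?_, ?_⟩
    · rw [map_sub, map_mul, aeval_C, hs, sub_self]
    · rw [map_sub, map_mul, map_C, (hq ϖ).2 dvd_rfl, C_0, zero_mul, sub_zero]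
  choose F hF1 hF2 using fun i => hlift (F0 i) (hF0 i)
  refine ⟨F, hF1, fun G hG => ?_⟩
  set J := Ideal.span (Set.range F) ⊔
      (Ideal.span {C ϖ} ⊔ Ideal.span (Set.range (X : ι → MvPolynomial ι S))) *
        RingHom.ker (aeval (R := S) x) with hJ
  have h1 : map q G ∈ Ideal.map (map q : MvPolynomial ι S →+* MvPolynomial ι κ)
      (Ideal.span (Set.range F) ⊔ Ideal.span (Set.range (X : ι → MvPolynomial ι S)) *
        RingHom.ker (aeval (R := S) x)) := by
    have h2 := hF (map q G) (by rw [← psi_aeval ψ q hψ, hG, map_zero])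
    have hle : ∀ {I J : Ideal (MvPolynomial ι κ)}, I ≤ J → ∀ {z}, z ∈ I → z ∈ J := fun h z hz => h hz
    refine hle ?_ h2
    rw [Ideal.map_sup, Ideal.map_mul, Ideal.map_span, Ideal.map_span]
    refine sup_le_sup ?_ (Ideal.mul_mono ?_ ?_)
    · rw [Ideal.span_le]
      rintro _ ⟨i, rfl⟩
      exact Ideal.subset_span ⟨F i, ⟨i, rfl⟩, hF2 i⟩
    · rw [Ideal.span_le]
      rintro _ ⟨i, rfl⟩
      exact Ideal.subset_span ⟨X i, ⟨i, rfl⟩, map_X _ _⟩
    · intro P hP
      obtain ⟨P', hP', rfl⟩ := hlift P hP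
      exact Ideal.mem_map_of_mem _ hP'
  obtain ⟨G1, hG1, hG1'⟩ := (Ideal.mem_map_iff_of_surjective _ (map_surjective q hqs)).1 h1
  have h2 : C ϖ ∣ G - G1 := by
    rw [C_dvd_iff_map_hom_eq_zero q ϖ hq, map_sub]
    rw [hG1', sub_self]
  obtain ⟨G2, hG2⟩ := h2
  have h3 : aeval x G1 = 0 := by
    have h4 : Ideal.span (Set.range F) ⊔ Ideal.span (Set.range (X : ι → MvPolynomial ι S)) *
        RingHom.ker (aeval (R := S) x) ≤ RingHom.ker (aeval (R := S) x) := by
      refine sup_le ?_ Ideal.mul_le_right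
      rw [Ideal.span_le]
      rintro _ ⟨i, rfl⟩
      exact hF1 i
    exact h4 hG1
  have h4 : aeval x G2 = 0 := by
    apply hreg
    have h5 := congrArg (aeval x) hG2
    rw [map_sub, hG, h3, sub_zero, map_mul, aeval_C] at h5
    exact h5.symm
  have h5 : G = G1 + C ϖ * G2 := by rw [← hG2]; ring
  rw [h5]
  refine Ideal.add_mem _ ?_ ?_
  · refine (?_ : _ ≤ J) hG1
    exact sup_le_sup le_rfl (Ideal.mul_mono_left le_sup_right)
  · refine Ideal.mem_sup_right (Ideal.mul_mem_mul (Ideal.mem_sup_left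
      (Ideal.mem_span_singleton_self _)) ?_)
    exact h4

include hψ hker in
theorem lift_deriv (h : ∀ G : MvPolynomial ι κ, aeval (fun i => ψ (x i)) G = 0 →
      ∀ j, aeval (fun i => ψ (x i)) (pderiv j G) = 0)
    (G : MvPolynomial ι S) (hG : aeval x G = 0) (j : ι) :
    ∃ s, aeval x (pderiv j G) = algebraMap S T ϖ * s := by
  apply hker
  rw [psi_aeval ψ q hψ]
  have h1 : map q (pderiv j G) = pderiv j (map q G) := (pderiv_map).symm
  rw [h1]
  exact h _ (by rw [← psi_aeval ψ q hψ, hG, map_zero]) j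

end lift

variable {A : ValuationSubring (AlgebraicClosure ℚ)} {p : ℕ} [Fact p.Prime]
variable {R : Type} [CommRing R] [Algebra R Ω] [Algebra R (R0 A)] [IsScalarTower R (R0 A) Ω]
variable [Algebra R (kk A)] [IsScalarTower R (R0 A) (kk A)]
variable {H : Type} [CommRing H] [HopfAlgebra R H] [Module.Finite R H] [Module.Flat R H]
variable {P0 : H →ₐ[R] Ω} {e : (R0 A) ⊗[R] H} (he : IsIdem P0 e)

instance : Module.Finite (kk A) (QQ (fT P0 e)) :=
  Module.Finite.of_surjective (mkQ (kk A) (fT P0 e)).toLinearMap (mkQ_surjective (k := kk A) _)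

theorem frob_surj [CharP (kk A) p] :
    Function.Surjective (frobenius (kk A) p) := by
  intro c
  obtain ⟨z, hz⟩ := IsAlgClosed.exists_pow_nat_eq c (Fact.out : p.Prime).pos
  exact ⟨z, hz⟩

include he in
/-- Presentation of the special fibre. -/
theorem exists_pres_fib (hA : A.LiesOverPrime p) [Finite (H →ₐ[R] Ω)] :
    ∃ (d : ℕ) (z : Fin d → QQ (redC e : (kk A) ⊗[R] H)), (∀ i, rho he (z i) = 0) ∧
      Function.Surjective (aeval (R := kk A) z) ∧ CIP (κ := kk A) z ∧
      ∀ G : MvPolynomial (Fin d) (kk A), aeval z G = 0 → ∀ j, aeval z (pderiv j G) = 0 := by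
  haveI := charP_residue hA
  haveI : Nontrivial (QQ (fT P0 e)) := by
    refine ⟨⟨1, 0, fun h => ?_⟩⟩
    have := congrArg (LBT he hA).ε h
    rw [map_one, map_zero] at this
    exact one_ne_zero this
  obtain ⟨d, y, hy0, hygen, ⟨F, hF0, hF⟩, hyd⟩ := exists_pres_LB p frob_surj (LBT he hA)
  let θ := theta P0 e
  have hcomp : ∀ G : MvPolynomial (Fin d) (kk A),
      aeval (fun i => θ.symm (y i)) G = θ.symm (aeval y G) := by
    intro G
    have := AlgHom.congr_fun (comp_aeval y θ.symm.toAlgHom) G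
    exact this.symm
  have hzero : ∀ G : MvPolynomial (Fin d) (kk A),
      aeval (fun i => θ.symm (y i)) G = 0 ↔ aeval y G = 0 := by
    intro G
    rw [hcomp]
    exact ⟨fun h => θ.symm.injective (by rw [h, map_zero]), fun h => by rw [h, map_zero]⟩
  have hkereq : RingHom.ker (aeval (R := kk A) fun i => θ.symm (y i)) =
      RingHom.ker (aeval (R := kk A) y) := by
    ext G
    exact hzero G
  refine ⟨d, fun i => θ.symm (y i), fun i => ?_, fun c => ?_, ⟨F, fun i => ?_, fun G hG => ?_⟩,
    fun G hG j => ?_⟩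
  · have h1 := LBT_ε he hA (θ.symm (y i))
    rw [← h1]
    change (LBT he hA).ε (θ (θ.symm (y i))) = 0
    rw [AlgEquiv.apply_symm_apply]
    exact hy0 i
  · obtain ⟨G, hG⟩ := hygen (θ c)
    exact ⟨G, by rw [hcomp, hG, AlgEquiv.symm_apply_apply]⟩
  · exact (hzero _).2 (hF0 i)
  · rw [hkereq]
    exact hF G ((hzero G).1 hG)
  · exact (hzero _).2 (hyd G ((hzero G).1 hG) j)

end Fermat.Agent.Flat
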