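import Fermat.Agent.Flat.Ram

/-!
# The integers of a finite extension of the fixed field of inertia
-/

set_option autoImplicit false
set_option linter.unusedSectionVars false
set_option linter.style.haveILetI false

noncomputable section

namespace Fermat.Agent.FlatRam

open Polynomial IntermediateField RVal Module
open Fermat.Agent.Flat Fermat.Agent.Places Fermat.Agent.RedMod

local notation "Ω" => AlgebraicClosure ℚ

variable {A : ValuationSubring (AlgebraicClosure ℚ)} {p : ℕ} [hp : Fact p.Prime]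
variable (E : IntermediateField (K0 A) Ω) [FiniteDimensional (K0 A) E]

theorem rval_eq_zero_iff (hA : A.LiesOverPrime p) {x : Ω} (hx : x ≠ 0) :
    (rval A p hA).w x = 0 ↔ x ∈ A ∧ x ∉ A.nonunits := by
  have h1 := wA_nonneg_iff (p := p) hA hx
  have h2 := wA_pos_iff (p := p) hA hx
  change wA A p hA x = 0 ↔ _
  rw [← h1, ← h2]
  constructor
  · intro h; rw [h]; exact ⟨le_rfl, lt_irrefl _⟩
  · rintro ⟨h, h'⟩; exact le_antisymm (not_lt.1 h') h

/-- **Uniformizers.**  The extension `E / K0` is totally ramified: there is a uniformizer `ϖ`, each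
non zero element of `E` is a power of `ϖ` times a unit, and `p` is `ϖ ^ [E : K0]` times a unit. -/
theorem exists_uniformizer (hA : A.LiesOverPrime p) :
    ∃ ϖ ∈ E, ϖ ≠ 0 ∧ ϖ ∈ A.nonunits ∧
      (∀ x ∈ E, x ≠ 0 → ∃ (k : ℤ) (u : Ω), (finrank (K0 A) E : ℚ) * (rval A p hA).w x = k ∧
        u ∈ E ∧ u ∈ A ∧ u ∉ A.nonunits ∧ x = ϖ ^ k * u) ∧
      (∃ u ∈ E, u ∈ A ∧ u ∉ A.nonunits ∧ (p : Ω) = ϖ ^ finrank (K0 A) E * u) ∧
      (∀ x ∈ E, x ∈ A.nonunits → ∃ y ∈ E, y ∈ A ∧ x = ϖ * y) := by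
  obtain ⟨ϖ, hϖ0, hϖ⟩ := exists_unif (rval A p hA) (E := E)
  have hϖΩ : (ϖ : Ω) ≠ 0 := coe_ne hϖ0
  have hn : (0 : ℚ) < finrank (K0 A) E := by exact_mod_cast finrank_pos (R := K0 A) (M := E)
  have hwϖ : (rval A p hA).w (ϖ : Ω) = 1 / finrank (K0 A) E := by field_simp; linarith
  have hpos : 0 < (rval A p hA).w (ϖ : Ω) := by rw [hwϖ]; positivity
  have hunit : ∀ x ∈ E, x ≠ 0 → ∃ (k : ℤ) (u : Ω),
      (finrank (K0 A) E : ℚ) * (rval A p hA).w x = k ∧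
        u ∈ E ∧ u ∈ A ∧ u ∉ A.nonunits ∧ x = (ϖ : Ω) ^ k * u := by
    intro x hx hx0
    have hne : (⟨x, hx⟩ : E) ≠ 0 := fun h0 => hx0 (congrArg Subtype.val h0)
    obtain ⟨k, hk⟩ := exists_int (rval A p hA) E hne
    have hk' : (finrank (K0 A) E : ℚ) * (rval A p hA).w x = k := hk
    have hz := zpow_ne_zero k hϖΩ
    have hw : (rval A p hA).w (x / (ϖ : Ω) ^ k) = 0 := by
      rw [w_div hx0 hz, w_zpow hϖΩ, hwϖ]
      field_simp
      linarith
    obtain ⟨h1, h2⟩ := (rval_eq_zero_iff hA (div_ne_zero hx0 hz)).1 hw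
    exact ⟨k, x / (ϖ : Ω) ^ k, hk', E.div_mem hx (zpow_mem ϖ.2 k), h1, h2, by field_simp⟩
  refine ⟨ϖ, ϖ.2, hϖΩ, (wA_pos_iff hA hϖΩ).1 hpos, hunit, ?_, ?_⟩
  · have hp0 : (p : Ω) ≠ 0 := Nat.cast_ne_zero.2 hp.out.ne_zero
    obtain ⟨k, u, hk, huE, huA, hu, h⟩ := hunit p (IntermediateField.natCast_mem E p) hp0
    rw [(rval A p hA).w_p, mul_one] at hk
    have hk' : k = (finrank (K0 A) E : ℤ) := by exact_mod_cast hk.symm
    rw [hk', zpow_natCast] at h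
    exact ⟨u, huE, huA, hu, h⟩
  · intro x hx hxn
    rcases eq_or_ne x 0 with rfl | hx0
    · exact ⟨0, E.zero_mem, A.zero_mem, by rw [mul_zero]⟩
    have hpos' : 0 < (rval A p hA).w x := (wA_pos_iff hA hx0).2 hxn
    obtain ⟨k, u, hk, huE, huA, hu, h⟩ := hunit x hx hx0
    have hk0 : 0 < k := by
      have : (0 : ℚ) < k := by rw [← hk]; positivity
      exact_mod_cast this
    obtain ⟨m, rfl⟩ : ∃ m : ℕ, k = m + 1 := ⟨(k - 1).toNat, by omega⟩
    have hϖA : (ϖ : Ω) ∈ A := (wA_nonneg_iff hA hϖΩ).1 hpos.le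
    refine ⟨(ϖ : Ω) ^ m * u, E.mul_mem (pow_mem ϖ.2 _) huE,
      A.mul_mem _ _ (A.toSubring.pow_mem hϖA _) huA, ?_⟩
    rw [h, zpow_add_one₀ hϖΩ, zpow_natCast]
    ring

theorem OE_isUnit {x : OE A E} (hx : (x : Ω) ∉ A.nonunits) : IsUnit x := by
  have h0 : (x : Ω) ≠ 0 := fun h => hx (h ▸ zero_mem_nonunits A)
  have h1 : (x : Ω)⁻¹ ∈ A := by
    by_contra hcon
    exact hx ((mem_nonunits_iff_inv A _).2 (Or.inr hcon))
  refine IsUnit.of_mul_eq_one ⟨(x : Ω)⁻¹, h1, E.inv_mem x.2.2⟩ ?_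
  exact Subtype.ext (mul_inv_cancel₀ h0)

theorem OE_nonunit {x : OE A E} (hx : (x : Ω) ∈ A.nonunits) : ¬ IsUnit x := by
  rintro ⟨u, rfl⟩
  have h1 := mul_mem_nonunits A hx (u⁻¹ : (OE A E)ˣ).1.2.1
  have h2 : ((u : OE A E) : Ω) * ((u⁻¹ : (OE A E)ˣ) : OE A E) = 1 := by
    exact_mod_cast congrArg (fun z : OE A E => (z : Ω)) u.mul_inv
  rw [h2] at h1
  exact one_notMem_nonunits A h1

theorem OE_isDVR (hA : A.LiesOverPrime p) : IsDiscreteValuationRing (OE A E) := by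
  obtain ⟨ϖ, hϖE, hϖ0, hϖn, hunit, -, hdiv⟩ := exists_uniformizer E hA
  let π' : OE A E := ⟨ϖ, mem_of_mem_nonunits A hϖn, hϖE⟩
  apply IsDiscreteValuationRing.ofHasUnitMulPowIrreducibleFactorization
  have hdvd : ∀ x : OE A E, (x : Ω) ∈ A.nonunits → π' ∣ x := by
    intro x hx
    obtain ⟨y, hyE, hyA, h⟩ := hdiv x x.2.2 hx
    exact ⟨⟨y, hyA, hyE⟩, Subtype.ext h⟩
  have hπ0 : π' ≠ 0 := fun h => hϖ0 (congrArg Subtype.val h)
  refine ⟨π', ⟨OE_nonunit E hϖn, fun a b hab => ?_⟩, fun {x} hx => ?_⟩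
  · by_contra hcon
    push Not at hcon
    have ha : (a : Ω) ∈ A.nonunits := by
      by_contra h; exact hcon.1 (OE_isUnit E h)
    obtain ⟨a', rfl⟩ := hdvd a ha
    have h1 : (1 : OE A E) = a' * b :=
      mul_left_cancel₀ hπ0 (by rw [mul_one]; rw [← mul_assoc]; exact hab)
    exact hcon.2 (IsUnit.of_mul_eq_one_right _ h1.symm)
  · have hx0 : (x : Ω) ≠ 0 := fun h => hx (Subtype.ext h)
    obtain ⟨k, u, hk, huE, huA, hu, h⟩ := hunit x x.2.2 hx0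
    have hn : (0 : ℚ) < finrank (K0 A) E := by exact_mod_cast finrank_pos (R := K0 A) (M := E)
    have hk0 : 0 ≤ k := by
      have h1 : 0 ≤ (rval A p hA).w (x : Ω) := (wA_nonneg_iff hA hx0).2 x.2.1
      have : (0 : ℚ) ≤ k := by rw [← hk]; positivity
      exact_mod_cast this
    obtain ⟨m, rfl⟩ := Int.eq_ofNat_of_zero_le hk0
    obtain ⟨v, hv⟩ := OE_isUnit E (x := (⟨u, huA, huE⟩ : OE A E)) hu
    refine ⟨m, v, Subtype.ext ?_⟩
    push_cast
    rw [hv, h, zpow_natCast]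

/-- the residue field of `O_E` is that of `R0` -/
theorem exists_res_OE (hA : A.LiesOverPrime p) (x : OE A E) :
    ∃ r : R0 A, (x : Ω) - r ∈ A.nonunits := by
  obtain ⟨y, hy, h⟩ := exists_R0_sub_mem hA x.2.1
  refine ⟨⟨y, hy⟩, ?_⟩
  rw [← neg_sub]
  exact neg_mem_nonunits A h

end Fermat.Agent.FlatRam
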