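import Fermat.Agent.Flat.RamTower

/-!
# Kummer extensions and the ramification bound
-/

set_option autoImplicit false
set_option linter.unusedSectionVars false
set_option linter.style.haveILetI false

noncomputable section

namespace Fermat.Agent.FlatRam

open Polynomial IntermediateField RVal Module

variable {K Ω : Type*} [Field K] [CharZero K] [Field Ω] [CharZero Ω] [Algebra K Ω] [Normal K Ω]
  [IsAlgClosed Ω] {p : ℕ} [hp : Fact p.Prime] (V : RVal K Ω p)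
  {L : IntermediateField K Ω} [FiniteDimensional K L]

/-- `w (u ^ m - 1) = w (u - 1)` -/
theorem w_pow_sub_one {u : Ω} (hu : V.Gt 0 (u - 1)) (hu1 : u ≠ 1) {m : ℕ} (hm : ¬ p ∣ m) :
    u ^ m - 1 ≠ 0 ∧ V.w (u ^ m - 1) = V.w (u - 1) := by
  have hge : V.Ge 0 u := by
    have : u = (u - 1) + 1 := by ring
    rw [this]; exact hu.ge.add ge_one
  have hfac : ∀ i : ℕ, u ^ i - 1 = (u - 1) * ∑ j ∈ Finset.range i, u ^ j := fun i => by
    rw [mul_comm, geom_sum_mul]
  have hpow : ∀ i : ℕ, V.Gt 0 (u ^ i - 1) := by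
    intro i
    rw [hfac]
    have h := hu.mul (Ge.sum (V := V) (t := 0) (Finset.range i) _ fun j _ => hge.pow j)
    rwa [add_zero] at h
  have hm0 : (m : Ω) ≠ 0 := by
    rw [Nat.cast_ne_zero]
    rintro rfl
    exact hm (dvd_zero _)
  have h1 : V.Gt (V.w (m : Ω)) ((∑ j ∈ Finset.range m, u ^ j) - m) := by
    rw [w_natCast hm]
    have : (∑ j ∈ Finset.range m, u ^ j) - m = ∑ j ∈ Finset.range m, (u ^ j - 1) := by
      simp [Finset.sum_sub_distrib]
    rw [this]; exact Gt.sum _ _ fun j _ => hpow j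
  obtain ⟨h2, h3⟩ := w_add_eq' hm0 h1
  have h5 := sub_ne_zero.2 hu1
  rw [hfac]
  refine ⟨mul_ne_zero h5 h2, ?_⟩
  rw [w_mul h5 h2, h3, w_natCast hm, add_zero]

theorem exists_bezout {k : ℤ} (hk : ¬ (p : ℤ) ∣ k) :
    ∃ (b : ℕ) (c : ℤ), b * k + c * p = 1 ∧ ¬ p ∣ b := by
  have hk0 : (k : ZMod p) ≠ 0 := by
    rwa [ne_eq, ZMod.intCast_zmod_eq_zero_iff_dvd]
  have h1 : (((((k : ZMod p)⁻¹).val : ℤ) * k - 1 : ℤ) : ZMod p) = 0 := by
    push_cast
    rw [ZMod.natCast_zmod_val, inv_mul_cancel₀ hk0, sub_self]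
  rw [ZMod.intCast_zmod_eq_zero_iff_dvd] at h1
  obtain ⟨c, hc⟩ := h1
  refine ⟨((k : ZMod p)⁻¹).val, -c, by linear_combination hc, ?_⟩
  intro hdvd
  have h2 : (p : ℤ) ∣ 1 := by
    have h3 : (1 : ℤ) = (((k : ZMod p)⁻¹).val : ℤ) * k - p * c := by linear_combination -hc
    rw [h3]
    exact dvd_sub (Dvd.dvd.mul_right (by exact_mod_cast hdvd) _) (Dvd.intro _ rfl)
  have h4 : p ∣ 1 := by exact_mod_cast h2
  exact hp.out.one_lt.ne' (Nat.dvd_one.1 h4)

theorem finrank_restrict {M : IntermediateField K Ω} (hML : M ≤ L) :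
    finrank K (restrict hML) = finrank K M :=
  (restrictAlgEquiv hML).toLinearEquiv.finrank_eq.symm

set_option maxHeartbeats 1000000 in
/-- the contradiction from a ramified Kummer extension -/
theorem kummer_step [IsGalois K L]
    (hH : ∀ ϖ : L, ϖ ≠ 0 → (finrank K L : ℚ) * V.w (ϖ : Ω) = 1 →
      ∀ α : Ω, α ≠ 0 → (finrank K L : ℚ) * V.w α = 1 →
      aeval α (minpoly K (ϖ : Ω)) ≠ 0 →
      1 + 1 / ((p : ℚ) - 1) < V.w (aeval α (minpoly K (ϖ : Ω))) → L ≤ K⟮α⟯)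
    {M : IntermediateField K Ω} [FiniteDimensional K M] (hML : M ≤ L) {y : Ω} (hyL : y ∈ L)
    (hyM : y ^ p ∈ M) {z : L} (hz0 : z ≠ 0) (hzN : (z : Ω) ∈ M⟮y⟯) {k : ℤ}
    (hk : ¬ (p : ℤ) ∣ k) (hwz : (p * finrank K M : ℚ) * V.w (z : Ω) = k)
    {θ : ℚ} (hθ : θ ≤ finrank K M - 1)
    (hτ : ∀ τ : L ≃ₐ[K] L, (∀ x : L, (x : Ω) ∈ M → τ x = x) →
      τ ⟨y, hyL⟩ ≠ ⟨y, hyL⟩ → τ z ≠ z ∧
        ri V z τ = V.w (z : Ω) + 1 / ((p : ℚ) - 1) - θ / (p * finrank K M)) : False := by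
  classical
  obtain ⟨e, he⟩ : ∃ e, e = finrank K M := ⟨_, rfl⟩
  have he0 : 0 < e := by rw [he]; exact finrank_pos
  have heQ : (0 : ℚ) < e := by exact_mod_cast he0
  have hpQ : (1 : ℚ) < p := by exact_mod_cast hp.out.one_lt
  rw [← he] at hwz hθ hτ
  obtain ⟨N, hN⟩ : ∃ N : IntermediateField K Ω, N = IntermediateField.restrictScalars K M⟮y⟯ := ⟨_, rfl⟩
  have memN : ∀ x : Ω, x ∈ N ↔ x ∈ M⟮y⟯ := fun x => by rw [hN]; rfl
  have hMN : M ≤ N := fun x hx => (memN x).2 (M⟮y⟯.algebraMap_mem (⟨x, hx⟩ : M))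
  have hyN : y ∈ N := (memN y).2 (mem_adjoin_simple_self M y)
  have hNmin : ∀ F : IntermediateField K Ω, M ≤ F → y ∈ F → N ≤ F := by
    intro F hF hy x hx
    have h1 : M⟮y⟯ ≤ extendScalars hF := by
      rw [adjoin_simple_le_iff]
      exact hy
    exact h1 ((memN x).1 hx)
  have hNL : N ≤ L := hNmin L hML hyL
  haveI : FiniteDimensional K N :=
    FiniteDimensional.of_injective (inclusion hNL).toLinearMap (inclusion hNL).injective
  have hNle : finrank K N ≤ p * e := by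
    have h1 : finrank K N = finrank K M * finrank M M⟮y⟯ := by
      have h2 : finrank K N = finrank K M⟮y⟯ := by
        rw [hN]; rfl
      rw [h2, Module.finrank_mul_finrank K M M⟮y⟯]
    rw [h1, ← he, mul_comm]
    refine Nat.mul_le_mul_right _ ?_
    have hyint : IsIntegral M y := by
      have : IsIntegral K y := Algebra.IsIntegral.isIntegral (R := K) y
      exact this.tower_top
    rw [adjoin.finrank hyint]
    have h3 : minpoly M y ∣ X ^ p - C (⟨y ^ p, hyM⟩ : M) := by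
      apply minpoly.dvd
      simp only [map_sub, map_pow, aeval_X, aeval_C]
      exact sub_self _
    have h4 := natDegree_le_of_dvd h3 (X_pow_sub_C_ne_zero hp.out.pos _)
    rwa [natDegree_X_pow_sub_C] at h4
  obtain ⟨ϖM, hϖM0, hϖM⟩ := exists_unif V (E := M)
  rw [← he] at hϖM
  obtain ⟨b, c, hbc, hb⟩ := exists_bezout (p := p) hk
  let πM : L := ⟨(ϖM : Ω), hML ϖM.2⟩
  have hπM0 : πM ≠ 0 := by
    intro h
    have h1 : (ϖM : Ω) = 0 := congrArg Subtype.val h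
    exact hϖM0 (Subtype.ext h1)
  obtain ⟨π', hπ'⟩ : ∃ π' : L, π' = z ^ b * πM ^ c := ⟨_, rfl⟩
  have hπ0 : π' ≠ 0 := by
    rw [hπ']; exact mul_ne_zero (pow_ne_zero _ hz0) (zpow_ne_zero _ hπM0)
  have hπc : (π' : Ω) = (z : Ω) ^ b * (ϖM : Ω) ^ c := by rw [hπ']; push_cast; rfl
  have hϖMΩ : (ϖM : Ω) ≠ 0 := fun h => hϖM0 (Subtype.ext h)
  have hzΩ := coe_ne hz0
  have hwπ : V.w (π' : Ω) = 1 / (p * e) := by
    rw [hπc, w_mul (pow_ne_zero _ hzΩ) (zpow_ne_zero _ hϖMΩ), w_pow hzΩ, w_zpow hϖMΩ]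
    have h1 : V.w (z : Ω) = k / (p * e) := by field_simp; linarith
    have h2 : V.w (ϖM : Ω) = 1 / e := by field_simp; linarith
    have h3 : ((b : ℚ) * k + c * p) = 1 := by exact_mod_cast hbc
    rw [h1, h2]
    field_simp
    linarith
  have hwπ1 : ((p * e : ℕ) : ℚ) * V.w (π' : Ω) = 1 := by
    rw [hwπ]; push_cast; field_simp
  have hπN : (π' : Ω) ∈ N := by
    rw [hπc]
    exact N.mul_mem (pow_mem ((memN _).2 hzN) _) (zpow_mem (hMN ϖM.2) _)
  have hNf : finrank K N = p * e := by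
    have h1 := dvd_finrank V (coe_ne hπ0) hwπ1
    have h2 : K⟮(π' : Ω)⟯ ≤ N := by rwa [adjoin_simple_le_iff]
    have h3 : finrank K K⟮(π' : Ω)⟯ ≤ finrank K N :=
      LinearMap.finrank_le_finrank_of_injective (f := (inclusion h2).toLinearMap)
        (inclusion h2).injective
    haveI : FiniteDimensional K K⟮(π' : Ω)⟯ :=
      adjoin.finiteDimensional (Algebra.IsIntegral.isIntegral (R := K) (π' : Ω))
    have h4 := Nat.le_of_dvd finrank_pos h1
    omega
  have hπ : (finrank K N : ℚ) * V.w (π' : Ω) = 1 := by rw [hNf]; exact hwπ1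
  let H : Subgroup (L ≃ₐ[K] L) := (restrict hNL).fixingSubgroup
  let G1 : Subgroup (L ≃ₐ[K] L) := (restrict hML).fixingSubgroup
  have mH : ∀ τ, τ ∈ H ↔ ∀ x : L, (x : Ω) ∈ N → τ x = x := by
    intro τ
    rw [IntermediateField.mem_fixingSubgroup_iff]
    constructor
    · intro h x hx
      exact h x ((mem_restrict hNL x).2 hx)
    · intro h x hx
      exact h x ((mem_restrict hNL x).1 hx)
  have mG1 : ∀ τ, τ ∈ G1 ↔ ∀ x : L, (x : Ω) ∈ M → τ x = x := by
    intro τ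
    rw [IntermediateField.mem_fixingSubgroup_iff]
    constructor
    · intro h x hx
      exact h x ((mem_restrict hML x).2 hx)
    · intro h x hx
      exact h x ((mem_restrict hML x).1 hx)
  have hHG : H ≤ G1 := fun τ hτ => (mG1 τ).2 fun x hx => (mH τ).1 hτ x (hMN hx)
  have cH : (p * e) * Nat.card H = finrank K L := by
    rw [← hNf, ← finrank_restrict hNL, IsGalois.card_fixingSubgroup_eq_finrank,
      Module.finrank_mul_finrank]
  have cG1 : e * Nat.card G1 = finrank K L := by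
    rw [he, ← finrank_restrict hML, IsGalois.card_fixingSubgroup_eq_finrank,
      Module.finrank_mul_finrank]
  have cHG : p * Nat.card H = Nat.card G1 := by
    have h1 : e * (p * Nat.card H) = e * Nat.card G1 := by
      rw [cG1, ← cH]; ring
    exact Nat.eq_of_mul_eq_mul_left he0 h1
  have hNH : ∀ x : L, (∀ h ∈ H, h x = x) → (x : Ω) ∈ N := by
    intro x hx
    have h1 : x ∈ fixedField H := by
      rw [mem_fixedField_iff]
      exact hx
    rw [IsGalois.fixedField_fixingSubgroup] at h1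
    exact (mem_restrict hNL x).1 h1
  have hI : ∀ τ ∈ G1, τ ∉ H → ri V π' τ = 1 / (p * e) + 1 / ((p : ℚ) - 1) - θ / (p * e) := by
    intro τ hτG hτH
    have hτM := (mG1 τ).1 hτG
    have hτy : τ ⟨y, hyL⟩ ≠ ⟨y, hyL⟩ := by
      intro h0
      apply hτH
      rw [mH]
      let F : IntermediateField K Ω := lift (fixedField (Subgroup.zpowers τ))
      have mF : ∀ x : L, (x : Ω) ∈ F ↔ τ x = x := by
        intro x
        rw [mem_lift, mem_fixedField_iff]
        constructor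
        · intro h
          exact h τ (Subgroup.mem_zpowers τ)
        · intro h g hg
          obtain ⟨m, rfl⟩ := Subgroup.mem_zpowers_iff.1 hg
          have hstab : τ ∈ MulAction.stabilizer (L ≃ₐ[K] L) x := h
          exact (MulAction.stabilizer (L ≃ₐ[K] L) x).zpow_mem hstab m
      have h1 : N ≤ F := by
        refine hNmin F ?_ ?_
        · intro x hx
          exact (mF ⟨x, hML hx⟩).2 (hτM _ hx)
        · exact (mF ⟨y, hyL⟩).2 h0
      intro x hx
      exact (mF x).1 (h1 hx)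
    obtain ⟨hτz, hri⟩ := hτ τ hτM hτy
    have hτπM : τ πM = πM := hτM πM ϖM.2
    obtain ⟨u, hu⟩ : ∃ u : Ω, u = ((τ z : L) : Ω) / z := ⟨_, rfl⟩
    have hu1 : u - 1 = (((τ z - z : L)) : Ω) / z := by
      rw [hu]; push_cast; field_simp
    have hτz0 : ((τ z - z : L) : Ω) ≠ 0 := coe_ne (sub_ne_zero.2 hτz)
    have hune : u ≠ 1 := by
      rw [← sub_ne_zero, hu1]
      exact div_ne_zero hτz0 hzΩ
    have hwu : V.w (u - 1) = 1 / ((p : ℚ) - 1) - θ / (p * e) := by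
      rw [hu1, w_div hτz0 hzΩ]
      change ri V z τ - _ = _
      rw [hri]; ring
    have hpos : 0 < V.w (u - 1) := by
      rw [hwu]
      have h1 : θ / (p * e) < 1 / p := by
        rw [div_lt_div_iff₀ (by positivity) (by positivity)]
        nlinarith
      have h2 : 1 / (p : ℚ) < 1 / ((p : ℚ) - 1) := by
        apply one_div_lt_one_div_of_lt <;> linarith
      linarith
    obtain ⟨h1, h2⟩ := w_pow_sub_one V (Or.inr hpos) hune hb
    have h3 : (((τ π' - π' : L)) : Ω) = π' * (u ^ b - 1) := by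
      rw [AddSubgroupClass.coe_sub, hπ', map_mul, map_pow, map_zpow₀, hτπM]
      push_cast
      rw [hu, div_pow]
      field_simp
    rw [ri, h3, w_mul (coe_ne hπ0) h1, h2, hwπ, hwu]
    ring
  obtain ⟨ϖ, hϖ0, hϖ⟩ := exists_unif V (E := L)
  have hHpos : 0 < Nat.card H := Nat.card_pos
  have hncard : Fintype.card (L ≃ₐ[K] L) = finrank K L := by
    rw [← Nat.card_eq_fintype_card, IsGalois.card_aut_eq_finrank]
  have hn : p * e ≤ finrank K L := by
    rw [← cH]; exact Nat.le_mul_of_pos_right _ hHpos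
  have hne : (Finset.univ.erase (1 : L ≃ₐ[K] L)).Nonempty := by
    rw [← Finset.card_pos, Finset.card_erase_of_mem (Finset.mem_univ _), Finset.card_univ, hncard]
    have h1 : 2 * 1 ≤ p * e := Nat.mul_le_mul hp.out.two_le he0
    omega
  obtain ⟨σ1, hσ1, hmax⟩ := Finset.exists_max_image _ (ri V ϖ) hne
  have hσ1' := Finset.ne_of_mem_erase hσ1
  have hmax' : ∀ σ : L ≃ₐ[K] L, σ ≠ 1 → ri V ϖ σ ≤ ri V ϖ σ1 := fun σ hσ =>
    hmax σ (Finset.mem_erase.2 ⟨hσ, Finset.mem_univ _⟩)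
  have hup := upper V hϖ0 hϖ (hH ϖ hϖ0 hϖ) hσ1' hmax'
  have hlo := lower V hϖ0 hϖ H hNH hπN hπ0 hπ G1 hHG hI cG1 cHG hmax'
  have hfin := hlo.trans hup
  have hnQ : (p * e : ℚ) ≤ finrank K L := by exact_mod_cast hn
  have h1 : 1 / (finrank K L : ℚ) ≤ 1 / (p * e) := one_div_le_one_div_of_le (by positivity) hnQ
  have h2 : (p : ℚ) * (1 / (p * e) + 1 / ((p : ℚ) - 1) - θ / (p * e)) =
      1 / e + (1 + 1 / ((p : ℚ) - 1)) - θ / e := by
    have h3 : (p : ℚ) - 1 ≠ 0 := by linarith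
    field_simp
    ring
  rw [h2] at hfin
  have h4 : θ / e ≤ 1 - 1 / e := by
    rw [div_le_iff₀ heQ, sub_mul, one_div_mul_cancel heQ.ne']
    linarith
  have h5 : 1 / (p * e : ℚ) < 1 / e := by
    rw [div_lt_div_iff₀ (by positivity) heQ]
    nlinarith
  linarith

/-- residues -/
theorem exists_res {x : Ω} (hx : V.Ge 0 x) : ∃ a : K, V.Ge 0 (algebraMap K Ω a) ∧
    V.Gt 0 (x - algebraMap K Ω a) := by
  rcases eq_or_ne x 0 with rfl | hx0
  · exact ⟨0, by rw [map_zero]; exact ge_zero _, by rw [map_zero, sub_zero]; exact gt_zero _⟩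
  · obtain ⟨a, ha, ha'⟩ := V.res x hx0 (hx.le hx0)
    refine ⟨a, ?_, ha'⟩
    rcases ha with rfl | ha
    · rw [map_zero]; exact ge_zero _
    · exact Or.inr ha

theorem gt_pow_sub_pow {r d : Ω} (hr : V.Ge 0 r) (hd : V.Ge 0 d) (h : V.Gt 0 (r - d)) (m : ℕ) :
    V.Gt 0 (r ^ m - d ^ m) := by
  have h3 := (Commute.all r d).mul_geom_sum₂ m
  rw [← h3]
  have h4 := h.mul (Ge.sum (V := V) (t := 0) (Finset.range m) (fun i => r ^ i * d ^ (m - 1 - i))
    fun i _ => (hr.pow i).mul0 (hd.pow _))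
  rwa [add_zero] at h4

/-- discreteness -/
theorem ge_of_gt {M : IntermediateField K Ω} [FiniteDimensional K M] {y : Ω} (hy : y ∈ M) {s : ℕ}
    (h : V.Gt (s / finrank K M) y) : V.Ge ((s + 1) / finrank K M) y := by
  rcases eq_or_ne y 0 with rfl | hy0
  · exact ge_zero _
  right
  have h1 := h.lt hy0
  have hne : (⟨y, hy⟩ : M) ≠ 0 := fun h0 => hy0 (congrArg Subtype.val h0)
  obtain ⟨k, hk⟩ := exists_int V M hne
  have hk' : (finrank K M : ℚ) * V.w y = k := hk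
  have he : (0 : ℚ) < finrank K M := by exact_mod_cast finrank_pos (R := K) (M := M)
  rw [div_lt_iff₀ he, mul_comm, hk'] at h1
  rw [div_le_iff₀ he, mul_comm, hk']
  have h2 : (s : ℤ) < k := by exact_mod_cast h1
  have h3 : (s : ℤ) + 1 ≤ k := h2
  exact_mod_cast h3

theorem exists_one_add_pow {t : Ω} (ht : V.Ge 0 t) :
    ∃ g, V.Ge 0 g ∧ (1 + t) ^ p = 1 + t ^ p + p * g := by
  refine ⟨t * ∑ k ∈ Finset.Ioo 0 p, 1 ^ (k - 1) * t ^ (p - k - 1) * ((p.choose k / p : ℕ) : Ω),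
    ?_, ?_⟩
  · refine ht.mul0 (Ge.sum _ _ fun k _ => ?_)
    exact ((ge_one.pow _).mul0 (ht.pow _)).mul0 (ge_natCast _)
  · rw [add_pow_prime_eq hp.out, one_pow]
    ring

theorem unit_one_add {t : Ω} (ht : V.Gt 0 t) : 1 + t ≠ 0 ∧ V.w (1 + t) = 0 := by
  have h := w_add_eq (V := V) one_ne_zero (y := t) (by rw [w_one]; exact ht)
  rwa [w_one] at h

/-- improving the approximation of a `p`-th power -/
theorem improve {M : IntermediateField K Ω} [FiniteDimensional K M] {x : Ω} (hx : x ∈ M) {b : Ω}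
    (hb : b ∈ M) (hb0 : b ≠ 0) {s : ℕ} (hs : 0 < s) (hs' : s < finrank K M) (hps : p ∣ s)
    (hw : V.Ge (s / finrank K M) (x * b ^ p - 1)) :
    ∃ b' ∈ M, b' ≠ 0 ∧ V.Ge ((s + 1) / finrank K M) (x * b' ^ p - 1) := by
  obtain ⟨e, he⟩ : ∃ e, e = finrank K M := ⟨_, rfl⟩
  have he0 : 0 < e := by rw [he]; exact finrank_pos
  have heQ : (0 : ℚ) < e := by exact_mod_cast he0
  obtain ⟨ϖ, hϖ0, hϖ⟩ := exists_unif V (E := M)
  rw [← he] at hϖ hs' hw
  have hϖΩ : (ϖ : Ω) ≠ 0 := fun h => hϖ0 (Subtype.ext h)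
  have hwϖ : V.w (ϖ : Ω) = 1 / e := by field_simp; linarith
  obtain ⟨s1, rfl⟩ := hps
  have hs1 : 0 < s1 := Nat.pos_of_mul_pos_left hs
  obtain ⟨δ, hδ⟩ : ∃ δ, δ = x * b ^ p - 1 := ⟨_, rfl⟩
  rw [← hδ] at hw
  have hpow0 : (ϖ : Ω) ^ (p * s1) ≠ 0 := pow_ne_zero _ hϖΩ
  have hwpow : V.w ((ϖ : Ω) ^ (p * s1)) = ((p * s1 : ℕ) : ℚ) / e := by
    rw [w_pow hϖΩ, hwϖ]; ring
  obtain ⟨r, hr⟩ : ∃ r : Ω, r ^ p = δ / (ϖ : Ω) ^ (p * s1) :=
    IsAlgClosed.exists_pow_nat_eq _ hp.out.pos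
  have hδr : δ = (ϖ : Ω) ^ (p * s1) * r ^ p := by rw [hr]; field_simp
  have hrge : V.Ge 0 r := by
    rcases eq_or_ne r 0 with rfl | hr0
    · exact ge_zero _
    right
    have hδ0 : δ ≠ 0 := by rw [hδr]; exact mul_ne_zero hpow0 (pow_ne_zero _ hr0)
    have h1 := hw.le hδ0
    rw [hδr, w_mul hpow0 (pow_ne_zero _ hr0), hwpow, w_pow hr0] at h1
    have h2 : 0 ≤ (p : ℚ) * V.w r := by linarith
    have hp0 : (0 : ℚ) < p := by exact_mod_cast hp.out.pos
    exact nonneg_of_mul_nonneg_right h2 hp0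
  obtain ⟨d, hd, hrd⟩ := exists_res V hrge
  obtain ⟨t, ht⟩ : ∃ t, t = algebraMap K Ω d * (ϖ : Ω) ^ s1 := ⟨_, rfl⟩
  have htM : t ∈ M := by
    rw [ht]; exact M.mul_mem (M.algebraMap_mem d) (pow_mem ϖ.2 _)
  have hϖs : V.Gt 0 ((ϖ : Ω) ^ s1) := by
    right
    rw [w_pow hϖΩ, hwϖ]
    have : (0 : ℚ) < s1 := by exact_mod_cast hs1
    positivity
  have htgt : V.Gt 0 t := by
    rw [ht, mul_comm]
    have := hϖs.mul hd
    rwa [add_zero] at this
  obtain ⟨h10, h1w⟩ := unit_one_add V htgt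
  obtain ⟨g, hg, hgp⟩ := exists_one_add_pow V htgt.ge
  have hinv : V.Ge 0 (1 + t)⁻¹ := Or.inr (by rw [w_inv h10, h1w, neg_zero])
  refine ⟨b / (1 + t), M.div_mem hb (M.add_mem M.one_mem htM), div_ne_zero hb0 h10, ?_⟩
  have hxM : x * (b / (1 + t)) ^ p - 1 ∈ M :=
    M.sub_mem (M.mul_mem hx (pow_mem (M.div_mem hb (M.add_mem M.one_mem htM)) _)) M.one_mem
  refine ge_of_gt V hxM ?_
  rw [← he]
  have hid : x * (b / (1 + t)) ^ p - 1 =
      ((ϖ : Ω) ^ (p * s1) * (r ^ p - algebraMap K Ω d ^ p) - p * g) * ((1 + t)⁻¹) ^ p := by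
    have h2 : x * b ^ p = 1 + (ϖ : Ω) ^ (p * s1) * r ^ p := by rw [← hδr, hδ]; ring
    have h3 : (1 + t) ^ p = 1 + (algebraMap K Ω d) ^ p * (ϖ : Ω) ^ (p * s1) + p * g := by
      rw [hgp, ht, mul_pow, ← pow_mul, mul_comm s1 p]
    have h4 : (1 + t) ^ p ≠ 0 := pow_ne_zero _ h10
    rw [div_pow, inv_pow]
    field_simp
    rw [h2]
    linear_combination -h3
  rw [hid]
  have hlt1 : ((p * s1 : ℕ) : ℚ) / e < 1 := by
    rw [div_lt_one heQ]; exact_mod_cast hs'
  have h5 : V.Gt (((p * s1 : ℕ) : ℚ) / e)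
      ((ϖ : Ω) ^ (p * s1) * (r ^ p - algebraMap K Ω d ^ p) - p * g) := by
    refine Gt.sub ?_ ?_
    · have := (gt_pow_sub_pow V hrge hd hrd p).mul (ge_w ((ϖ : Ω) ^ (p * s1)))
      rw [hwpow, zero_add, mul_comm (r ^ p - algebraMap K Ω d ^ p)] at this
      exact this
    · have h6 : V.Ge 1 (p : Ω) := Or.inr V.w_p.ge
      exact (h6.mul0 hg).gt hlt1
  have h7 := h5.mul (hinv.pow p)
  rwa [add_zero] at h7

/-- the action on a radical -/
theorem w_aut_radical {M : IntermediateField K Ω} {y : Ω} (hyL : y ∈ L) (hy0 : y ≠ 0)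
    (hyM : y ^ p ∈ M) {τ : L ≃ₐ[K] L} (hτ : ∀ x : L, (x : Ω) ∈ M → τ x = x)
    (hτy : τ ⟨y, hyL⟩ ≠ ⟨y, hyL⟩) :
    V.w ((τ ⟨y, hyL⟩ - ⟨y, hyL⟩ : L) : Ω) = 1 / ((p : ℚ) - 1) + V.w y := by
  obtain ⟨ξ, hξ⟩ : ∃ ξ, ξ = ((τ ⟨y, hyL⟩ : L) : Ω) / y := ⟨_, rfl⟩
  have h1 : ((τ ⟨y, hyL⟩ : L) : Ω) = ξ * y := by rw [hξ]; field_simp
  have h2 : ξ ^ p = 1 := by
    have h3 : τ (⟨y, hyL⟩ ^ p) = ⟨y, hyL⟩ ^ p := hτ _ (by push_cast; exact hyM)
    rw [map_pow] at h3
    have h4 := congrArg Subtype.val h3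
    push_cast at h4
    rw [hξ, div_pow, h4]
    exact div_self (pow_ne_zero _ hy0)
  have h3 : ξ ≠ 1 := by
    rintro rfl
    apply hτy
    apply Subtype.ext
    rw [h1, one_mul]
  have h4 : ((τ ⟨y, hyL⟩ - ⟨y, hyL⟩ : L) : Ω) = (ξ - 1) * y := by
    rw [AddSubgroupClass.coe_sub, h1]; ring
  rw [h4, w_mul (sub_ne_zero.2 h3) hy0, w_root_sub_one h2 h3]

set_option maxHeartbeats 1000000 in
/-- **The Kummer bound**, abstract form. -/
theorem kummer_abs [IsGalois K L]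
    (hH : ∀ ϖ : L, ϖ ≠ 0 → (finrank K L : ℚ) * V.w (ϖ : Ω) = 1 →
      ∀ α : Ω, α ≠ 0 → (finrank K L : ℚ) * V.w α = 1 →
      aeval α (minpoly K (ϖ : Ω)) ≠ 0 →
      1 + 1 / ((p : ℚ) - 1) < V.w (aeval α (minpoly K (ϖ : Ω))) → L ≤ K⟮α⟯)
    {M : IntermediateField K Ω} [FiniteDimensional K M] (hML : M ≤ L) {y : Ω} (hyL : y ∈ L)
    (hyM : y ^ p ∈ M) (hy0 : y ≠ 0) :
    ∃ a ∈ M, V.Ge 0 a ∧ ∃ b ∈ M, b ≠ 0 ∧ y ^ p = (1 + p * a) * b ^ p := by
  obtain ⟨e, he⟩ : ∃ e, e = finrank K M := ⟨_, rfl⟩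
  have he0 : 0 < e := by rw [he]; exact finrank_pos
  have heQ : (0 : ℚ) < e := by exact_mod_cast he0
  have hp0 : (0 : ℚ) < p := by exact_mod_cast hp.out.pos
  have hyp0 : y ^ p ≠ 0 := pow_ne_zero _ hy0
  have hyM' : y ∈ M⟮y⟯ := mem_adjoin_simple_self M y
  have hMy : ∀ x ∈ M, x ∈ M⟮y⟯ := fun x hx => M⟮y⟯.algebraMap_mem (⟨x, hx⟩ : M)
  obtain ⟨k, hk⟩ : ∃ k : ℤ, (e : ℚ) * V.w (y ^ p) = k := by
    have hne : (⟨y ^ p, hyM⟩ : M) ≠ 0 := fun h0 => hyp0 (congrArg Subtype.val h0)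
    obtain ⟨k, hk⟩ := exists_int V M hne
    exact ⟨k, by rw [he]; exact hk⟩
  by_cases hpk : (p : ℤ) ∣ k
  · obtain ⟨k', rfl⟩ := hpk
    obtain ⟨ϖ, hϖ0, hϖ⟩ := exists_unif V (E := M)
    rw [← he] at hϖ
    have hϖΩ : (ϖ : Ω) ≠ 0 := fun h => hϖ0 (Subtype.ext h)
    have hwϖ : V.w (ϖ : Ω) = 1 / e := by field_simp; linarith
    -- the starting point
    obtain ⟨b0, hb0M, hb00, hb0⟩ : ∃ b ∈ M, b ≠ 0 ∧ V.Gt 0 (y ^ p * b ^ p - 1) := by
      obtain ⟨u, hu⟩ : ∃ u, u = y * (ϖ : Ω) ^ (-k') := ⟨_, rfl⟩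
      have hu0 : u ≠ 0 := by rw [hu]; exact mul_ne_zero hy0 (zpow_ne_zero _ hϖΩ)
      have hwu : V.w u = 0 := by
        rw [hu, w_mul hy0 (zpow_ne_zero _ hϖΩ), w_zpow hϖΩ, hwϖ]
        rw [w_pow hy0] at hk
        push_cast at hk ⊢
        have : V.w y = k' / e := by
          field_simp
          have h2 : (p : ℚ) * (V.w y * e) = p * k' := by linarith
          exact mul_left_cancel₀ hp0.ne' h2
        rw [this]; ring
      obtain ⟨c, hc, hc'⟩ := exists_res V (Or.inr hwu.ge : V.Ge 0 u)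
      have hcc := w_add_eq' (V := V) hu0 (y := algebraMap K Ω c) (by
        rw [hwu, ← neg_sub]; exact hc'.neg)
      have hc0 := hcc.1
      have hwc : V.w (algebraMap K Ω c) = 0 := by rw [hcc.2, hwu]
      refine ⟨(ϖ : Ω) ^ (-k') / algebraMap K Ω c, M.div_mem (zpow_mem ϖ.2 _) (M.algebraMap_mem c),
        div_ne_zero (zpow_ne_zero _ hϖΩ) hc0, ?_⟩
      have h1 : y ^ p * ((ϖ : Ω) ^ (-k') / algebraMap K Ω c) ^ p - 1 =
          (u / algebraMap K Ω c) ^ p - 1 ^ p := by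
        rw [hu, one_pow, ← mul_pow, mul_div_assoc]
      rw [h1]
      have hge : V.Ge 0 (u / algebraMap K Ω c) := Or.inr (by
        rw [w_div hu0 hc0, hwu, hwc, sub_zero])
      refine gt_pow_sub_pow V hge ge_one ?_ p
      have h2 : u / algebraMap K Ω c - 1 = (u - algebraMap K Ω c) * (algebraMap K Ω c)⁻¹ := by
        field_simp
      rw [h2]
      have h3 : V.Ge 0 (algebraMap K Ω c)⁻¹ := Or.inr (by rw [w_inv hc0, hwc, neg_zero])
      have h4 := hc'.mul h3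
      rwa [add_zero] at h4
    have hxM : ∀ b ∈ M, y ^ p * b ^ p - 1 ∈ M := fun b hb =>
      M.sub_mem (M.mul_mem hyM (pow_mem hb _)) M.one_mem
    have claim : ∀ m : ℕ, 1 ≤ m → m ≤ e →
        (∃ b ∈ M, b ≠ 0 ∧ V.Ge ((m : ℚ) / e) (y ^ p * b ^ p - 1)) ∨
        (∃ b ∈ M, b ≠ 0 ∧ ∃ s : ℕ, 0 < s ∧ s < e ∧ ¬ p ∣ s ∧ y ^ p * b ^ p - 1 ≠ 0 ∧
          V.w (y ^ p * b ^ p - 1) = (s : ℚ) / e) := by
      intro m hm
      induction m, hm using Nat.le_induction with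
      | base =>
        intro _
        left
        refine ⟨b0, hb0M, hb00, ?_⟩
        have := ge_of_gt V (s := 0) (hxM b0 hb0M) (by rw [Nat.cast_zero, zero_div]; exact hb0)
        rw [Nat.cast_zero, zero_add, ← he] at this
        rwa [Nat.cast_one]
      | succ m hm ih =>
        intro hme
        rcases ih (by omega) with ⟨b, hb, hbne, hbge⟩ | h
        · by_cases hpm : p ∣ m
          · obtain ⟨b', hb', hb'0, hb'ge⟩ := improve V hyM hb hbne (by omega)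
              (by rw [← he]; omega) hpm (by rw [← he]; exact hbge)
            left
            refine ⟨b', hb', hb'0, ?_⟩
            rw [← he] at hb'ge
            rwa [Nat.cast_succ]
          · by_cases hgt : V.Gt ((m : ℚ) / e) (y ^ p * b ^ p - 1)
            · left
              refine ⟨b, hb, hbne, ?_⟩
              have := ge_of_gt V (s := m) (hxM b hb) (by rw [← he]; exact hgt)
              rw [← he] at this
              rwa [Nat.cast_succ]
            · right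
              refine ⟨b, hb, hbne, m, by omega, by omega, hpm, ?_, ?_⟩
              · intro h0
                exact hgt (Or.inl h0)
              · have h0 : y ^ p * b ^ p - 1 ≠ 0 := fun h0 => hgt (Or.inl h0)
                refine le_antisymm ?_ (hbge.le h0)
                by_contra hcon
                push Not at hcon
                exact hgt (Or.inr hcon)
        · exact Or.inr h
    rcases claim e he0 le_rfl with ⟨b, hb, hbne, hbge⟩ | ⟨b, hb, hbne, s, hs0, hse, hps, hne, hws⟩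
    · rw [div_self heQ.ne'] at hbge
      have hpΩ := p_ne_zero V
      refine ⟨(y ^ p * b ^ p - 1) / p, M.div_mem (hxM b hb) (IntermediateField.natCast_mem M p), ?_,
        b⁻¹, M.inv_mem hb, inv_ne_zero hbne, ?_⟩
      · rcases eq_or_ne (y ^ p * b ^ p - 1) 0 with h0 | h0
        · rw [h0, zero_div]; exact ge_zero _
        · right
          rw [w_div h0 hpΩ, V.w_p]
          have := hbge.le h0
          linarith
      · rw [inv_pow, mul_div_cancel₀ _ hpΩ, ← sub_eq_zero]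
        field_simp
        ring
    · exfalso
      obtain ⟨z, hz⟩ : ∃ z : L, z = ⟨y, hyL⟩ * ⟨b, hML hb⟩ - 1 := ⟨_, rfl⟩
      have hzc : (z : Ω) = y * b - 1 := by rw [hz]; push_cast; rfl
      have hwδpos : 0 < V.w (y ^ p * b ^ p - 1) := by
        rw [hws]
        have : (0 : ℚ) < s := by exact_mod_cast hs0
        positivity
      have hwyb : V.w (y * b) = 0 := by
        have h1 := unit_one_add V (Or.inr hwδpos : V.Gt 0 (y ^ p * b ^ p - 1))
        have h2 : 1 + (y ^ p * b ^ p - 1) = (y * b) ^ p := by rw [mul_pow]; ring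
        rw [h2, w_pow (mul_ne_zero hy0 hbne)] at h1
        exact (mul_eq_zero.1 h1.2).resolve_left hp0.ne'
      have hzge : V.Ge 0 (z : Ω) := by
        rw [hzc]
        exact Ge.sub (Or.inr hwyb.ge) ge_one
      obtain ⟨g, hg, hgp⟩ := exists_one_add_pow V hzge
      have hzp : (z : Ω) ^ p ≠ 0 ∧ V.w ((z : Ω) ^ p) = (s : ℚ) / e := by
        rw [← hws]
        refine w_add_eq' hne ?_
        have h1 : (z : Ω) ^ p - (y ^ p * b ^ p - 1) = -(p * g) := by
          have h2 : y ^ p * b ^ p = (1 + (z : Ω)) ^ p := by rw [hzc, ← mul_pow]; ring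
          rw [h2, hgp]; ring
        rw [h1, hws]
        have h6 : V.Ge 1 (p : Ω) := Or.inr V.w_p.ge
        refine ((h6.mul0 hg).neg).gt ?_
        rw [div_lt_one heQ]
        exact_mod_cast hse
      have hzΩ : (z : Ω) ≠ 0 := by
        intro h0
        rw [h0, zero_pow hp.out.ne_zero] at hzp
        exact hzp.1 rfl
      have hz0 : z ≠ 0 := fun h0 => hzΩ (by rw [h0]; rfl)
      have hwz : V.w (z : Ω) = (s : ℚ) / (p * e) := by
        have h1 := hzp.2
        rw [w_pow hzΩ] at h1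
        field_simp
        field_simp at h1
        linarith
      refine kummer_step V hH hML hyL hyM hz0 ?_ (k := (s : ℤ)) ?_ ?_ (θ := (s : ℚ)) ?_ ?_
      · rw [hzc]
        exact M⟮y⟯.sub_mem (M⟮y⟯.mul_mem hyM' (hMy b hb)) M⟮y⟯.one_mem
      · intro h
        exact hps (by exact_mod_cast h)
      · rw [hwz, ← he]
        push_cast
        field_simp
      · rw [← he]
        have : s + 1 ≤ e := hse
        have : (s : ℚ) + 1 ≤ e := by exact_mod_cast this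
        linarith
      · intro τ hτ hτy
        have h1 := w_aut_radical V hyL hy0 hyM hτ hτy
        have hbτ : τ ⟨b, hML hb⟩ = ⟨b, hML hb⟩ := hτ _ hb
        have h2 : τ z - z = (τ ⟨y, hyL⟩ - ⟨y, hyL⟩) * ⟨b, hML hb⟩ := by
          rw [hz, map_sub, map_mul, map_one, hbτ]; ring
        have h3 : (τ ⟨y, hyL⟩ - ⟨y, hyL⟩ : L) ≠ 0 := sub_ne_zero.2 hτy
        have h4 : (⟨b, hML hb⟩ : L) ≠ 0 := fun h0 => hbne (congrArg Subtype.val h0)
        refine ⟨?_, ?_⟩
        · rw [← sub_ne_zero, h2]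
          exact mul_ne_zero h3 h4
        · rw [ri, h2, MulMemClass.coe_mul, w_mul (coe_ne h3) hbne, h1, hwz, ← he]
          rw [w_mul hy0 hbne] at hwyb
          linarith
  · exfalso
    have hyL0 : (⟨y, hyL⟩ : L) ≠ 0 := fun h0 => hy0 (congrArg Subtype.val h0)
    refine kummer_step V hH hML hyL hyM (z := ⟨y, hyL⟩) hyL0 hyM' hpk ?_ (θ := 0) ?_ ?_
    · rw [← hk, w_pow hy0, ← he]
      change _ * V.w y = _
      ring
    · rw [← he]
      have : (1 : ℚ) ≤ e := by exact_mod_cast he0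
      linarith
    · intro τ hτ hτy
      refine ⟨hτy, ?_⟩
      have h1 := w_aut_radical V hyL hy0 hyM hτ hτy
      rw [ri, h1, zero_div, sub_zero]
      change _ = V.w y + _
      ring

end Fermat.Agent.FlatRam
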