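import Fermat.Agent.Flat.RamUpper

/-!
# The lower bound for the ramification in a tower
-/

set_option autoImplicit false
set_option linter.unusedSectionVars false
set_option linter.style.haveILetI false

noncomputable section

namespace Fermat.Agent.FlatRam

open Polynomial IntermediateField RVal Module

variable {K Ω : Type*} [Field K] [CharZero K] [Field Ω] [CharZero Ω] [Algebra K Ω] [Normal K Ω]
  [IsAlgClosed Ω] {p : ℕ} [hp : Fact p.Prime] (V : RVal K Ω p)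
  {L : IntermediateField K Ω} [FiniteDimensional K L]

/-- integral coefficients of products -/
theorem ge_coeff_prod {ι : Type*} (s : Finset ι) (f : ι → Polynomial Ω)
    (h : ∀ i ∈ s, ∀ j, V.Ge 0 ((f i).coeff j)) (j : ℕ) : V.Ge 0 ((∏ i ∈ s, f i).coeff j) := by
  classical
  induction s using Finset.induction_on generalizing j with
  | empty =>
    rw [Finset.prod_empty, coeff_one]
    split_ifs
    · exact ge_one
    · exact ge_zero _
  | insert a s ha ih =>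
    rw [Finset.prod_insert ha, coeff_mul]
    refine Ge.sum _ _ fun x _ => ?_
    exact (h a (Finset.mem_insert_self _ _) _).mul0
      (ih (fun i hi => h i (Finset.mem_insert_of_mem hi)) _)

/-- `w (σ x - x) ≥ w (σ π - π)` for integral `x` in a subfield with uniformizer `π`. -/
theorem ge_aut_sub_sub {N : IntermediateField K Ω} [FiniteDimensional K N]
    {π' : L} (hπN : (π' : Ω) ∈ N) (hπ0 : π' ≠ 0) (hπ : (finrank K N : ℚ) * V.w (π' : Ω) = 1)
    (σ : L ≃ₐ[K] L) {x : L} (hxN : (x : Ω) ∈ N) (hx : V.Ge 0 (x : Ω)) :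
    V.Ge (ri V π' σ) ((σ x - x : L) : Ω) := by
  rcases eq_or_ne x 0 with rfl | hx0
  · rw [map_zero, sub_zero]; exact Or.inl rfl
  have hπ0' : (⟨(π' : Ω), hπN⟩ : N) ≠ 0 := by
    intro h
    exact coe_ne hπ0 (congrArg Subtype.val h)
  have hx0' : (⟨(x : Ω), hxN⟩ : N) ≠ 0 := by
    intro h
    exact coe_ne hx0 (congrArg Subtype.val h)
  obtain ⟨c, hc, hci⟩ := exists_rep V hπ0' hπ ⟨(x : Ω), hxN⟩ hx0'
  have hwx := hx.le (coe_ne hx0)
  have hxe : x = ∑ i : Fin (finrank K N), c i • π' ^ (i : ℕ) := by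
    apply Subtype.ext
    have := congrArg Subtype.val hc
    push_cast at this ⊢
    exact this
  have h1 : ((σ x - x : L) : Ω) = ∑ i : Fin (finrank K N), algebraMap K Ω (c i) *
      ((((σ π' - π' : L)) : Ω) * ∑ j ∈ Finset.range (i : ℕ), ((σ π' : L) : Ω) ^ j * (π' : Ω) ^ ((i : ℕ) - 1 - j)) := by
    have h2 : σ x - x = ∑ i : Fin (finrank K N), c i • (σ π' ^ (i : ℕ) - π' ^ (i : ℕ)) := by
      conv_lhs => rw [hxe]
      rw [map_sum, ← Finset.sum_sub_distrib]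
      refine Finset.sum_congr rfl fun i _ => ?_
      have h4 : σ (c i • π' ^ (i : ℕ)) = c i • σ π' ^ (i : ℕ) := by
        rw [Algebra.smul_def, map_mul, AlgEquiv.commutes, map_pow, ← Algebra.smul_def]
      rw [h4, smul_sub]
    rw [h2]
    push_cast
    refine Finset.sum_congr rfl fun i _ => ?_
    rw [Algebra.smul_def]
    congr 1
    have h3 := (Commute.all ((σ π' : L) : Ω) (π' : Ω)).mul_geom_sum₂ (i : ℕ)
    rw [← h3]
  rw [h1]
  refine Ge.sum _ _ fun i _ => ?_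
  have hϖge : V.Ge 0 (π' : Ω) := by
    right
    by_contra hcon
    push Not at hcon
    have hd : (0 : ℚ) < finrank K N := by exact_mod_cast finrank_pos (R := K) (M := N)
    nlinarith
  have hσϖ : V.Ge 0 ((σ π' : L) : Ω) := Or.inr (by
    rw [w_coe_aut]; exact hϖge.le (coe_ne hπ0))
  rw [mul_comm]
  have hco : V.Ge 0 (algebraMap K Ω (c i)) :=
    w_coeff V (L := N) hπ0' hπ i.2 hwx (hci i)
  refine Ge.mul0 (Ge.mul0 (ge_w _) ?_) hco
  refine Ge.sum _ _ fun j _ => ?_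
  exact (hσϖ.pow j).mul0 (hϖge.pow _)

section Tower

variable {ϖ : L} (hϖ0 : ϖ ≠ 0) (hϖ : (finrank K L : ℚ) * V.w (ϖ : Ω) = 1)
  {N : IntermediateField K Ω} [FiniteDimensional K N] (H : Subgroup (L ≃ₐ[K] L))
  [DecidablePred (· ∈ H)]
  (hNH : ∀ x : L, (∀ h ∈ H, h x = x) → (x : Ω) ∈ N)
  {π' : L} (hπN : (π' : Ω) ∈ N) (hπ0 : π' ≠ 0) (hπ : (finrank K N : ℚ) * V.w (π' : Ω) = 1)

include hϖ0 hϖ hNH hπN hπ0 hπ in
/-- **Half of Herbrand's lemma.** -/
theorem herbrand_le {τ : L ≃ₐ[K] L} (hτ : τ ∉ H) :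
    ri V π' τ ≤ ∑ h ∈ Finset.univ.filter (· ∈ H), ri V ϖ (τ * h) := by
  classical
  obtain ⟨S, hS⟩ : ∃ S : Finset (L ≃ₐ[K] L), S = Finset.univ.filter (· ∈ H) := ⟨_, rfl⟩
  have hSmem : ∀ σ, σ ∈ S ↔ σ ∈ H := fun σ => by rw [hS]; simp
  rw [← hS]
  obtain ⟨f, hf⟩ : ∃ f : L[X], f = ∏ h ∈ S, (X - C (h ϖ)) := ⟨_, rfl⟩
  have hmapL : ∀ σ : L ≃ₐ[K] L, f.map (σ : L →+* L) = ∏ h ∈ S, (X - C (σ (h ϖ))) := by
    intro σ
    rw [hf, Polynomial.map_prod]
    refine Finset.prod_congr rfl fun h _ => ?_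
    rw [Polynomial.map_sub, map_X, map_C]
    rfl
  have hfix : ∀ j, (f.coeff j : Ω) ∈ N := by
    intro j
    refine hNH _ fun h hh => ?_
    have h1 : f.map (h : L →+* L) = f := by
      rw [hmapL, hf]
      refine Finset.prod_bij' (fun g _ => h * g) (fun g _ => h⁻¹ * g) ?_ ?_ ?_ ?_ ?_
      · intro g hg; rw [hSmem] at hg ⊢; exact H.mul_mem hh hg
      · intro g hg; rw [hSmem] at hg ⊢; exact H.mul_mem (H.inv_mem hh) hg
      · intro g hg; simp
      · intro g hg; simp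
      · intro g hg; rfl
    conv_rhs => rw [← h1]
    rw [coeff_map]
    rfl
  have hϖge : V.Ge 0 (ϖ : Ω) := by
    right
    by_contra hcon
    push Not at hcon
    have hd : (0 : ℚ) < finrank K L := by exact_mod_cast finrank_pos (R := K) (M := L)
    nlinarith
  have hint : ∀ j, V.Ge 0 ((f.coeff j : L) : Ω) := by
    intro j
    have h1 : ((f.coeff j : L) : Ω) = (∏ h ∈ S, (X - C ((h ϖ : L) : Ω))).coeff j := by
      have h2 : f.map (algebraMap L Ω) = ∏ h ∈ S, (X - C ((h ϖ : L) : Ω)) := by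
        rw [hf, Polynomial.map_prod]
        refine Finset.prod_congr rfl fun h _ => ?_
        rw [Polynomial.map_sub, map_X, map_C]
        rfl
      rw [← h2, coeff_map]
      rfl
    rw [h1]
    refine ge_coeff_prod V S _ (fun h _ i => ?_) j
    rw [coeff_sub, coeff_X, coeff_C]
    refine Ge.sub ?_ ?_
    · split_ifs
      · exact ge_one
      · exact ge_zero _
    · split_ifs
      · right
        rw [w_coe_aut]
        exact hϖge.le (coe_ne hϖ0)
      · exact ge_zero _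
  have h1S : (1 : L ≃ₐ[K] L) ∈ S := (hSmem _).2 H.one_mem
  have hf0 : f.eval ϖ = 0 := by
    rw [hf, eval_prod]
    exact Finset.prod_eq_zero h1S (by simp)
  have hτf : (f.map (τ : L →+* L)).eval ϖ = ∏ h ∈ S, (ϖ - (τ * h) ϖ) := by
    rw [hmapL, eval_prod]
    refine Finset.prod_congr rfl fun h _ => ?_
    rw [eval_sub, eval_X, eval_C]
    rfl
  have hdiff : (f.map (τ : L →+* L)).eval ϖ =
      ∑ j ∈ Finset.range (f.natDegree + 1), (τ (f.coeff j) - f.coeff j) * ϖ ^ j := by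
    have e1 : (f.map (τ : L →+* L)).eval ϖ =
        ∑ j ∈ Finset.range (f.natDegree + 1), τ (f.coeff j) * ϖ ^ j := by
      rw [eval_map, eval₂_eq_sum_range]
      rfl
    have e2 : f.eval ϖ = ∑ j ∈ Finset.range (f.natDegree + 1), f.coeff j * ϖ ^ j := by
      rw [eval_eq_sum_range]
    rw [e1]
    have e3 : ∑ j ∈ Finset.range (f.natDegree + 1), (τ (f.coeff j) - f.coeff j) * ϖ ^ j =
        ∑ j ∈ Finset.range (f.natDegree + 1), τ (f.coeff j) * ϖ ^ j -
        ∑ j ∈ Finset.range (f.natDegree + 1), f.coeff j * ϖ ^ j := by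
      rw [← Finset.sum_sub_distrib]
      exact Finset.sum_congr rfl fun j _ => sub_mul _ _ _
    rw [e3, ← e2, hf0, sub_zero]
  have hne1 : ∀ h ∈ S, τ * h ≠ 1 := by
    intro h hh h1
    apply hτ
    have : τ = h⁻¹ := eq_inv_of_mul_eq_one_left h1
    rw [this]
    exact H.inv_mem ((hSmem _).1 hh)
  have hge : V.Ge (ri V π' τ) (((f.map (τ : L →+* L)).eval ϖ : L) : Ω) := by
    rw [hdiff]
    push_cast
    refine Ge.sum _ _ fun j _ => ?_
    have h1 := ge_aut_sub_sub V hπN hπ0 hπ τ (hfix j) (hint j)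
    push_cast at h1
    exact h1.mul0 (hϖge.pow j)
  have hprod : V.w (((f.map (τ : L →+* L)).eval ϖ : L) : Ω) = ∑ h ∈ S, ri V ϖ (τ * h) := by
    rw [hτf]
    push_cast
    rw [w_prod]
    · refine Finset.sum_congr rfl fun h hh => ?_
      rw [ri, AddSubgroupClass.coe_sub, w_sub_comm]
    · intro h hh h0
      have h2 := coe_ne (sub_ne_zero_of V hϖ0 hϖ (hne1 h hh))
      apply h2
      rw [AddSubgroupClass.coe_sub, ← neg_sub, h0, neg_zero]
  rw [← hprod]
  refine hge.le ?_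
  rw [hτf]
  refine coe_ne (Finset.prod_ne_zero_iff.2 fun h hh => ?_)
  intro h0
  apply sub_ne_zero_of V hϖ0 hϖ (hne1 h hh)
  rw [← neg_sub, h0, neg_zero]

include hϖ0 hϖ in
/-- the ultrametric inequality for `i` -/
theorem ri_mul_le {τ h : L ≃ₐ[K] L} (hh : h ≠ 1)
    (hle : ri V ϖ (τ * h) ≤ ri V ϖ τ) : ri V ϖ (τ * h) ≤ ri V ϖ h := by
  have h1 : V.w ((τ (h ϖ - ϖ) : L) : Ω) = ri V ϖ h := by rw [w_coe_aut]; rfl
  have h2 : ((τ (h ϖ - ϖ) : L) : Ω) = (((τ * h) ϖ - ϖ : L) : Ω) - ((τ ϖ - ϖ : L) : Ω) := by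
    rw [map_sub, AlgEquiv.mul_apply]
    push_cast
    ring
  have h3 : V.Ge (ri V ϖ (τ * h)) ((τ (h ϖ - ϖ) : L) : Ω) := by
    rw [h2]
    exact Ge.sub (ge_w _) (Or.inr hle)
  rw [← h1]
  refine h3.le (coe_ne ?_)
  rw [ne_eq, _root_.map_eq_zero]
  exact sub_ne_zero_of V hϖ0 hϖ hh

variable (G1 : Subgroup (L ≃ₐ[K] L)) [DecidablePred (· ∈ G1)] [IsGalois K L]

include hϖ0 hϖ hNH hπN hπ0 hπ in
/-- **The lower bound.** -/
theorem lower [DecidableEq (L ≃ₐ[K] L)] (hHG : H ≤ G1) {I0 : ℚ} (hI : ∀ τ ∈ G1, τ ∉ H → ri V π' τ = I0)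
    {e : ℕ} (hG1 : e * Nat.card G1 = finrank K L) (hH : p * Nat.card H = Nat.card G1)
    {σ1 : L ≃ₐ[K] L} (hmax : ∀ σ : L ≃ₐ[K] L, σ ≠ 1 → ri V ϖ σ ≤ ri V ϖ σ1) :
    p * I0 + 1 - 1 / e ≤ ri V ϖ σ1 + ∑ σ ∈ Finset.univ.erase (1 : L ≃ₐ[K] L), ri V ϖ σ := by
  obtain ⟨n, hn⟩ : ∃ n, n = finrank K L := ⟨_, rfl⟩
  rw [← hn] at hG1
  have hn0 : 0 < n := by rw [hn]; exact finrank_pos
  have hnQ : (0 : ℚ) < n := by exact_mod_cast hn0
  have hwϖ : V.w (ϖ : Ω) = 1 / n := by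
    have hϖ' : (n : ℚ) * V.w (ϖ : Ω) = 1 := by rw [hn]; exact hϖ
    field_simp
    linarith
  have he0 : 0 < e := by
    rcases Nat.eq_zero_or_pos e with h | h
    · rw [h, zero_mul] at hG1; omega
    · exact h
  have heQ : (0 : ℚ) < e := by exact_mod_cast he0
  obtain ⟨SH, hSH⟩ : ∃ S : Finset (L ≃ₐ[K] L), S = Finset.univ.filter (· ∈ H) := ⟨_, rfl⟩
  obtain ⟨S1, hS1⟩ : ∃ S : Finset (L ≃ₐ[K] L), S = Finset.univ.filter (fun σ => σ ∈ G1 ∧ σ ∉ H) :=
    ⟨_, rfl⟩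
  obtain ⟨S2, hS2⟩ : ∃ S : Finset (L ≃ₐ[K] L), S = Finset.univ.filter (fun σ => σ ∉ G1) := ⟨_, rfl⟩
  have mSH : ∀ σ, σ ∈ SH ↔ σ ∈ H := fun σ => by rw [hSH]; simp
  have mS1 : ∀ σ, σ ∈ S1 ↔ σ ∈ G1 ∧ σ ∉ H := fun σ => by rw [hS1]; simp
  have mS2 : ∀ σ, σ ∈ S2 ↔ σ ∉ G1 := fun σ => by rw [hS2]; simp
  have cSH : (SH.card : ℕ) = Nat.card H := by
    rw [hSH, Nat.card_eq_fintype_card, Fintype.card_subtype]
  have cU : (Finset.univ : Finset (L ≃ₐ[K] L)).card = n := by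
    rw [Finset.card_univ, ← Nat.card_eq_fintype_card, IsGalois.card_aut_eq_finrank, hn]
  have cG1 : (Finset.univ.filter (· ∈ G1)).card = Nat.card G1 := by
    rw [Nat.card_eq_fintype_card, Fintype.card_subtype]
  have cG1' : SH.card + S1.card = Nat.card G1 := by
    rw [← cG1, ← Finset.card_union_of_disjoint]
    · congr 1
      ext σ
      rw [Finset.mem_union, mSH, mS1, Finset.mem_filter]
      constructor
      · rintro (h | h)
        · exact ⟨Finset.mem_univ _, hHG h⟩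
        · exact ⟨Finset.mem_univ _, h.1⟩
      · rintro ⟨_, h⟩
        by_cases h1 : σ ∈ H
        · exact Or.inl h1
        · exact Or.inr ⟨h, h1⟩
    · rw [Finset.disjoint_left]
      intro σ h1 h2
      rw [mSH] at h1
      rw [mS1] at h2
      exact h2.2 h1
  have cS2 : Nat.card G1 + S2.card = n := by
    rw [← cG1, ← cU, ← Finset.card_union_of_disjoint]
    · congr 1
      ext σ
      simp only [Finset.mem_union, Finset.mem_filter, Finset.mem_univ, true_and, mS2, iff_true]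
      exact em _
    · rw [Finset.disjoint_left]
      intro σ h1 h2
      rw [mS2] at h2
      exact h2 (Finset.mem_filter.1 h1).2
  have hsplit : ∑ σ ∈ Finset.univ.erase (1 : L ≃ₐ[K] L), ri V ϖ σ =
      ∑ σ ∈ SH.erase 1, ri V ϖ σ + (∑ σ ∈ S1, ri V ϖ σ + ∑ σ ∈ S2, ri V ϖ σ) := by
    rw [← Finset.sum_union, ← Finset.sum_union]
    · refine Finset.sum_congr ?_ fun _ _ => rfl
      ext σ
      simp only [Finset.mem_union, Finset.mem_erase, Finset.mem_univ, and_true, mSH, mS1, mS2]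
      constructor
      · intro h
        by_cases h1 : σ ∈ H
        · exact Or.inl ⟨h, h1⟩
        · by_cases h2 : σ ∈ G1
          · exact Or.inr (Or.inl ⟨h2, h1⟩)
          · exact Or.inr (Or.inr h2)
      · rintro (h | h | h)
        · exact h.1
        · rintro rfl; exact h.2 H.one_mem
        · rintro rfl; exact h G1.one_mem
    · rw [Finset.disjoint_left]
      intro σ h1 h2
      rw [Finset.mem_erase, mSH] at h1
      rw [Finset.mem_union, mS1, mS2] at h2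
      rcases h2 with h2 | h2
      · exact h2.2 h1.2
      · exact h2 (hHG h1.2)
    · rw [Finset.disjoint_left]
      intro σ h1 h2
      rw [mS1] at h1
      rw [mS2] at h2
      exact h2 h1.1
  -- Herbrand
  have herb : ∀ τ ∈ S1, I0 ≤ ∑ h ∈ SH, ri V ϖ (τ * h) := by
    intro τ hτ
    rw [mS1] at hτ
    rw [← hI τ hτ.1 hτ.2, hSH]
    exact herbrand_le V hϖ0 hϖ H hNH hπN hπ0 hπ hτ.2
  -- (b)
  have hHpos : 0 < Nat.card H := Nat.card_pos
  have hHQ : (0 : ℚ) < Nat.card H := by exact_mod_cast hHpos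
  have hb : ((p : ℚ) - 1) * I0 ≤ ∑ σ ∈ S1, ri V ϖ σ := by
    have h1 : ∑ τ ∈ S1, ∑ h ∈ SH, ri V ϖ (τ * h) = (Nat.card H : ℚ) * ∑ σ ∈ S1, ri V ϖ σ := by
      rw [Finset.sum_comm]
      have h2 : ∀ h ∈ SH, ∑ τ ∈ S1, ri V ϖ (τ * h) = ∑ σ ∈ S1, ri V ϖ σ := by
        intro h hh
        rw [mSH] at hh
        refine Finset.sum_bij' (fun g _ => g * h) (fun g _ => g * h⁻¹) ?_ ?_ ?_ ?_ ?_
        · intro g hg
          rw [mS1] at hg ⊢
          exact ⟨G1.mul_mem hg.1 (hHG hh), fun h3 => hg.2 ((H.mul_mem_cancel_right hh).1 h3)⟩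
        · intro g hg
          rw [mS1] at hg ⊢
          exact ⟨G1.mul_mem hg.1 (hHG (H.inv_mem hh)), fun h3 =>
            hg.2 ((H.mul_mem_cancel_right (H.inv_mem hh)).1 h3)⟩
        · intro g hg; simp
        · intro g hg; simp
        · intro g hg; rfl
      rw [Finset.sum_congr rfl h2, Finset.sum_const, cSH, nsmul_eq_mul]
    have h3 : (S1.card : ℚ) * I0 ≤ ∑ τ ∈ S1, ∑ h ∈ SH, ri V ϖ (τ * h) := by
      rw [← nsmul_eq_mul, ← Finset.sum_const]
      exact Finset.sum_le_sum herb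
    have h4 : (S1.card : ℚ) = ((p : ℚ) - 1) * Nat.card H := by
      have h5 : (Nat.card H : ℚ) + S1.card = p * Nat.card H := by
        have := cG1'
        rw [cSH, ← hH] at this
        exact_mod_cast this
      linarith
    rw [h1, h4] at h3
    rw [← mul_le_mul_iff_right₀ hHQ]
    calc (Nat.card H : ℚ) * (((p : ℚ) - 1) * I0) = ((p : ℚ) - 1) * Nat.card H * I0 := by ring
      _ ≤ _ := h3
  -- (c)
  have hc : I0 ≤ ri V ϖ σ1 + ∑ σ ∈ SH.erase 1, ri V ϖ σ := by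
    have hS1ne : S1.Nonempty := by
      rw [← Finset.card_pos]
      have h5 : (Nat.card H) + S1.card = p * Nat.card H := by
        have := cG1'
        rw [cSH, ← hH] at this
        exact this
      have hp2 := hp.out.two_le
      have : 2 * Nat.card H ≤ p * Nat.card H := Nat.mul_le_mul_right _ hp2
      omega
    obtain ⟨τ0, hτ0, hτmax⟩ := Finset.exists_max_image S1 (ri V ϖ) hS1ne
    have h1H : (1 : L ≃ₐ[K] L) ∈ SH := (mSH _).2 H.one_mem
    have h1 := herb τ0 hτ0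
    rw [← Finset.add_sum_erase _ _ h1H, mul_one] at h1
    have hτ0' := (mS1 _).1 hτ0
    have hτ1 : τ0 ≠ 1 := by
      rintro rfl
      exact hτ0'.2 H.one_mem
    refine h1.trans (add_le_add (hmax τ0 hτ1) (Finset.sum_le_sum fun h hh => ?_))
    have hh' := Finset.mem_erase.1 hh
    have hhH := (mSH _).1 hh'.2
    have hτh : τ0 * h ∈ S1 := by
      rw [mS1]
      exact ⟨G1.mul_mem hτ0'.1 (hHG hhH), fun h3 => hτ0'.2 ((H.mul_mem_cancel_right hhH).1 h3)⟩
    exact ri_mul_le V hϖ0 hϖ hh'.1 (hτmax _ hτh)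
  -- (d)
  have hd : 1 - 1 / (e : ℚ) ≤ ∑ σ ∈ S2, ri V ϖ σ := by
    have h1 : (S2.card : ℚ) * (1 / n) ≤ ∑ σ ∈ S2, ri V ϖ σ := by
      rw [← nsmul_eq_mul, ← Finset.sum_const]
      refine Finset.sum_le_sum fun σ hσ => ?_
      rw [← hwϖ]
      refine ri_ge V hϖ0 hϖ ?_
      rintro rfl
      exact (mS2 _).1 hσ G1.one_mem
    refine le_trans (le_of_eq ?_) h1
    have h2 : (e : ℚ) * Nat.card G1 = n := by exact_mod_cast hG1
    have h3 : (Nat.card G1 : ℚ) + S2.card = n := by exact_mod_cast cS2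
    have h4 : (S2.card : ℚ) = n - n / e := by
      have : (Nat.card G1 : ℚ) = n / e := by field_simp; linarith
      linarith
    rw [h4]
    field_simp
  rw [hsplit]
  linarith

end Tower

end Fermat.Agent.FlatRam
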