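import Fermat.Agent.Flat.RamVal

/-!
# Finite extensions are totally ramified
-/

set_option autoImplicit false
set_option linter.unusedSectionVars false
set_option linter.style.haveILetI false

noncomputable section

namespace Fermat.Agent.FlatRam

open Polynomial IntermediateField RVal Module

variable {K Ω : Type*} [Field K] [CharZero K] [Field Ω] [CharZero Ω] [Algebra K Ω] [Normal K Ω]
  [IsAlgClosed Ω] {p : ℕ} [hp : Fact p.Prime] (V : RVal K Ω p)
  (E : IntermediateField K Ω) [FiniteDimensional K E]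

/-- values on a finite extension -/
theorem exists_int {x : E} (hx : x ≠ 0) : ∃ n : ℤ, (finrank K E : ℚ) * V.w (x : Ω) = n := by
  have h1 := Algebra.norm_eq_prod_embeddings K Ω x
  have h2 : Algebra.norm K x ≠ 0 := Algebra.norm_ne_zero_iff.2 hx
  obtain ⟨n, hn⟩ := V.w_int _ h2
  refine ⟨n, ?_⟩
  rw [← hn, h1, w_prod _ _ (fun σ _ => by rwa [ne_eq, _root_.map_eq_zero]),
    Finset.sum_congr rfl (fun σ _ => w_embed (V := V) E σ x), Finset.sum_const, Finset.card_univ,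
    AlgHom.card, nsmul_eq_mul]

theorem ge_trace {x : E} {t : ℚ} (hx : V.Ge t (x : Ω)) :
    V.Ge t (algebraMap K Ω (Algebra.trace K E x)) := by
  rw [trace_eq_sum_embeddings (K := K) (L := E) Ω]
  refine Ge.sum _ _ fun σ _ => ?_
  rcases hx with hx | hx
  · left
    have : x = 0 := Subtype.ext hx
    rw [this, map_zero]
  · right
    rwa [w_embed (V := V) E σ x]

/-- linear functionals are continuous -/
theorem exists_bound (f : Dual K E) : ∃ c : ℚ, ∀ (x : E) (t : ℚ), V.Ge t (x : Ω) →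
    V.Ge (c + t) (algebraMap K Ω (f x)) := by
  let e := (Algebra.traceForm K E).toDual (traceForm_nondegenerate K E)
  obtain ⟨z, hz⟩ := e.surjective f
  refine ⟨V.w (z : Ω), fun x t hx => ?_⟩
  have h1 : f x = Algebra.trace K E (z * x) := by
    rw [← hz]
    exact LinearMap.BilinForm.toDual_def (traceForm_nondegenerate K E)
  rw [h1]
  apply ge_trace
  exact (ge_w _).mul hx

variable {E}

/-- the step of the approximation -/
theorem approx_step {e : ℕ} (he : 0 < e) {ϖ : E} (hϖ0 : ϖ ≠ 0) (hϖ : (e : ℚ) * V.w (ϖ : Ω) = 1)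
    (hE : ∀ x : E, x ≠ 0 → ∃ n : ℤ, (e : ℚ) * V.w (x : Ω) = n) (m : ℤ) (x : E)
    (hx : V.Ge ((m : ℚ) / e) (x : Ω)) :
    ∃ s ∈ Submodule.span K (Set.range fun i : Fin e => ϖ ^ (i : ℕ)),
      V.Ge (((m + 1 : ℤ) : ℚ) / e) ((x - s : E) : Ω) := by
  have he' : (0 : ℚ) < e := by exact_mod_cast he
  have hup : ∀ y : E, V.Gt ((m : ℚ) / e) (y : Ω) → V.Ge (((m + 1 : ℤ) : ℚ) / e) (y : Ω) := by
    intro y hy
    rcases hy with hy | hy
    · exact Or.inl hy
    · rcases eq_or_ne y 0 with rfl | hy0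
      · exact Or.inl rfl
      obtain ⟨n, hn⟩ := hE y hy0
      right
      rw [div_lt_iff₀ he', mul_comm, hn] at hy
      rw [div_le_iff₀ he', mul_comm, hn]
      have : m < n := by exact_mod_cast hy
      exact_mod_cast this
  by_cases hgt : V.Gt ((m : ℚ) / e) (x : Ω)
  · refine ⟨0, Submodule.zero_mem _, ?_⟩
    rw [sub_zero]
    exact hup x hgt
  · have hx0 : (x : Ω) ≠ 0 := fun h => hgt (Or.inl h)
    have hw : V.w (x : Ω) = (m : ℚ) / e := by
      refine le_antisymm ?_ (hx.le hx0)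
      by_contra hcon
      push Not at hcon
      exact hgt (Or.inr hcon)
    obtain ⟨q, r, hr, hmq⟩ : ∃ (q : ℤ) (r : ℕ), r < e ∧ m = e * q + r := by
      refine ⟨m / e, (m % e).toNat, ?_, ?_⟩
      · have h1 := Int.emod_lt_of_pos m (show (0 : ℤ) < e by exact_mod_cast he)
        have h2 := Int.emod_nonneg m (show (e : ℤ) ≠ 0 by exact_mod_cast he.ne')
        omega
      · have h2 := Int.emod_nonneg m (show (e : ℤ) ≠ 0 by exact_mod_cast he.ne')
        rw [Int.toNat_of_nonneg h2]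
        exact (Int.mul_ediv_add_emod m e).symm
    have hϖΩ : (ϖ : Ω) ≠ 0 := fun h => hϖ0 (Subtype.ext h)
    have hp0 := p_ne_zero V
    have hd0 : (p : Ω) ^ q * (ϖ : Ω) ^ r ≠ 0 := mul_ne_zero (zpow_ne_zero _ hp0) (pow_ne_zero _ hϖΩ)
    have hd : V.w ((p : Ω) ^ q * (ϖ : Ω) ^ r) = (m : ℚ) / e := by
      rw [w_mul (zpow_ne_zero _ hp0) (pow_ne_zero _ hϖΩ), w_zpow hp0, w_pow hϖΩ, V.w_p, hmq]
      push_cast
      rw [eq_div_iff he'.ne']
      linear_combination (r : ℚ) * hϖ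
    obtain ⟨a, ha, hxa⟩ := V.res ((x : Ω) / ((p : Ω) ^ q * (ϖ : Ω) ^ r)) (div_ne_zero hx0 hd0)
      (by rw [w_div hx0 hd0, hw, hd, sub_self])
    refine ⟨(a * (p : K) ^ q) • ϖ ^ r, Submodule.smul_mem _ _ (Submodule.subset_span ⟨⟨r, hr⟩, rfl⟩), ?_⟩
    apply hup
    have h3 : ((x - (a * (p : K) ^ q) • ϖ ^ r : E) : Ω) =
        ((p : Ω) ^ q * (ϖ : Ω) ^ r) * ((x : Ω) / ((p : Ω) ^ q * (ϖ : Ω) ^ r) - algebraMap K Ω a) := by
      rw [mul_sub, mul_div_cancel₀ _ hd0]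
      have : (((a * (p : K) ^ q) • ϖ ^ r : E) : Ω) = algebraMap K Ω (a * (p : K) ^ q) * (ϖ : Ω) ^ r := by
        rw [Algebra.smul_def]
        rfl
      rw [AddSubgroupClass.coe_sub, this, map_mul, map_zpow₀, map_natCast]
      ring
    rw [h3, mul_comm]
    have h4 : V.Gt 0 ((x : Ω) / ((p : Ω) ^ q * (ϖ : Ω) ^ r) - algebraMap K Ω a) := hxa
    have := h4.mul (V.ge_w ((p : Ω) ^ q * (ϖ : Ω) ^ r))
    rwa [zero_add, hd] at this

theorem approx {e : ℕ} (he : 0 < e) {ϖ : E} (hϖ0 : ϖ ≠ 0) (hϖ : (e : ℚ) * V.w (ϖ : Ω) = 1)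
    (hE : ∀ x : E, x ≠ 0 → ∃ n : ℤ, (e : ℚ) * V.w (x : Ω) = n) (m : ℤ) (x : E)
    (hx : V.Ge ((m : ℚ) / e) (x : Ω)) (j : ℕ) :
    ∃ s ∈ Submodule.span K (Set.range fun i : Fin e => ϖ ^ (i : ℕ)),
      V.Ge (((m + j : ℤ) : ℚ) / e) ((x - s : E) : Ω) := by
  induction j with
  | zero => exact ⟨0, Submodule.zero_mem _, by simpa using hx⟩
  | succ j ih =>
    obtain ⟨s, hs, hxs⟩ := ih
    obtain ⟨s', hs', hxs'⟩ := approx_step V he hϖ0 hϖ hE (m + j) (x - s) hxs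
    refine ⟨s + s', Submodule.add_mem _ hs hs', ?_⟩
    have h1 : x - (s + s') = x - s - s' := by ring
    rw [h1]
    have h2 : (m + ((j + 1 : ℕ) : ℤ)) = m + j + 1 := by push_cast; ring
    rw [h2]
    exact hxs'

/-- the powers of a uniformizer span -/
theorem span_eq_top {e : ℕ} (he : 0 < e) {ϖ : E} (hϖ0 : ϖ ≠ 0) (hϖ : (e : ℚ) * V.w (ϖ : Ω) = 1)
    (hE : ∀ x : E, x ≠ 0 → ∃ n : ℤ, (e : ℚ) * V.w (x : Ω) = n) :
    Submodule.span K (Set.range fun i : Fin e => ϖ ^ (i : ℕ)) = ⊤ := by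
  by_contra hne
  obtain ⟨x, hx⟩ : ∃ x : E, x ∉ Submodule.span K (Set.range fun i : Fin e => ϖ ^ (i : ℕ)) := by
    by_contra hcon
    push Not at hcon
    exact hne (Submodule.eq_top_iff'.2 hcon)
  obtain ⟨f, hfx, hf⟩ := Submodule.exists_dual_map_eq_bot_of_notMem hx inferInstance
  obtain ⟨c, hc⟩ := exists_bound V E f
  have hx0 : x ≠ 0 := by rintro rfl; exact hx (Submodule.zero_mem _)
  obtain ⟨m, hm⟩ := hE x hx0
  have he' : (0 : ℚ) < e := by exact_mod_cast he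
  have hw : V.w (x : Ω) = (m : ℚ) / e := by rw [← hm]; field_simp
  have hfx' : algebraMap K Ω (f x) ≠ 0 := by rwa [ne_eq, _root_.map_eq_zero]
  have key : ∀ j : ℕ, c + ((m + j : ℤ) : ℚ) / e ≤ V.w (algebraMap K Ω (f x)) := by
    intro j
    obtain ⟨s, hs, hxs⟩ := approx V he hϖ0 hϖ hE m x (Or.inr hw.ge) j
    have h1 : f s = 0 := by
      have : f s ∈ Submodule.map f (Submodule.span K (Set.range fun i : Fin e => ϖ ^ (i : ℕ))) :=
        Submodule.mem_map_of_mem hs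
      rw [hf] at this
      exact (Submodule.mem_bot K).1 this
    have h2 := hc (x - s) _ hxs
    rw [map_sub, h1, sub_zero] at h2
    exact h2.le hfx'
  obtain ⟨j, hj⟩ := exists_nat_gt (e * (V.w (algebraMap K Ω (f x)) - c) - m)
  have h3 := key j
  have h4 : c + ((m + j : ℤ) : ℚ) / e > V.w (algebraMap K Ω (f x)) := by
    push_cast
    rw [gt_iff_lt, ← sub_lt_iff_lt_add', lt_div_iff₀ he']
    linarith
  linarith

theorem exists_unif : ∃ ϖ : E, ϖ ≠ 0 ∧ (finrank K E : ℚ) * V.w (ϖ : Ω) = 1 := by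
  classical
  set d := finrank K E with hd
  have hd0 : 0 < d := finrank_pos
  have hdQ : (0 : ℚ) < d := by exact_mod_cast hd0
  have hex : ∃ n : ℕ, 0 < n ∧ ∃ x : E, x ≠ 0 ∧ (d : ℚ) * V.w (x : Ω) = n := by
    refine ⟨d, hd0, (p : E), ?_, ?_⟩
    · exact Nat.cast_ne_zero.2 hp.out.ne_zero
    · have : ((p : E) : Ω) = p := by simp
      rw [this, V.w_p, mul_one]
  obtain ⟨hn0, ϖ, hϖ0, hϖ⟩ := Nat.find_spec hex
  set n0 := Nat.find hex with hn0def
  have hmin : ∀ m : ℕ, m < n0 → ¬ (0 < m ∧ ∃ x : E, x ≠ 0 ∧ (d : ℚ) * V.w (x : Ω) = m) :=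
    fun m hm => Nat.find_min hex hm
  have hn0Q : (0 : ℚ) < n0 := by exact_mod_cast hn0
  have hϖΩ : (ϖ : Ω) ≠ 0 := fun h => hϖ0 (Subtype.ext h)
  -- all values are multiples
  have hmul : ∀ x : E, x ≠ 0 → ∃ q : ℤ, V.w (x : Ω) = q * V.w (ϖ : Ω) := by
    intro x hx
    obtain ⟨N, hN⟩ := exists_int V E hx
    have hxΩ : (x : Ω) ≠ 0 := fun h => hx (Subtype.ext h)
    refine ⟨N / n0, ?_⟩
    have hn0Z : (n0 : ℤ) ≠ 0 := by exact_mod_cast hn0.ne'
    have h1 := Int.emod_nonneg N hn0Z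
    have h2 := Int.emod_lt_of_pos N (show (0 : ℤ) < n0 by exact_mod_cast hn0)
    have h3 := Int.mul_ediv_add_emod N n0
    have h4 : (d : ℚ) * V.w ((x * ϖ ^ (-(N / n0)) : E) : Ω) = ((N % n0).toNat : ℚ) := by
      have h5 : ((x * ϖ ^ (-(N / n0)) : E) : Ω) = (x : Ω) * (ϖ : Ω) ^ (-(N / n0)) := by
        push_cast
        rfl
      rw [h5, w_mul hxΩ (zpow_ne_zero _ hϖΩ), w_zpow hϖΩ, mul_add, hN]
      have h6 : (d : ℚ) * (((-(N / n0 : ℤ) : ℤ) : ℚ) * V.w (ϖ : Ω)) =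
          ((-(N / n0 : ℤ) : ℤ) : ℚ) * n0 := by rw [← hϖ]; ring
      rw [h6]
      have h7 : ((N % n0).toNat : ℚ) = ((N % n0 : ℤ) : ℚ) := by
        have := Int.toNat_of_nonneg h1
        exact_mod_cast this
      rw [h7]
      have h8 : (N : ℚ) = n0 * ((N / n0 : ℤ) : ℚ) + ((N % n0 : ℤ) : ℚ) := by
        exact_mod_cast h3.symm
      rw [h8]
      push_cast
      ring
    have h9 : (N % n0).toNat = 0 := by
      by_contra hne
      refine hmin (N % n0).toNat (by omega) ⟨Nat.pos_of_ne_zero hne, _, ?_, h4⟩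
      exact mul_ne_zero hx (zpow_ne_zero _ hϖ0)
    have h10 : N % n0 = 0 := by omega
    rw [h10, add_zero] at h3
    have h11 : (d : ℚ) * V.w (x : Ω) = d * (((N / n0 : ℤ) : ℚ) * V.w (ϖ : Ω)) := by
      rw [hN]
      have : (d : ℚ) * (((N / n0 : ℤ) : ℚ) * V.w (ϖ : Ω)) = n0 * ((N / n0 : ℤ) : ℚ) := by
        rw [← hϖ]; ring
      rw [this]
      exact_mod_cast h3.symm
    exact mul_left_cancel₀ hdQ.ne' h11
  -- the ramification index
  have hwpos : 0 < V.w (ϖ : Ω) := by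
    by_contra hcon
    push Not at hcon
    have := mul_nonpos_of_nonneg_of_nonpos hdQ.le hcon
    rw [hϖ] at this
    linarith
  obtain ⟨e, he, heϖ⟩ : ∃ e : ℕ, 0 < e ∧ (e : ℚ) * V.w (ϖ : Ω) = 1 := by
    obtain ⟨q, hq⟩ := hmul (p : E) (Nat.cast_ne_zero.2 hp.out.ne_zero)
    have : ((p : E) : Ω) = p := by simp
    rw [this, V.w_p] at hq
    have hqpos : 0 < q := by
      by_contra hcon
      push Not at hcon
      have h1 : (q : ℚ) ≤ 0 := by exact_mod_cast hcon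
      nlinarith
    refine ⟨q.toNat, by omega, ?_⟩
    have h2 : ((q.toNat : ℕ) : ℚ) = q := by exact_mod_cast Int.toNat_of_nonneg hqpos.le
    rw [h2, ← hq]
  have hE : ∀ x : E, x ≠ 0 → ∃ n : ℤ, (e : ℚ) * V.w (x : Ω) = n := by
    intro x hx
    obtain ⟨q, hq⟩ := hmul x hx
    exact ⟨q, by rw [hq, mul_left_comm, heϖ, mul_one]⟩
  have hspan := span_eq_top V he hϖ0 heϖ hE
  have hde : d ≤ e := by
    have h1 := finrank_range_le_card (R := K) (fun i : Fin e => ϖ ^ (i : ℕ))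
    rw [Fintype.card_fin, Set.finrank, hspan, finrank_top] at h1
    exact h1
  -- conclude
  have h1 : (d : ℚ) * V.w (ϖ : Ω) ≤ e * V.w (ϖ : Ω) :=
    mul_le_mul_of_nonneg_right (by exact_mod_cast hde) hwpos.le
  rw [hϖ, heϖ] at h1
  have h2 : n0 = 1 := by
    have : n0 ≤ 1 := by exact_mod_cast h1
    omega
  refine ⟨ϖ, hϖ0, ?_⟩
  rw [hϖ, h2, Nat.cast_one]

/-- the ring of integers is generated by a uniformizer -/
theorem exists_rep {ϖ : E} (hϖ0 : ϖ ≠ 0) (hϖ : (finrank K E : ℚ) * V.w (ϖ : Ω) = 1) (x : E)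
    (hx0 : x ≠ 0) :
    ∃ c : Fin (finrank K E) → K, x = ∑ i, c i • ϖ ^ (i : ℕ) ∧
      ∀ i, V.Ge (V.w (x : Ω)) (algebraMap K Ω (c i) * (ϖ : Ω) ^ (i : ℕ)) := by
  classical
  set d := finrank K E with hd
  have hd0 : 0 < d := finrank_pos
  have hdQ : (0 : ℚ) < d := by exact_mod_cast hd0
  have hϖΩ : (ϖ : Ω) ≠ 0 := fun h => hϖ0 (Subtype.ext h)
  have hspan := span_eq_top V hd0 hϖ0 hϖ (fun x hx => exists_int V E hx)
  obtain ⟨c, hc⟩ := (Submodule.mem_span_range_iff_exists_fun K).1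
    (show x ∈ Submodule.span K (Set.range fun i : Fin d => ϖ ^ (i : ℕ)) by
      rw [hspan]; exact Submodule.mem_top)
  refine ⟨c, hc.symm, ?_⟩
  -- the term of minimal valuation
  let S : Finset (Fin d) := Finset.univ.filter fun i => c i ≠ 0
  have hS : S.Nonempty := by
    rw [Finset.nonempty_iff_ne_empty]
    intro hS
    apply hx0
    rw [← hc]
    refine Finset.sum_eq_zero fun i _ => ?_
    have : c i = 0 := by
      by_contra hne
      have : i ∈ S := Finset.mem_filter.2 ⟨Finset.mem_univ i, hne⟩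
      rw [hS] at this
      exact absurd this (Finset.notMem_empty i)
    rw [this, zero_smul]
  let T : Fin d → Ω := fun i => algebraMap K Ω (c i) * (ϖ : Ω) ^ (i : ℕ)
  have hT0 : ∀ i ∈ S, T i ≠ 0 := fun i hi =>
    mul_ne_zero (by rw [ne_eq, _root_.map_eq_zero]; exact (Finset.mem_filter.1 hi).2)
      (pow_ne_zero _ hϖΩ)
  have hTz : ∀ i, i ∉ S → T i = 0 := by
    intro i hi
    have : c i = 0 := by
      by_contra hne
      exact hi (Finset.mem_filter.2 ⟨Finset.mem_univ i, hne⟩)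
    simp only [T, this, map_zero, zero_mul]
  obtain ⟨i0, hi0, hmin⟩ := Finset.exists_min_image S (fun i => V.w (T i)) hS
  have hwT : ∀ i ∈ S, ∃ n : ℤ, (d : ℚ) * V.w (T i) = d * n + (i : ℕ) := by
    intro i hi
    obtain ⟨n, hn⟩ := V.w_int (c i) (Finset.mem_filter.1 hi).2
    refine ⟨n, ?_⟩
    simp only [T]
    rw [w_mul (by rw [ne_eq, _root_.map_eq_zero]; exact (Finset.mem_filter.1 hi).2)
      (pow_ne_zero _ hϖΩ), hn, w_pow hϖΩ]
    linear_combination ((i : ℕ) : ℚ) * hϖ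
  have hlt : ∀ i, i ≠ i0 → V.Gt (V.w (T i0)) (T i) := by
    intro i hi
    by_cases hiS : i ∈ S
    · right
      refine lt_of_le_of_ne (hmin i hiS) ?_
      intro heq
      obtain ⟨n, hn⟩ := hwT i hiS
      obtain ⟨n0, hn0⟩ := hwT i0 hi0
      rw [← heq, hn0] at hn
      have h1 : (d : ℤ) * n0 + (i0 : ℕ) = d * n + (i : ℕ) := by exact_mod_cast hn
      apply hi
      apply Fin.ext
      have h2 : ((i : ℕ) : ℤ) % d = ((i0 : ℕ) : ℤ) % d := by
        have h3 : ((i : ℕ) : ℤ) = (i0 : ℕ) + d * (n0 - n) := by linear_combination -h1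
        rw [h3, Int.add_mul_emod_self_left]
      rw [Int.emod_eq_of_lt (by positivity) (by exact_mod_cast i.2),
        Int.emod_eq_of_lt (by positivity) (by exact_mod_cast i0.2)] at h2
      exact_mod_cast h2
    · exact Or.inl (hTz i hiS)
  have hsum : (x : Ω) = T i0 + ∑ i ∈ Finset.univ.erase i0, T i := by
    rw [Finset.add_sum_erase _ _ (Finset.mem_univ i0), ← hc]
    simp only [T]
    push_cast
    refine Finset.sum_congr rfl fun i _ => ?_
    rw [Algebra.smul_def]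
  have hwx : V.w (x : Ω) = V.w (T i0) := by
    rw [hsum]
    exact (w_add_eq (hT0 i0 hi0) (Gt.sum _ _ fun i hi => hlt i (Finset.ne_of_mem_erase hi))).2
  intro i
  rw [hwx]
  by_cases hi : i ∈ S
  · exact Or.inr (hmin i hi)
  · exact Or.inl (hTz i hi)

theorem dvd_finrank {α : Ω} (hα0 : α ≠ 0) {m : ℕ} (hα : (m : ℚ) * V.w α = 1) :
    m ∣ finrank K K⟮α⟯ := by
  haveI : FiniteDimensional K K⟮α⟯ :=
    adjoin.finiteDimensional (Algebra.IsIntegral.isIntegral (R := K) α)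
  have hne : (⟨α, mem_adjoin_simple_self K α⟩ : K⟮α⟯) ≠ 0 := by
    intro h
    exact hα0 (congrArg Subtype.val h)
  obtain ⟨n, hn⟩ := exists_int V K⟮α⟯ hne
  have hn' : (finrank K K⟮α⟯ : ℚ) * V.w α = n := hn
  have h1 : (finrank K K⟮α⟯ : ℚ) = m * n := by
    rw [← hn', mul_left_comm, hα, mul_one]
  have h2 : (finrank K K⟮α⟯ : ℤ) = m * n := by exact_mod_cast h1
  exact Int.natCast_dvd_natCast.1 ⟨n, h2⟩

/-- a uniformizer generates -/
theorem adjoin_unif {ϖ : E} (hϖ0 : ϖ ≠ 0) (hϖ : (finrank K E : ℚ) * V.w (ϖ : Ω) = 1) :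
    K⟮(ϖ : Ω)⟯ = E := by
  have hle : K⟮(ϖ : Ω)⟯ ≤ E := by
    rw [adjoin_simple_le_iff]
    exact ϖ.2
  haveI : FiniteDimensional K K⟮(ϖ : Ω)⟯ :=
    adjoin.finiteDimensional (Algebra.IsIntegral.isIntegral (R := K) (ϖ : Ω))
  apply eq_of_le_of_finrank_le hle
  exact Nat.le_of_dvd finrank_pos (dvd_finrank V (fun h => hϖ0 (Subtype.ext h)) hϖ)

end Fermat.Agent.FlatRam
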