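import Fermat.Agent.Flat.RamUnif

/-!
# The upper bound for the ramification
-/

set_option autoImplicit false
set_option linter.unusedSectionVars false
set_option linter.style.haveILetI false

noncomputable section

namespace Fermat.Agent.FlatRam

open Polynomial IntermediateField RVal Module

variable {K Ω : Type*} [Field K] [CharZero K] [Field Ω] [CharZero Ω] [Algebra K Ω] [Normal K Ω]
  [IsAlgClosed Ω] {p : ℕ} [hp : Fact p.Prime] (V : RVal K Ω p)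
  {L : IntermediateField K Ω} [FiniteDimensional K L]

section Gal

variable {ϖ : L} (hϖ0 : ϖ ≠ 0) (hϖ : (finrank K L : ℚ) * V.w (ϖ : Ω) = 1)

/-- the ramification function -/
def ri (ϖ : L) (σ : L ≃ₐ[K] L) : ℚ := V.w (((σ ϖ - ϖ : L)) : Ω)

include hϖ0 hϖ in
theorem sub_ne_zero_of {σ : L ≃ₐ[K] L} (hσ : σ ≠ 1) : σ ϖ - ϖ ≠ 0 := by
  intro h
  apply hσ
  rw [sub_eq_zero] at h
  have h1 : ∀ x : L, σ x = x := by
    intro x
    have hx : (x : Ω) ∈ K⟮(ϖ : Ω)⟯ := by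
      rw [adjoin_unif V hϖ0 hϖ]
      exact x.2
    have key : ∀ y : Ω, y ∈ K⟮(ϖ : Ω)⟯ → ∀ hy : y ∈ L, σ ⟨y, hy⟩ = ⟨y, hy⟩ := by
      intro y hy
      induction hy using IntermediateField.adjoin_induction with
      | mem y hy =>
        intro hyL
        rw [Set.mem_singleton_iff] at hy
        subst hy
        exact h
      | algebraMap a => intro hyL; exact σ.commutes a
      | add y z hy hz ihy ihz =>
        intro hyL
        have hyL' : y ∈ L := by rw [← adjoin_unif V hϖ0 hϖ]; exact hy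
        have hzL' : z ∈ L := by rw [← adjoin_unif V hϖ0 hϖ]; exact hz
        have : (⟨y + z, hyL⟩ : L) = ⟨y, hyL'⟩ + ⟨z, hzL'⟩ := rfl
        rw [this, map_add, ihy hyL', ihz hzL']
      | inv y hy ih =>
        intro hyL
        have hyL' : y ∈ L := by rw [← adjoin_unif V hϖ0 hϖ]; exact hy
        have : (⟨y⁻¹, hyL⟩ : L) = (⟨y, hyL'⟩)⁻¹ := rfl
        rw [this, map_inv₀, ih hyL']
      | mul y z hy hz ihy ihz =>
        intro hyL
        have hyL' : y ∈ L := by rw [← adjoin_unif V hϖ0 hϖ]; exact hy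
        have hzL' : z ∈ L := by rw [← adjoin_unif V hϖ0 hϖ]; exact hz
        have : (⟨y * z, hyL⟩ : L) = ⟨y, hyL'⟩ * ⟨z, hzL'⟩ := rfl
        rw [this, map_mul, ihy hyL', ihz hzL']
    exact key x hx x.2
  exact AlgEquiv.ext h1

theorem coe_ne {x : L} (h : x ≠ 0) : (x : Ω) ≠ 0 := fun h0 => h (Subtype.ext h0)

theorem w_coe_aut (σ : L ≃ₐ[K] L) (x : L) : V.w ((σ x : L) : Ω) = V.w (x : Ω) := w_aut L σ x

include hϖ0 hϖ in
theorem ri_ge {σ : L ≃ₐ[K] L} (hσ : σ ≠ 1) : V.w (ϖ : Ω) ≤ ri V ϖ σ := by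
  have h1 : V.Ge (V.w (ϖ : Ω)) (((σ ϖ - ϖ : L)) : Ω) := by
    rw [AddSubgroupClass.coe_sub]
    exact Ge.sub (Or.inr (w_coe_aut V σ ϖ).ge) (ge_w _)
  exact h1.le (coe_ne (sub_ne_zero_of V hϖ0 hϖ hσ))

include hϖ0 hϖ in
theorem w_coeff {c : K} {i : ℕ} (hi : i < finrank K L) {x : L} (hx0 : 0 ≤ V.w (x : Ω))
    (h : V.Ge (V.w (x : Ω)) (algebraMap K Ω c * (ϖ : Ω) ^ i)) : V.Ge 0 (algebraMap K Ω c) := by
  rcases eq_or_ne c 0 with rfl | hc
  · rw [map_zero]; exact ge_zero _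
  right
  have hc' : algebraMap K Ω c ≠ 0 := by rwa [ne_eq, _root_.map_eq_zero]
  have hϖΩ := coe_ne hϖ0
  have h1 := h.le (mul_ne_zero hc' (pow_ne_zero _ hϖΩ))
  rw [w_mul hc' (pow_ne_zero _ hϖΩ), w_pow hϖΩ] at h1
  obtain ⟨n, hn⟩ := V.w_int c hc
  rw [hn] at h1 ⊢
  have hd : (0 : ℚ) < finrank K L := by exact_mod_cast finrank_pos (R := K) (M := L)
  have hw : V.w (ϖ : Ω) = 1 / finrank K L := by field_simp; linarith
  rw [hw] at h1
  have h2 : (i : ℚ) * (1 / finrank K L) < 1 := by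
    rw [mul_one_div, div_lt_one hd]
    exact_mod_cast hi
  have h3 : (-1 : ℚ) < n := by linarith
  have h4 : (-1 : ℤ) < n := by exact_mod_cast h3
  have h5 : (0 : ℤ) ≤ n := by omega
  exact_mod_cast h5

include hϖ0 hϖ in
/-- `w (σ x - x) ≥ i (σ)` for integral `x` -/
theorem ge_aut_sub (σ : L ≃ₐ[K] L) {x : L} (hx : V.Ge 0 (x : Ω)) :
    V.Ge (ri V ϖ σ) ((σ x - x : L) : Ω) := by
  rcases eq_or_ne x 0 with rfl | hx0
  · rw [map_zero, sub_zero]; exact Or.inl rfl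
  obtain ⟨c, hc, hci⟩ := exists_rep V hϖ0 hϖ x hx0
  have hwx := hx.le (coe_ne hx0)
  have h1 : ((σ x - x : L) : Ω) = ∑ i : Fin (finrank K L), algebraMap K Ω (c i) *
      ((((σ ϖ - ϖ : L)) : Ω) * ∑ j ∈ Finset.range (i : ℕ), ((σ ϖ : L) : Ω) ^ j * (ϖ : Ω) ^ ((i : ℕ) - 1 - j)) := by
    have h2 : σ x - x = ∑ i : Fin (finrank K L), c i • (σ ϖ ^ (i : ℕ) - ϖ ^ (i : ℕ)) := by
      conv_lhs => rw [hc]
      rw [map_sum, ← Finset.sum_sub_distrib]
      refine Finset.sum_congr rfl fun i _ => ?_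
      have h4 : σ (c i • ϖ ^ (i : ℕ)) = c i • σ ϖ ^ (i : ℕ) := by
        rw [Algebra.smul_def, map_mul, AlgEquiv.commutes, map_pow, ← Algebra.smul_def]
      rw [h4, smul_sub]
    rw [h2]
    push_cast
    refine Finset.sum_congr rfl fun i _ => ?_
    rw [Algebra.smul_def]
    congr 1
    have h3 := (Commute.all ((σ ϖ : L) : Ω) (ϖ : Ω)).mul_geom_sum₂ (i : ℕ)
    rw [← h3]
  rw [h1]
  refine Ge.sum _ _ fun i _ => ?_
  have hϖge : V.Ge 0 (ϖ : Ω) := by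
    right
    by_contra hcon
    push Not at hcon
    have hd : (0 : ℚ) < finrank K L := by exact_mod_cast finrank_pos (R := K) (M := L)
    nlinarith
  have hσϖ : V.Ge 0 ((σ ϖ : L) : Ω) := Or.inr (by
    rw [w_coe_aut]; exact hϖge.le (coe_ne hϖ0))
  rw [mul_comm]
  refine Ge.mul0 (Ge.mul0 (ge_w _) ?_) (w_coeff V hϖ0 hϖ i.2 hwx (hci i))
  refine Ge.sum _ _ fun j _ => ?_
  exact (hσϖ.pow j).mul0 (hϖge.pow _)

end Gal

section MinPoly

variable {ϖ : L} (hϖ0 : ϖ ≠ 0) (hϖ : (finrank K L : ℚ) * V.w (ϖ : Ω) = 1) [IsGalois K L]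

include hϖ0 hϖ in
/-- the minimal polynomial of a uniformizer -/
theorem map_minpoly : (minpoly K (ϖ : Ω)).map (algebraMap K Ω) =
    ∏ σ : L ≃ₐ[K] L, (X - C ((σ ϖ : L) : Ω)) := by
  classical
  have hint : IsIntegral K (ϖ : Ω) := Algebra.IsIntegral.isIntegral (R := K) (ϖ : Ω)
  have hinj : Function.Injective fun σ : L ≃ₐ[K] L => ((σ ϖ : L) : Ω) := by
    intro σ τ h
    have h1 : (τ⁻¹ * σ) ϖ - ϖ = 0 := by
      have h2 : σ ϖ = τ ϖ := Subtype.ext h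
      rw [AlgEquiv.mul_apply, h2]
      exact sub_eq_zero.2 (τ.symm_apply_apply ϖ)
    by_contra hne
    refine sub_ne_zero_of V hϖ0 hϖ (σ := τ⁻¹ * σ) ?_ h1
    intro h3
    exact hne (inv_mul_eq_one.1 h3).symm
  have hdvd : ∏ σ : L ≃ₐ[K] L, (X - C ((σ ϖ : L) : Ω)) ∣ (minpoly K (ϖ : Ω)).map (algebraMap K Ω) := by
    refine Finset.prod_dvd_of_coprime ?_ ?_
    · intro σ _ τ _ hστ
      exact isCoprime_X_sub_C_of_isUnit_sub (IsUnit.mk0 _ (sub_ne_zero.2 fun h => hστ (hinj h)))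
    · intro σ _
      rw [dvd_iff_isRoot, IsRoot.def, eval_map_algebraMap]
      have h1 : aeval (σ ϖ) (minpoly K (ϖ : Ω)) = 0 := by
        have h2 : minpoly K (ϖ : Ω) = minpoly K ϖ := minpoly.algebraMap_eq (algebraMap L Ω).injective ϖ
        rw [h2, aeval_algHom_apply σ ϖ, minpoly.aeval, map_zero]
      have h3 := congrArg (algebraMap L Ω) h1
      rw [← aeval_algebraMap_apply, map_zero] at h3
      exact h3
  apply eq_of_monic_of_dvd_of_natDegree_le (monic_prod_of_monic _ _ fun σ _ => monic_X_sub_C _)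
    ((minpoly.monic hint).map _) hdvd
  rw [natDegree_map, natDegree_prod_of_monic _ _ fun σ _ => monic_X_sub_C _]
  simp only [natDegree_X_sub_C, Finset.sum_const, Finset.card_univ, smul_eq_mul, mul_one]
  rw [← adjoin.finrank hint, adjoin_unif V hϖ0 hϖ, ← IsGalois.card_aut_eq_finrank,
    Nat.card_eq_fintype_card]

include hϖ0 hϖ in
theorem aeval_minpoly (α : Ω) : aeval α (minpoly K (ϖ : Ω)) =
    ∏ σ : L ≃ₐ[K] L, (α - ((σ ϖ : L) : Ω)) := by
  rw [← eval_map_algebraMap, map_minpoly V hϖ0 hϖ, eval_prod]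
  simp

include hϖ0 hϖ in
theorem natDegree_minpoly : (minpoly K (ϖ : Ω)).natDegree = finrank K L := by
  have hint : IsIntegral K (ϖ : Ω) := Algebra.IsIntegral.isIntegral (R := K) (ϖ : Ω)
  rw [← adjoin.finrank hint, adjoin_unif V hϖ0 hϖ]

end MinPoly

section Upper

variable {ϖ : L} (hϖ0 : ϖ ≠ 0) (hϖ : (finrank K L : ℚ) * V.w (ϖ : Ω) = 1) [IsGalois K L]

include hϖ0 hϖ in
theorem exists_int_ri {σ : L ≃ₐ[K] L} (hσ : σ ≠ 1) :
    ∃ m : ℤ, (finrank K L : ℚ) * ri V ϖ σ = m :=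
  exists_int V L (sub_ne_zero_of V hϖ0 hϖ hσ)

/-- Multiples of `1 / n`: a strict inequality is an inequality with a gap. -/
theorem le_sub_of_lt {n : ℕ} (hn : 0 < n) {a b : ℚ} {k l : ℤ} (ha : (n : ℚ) * a = k)
    (hb : (n : ℚ) * b = l) (h : a < b) : a ≤ b - 1 / n := by
  have hnQ : (0 : ℚ) < n := by exact_mod_cast hn
  have h1 : (k : ℚ) < l := by rw [← ha, ← hb]; exact mul_lt_mul_of_pos_left h hnQ
  have h2 : k + 1 ≤ l := by
    have : k < l := by exact_mod_cast h1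
    omega
  have h3 : (k : ℚ) + 1 ≤ l := by exact_mod_cast h2
  rw [← ha, ← hb] at h3
  have h4 : a + 1 / n ≤ b := by
    rw [← mul_le_mul_iff_right₀ hnQ, mul_add, mul_one_div_cancel hnQ.ne']
    exact h3
  linarith

set_option maxHeartbeats 800000 in
include hϖ0 hϖ in
/-- **The upper bound.** -/
theorem upper (hH : ∀ α : Ω, α ≠ 0 → (finrank K L : ℚ) * V.w α = 1 →
      aeval α (minpoly K (ϖ : Ω)) ≠ 0 →
      1 + 1 / ((p : ℚ) - 1) < V.w (aeval α (minpoly K (ϖ : Ω))) → L ≤ K⟮α⟯)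
    {σ1 : L ≃ₐ[K] L} (hσ1 : σ1 ≠ 1) (hmax : ∀ σ : L ≃ₐ[K] L, σ ≠ 1 → ri V ϖ σ ≤ ri V ϖ σ1)
    [DecidableEq (L ≃ₐ[K] L)] :
    ri V ϖ σ1 + ∑ σ ∈ Finset.univ.erase (1 : L ≃ₐ[K] L), ri V ϖ σ ≤
      1 + 1 / ((p : ℚ) - 1) + 1 / finrank K L := by
  by_contra hcon
  push Not at hcon
  obtain ⟨n, hn⟩ : ∃ n, n = finrank K L := ⟨_, rfl⟩
  obtain ⟨P, hP⟩ : ∃ P, P = minpoly K (ϖ : Ω) := ⟨_, rfl⟩
  obtain ⟨Sg, hSg⟩ : ∃ Sg, Sg = ∑ σ ∈ Finset.univ.erase (1 : L ≃ₐ[K] L), ri V ϖ σ := ⟨_, rfl⟩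
  rw [← hSg, ← hn] at hcon
  rw [← hP, ← hn] at hH
  have hn0 : 0 < n := by rw [hn]; exact finrank_pos
  have hnQ : (0 : ℚ) < n := by exact_mod_cast hn0
  have hϖ' : (n : ℚ) * V.w (ϖ : Ω) = 1 := by rw [hn]; exact hϖ
  have hp1 : (0 : ℚ) < 1 / ((p : ℚ) - 1) := by
    have : (1 : ℚ) < p := by exact_mod_cast hp.out.one_lt
    exact one_div_pos.2 (by linarith)
  have hPdeg : P.natDegree = n := by rw [hP, hn]; exact natDegree_minpoly V hϖ0 hϖ
  have hint : IsIntegral K (ϖ : Ω) := Algebra.IsIntegral.isIntegral (R := K) (ϖ : Ω)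
  have hPmon : P.Monic := by rw [hP]; exact minpoly.monic hint
  have hPα : ∀ α : Ω, aeval α P = ∏ σ : L ≃ₐ[K] L, (α - ((σ ϖ : L) : Ω)) := fun α => by
    rw [hP]; exact aeval_minpoly V hϖ0 hϖ α
  have hcardG : (Finset.univ : Finset (L ≃ₐ[K] L)).card = n := by
    rw [Finset.card_univ, ← Nat.card_eq_fintype_card, IsGalois.card_aut_eq_finrank, hn]
  -- integrality of `n u`
  obtain ⟨U, hU⟩ : ∃ U : ℤ, (n : ℚ) * (ri V ϖ σ1 + Sg) = U := by
    obtain ⟨a, ha⟩ := exists_int_ri V hϖ0 hϖ hσ1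
    have h1 : ∃ b : ℤ, (n : ℚ) * Sg = b := by
      have h2 : ∀ σ ∈ Finset.univ.erase (1 : L ≃ₐ[K] L), ∃ b : ℤ, (n : ℚ) * ri V ϖ σ = b := by
        intro σ hσ
        rw [hn]
        exact exists_int_ri V hϖ0 hϖ (Finset.ne_of_mem_erase hσ)
      choose! b hb using h2
      refine ⟨∑ σ ∈ Finset.univ.erase (1 : L ≃ₐ[K] L), b σ, ?_⟩
      rw [hSg, Finset.mul_sum]
      push_cast
      exact Finset.sum_congr rfl hb
    obtain ⟨b, hb⟩ := h1
    refine ⟨a + b, ?_⟩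
    rw [mul_add, hb, hn, ha]
    push_cast
    ring
  -- `t = k + j / n`
  obtain ⟨t, ht⟩ : ∃ t : ℚ, t = ri V ϖ σ1 + Sg - 1 / n := ⟨_, rfl⟩
  have ht1 : 1 + 1 / ((p : ℚ) - 1) < t := by rw [ht]; linarith
  have hnt : (n : ℚ) * t = ((U - 1 : ℤ) : ℚ) := by
    rw [ht, mul_sub, hU, mul_one_div_cancel hnQ.ne']
    push_cast
    ring
  have hUn : (n : ℤ) < U - 1 := by
    have h1 : (n : ℚ) * 1 < n * t := mul_lt_mul_of_pos_left (by linarith) hnQ
    rw [hnt, mul_one] at h1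
    exact_mod_cast h1
  obtain ⟨k, j, hjn, hkj⟩ : ∃ k j : ℕ, j < n ∧ U - 1 = n * k + j := by
    have h0 : 0 ≤ U - 1 := by omega
    obtain ⟨u, hu⟩ := Int.eq_ofNat_of_zero_le h0
    refine ⟨u / n, u % n, Nat.mod_lt _ hn0, ?_⟩
    rw [hu]
    exact_mod_cast (Nat.div_add_mod u n).symm
  have hkn : (n : ℤ) < n * k + j := by rw [← hkj]; exact hUn
  have hk1 : 1 ≤ k := by
    by_contra h
    have : k = 0 := by omega
    subst this
    simp only [Nat.cast_zero, mul_zero, zero_add] at hkn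
    omega
  have hk2 : j = 0 → 1 < k := by
    intro hj
    by_contra h
    have : k = 1 := by omega
    subst this
    subst hj
    simp at hkn
  have htk : t = k + j * (1 / n) := by
    have h1 : (n : ℚ) * t = n * k + j := by
      rw [hnt, hkj]
      push_cast
      ring
    rw [← mul_right_inj' hnQ.ne', h1]
    field_simp
  have hwϖ : V.w (ϖ : Ω) = 1 / n := by
    rw [eq_div_iff hnQ.ne', mul_comm]
    exact hϖ'
  have hwσ : ∀ σ : L ≃ₐ[K] L, V.w ((σ ϖ : L) : Ω) = 1 / n := fun σ => by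
    rw [w_coe_aut, hwϖ]
  have hσ0 : ∀ σ : L ≃ₐ[K] L, ((σ ϖ : L) : Ω) ≠ 0 := fun σ =>
    coe_ne (by rwa [ne_eq, _root_.map_eq_zero])
  -- the perturbed polynomial
  obtain ⟨Q, hQ⟩ : ∃ Q : K[X], Q = P + C ((p : K) ^ k) * X ^ j := ⟨_, rfl⟩
  have hQdeg : Q.degree = n := by
    rw [hQ, degree_add_eq_left_of_degree_lt, degree_eq_natDegree hPmon.ne_zero, hPdeg]
    rw [degree_eq_natDegree hPmon.ne_zero, hPdeg]
    refine (degree_C_mul_X_pow_le _ _).trans_lt ?_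
    exact_mod_cast hjn
  have hQ0 : Q ≠ 0 := by
    rintro rfl
    rw [degree_zero] at hQdeg
    exact absurd hQdeg (by simp)
  obtain ⟨α, hα⟩ : ∃ α : Ω, aeval α Q = 0 := by
    apply IsAlgClosed.exists_aeval_eq_zero Ω Q
    rw [hQdeg]
    exact_mod_cast hn0.ne'
  have hPα' : aeval α P = -((p : Ω) ^ k * α ^ j) := by
    rw [hQ, map_add, map_mul, aeval_C, map_pow, map_pow, aeval_X, map_natCast] at hα
    exact eq_neg_of_add_eq_zero_left hα
  have hpΩ := p_ne_zero V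
  have hα0 : α ≠ 0 := by
    rintro rfl
    rw [hPα] at hPα'
    have h1 : ∏ σ : L ≃ₐ[K] L, ((0 : Ω) - ((σ ϖ : L) : Ω)) ≠ 0 :=
      Finset.prod_ne_zero_iff.2 fun σ _ => by rw [zero_sub]; exact neg_ne_zero.2 (hσ0 σ)
    have h2 : V.w (∏ σ : L ≃ₐ[K] L, ((0 : Ω) - ((σ ϖ : L) : Ω))) = 1 := by
      rw [w_prod _ _ (fun σ _ => by rw [zero_sub]; exact neg_ne_zero.2 (hσ0 σ)),
        Finset.sum_congr rfl (fun σ _ => by rw [zero_sub, w_neg, hwσ]), Finset.sum_const, hcardG,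
        nsmul_eq_mul]
      field_simp
    rcases Nat.eq_zero_or_pos j with hj | hj
    · rw [hPα', hj, pow_zero, mul_one, w_neg, w_pow hpΩ, V.w_p, mul_one] at h2
      have := hk2 hj
      have h3 : k = 1 := by exact_mod_cast h2
      omega
    · rw [hPα', zero_pow hj.ne', mul_zero, neg_zero] at h1
      exact h1 rfl
  have hwR : V.w (aeval α P) = k + j * V.w α := by
    rw [hPα', w_neg, w_mul (pow_ne_zero _ hpΩ) (pow_ne_zero _ hα0), w_pow hpΩ, w_pow hα0, V.w_p,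
      mul_one]
  have hPα0 : aeval α P ≠ 0 := by
    rw [hPα']
    exact neg_ne_zero.2 (mul_ne_zero (pow_ne_zero _ hpΩ) (pow_ne_zero _ hα0))
  have hk1Q : (1 : ℚ) ≤ k := by exact_mod_cast hk1
  have hwα : V.w α = 1 / n := by
    rcases lt_trichotomy (V.w α) (1 / n) with hlt | heq | hgt
    · exfalso
      have h1 : ∀ σ : L ≃ₐ[K] L, α - ((σ ϖ : L) : Ω) ≠ 0 ∧
          V.w (α - ((σ ϖ : L) : Ω)) = V.w α := by
        intro σ
        rw [sub_eq_add_neg]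
        apply w_add_eq hα0
        right
        rw [w_neg, hwσ]
        exact hlt
      have h2 : V.w (aeval α P) = n * V.w α := by
        rw [hPα, w_prod _ _ (fun σ _ => (h1 σ).1), Finset.sum_congr rfl (fun σ _ => (h1 σ).2),
          Finset.sum_const, hcardG, nsmul_eq_mul]
      rw [h2] at hwR
      have h3 : ((n : ℚ) - j) * V.w α = k := by linear_combination hwR
      have h4 : (0 : ℚ) < n - j := by
        have : (j : ℚ) < n := by exact_mod_cast hjn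
        linarith
      have h5 : ((n : ℚ) - j) * V.w α < (n - j) * (1 / n) := mul_lt_mul_of_pos_left hlt h4
      have h6 : ((n : ℚ) - j) * (1 / n) ≤ 1 := by
        rw [mul_one_div, div_le_one hnQ]
        have : (0 : ℚ) ≤ j := by positivity
        linarith
      linarith
    · exact heq
    · exfalso
      have h1 : ∀ σ : L ≃ₐ[K] L, α - ((σ ϖ : L) : Ω) ≠ 0 ∧
          V.w (α - ((σ ϖ : L) : Ω)) = 1 / n := by
        intro σ
        have h2 : α - ((σ ϖ : L) : Ω) = -((σ ϖ : L) : Ω) + α := by ring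
        rw [h2]
        have h3 := w_add_eq (V := V) (x := -((σ ϖ : L) : Ω)) (y := α) (neg_ne_zero.2 (hσ0 σ))
          (Or.inr (by rw [w_neg, hwσ]; exact hgt))
        rwa [w_neg, hwσ] at h3
      have h2 : V.w (aeval α P) = 1 := by
        rw [hPα, w_prod _ _ (fun σ _ => (h1 σ).1), Finset.sum_congr rfl (fun σ _ => (h1 σ).2),
          Finset.sum_const, hcardG, nsmul_eq_mul]
        field_simp
      rw [h2] at hwR
      have h4 : (0 : ℚ) < V.w α := lt_trans (by positivity) hgt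
      rcases Nat.eq_zero_or_pos j with hj | hj
      · have h5 := hk2 hj
        have h6 : (1 : ℚ) < k := by exact_mod_cast h5
        rw [hj, Nat.cast_zero, zero_mul, add_zero] at hwR
        linarith
      · have h5 : (0 : ℚ) < j := by exact_mod_cast hj
        have := mul_pos h5 h4
        linarith
  have hwP : V.w (aeval α P) = t := by rw [hwR, hwα, htk]
  have hLα : L ≤ K⟮α⟯ := hH α hα0 (by rw [hwα]; field_simp) hPα0 (by rw [hwP]; exact ht1)
  have hαint : IsIntegral K α := Algebra.IsIntegral.isIntegral (R := K) α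
  haveI : FiniteDimensional K K⟮α⟯ := adjoin.finiteDimensional hαint
  have hLα' : L = K⟮α⟯ := by
    apply eq_of_le_of_finrank_le hLα
    rw [adjoin.finrank hαint, ← hn]
    have h1 := minpoly.degree_le_of_ne_zero K α hQ0 hα
    rw [hQdeg, degree_eq_natDegree (minpoly.ne_zero hαint)] at h1
    exact_mod_cast h1
  have hαL : α ∈ L := by
    rw [hLα']
    exact mem_adjoin_simple_self K α
  -- the distances to the conjugates
  have hne : ∀ σ : L ≃ₐ[K] L, α - ((σ ϖ : L) : Ω) ≠ 0 := by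
    intro σ h0
    apply hPα0
    rw [hPα]
    exact Finset.prod_eq_zero (Finset.mem_univ σ) h0
  obtain ⟨σ0, -, hσmax⟩ := Finset.exists_max_image (Finset.univ : Finset (L ≃ₐ[K] L))
    (fun σ => V.w (α - ((σ ϖ : L) : Ω))) ⟨1, Finset.mem_univ _⟩
  obtain ⟨r, hr⟩ : ∃ r, r = V.w (α - ((σ0 ϖ : L) : Ω)) := ⟨_, rfl⟩
  have hσmax' : ∀ σ : L ≃ₐ[K] L, V.w (α - ((σ ϖ : L) : Ω)) ≤ r := fun σ => by
    rw [hr]; exact hσmax σ (Finset.mem_univ σ)
  have hdist : ∀ τ : L ≃ₐ[K] L, τ ≠ 1 →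
      V.w (α - (((σ0 * τ) ϖ : L) : Ω)) = min r (ri V ϖ τ) := by
    intro τ hτ
    have h1 : V.w (((σ0 ϖ : L) : Ω) - (((σ0 * τ) ϖ : L) : Ω)) = ri V ϖ τ := by
      have h2 : ((σ0 ϖ : L) : Ω) - (((σ0 * τ) ϖ : L) : Ω) = ((σ0 (ϖ - τ ϖ) : L) : Ω) := by
        rw [AlgEquiv.mul_apply, map_sub]
        rfl
      rw [h2, w_coe_aut, ri, AddSubgroupClass.coe_sub, AddSubgroupClass.coe_sub, w_sub_comm]
    have h0 : ((σ0 ϖ : L) : Ω) - (((σ0 * τ) ϖ : L) : Ω) ≠ 0 := by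
      have h2 : ((σ0 ϖ : L) : Ω) - (((σ0 * τ) ϖ : L) : Ω) = ((-σ0 (τ ϖ - ϖ) : L) : Ω) := by
        rw [AlgEquiv.mul_apply, map_sub]
        push_cast
        ring
      rw [h2]
      apply coe_ne
      rw [neg_ne_zero, ne_eq, _root_.map_eq_zero]
      exact sub_ne_zero_of V hϖ0 hϖ hτ
    apply le_antisymm
    · refine le_min (hσmax' _) ?_
      rw [← h1]
      have h3 : V.Ge (V.w (α - (((σ0 * τ) ϖ : L) : Ω)))
          (((σ0 ϖ : L) : Ω) - (((σ0 * τ) ϖ : L) : Ω)) := by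
        have h4 : ((σ0 ϖ : L) : Ω) - (((σ0 * τ) ϖ : L) : Ω) =
            (α - (((σ0 * τ) ϖ : L) : Ω)) - (α - ((σ0 ϖ : L) : Ω)) := by ring
        rw [h4]
        refine Ge.sub (ge_w _) (Or.inr ?_)
        rw [← hr]
        exact hσmax' _
      exact h3.le h0
    · have h3 : V.Ge (min r (ri V ϖ τ)) (α - (((σ0 * τ) ϖ : L) : Ω)) := by
        have h4 : α - (((σ0 * τ) ϖ : L) : Ω) =
            (α - ((σ0 ϖ : L) : Ω)) + (((σ0 ϖ : L) : Ω) - (((σ0 * τ) ϖ : L) : Ω)) := by ring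
        rw [h4]
        refine Ge.add (Or.inr ?_) (Or.inr ?_)
        · rw [← hr]; exact min_le_left _ _
        · rw [h1]; exact min_le_right _ _
      exact h3.le (hne _)
  have hsum : t = r + ∑ τ ∈ Finset.univ.erase (1 : L ≃ₐ[K] L), min r (ri V ϖ τ) := by
    rw [← hwP, hPα, w_prod _ _ (fun σ _ => hne σ),
      ← Equiv.sum_comp (Equiv.mulLeft σ0) (fun σ : L ≃ₐ[K] L => V.w (α - ((σ ϖ : L) : Ω))),
      ← Finset.add_sum_erase _ _ (Finset.mem_univ (1 : L ≃ₐ[K] L))]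
    congr 1
    · rw [hr]
      change V.w (α - (((σ0 * 1) ϖ : L) : Ω)) = _
      rw [mul_one]
    · refine Finset.sum_congr rfl fun τ hτ => ?_
      exact hdist τ (Finset.ne_of_mem_erase hτ)
  have hnrI : ∃ b : ℤ, (n : ℚ) * r = b := by
    have h1 : ((⟨α, hαL⟩ : L) - σ0 ϖ) ≠ 0 := by
      intro h0
      exact hne σ0 (congrArg Subtype.val h0)
    obtain ⟨b, hb⟩ := exists_int V L h1
    exact ⟨b, by rw [hr, hn]; exact hb⟩
  have hmem1 : σ1 ∈ Finset.univ.erase (1 : L ≃ₐ[K] L) := Finset.mem_erase.2 ⟨hσ1, Finset.mem_univ _⟩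
  have h1n : (0 : ℚ) < 1 / n := by positivity
  rcases le_or_gt (ri V ϖ σ1) r with hle | hlt
  · have h1 : ∑ τ ∈ Finset.univ.erase (1 : L ≃ₐ[K] L), min r (ri V ϖ τ) = Sg := by
      rw [hSg]
      refine Finset.sum_congr rfl fun τ hτ => min_eq_right ?_
      exact (hmax τ (Finset.ne_of_mem_erase hτ)).trans hle
    rw [h1] at hsum
    linarith
  · obtain ⟨b, hb⟩ := hnrI
    obtain ⟨a, ha⟩ := exists_int_ri V hϖ0 hϖ hσ1
    rw [← hn] at ha
    have h1 := le_sub_of_lt hn0 hb ha hlt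
    have h2 : ∑ τ ∈ Finset.univ.erase (1 : L ≃ₐ[K] L), min r (ri V ϖ τ) ≤ Sg - 1 / n := by
      rw [hSg, ← Finset.add_sum_erase _ _ hmem1, ← Finset.add_sum_erase _ _ hmem1]
      have h3 : min r (ri V ϖ σ1) ≤ ri V ϖ σ1 - 1 / n := (min_le_left _ _).trans h1
      have h4 : ∑ τ ∈ (Finset.univ.erase (1 : L ≃ₐ[K] L)).erase σ1, min r (ri V ϖ τ) ≤
          ∑ τ ∈ (Finset.univ.erase (1 : L ≃ₐ[K] L)).erase σ1, ri V ϖ τ :=
        Finset.sum_le_sum fun τ _ => min_le_right _ _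
      linarith
    linarith

end Upper

end Fermat.Agent.FlatRam
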