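import Mathlib

/-!
# A rational valued valuation on an algebraically closed field
-/

set_option autoImplicit false
set_option linter.unusedSectionVars false
set_option linter.style.haveILetI false

noncomputable section

namespace Fermat.Agent.FlatRam

open Polynomial IntermediateField

/-- The abstract setting: a Galois invariant valuation on `Ω` which is discrete on `K`, with
algebraically closed residue field coming from `K`. -/
structure RVal (K Ω : Type*) [Field K] [Field Ω] [Algebra K Ω] (p : ℕ) where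
  /-- the valuation -/
  w : Ω → ℚ
  w_mul' : ∀ x y, x ≠ 0 → y ≠ 0 → w (x * y) = w x + w y
  w_add' : ∀ x y, x ≠ 0 → y ≠ 0 → x + y ≠ 0 → min (w x) (w y) ≤ w (x + y)
  w_gal : ∀ (σ : Ω ≃ₐ[K] Ω) (x : Ω), w (σ x) = w x
  w_int : ∀ a : K, a ≠ 0 → ∃ n : ℤ, w (algebraMap K Ω a) = n
  w_p : w p = 1
  res : ∀ x : Ω, x ≠ 0 → 0 ≤ w x → ∃ a : K, (a = 0 ∨ 0 ≤ w (algebraMap K Ω a)) ∧
    (x - algebraMap K Ω a = 0 ∨ 0 < w (x - algebraMap K Ω a))

namespace RVal

variable {K Ω : Type*} [Field K] [Field Ω] [Algebra K Ω] {p : ℕ} (V : RVal K Ω p)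

/-- `w x ≥ t` -/
def Ge (t : ℚ) (x : Ω) : Prop := x = 0 ∨ t ≤ V.w x

/-- `w x > t` -/
def Gt (t : ℚ) (x : Ω) : Prop := x = 0 ∨ t < V.w x

variable {V}

theorem Ge.le {t : ℚ} {x : Ω} (h : V.Ge t x) (hx : x ≠ 0) : t ≤ V.w x := h.resolve_left hx

theorem Gt.lt {t : ℚ} {x : Ω} (h : V.Gt t x) (hx : x ≠ 0) : t < V.w x := h.resolve_left hx

theorem Gt.ge {t : ℚ} {x : Ω} (h : V.Gt t x) : V.Ge t x := h.imp id le_of_lt

theorem Ge.mono {s t : ℚ} {x : Ω} (h : V.Ge t x) (hst : s ≤ t) : V.Ge s x :=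
  h.imp id fun h => hst.trans h

theorem Ge.gt {s t : ℚ} {x : Ω} (h : V.Ge t x) (hst : s < t) : V.Gt s x :=
  h.imp id fun h => hst.trans_le h

theorem Gt.mono {s t : ℚ} {x : Ω} (h : V.Gt t x) (hst : s ≤ t) : V.Gt s x :=
  h.imp id fun h => hst.trans_lt h

theorem ge_zero (t : ℚ) : V.Ge t 0 := Or.inl rfl

theorem gt_zero (t : ℚ) : V.Gt t 0 := Or.inl rfl

theorem ge_w (x : Ω) : V.Ge (V.w x) x := Or.inr le_rfl

theorem w_mul {x y : Ω} (hx : x ≠ 0) (hy : y ≠ 0) : V.w (x * y) = V.w x + V.w y :=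
  V.w_mul' x y hx hy

theorem w_one : V.w 1 = 0 := by
  have := V.w_mul' 1 1 one_ne_zero one_ne_zero
  rw [one_mul] at this
  linarith

theorem w_neg (x : Ω) : V.w (-x) = V.w x := by
  rcases eq_or_ne x 0 with rfl | hx
  · rw [neg_zero]
  have h1 : V.w (-1) = 0 := by
    have := V.w_mul' (-1) (-1) (by simp) (by simp)
    rw [neg_mul_neg, one_mul, w_one] at this
    linarith
  rw [← neg_one_mul, w_mul (by simp) hx, h1, zero_add]

theorem w_sub_comm (x y : Ω) : V.w (x - y) = V.w (y - x) := by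
  rw [← w_neg, neg_sub]

theorem w_inv {x : Ω} (hx : x ≠ 0) : V.w x⁻¹ = -V.w x := by
  have := w_mul (V := V) hx (inv_ne_zero hx)
  rw [mul_inv_cancel₀ hx, w_one] at this
  linarith

theorem w_div {x y : Ω} (hx : x ≠ 0) (hy : y ≠ 0) : V.w (x / y) = V.w x - V.w y := by
  rw [div_eq_mul_inv, w_mul hx (inv_ne_zero hy), w_inv hy, sub_eq_add_neg]

theorem w_pow {x : Ω} (hx : x ≠ 0) (n : ℕ) : V.w (x ^ n) = n * V.w x := by
  induction n with
  | zero => rw [pow_zero, w_one]; simp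
  | succ n ih =>
    rw [pow_succ, w_mul (pow_ne_zero n hx) hx, ih]
    push_cast
    ring

theorem w_zpow {x : Ω} (hx : x ≠ 0) (n : ℤ) : V.w (x ^ n) = n * V.w x := by
  rcases Int.eq_nat_or_neg n with ⟨m, rfl | rfl⟩
  · rw [zpow_natCast, w_pow hx]; simp
  · rw [zpow_neg, zpow_natCast, w_inv (pow_ne_zero m hx), w_pow hx]
    push_cast
    ring

theorem w_prod {ι : Type*} (s : Finset ι) (f : ι → Ω) (hf : ∀ i ∈ s, f i ≠ 0) :
    V.w (∏ i ∈ s, f i) = ∑ i ∈ s, V.w (f i) := by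
  classical
  induction s using Finset.induction_on with
  | empty => rw [Finset.prod_empty, Finset.sum_empty, w_one]
  | insert i s hi ih =>
    have h2 : ∀ j ∈ s, f j ≠ 0 := fun j hj => hf j (Finset.mem_insert_of_mem hj)
    rw [Finset.prod_insert hi, Finset.sum_insert hi,
      w_mul (hf i (Finset.mem_insert_self _ _)) (Finset.prod_ne_zero_iff.2 h2), ih h2]

theorem Ge.add {t : ℚ} {x y : Ω} (hx : V.Ge t x) (hy : V.Ge t y) : V.Ge t (x + y) := by
  by_cases h0 : x + y = 0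
  · exact Or.inl h0
  rcases eq_or_ne x 0 with rfl | hx0
  · rwa [zero_add]
  rcases eq_or_ne y 0 with rfl | hy0
  · rwa [add_zero]
  exact Or.inr ((le_min (hx.le hx0) (hy.le hy0)).trans (V.w_add' x y hx0 hy0 h0))

theorem Gt.add {t : ℚ} {x y : Ω} (hx : V.Gt t x) (hy : V.Gt t y) : V.Gt t (x + y) := by
  by_cases h0 : x + y = 0
  · exact Or.inl h0
  rcases eq_or_ne x 0 with rfl | hx0
  · rwa [zero_add]
  rcases eq_or_ne y 0 with rfl | hy0
  · rwa [add_zero]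
  exact Or.inr ((lt_min (hx.lt hx0) (hy.lt hy0)).trans_le (V.w_add' x y hx0 hy0 h0))

theorem Ge.neg {t : ℚ} {x : Ω} (hx : V.Ge t x) : V.Ge t (-x) := by
  rcases hx with rfl | hx
  · left; exact neg_zero
  · right; rwa [w_neg]

theorem Gt.neg {t : ℚ} {x : Ω} (hx : V.Gt t x) : V.Gt t (-x) := by
  rcases hx with rfl | hx
  · left; exact neg_zero
  · right; rwa [w_neg]

theorem Ge.sub {t : ℚ} {x y : Ω} (hx : V.Ge t x) (hy : V.Ge t y) : V.Ge t (x - y) := by
  rw [sub_eq_add_neg]; exact hx.add hy.neg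

theorem Gt.sub {t : ℚ} {x y : Ω} (hx : V.Gt t x) (hy : V.Gt t y) : V.Gt t (x - y) := by
  rw [sub_eq_add_neg]; exact hx.add hy.neg

theorem Ge.mul {s t : ℚ} {x y : Ω} (hx : V.Ge s x) (hy : V.Ge t y) : V.Ge (s + t) (x * y) := by
  rcases eq_or_ne x 0 with rfl | hx0
  · rw [zero_mul]; exact ge_zero _
  rcases eq_or_ne y 0 with rfl | hy0
  · rw [mul_zero]; exact ge_zero _
  right
  rw [w_mul hx0 hy0]
  exact add_le_add (hx.le hx0) (hy.le hy0)

theorem Gt.mul {s t : ℚ} {x y : Ω} (hx : V.Gt s x) (hy : V.Ge t y) : V.Gt (s + t) (x * y) := by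
  rcases eq_or_ne x 0 with rfl | hx0
  · rw [zero_mul]; exact gt_zero _
  rcases eq_or_ne y 0 with rfl | hy0
  · rw [mul_zero]; exact gt_zero _
  right
  rw [w_mul hx0 hy0]
  exact add_lt_add_of_lt_of_le (hx.lt hx0) (hy.le hy0)

theorem ge_one : V.Ge 0 1 := Or.inr w_one.ge

theorem Ge.pow {x : Ω} (hx : V.Ge 0 x) (n : ℕ) : V.Ge 0 (x ^ n) := by
  induction n with
  | zero => rw [pow_zero]; exact ge_one
  | succ n ih =>
    rw [pow_succ]
    have := ih.mul hx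
    rwa [zero_add] at this

theorem Ge.mul0 {x y : Ω} {t : ℚ} (hx : V.Ge t x) (hy : V.Ge 0 y) : V.Ge t (x * y) := by
  have := hx.mul hy
  rwa [add_zero] at this

theorem Ge.sum {ι : Type*} {t : ℚ} (s : Finset ι) (f : ι → Ω) (h : ∀ i ∈ s, V.Ge t (f i)) :
    V.Ge t (∑ i ∈ s, f i) := by
  classical
  induction s using Finset.induction_on with
  | empty => rw [Finset.sum_empty]; exact ge_zero _
  | insert i s hi ih =>
    rw [Finset.sum_insert hi]
    exact (h i (Finset.mem_insert_self _ _)).add (ih fun j hj => h j (Finset.mem_insert_of_mem hj))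

theorem Gt.sum {ι : Type*} {t : ℚ} (s : Finset ι) (f : ι → Ω) (h : ∀ i ∈ s, V.Gt t (f i)) :
    V.Gt t (∑ i ∈ s, f i) := by
  classical
  induction s using Finset.induction_on with
  | empty => rw [Finset.sum_empty]; exact gt_zero _
  | insert i s hi ih =>
    rw [Finset.sum_insert hi]
    exact (h i (Finset.mem_insert_self _ _)).add (ih fun j hj => h j (Finset.mem_insert_of_mem hj))

theorem ge_natCast (n : ℕ) : V.Ge 0 (n : Ω) := by
  induction n with
  | zero => rw [Nat.cast_zero]; exact ge_zero _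
  | succ n ih => rw [Nat.cast_succ]; exact ih.add ge_one

theorem ge_intCast (n : ℤ) : V.Ge 0 (n : Ω) := by
  rcases Int.eq_nat_or_neg n with ⟨m, rfl | rfl⟩
  · rw [Int.cast_natCast]; exact ge_natCast m
  · rw [Int.cast_neg, Int.cast_natCast]; exact (ge_natCast m).neg

/-- the valuation of a sum with a dominating term -/
theorem w_add_eq {x y : Ω} (hx : x ≠ 0) (hy : V.Gt (V.w x) y) : x + y ≠ 0 ∧ V.w (x + y) = V.w x := by
  rcases eq_or_ne y 0 with rfl | hy0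
  · rw [add_zero]; exact ⟨hx, rfl⟩
  have h1 : V.w x < V.w y := hy.lt hy0
  have hne : x + y ≠ 0 := by
    intro h0
    have : y = -x := (neg_eq_of_add_eq_zero_right h0).symm
    rw [this, w_neg] at h1
    exact lt_irrefl _ h1
  refine ⟨hne, le_antisymm ?_ ?_⟩
  · by_contra hcon
    push Not at hcon
    have h2 : V.Gt (V.w x) (x + y - y) := Gt.sub (Or.inr hcon) hy
    rw [add_sub_cancel_right] at h2
    exact lt_irrefl _ (h2.lt hx)
  · exact ((ge_w x).add hy.ge).le hne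

theorem w_add_eq' {x y : Ω} (hx : x ≠ 0) (hy : V.Gt (V.w x) (y - x)) : y ≠ 0 ∧ V.w y = V.w x := by
  have := w_add_eq hx hy
  rwa [add_sub_cancel] at this

section CharZero

variable [CharZero Ω] [hp : Fact p.Prime]

theorem p_ne_zero (_V : RVal K Ω p) : (p : Ω) ≠ 0 := Nat.cast_ne_zero.2 hp.out.ne_zero

/-- integers prime to `p` are units -/
theorem w_natCast {m : ℕ} (hm : ¬ p ∣ m) : V.w (m : Ω) = 0 := by
  have hm0 : (m : Ω) ≠ 0 := by
    rw [Nat.cast_ne_zero]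
    rintro rfl
    exact hm (dvd_zero _)
  have h1 : 0 ≤ V.w (m : Ω) := (ge_natCast m).le hm0
  refine le_antisymm ?_ h1
  by_contra hcon
  push Not at hcon
  have hcop : IsCoprime (p : ℤ) (m : ℤ) :=
    Nat.isCoprime_iff_coprime.2 ((Nat.Prime.coprime_iff_not_dvd hp.out).2 hm)
  obtain ⟨a, b, hab⟩ := hcop
  have h2 := congrArg (fun z : ℤ => (z : Ω)) hab
  push_cast at h2
  have h3 : V.Gt 0 ((a : Ω) * p) := by
    rw [mul_comm]
    have h4 : V.Gt 0 (p : Ω) := Or.inr (by rw [V.w_p]; exact one_pos)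
    have := h4.mul (ge_intCast a)
    rwa [add_zero] at this
  have h5 : V.Gt 0 ((b : Ω) * m) := by
    rw [mul_comm]
    have h4 : V.Gt 0 (m : Ω) := Or.inr hcon
    have := h4.mul (ge_intCast b)
    rwa [add_zero] at this
  have h6 := h3.add h5
  rw [h2] at h6
  have h7 := h6.lt one_ne_zero
  rw [w_one] at h7
  exact lt_irrefl _ h7

theorem w_of_pow_eq_one {x : Ω} {m : ℕ} (hm : m ≠ 0) (h : x ^ m = 1) : V.w x = 0 := by
  have hx : x ≠ 0 := by
    rintro rfl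
    rw [zero_pow hm] at h
    exact zero_ne_one h
  have := w_pow (V := V) hx m
  rw [h, w_one] at this
  have hm' : (m : ℚ) ≠ 0 := Nat.cast_ne_zero.2 hm
  rcases mul_eq_zero.1 this.symm with h1 | h1
  · exact absurd h1 hm'
  · exact h1

/-- `w (ζ ^ i - 1) = w (ζ - 1)` -/
theorem w_zeta_pow {ζ : Ω} (hζ : IsPrimitiveRoot ζ p) {i : ℕ} (hi : ¬ p ∣ i) :
    V.w (ζ ^ i - 1) = V.w (ζ - 1) := by
  have key : ∀ (ξ : Ω) (i : ℕ), V.Ge 0 ξ → ξ ^ i - 1 ≠ 0 → V.w (ξ - 1) ≤ V.w (ξ ^ i - 1) := by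
    intro ξ i hξ hne
    obtain ⟨c, hc⟩ : ∃ c : Ω, V.Ge 0 c ∧ ξ ^ i - 1 = (ξ - 1) * c := by
      refine ⟨∑ j ∈ Finset.range i, ξ ^ j, Ge.sum _ _ fun j _ => hξ.pow j, ?_⟩
      rw [mul_comm, geom_sum_mul]
    rw [hc.2] at hne ⊢
    have h1 := left_ne_zero_of_mul hne
    have h2 := right_ne_zero_of_mul hne
    rw [w_mul h1 h2]
    have := hc.1.le h2
    linarith
  have hζ0 : V.Ge 0 ζ := Or.inr (w_of_pow_eq_one hp.out.ne_zero hζ.pow_eq_one).ge
  have h1 : ζ ^ i - 1 ≠ 0 := by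
    rw [sub_ne_zero]
    intro h
    exact hi ((hζ.pow_eq_one_iff_dvd i).1 h)
  have h2 : ζ - 1 ≠ 0 := sub_ne_zero.2 (hζ.ne_one hp.out.one_lt)
  refine le_antisymm ?_ (key ζ i hζ0 h1)
  obtain ⟨j, hj⟩ := Nat.exists_mul_mod_eq_one_of_coprime
    ((Nat.Prime.coprime_iff_not_dvd hp.out).2 hi).symm hp.out.one_lt
  have h3 : (ζ ^ i) ^ j = ζ := by
    rw [← pow_mul, pow_eq_pow_mod (i * j) hζ.pow_eq_one, hj.2, pow_one]
  have h4 := key (ζ ^ i) j (hζ0.pow i) (by rw [h3]; exact h2)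
  rwa [h3] at h4

/-- `w (ζ - 1) = 1 / (p - 1)` -/
theorem w_zeta {ζ : Ω} (hζ : IsPrimitiveRoot ζ p) : ((p : ℚ) - 1) * V.w (ζ - 1) = 1 := by
  obtain ⟨n, hn⟩ : ∃ n, p = n + 1 := ⟨p - 1, by have := hp.out.one_lt; omega⟩
  have h1 : ∏ k ∈ Finset.range n, (1 - ζ ^ (k + 1)) = (p : Ω) := by
    have := IsPrimitiveRoot.prod_one_sub_pow_eq_order (R := Ω) (n := n) (μ := ζ) (by rwa [← hn])
    rw [this, hn]
    push_cast
    ring
  have h2 : ∀ k ∈ Finset.range n, ¬ p ∣ (k + 1) := by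
    intro k hk h
    rw [Finset.mem_range] at hk
    have := Nat.le_of_dvd (Nat.succ_pos k) h
    omega
  have h3 : ∀ k ∈ Finset.range n, (1 - ζ ^ (k + 1) : Ω) ≠ 0 := by
    intro k hk h
    rw [sub_eq_zero] at h
    exact h2 k hk ((hζ.pow_eq_one_iff_dvd _).1 h.symm)
  have h4 := congrArg V.w h1
  rw [w_prod _ _ h3, V.w_p, Finset.sum_congr rfl (fun k hk => by
    rw [w_sub_comm, w_zeta_pow hζ (h2 k hk)]), Finset.sum_const, Finset.card_range,
    nsmul_eq_mul] at h4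
  have h5 : (p : ℚ) - 1 = n := by
    have : (p : ℚ) = n + 1 := by exact_mod_cast hn
    rw [this]; ring
  rw [h5, h4]

/-- `w (ξ - 1) = 1 / (p - 1)` for every nontrivial `p`-th root of unity -/
theorem w_root_sub_one {ξ : Ω} (hξ : ξ ^ p = 1) (h1 : ξ ≠ 1) :
    V.w (ξ - 1) = 1 / ((p : ℚ) - 1) := by
  have h2 : IsPrimitiveRoot ξ p := by
    have := orderOf_eq_prime hξ h1
    rw [← this]
    exact IsPrimitiveRoot.orderOf ξ
  have h3 := w_zeta (V := V) h2
  have h4 : ((p : ℚ) - 1) ≠ 0 := by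
    intro h0
    rw [h0, zero_mul] at h3
    exact zero_ne_one h3
  field_simp
  linarith

end CharZero

section Embed

variable [Normal K Ω]

theorem w_embed (E : IntermediateField K Ω) (σ : E →ₐ[K] Ω) (x : E) : V.w (σ x) = V.w (x : Ω) := by
  let τ : Ω →ₐ[K] Ω := σ.liftNormal Ω
  let τ' : Ω ≃ₐ[K] Ω := AlgEquiv.ofBijective τ (AlgHom.normal_bijective K Ω Ω _)
  have h1 : τ' (x : Ω) = σ x := σ.liftNormal_commutes Ω x
  rw [← h1, V.w_gal]

theorem w_aut (E : IntermediateField K Ω) (σ : E ≃ₐ[K] E) (x : E) :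
    V.w ((σ x : E) : Ω) = V.w (x : Ω) :=
  w_embed E (E.val.comp (σ : E →ₐ[K] E)) x

end Embed

end RVal

end Fermat.Agent.FlatRam
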