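import Fermat.Agent.Flat.Coc
import Fermat.Agent.Flat.AL

/-!
# The supersingular case: invariants of cocycles
-/

set_option autoImplicit false
set_option linter.unusedSectionVars false
set_option linter.style.haveILetI false

noncomputable section

namespace Fermat.Agent.Flat

open Fermat.Agent.Places Fermat.Agent.RedMod Fermat.Agent.FlatRam

local notation "Ω" => AlgebraicClosure ℚ

local notation "𝒢" => (AlgebraicClosure ℚ) ≃ₐ[ℚ] (AlgebraicClosure ℚ)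

variable {A : ValuationSubring (AlgebraicClosure ℚ)} {p : ℕ} [Fact p.Prime]
variable {k : Type} [Field k] {V : Type} [AddCommGroup V] [Module k V]
variable {ρ : 𝒢 →* Module.End k V}

/-- conjugation by a diagonal element -/
theorem ent_conj (b : Module.Basis (Fin 2) k V) {τ : 𝒢} {x : Fin 2 → k} (hx : ∀ j, x j ≠ 0)
    (h : ∀ j, ρ τ (b j) = x j • b j) (f : Module.End k V) (i j : Fin 2) :
    ent b i j (ρ τ⁻¹ * f * ρ τ) = (x i)⁻¹ * x j * ent b i j f := by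
  have hinv : ∀ i, ρ τ⁻¹ (b i) = (x i)⁻¹ • b i := by
    intro i
    have h1 := rho_inv_apply (ρ := ρ) τ (b i)
    rw [h i, map_smul] at h1
    conv_rhs => rw [← h1]
    rw [smul_smul, inv_mul_cancel₀ (hx i), one_smul]
  have h2 : (ρ τ⁻¹ * f * ρ τ) (b j) = ((x 0)⁻¹ * x j * ent b 0 j f) • b 0 +
      ((x 1)⁻¹ * x j * ent b 1 j f) • b 1 := by
    rw [Module.End.mul_apply, Module.End.mul_apply, h j, map_smul, apply_basis b f j, map_smul,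
      map_add, map_smul, map_smul, hinv, hinv]
    module
  have h3 := ent_of_eq b h2
  fin_cases i
  · exact h3.1
  · exact h3.2

theorem ent_conj' (b : Module.Basis (Fin 2) k V) {τ : 𝒢} {x : Fin 2 → k} (hx : ∀ j, x j ≠ 0)
    (h : ∀ j, ρ τ (b j) = x j • b j) (f : Module.End k V) (i j : Fin 2) :
    ent b i j (ρ τ * f * ρ τ⁻¹) = x i * (x j)⁻¹ * ent b i j f := by
  have h1 := ent_conj b hx h (ρ τ * f * ρ τ⁻¹) i j
  have h2 : ρ τ⁻¹ * (ρ τ * f * ρ τ⁻¹) * ρ τ = f := by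
    calc ρ τ⁻¹ * (ρ τ * f * ρ τ⁻¹) * ρ τ = (ρ τ⁻¹ * ρ τ) * f * (ρ τ⁻¹ * ρ τ) := by noncomm_ring
      _ = f := by rw [rho_inv_mul, one_mul, mul_one]
  rw [h2] at h1
  rw [h1]
  have := hx i
  have := hx j
  field_simp

/-- Data of the supersingular case. -/
structure SSD (A : ValuationSubring (AlgebraicClosure ℚ)) (p : ℕ) (ρ : 𝒢 →* Module.End k V)
    (ϖ : Ω) (b : Module.Basis (Fin 2) k V) (ι : k →+* kk A) (χ : 𝒢 → k) (Φ : 𝒢) (s : k) :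
    Prop where
  h0 : ∀ σ ∈ A.inertiaSubgroupIn ℚ, ρ σ (b 0) = χ σ • b 0
  h1 : ∀ σ ∈ A.inertiaSubgroupIn ℚ, ρ σ (b 1) = χ σ ^ p • b 1
  hι : ∀ σ ∈ A.inertiaSubgroupIn ℚ, ι (χ σ) = th A σ ϖ
  fr : IsFr A p Φ
  fix : Φ ϖ = ϖ
  hΦ0 : ρ Φ (b 0) = b 1
  hΦ1 : ρ Φ (b 1) = s • b 0

theorem mem_NM_M2 {ϖ : Ω} {σ : 𝒢} (hσ : σ ∈ A.inertiaSubgroupIn ℚ) (h : σ ϖ = ϖ) :
    σ ∈ NM A (M2 A ϖ) := by
  refine ⟨hσ, fun x hx => ?_⟩
  induction hx using IntermediateField.adjoin_induction with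
  | mem x hx =>
    rw [Set.mem_singleton_iff] at hx
    rw [hx, h]
  | algebraMap x =>
    have h1 : (x : Ω) ∈ IntermediateField.fixedField (A.inertiaSubgroupIn ℚ) := x.2
    exact (IntermediateField.mem_fixedField_iff _ _).1 h1 σ hσ
  | add x y _ _ hx hy => rw [map_add, hx, hy]
  | inv x _ hx => rw [map_inv₀, hx]
  | mul x y _ _ hx hy => rw [map_mul, hx, hy]

theorem fix_of_th {ϖ : Ω} (hϖ : ϖ ^ (p ^ 2 - 1) = p) (hA : A.LiesOverPrime p) {σ : 𝒢}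
    (h : th A σ ϖ = 1) : σ ϖ = ϖ := by
  have h1 : (σ ϖ / ϖ) ^ (p ^ 2 - 1) = 1 := by
    rw [div_pow, ← map_pow, hϖ, map_natCast,
      div_self (Nat.cast_ne_zero.2 (Fact.out : p.Prime).ne_zero)]
  exact (div_eq_one_iff_eq (pi_ne_zero hϖ)).1 (eq_one_of_rs hA not_dvd_e0 h1 h)

theorem conj_inv_mem {Φ σ : 𝒢} (hΦ : Pres A Φ) (hσ : σ ∈ A.inertiaSubgroupIn ℚ) :
    Φ⁻¹ * σ * Φ ∈ A.inertiaSubgroupIn ℚ := by
  have := conj_mem_inertia hΦ.inv hσ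
  rwa [inv_inv] at this

theorem th_conj_inv {ϖ : Ω} (hϖ : ϖ ^ (p ^ 2 - 1) = p) (hA : A.LiesOverPrime p) {Φ σ : 𝒢}
    (hΦ : IsFr A p Φ) (hσ : σ ∈ A.inertiaSubgroupIn ℚ) :
    th A (Φ⁻¹ * σ * Φ) ϖ = th A σ ϖ ^ p := by
  have h1 := conj_inv_mem hΦ.1 hσ
  have h2 := th_fr hA hΦ h1 (pi_ne_zero hϖ)
  have h3 : Φ * (Φ⁻¹ * σ * Φ) * Φ⁻¹ = σ := by group
  rw [h3] at h2
  rw [h2, ← pow_mul]
  have h4 : p * p = p ^ 2 - 1 + 1 := by
    rw [← sq]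
    have := e0_pos (p := p)
    omega
  rw [h4, pow_succ, th_pi_pow hϖ hA h1, one_mul]

variable {ϖ : Ω} (hϖ : ϖ ^ (p ^ 2 - 1) = p) {ζ : Ω} (hζ : IsPrimitiveRoot ζ p)

include hϖ hζ in
/-- existence of supersingular data -/
theorem exists_ssd [Finite k] [CharP k p] (hA : A.LiesOverPrime p) (hp2 : p ≠ 2)
    (hV : Module.finrank k V = 2) (hfl : FlC A hA V (fun σ v => ρ σ v))
    (hdet : ∀ σ ∈ A.inertiaSubgroupIn ℚ, ∀ m : ℕ, σ ζ = ζ ^ m → LinearMap.det (ρ σ) = (m : k))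
    (hsplit : ∀ σ ∈ A.inertiaSubgroupIn ℚ, ∃ α β : k, ∀ v, ρ σ (ρ σ v - β • v) =
      α • (ρ σ v - β • v))
    (hss : Submodule.span k {w | ∃ σ ∈ A.inertiaSubgroupIn ℚ, ∃ v, w = ρ σ v - v} = ⊤) :
    ∃ (b : Module.Basis (Fin 2) k V) (ι : k →+* kk A) (χ : 𝒢 → k) (Φ : 𝒢) (s : k),
      s ≠ 0 ∧ SSD A p ρ ϖ b ι χ Φ s := by
  have hp : p.Prime := Fact.out
  have hp3 : 3 ≤ p := by have := hp.two_le; omega
  obtain ⟨ι, v, χ, hv0, hχ⟩ := ss_class hϖ hζ hA hp2 hV ρ hfl hdet hsplit hss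
  obtain ⟨Φ, hΦ, hΦϖ⟩ := exists_isFr_fix hϖ hA
  obtain ⟨σ₀, hσ₀, hprim⟩ := exists_pi_gen hϖ hA
  have hιinj : Function.Injective ι := ι.injective
  have hconj : ∀ σ ∈ A.inertiaSubgroupIn ℚ, χ (Φ⁻¹ * σ * Φ) = χ σ ^ p := by
    intro σ hσ
    apply hιinj
    rw [(hχ _ (conj_inv_mem hΦ.1 hσ)).2, map_pow, (hχ σ hσ).2, th_conj_inv hϖ hA hΦ hσ]
  have hact : ∀ (σ : 𝒢) (w : V), ρ σ (ρ Φ w) = ρ Φ (ρ (Φ⁻¹ * σ * Φ) w) := by
    intro σ w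
    rw [← Module.End.mul_apply, ← map_mul, ← Module.End.mul_apply, ← map_mul]
    congr 2
    group
  have h1 : ∀ σ ∈ A.inertiaSubgroupIn ℚ, ρ σ (ρ Φ v) = χ σ ^ p • ρ Φ v := by
    intro σ hσ
    rw [hact, (hχ _ (conj_inv_mem hΦ.1 hσ)).1, map_smul, hconj σ hσ]
  have hz : χ σ₀ ^ p ≠ χ σ₀ := by
    intro h
    have h2 : th A σ₀ ϖ ^ p = th A σ₀ ϖ := by rw [← (hχ σ₀ hσ₀).2, ← map_pow, h]
    have h3 : th A σ₀ ϖ ^ (p - 1) = 1 := by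
      apply mul_left_cancel₀ (th_ne_zero hA (pi_ne_zero hϖ) hσ₀)
      rw [← pow_succ', Nat.sub_add_cancel hp.one_le, h2, mul_one]
    have h4 := Nat.le_of_dvd (by omega) (hprim.dvd_of_pow_eq_one _ h3)
    have h5 := p_lt_e0 (p := p)
    omega
  have hΦv0 : ρ Φ v ≠ 0 := by
    intro h
    apply hv0
    rw [← rho_inv_apply (ρ := ρ) Φ v, h, map_zero]
  have hind : ∀ c : k, ρ Φ v ≠ c • v := by
    intro c hc
    have h2 := h1 σ₀ hσ₀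
    rw [hc, map_smul, (hχ σ₀ hσ₀).1, smul_comm, ← hc] at h2
    have h3 := smul_left_injective k hΦv0 h2
    exact hz h3.symm
  obtain ⟨b, hb0, hb1⟩ := exists_basis2 hV hv0 hind
  obtain ⟨s, t, hst⟩ := basis2_ext b (ρ Φ (b 1))
  have ht : t = 0 := by
    have h2 : ρ σ₀ (ρ Φ (b 1)) = χ σ₀ • ρ Φ (b 1) := by
      have h3 := conj_inv_mem hΦ.1 hσ₀
      rw [hact, hb1, h1 _ h3, map_smul, hconj σ₀ hσ₀, ← pow_mul]
      congr 1
      apply hιinj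
      rw [map_pow, (hχ σ₀ hσ₀).2]
      have h4 : p * p = p ^ 2 - 1 + 1 := by
        rw [← sq]
        have := e0_pos (p := p)
        omega
      rw [h4, pow_succ, th_pi_pow hϖ hA hσ₀, one_mul]
    rw [hst, map_add, map_smul, map_smul, hb0, hb1, (hχ σ₀ hσ₀).1, h1 σ₀ hσ₀] at h2
    have h3 : (t * (χ σ₀ ^ p - χ σ₀)) • ρ Φ v = 0 := by
      have : (t * (χ σ₀ ^ p - χ σ₀)) • ρ Φ v = (s • χ σ₀ • v + t • χ σ₀ ^ p • ρ Φ v) -
          χ σ₀ • (s • v + t • ρ Φ v) := by module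
      rw [this, h2, sub_self]
    have h4 := (smul_eq_zero.1 h3).resolve_right hΦv0
    exact (mul_eq_zero.1 h4).resolve_right (sub_ne_zero.2 hz)
  rw [ht, zero_smul, add_zero] at hst
  have hs : s ≠ 0 := by
    rintro rfl
    rw [zero_smul] at hst
    have := rho_inv_apply (ρ := ρ) Φ (b 1)
    rw [hst, map_zero] at this
    exact b.ne_zero 1 this.symm
  refine ⟨b, ι, χ, Φ, s, hs, fun σ hσ => by rw [hb0]; exact (hχ σ hσ).1,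
    fun σ hσ => by rw [hb1]; exact h1 σ hσ, fun σ hσ => (hχ σ hσ).2, hΦ, hΦϖ,
    by rw [hb0, hb1], hst⟩

namespace SSD

variable {b : Module.Basis (Fin 2) k V} {ι : k →+* kk A} {χ : 𝒢 → k} {Φ : 𝒢} {s : k}
variable (D : SSD A p ρ ϖ b ι χ Φ s)
include D

/-- the diagonal values -/
theorem diag {σ : 𝒢} (hσ : σ ∈ A.inertiaSubgroupIn ℚ) (j : Fin 2) :
    ρ σ (b j) = (![χ σ, χ σ ^ p] : Fin 2 → k) j • b j := by
  fin_cases j
  · exact D.h0 σ hσ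
  · exact D.h1 σ hσ

theorem chi_ne_zero {σ : 𝒢} (hσ : σ ∈ A.inertiaSubgroupIn ℚ) : χ σ ≠ 0 := by
  intro h
  have h1 := D.h0 σ hσ
  rw [h, zero_smul] at h1
  have h2 := rho_inv_apply (ρ := ρ) σ (b 0)
  rw [h1, map_zero] at h2
  exact b.ne_zero 0 h2.symm

theorem diag_ne_zero {σ : 𝒢} (hσ : σ ∈ A.inertiaSubgroupIn ℚ) (j : Fin 2) :
    (![χ σ, χ σ ^ p] : Fin 2 → k) j ≠ 0 := by
  fin_cases j
  · exact D.chi_ne_zero hσ
  · exact pow_ne_zero _ (D.chi_ne_zero hσ)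

theorem rho_eq_one {σ : 𝒢} (hσ : σ ∈ NM A (M2 A ϖ)) (hϖ0 : ϖ ≠ 0) : ρ σ = 1 := by
  have h1 : χ σ = 1 := by
    apply ι.injective
    rw [D.hι σ hσ.1, map_one, th, hσ.2 ϖ mem_M2_pi, div_self hϖ0, rs_one]
  apply b.ext
  intro j
  rw [D.diag hσ.1, h1]
  fin_cases j <;> simp

theorem mem_NM (hϖ : ϖ ^ (p ^ 2 - 1) = p) (hA : A.LiesOverPrime p) {σ : 𝒢}
    (hσ : σ ∈ A.inertiaSubgroupIn ℚ) (h : ρ σ = 1) : σ ∈ NM A (M2 A ϖ) := by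
  apply mem_NM_M2 hσ
  apply fix_of_th hϖ hA
  rw [← D.hι σ hσ]
  have h1 := D.h0 σ hσ
  rw [h, Module.End.one_apply] at h1
  have h2 : χ σ = 1 := by
    have h3 : (1 : k) • b 0 = χ σ • b 0 := by rw [one_smul]; exact h1
    exact (smul_left_injective k (b.ne_zero 0) h3).symm
  rw [h2, map_one]

end SSD

end Fermat.Agent.Flat
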