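import Fermat.Agent.Flat.SS2

/-!
# The supersingular case: the bound
-/

set_option autoImplicit false
set_option linter.unusedSectionVars false
set_option linter.style.haveILetI false

noncomputable section

namespace Fermat.Agent.Flat

open Fermat.Agent.Places Fermat.Agent.RedMod Fermat.Agent.FlatRam

local notation "Ω" => AlgebraicClosure ℚ

local notation "𝒢" => (AlgebraicClosure ℚ) ≃ₐ[ℚ] (AlgebraicClosure ℚ)

variable {A : ValuationSubring (AlgebraicClosure ℚ)} {p : ℕ} [Fact p.Prime]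
variable {k : Type} [Field k] {V : Type} [AddCommGroup V] [Module k V]
variable {ρ : 𝒢 →* Module.End k V}
variable {ϖ : Ω} (hϖ : ϖ ^ (p ^ 2 - 1) = p) {ζ : Ω} (hζ : IsPrimitiveRoot ζ p)
variable {tr : k →+ ZMod p}
variable {b : Module.Basis (Fin 2) k V} {ι : k →+* kk A} {χ : 𝒢 → k} {Φ : 𝒢} {s : k}

theorem two_ne_zero_k [CharP k p] (hp2 : p ≠ 2) : (2 : k) ≠ 0 := by
  have hp : p.Prime := Fact.out
  intro h
  have h1 : ((2 : ℕ) : k) = 0 := by exact_mod_cast h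
  rw [CharP.cast_eq_zero_iff k p] at h1
  exact hp2 ((Nat.prime_dvd_prime_iff_eq hp Nat.prime_two).1 h1)

/-- cocycles vanishing on inertia -/
theorem Coc.inv_of_inertia {c : 𝒢 → Module.End k V} (hc : Coc A ρ c)
    (h0 : ∀ σ ∈ A.inertiaSubgroupIn ℚ, c σ = 0) {g : 𝒢} (hg : Pres A g) {σ : 𝒢}
    (hσ : σ ∈ A.inertiaSubgroupIn ℚ) : ρ σ * c g * ρ σ⁻¹ = c g := by
  have h1 := hc.mul σ g (pres_of_mem hσ) hg
  have h2 := conj_inv_mem hg hσ
  have h3 := hc.mul g (g⁻¹ * σ * g) hg (pres_of_mem h2)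
  have h4 : g * (g⁻¹ * σ * g) = σ * g := by group
  rw [h4, h1, h0 σ hσ, h0 _ h2, zero_add, mul_zero, zero_mul, add_zero] at h3
  exact h3

namespace SSD

variable (D : SSD A p ρ ϖ b ι χ Φ s)
include D

theorem ent_frob' (hs : s ≠ 0) (f : Module.End k V) :
    ent b 0 0 (ρ Φ * f * ρ Φ⁻¹) = ent b 1 1 f ∧ ent b 1 1 (ρ Φ * f * ρ Φ⁻¹) = ent b 0 0 f ∧
    ent b 0 1 (ρ Φ * f * ρ Φ⁻¹) = s * ent b 1 0 f ∧
    ent b 1 0 (ρ Φ * f * ρ Φ⁻¹) = s⁻¹ * ent b 0 1 f := by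
  have h0 : ρ Φ⁻¹ (b 1) = b 0 := by rw [← D.hΦ0, rho_inv_apply]
  have h1 : ρ Φ⁻¹ (b 0) = s⁻¹ • b 1 := by
    have := rho_inv_apply (ρ := ρ) Φ (b 1)
    rw [D.hΦ1, map_smul] at this
    conv_rhs => rw [← this]
    rw [smul_smul, inv_mul_cancel₀ hs, one_smul]
  have h2 : (ρ Φ * f * ρ Φ⁻¹) (b 0) = (ent b 1 1 f) • b 0 + (s⁻¹ * ent b 0 1 f) • b 1 := by
    rw [Module.End.mul_apply, Module.End.mul_apply, h1, map_smul, apply_basis b f 1, map_smul,
      map_add, map_smul, map_smul, D.hΦ0, D.hΦ1]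
    rw [smul_add, smul_smul, smul_smul, smul_smul, add_comm]
    congr 2
    field_simp
  have h3 : (ρ Φ * f * ρ Φ⁻¹) (b 1) = (s * ent b 1 0 f) • b 0 + (ent b 0 0 f) • b 1 := by
    rw [Module.End.mul_apply, Module.End.mul_apply, h0, apply_basis b f 0,
      map_add, map_smul, map_smul, D.hΦ0, D.hΦ1]
    module
  have h4 := ent_of_eq b h2
  have h5 := ent_of_eq b h3
  exact ⟨h4.1, h5.2, h5.1, h4.2⟩

include hϖ in
/-- elements of inertia are powers of a generator up to the wild part -/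
theorem decomp (hA : A.LiesOverPrime p) {τ : 𝒢} (hτ : τ ∈ A.inertiaSubgroupIn ℚ)
    (hprim : IsPrimitiveRoot (th A τ ϖ) (p ^ 2 - 1)) {σ : 𝒢} (hσ : σ ∈ A.inertiaSubgroupIn ℚ) :
    ∃ (n : ℕ) (ν : 𝒢), ν ∈ NM A (M2 A ϖ) ∧ σ = τ ^ n * ν := by
  haveI : NeZero (p ^ 2 - 1) := ⟨(e0_pos (p := p)).ne'⟩
  obtain ⟨n, -, hn⟩ := hprim.eq_pow_of_pow_eq_one (th_pi_pow hϖ hA hσ)
  have hτn : τ ^ n ∈ A.inertiaSubgroupIn ℚ := Subgroup.pow_mem _ hτ n
  refine ⟨n, (τ ^ n)⁻¹ * σ, ?_, by group⟩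
  have hν : (τ ^ n)⁻¹ * σ ∈ A.inertiaSubgroupIn ℚ := Subgroup.mul_mem _ (Subgroup.inv_mem _ hτn) hσ
  apply mem_NM_M2 hν
  apply fix_of_th hϖ hA
  have hp0 := pi_ne_zero hϖ
  have h1 := th_comp hA hτn (pres_of_mem hν) hp0
  rw [mul_inv_cancel_left, th_pow_left hA hp0 hτ, hn] at h1
  exact ((mul_eq_left₀ (th_ne_zero hA hp0 hσ)).1 h1.symm)

include hϖ in
/-- cocycles trivial on the wild part are coboundaries -/
theorem cob [CharP k p] (hA : A.LiesOverPrime p) (hp2 : p ≠ 2) (hs : s ≠ 0)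
    (hρ : ∃ F : IntermediateField ℚ Ω, FiniteDimensional ℚ F ∧
      ∀ σ, (∀ x ∈ F, σ x = x) → ρ σ = 1)
    {c : 𝒢 → Module.End k V} (hc : Coc A ρ c) (h0 : ∀ σ ∈ NM A (M2 A ϖ), c σ = 0) :
    ∃ X : Module.End k V, ∀ g, Pres A g → c g = ρ g * X * ρ g⁻¹ - X := by
  have hp : p.Prime := Fact.out
  have h2k : (2 : k) ≠ 0 := two_ne_zero_k hp2
  obtain ⟨τ, hτ, hprim⟩ := exists_pi_gen hϖ hA
  have hp0 := pi_ne_zero hϖ
  obtain ⟨z, hz⟩ : ∃ z, z = χ τ := ⟨_, rfl⟩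
  have hz0 : z ≠ 0 := hz ▸ D.chi_ne_zero hτ
  have hzp : z ^ p ≠ z := by
    intro h
    have h1 : th A τ ϖ ^ p = th A τ ϖ ^ 1 := by
      rw [← D.hι τ hτ, ← map_pow, ← map_pow, ← hz, h, pow_one]
    have := two_p_lt (p := p) hp2
    have := hp.two_le
    have := hprim.pow_inj (by omega) (by omega) h1
    exact hp.one_lt.ne' this
  have hdiag := D.diag hτ
  have hdne := D.diag_ne_zero hτ
  -- diagonal entries on the generator
  have hpow00 : ∀ n : ℕ, ent b 0 0 (c (τ ^ n)) = n * ent b 0 0 (c τ) := by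
    intro n
    induction n with
    | zero => rw [pow_zero, hc.one, ent_zero]; simp
    | succ n ih =>
      have h1 : τ ^ (n + 1) = τ * τ ^ n := pow_succ' τ n
      rw [h1, hc.mul τ _ (pres_of_mem hτ) (pres_of_mem (Subgroup.pow_mem _ hτ n)), ent_add,
        ent_conj' b hdne hdiag, ih, mul_inv_cancel₀ (hdne 0)]
      push_cast
      ring
  have hτe : τ ^ (p ^ 2 - 1) ∈ NM A (M2 A ϖ) := by
    apply mem_NM_M2 (Subgroup.pow_mem _ hτ _)
    apply fix_of_th hϖ hA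
    rw [th_pow_left hA hp0 hτ, hprim.pow_eq_one]
  have hcτ00 : ent b 0 0 (c τ) = 0 := by
    have h1 := hpow00 (p ^ 2 - 1)
    rw [h0 _ hτe, ent_zero] at h1
    refine (mul_eq_zero.1 h1.symm).resolve_left fun h => ?_
    rw [CharP.cast_eq_zero_iff k p] at h
    exact not_dvd_e0 h
  have hcτ11 : ent b 1 1 (c τ) = 0 := by
    have h1 := hc.tr τ (pres_of_mem hτ)
    rw [trace_eq b, hcτ00, zero_add] at h1
    exact h1
  -- first correction
  have hd1 : z * (z ^ p)⁻¹ - 1 ≠ 0 := by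
    intro h
    have h1 : z * (z ^ p)⁻¹ = 1 := sub_eq_zero.1 h
    have h2 := pow_ne_zero p hz0
    field_simp at h1
    exact hzp h1.symm
  have hd2 : z ^ p * z⁻¹ - 1 ≠ 0 := by
    intro h
    have h1 : z ^ p * z⁻¹ = 1 := sub_eq_zero.1 h
    field_simp at h1
    exact hzp h1
  obtain ⟨X, hX⟩ := mk_end b (fun i j =>
    if i = 0 ∧ j = 1 then ent b 0 1 (c τ) / (z * (z ^ p)⁻¹ - 1) else
    if i = 1 ∧ j = 0 then ent b 1 0 (c τ) / (z ^ p * z⁻¹ - 1) else 0)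
  obtain ⟨c', hc'def⟩ : ∃ c' : 𝒢 → Module.End k V, c' = fun σ => c σ - (ρ σ * X * ρ σ⁻¹ - X) :=
    ⟨_, rfl⟩
  have hc' : Coc A ρ c' := hc'def ▸ hc.sub (Coc.cob hρ X)
  have hc'τ : c' τ = 0 := by
    apply ent_ext b
    intro i j
    rw [hc'def, ent_sub, ent_sub, ent_conj' b hdne hdiag, hX, ent_zero]
    fin_cases i <;> fin_cases j
    · simp [hcτ00]
    · simp only [Fin.zero_eta, Fin.mk_one, Matrix.cons_val_zero, Matrix.cons_val_one, ← hz,
        and_self, if_true]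
      field_simp
      ring
    · simp only [Fin.zero_eta, Fin.mk_one, Matrix.cons_val_zero, Matrix.cons_val_one, ← hz,
        and_self, if_true]
      simp only [one_ne_zero, zero_ne_one, and_self, if_false]
      field_simp
      ring
    · simp [hcτ11]
  have hNM' : ∀ ν ∈ NM A (M2 A ϖ), c' ν = 0 := by
    intro ν hν
    have h1 := D.rho_eq_one hν hp0
    have h2 : ρ ν⁻¹ = 1 := by
      have := rho_mul_inv (ρ := ρ) ν
      rwa [h1, one_mul] at this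
    rw [hc'def]
    simp only [h1, h2, one_mul, mul_one, sub_self, h0 ν hν]
  have hI' : ∀ σ ∈ A.inertiaSubgroupIn ℚ, c' σ = 0 := by
    intro σ hσ
    obtain ⟨n, ν, hν, rfl⟩ := D.decomp hϖ hA hτ hprim hσ
    have h1 : ∀ n : ℕ, c' (τ ^ n) = 0 := by
      intro n
      induction n with
      | zero => rw [pow_zero, hc'.one]
      | succ n ih =>
        rw [pow_succ' τ n, hc'.mul τ _ (pres_of_mem hτ) (pres_of_mem (Subgroup.pow_mem _ hτ n)), ih,
          hc'τ, mul_zero, zero_mul, add_zero]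
    rw [hc'.mul _ ν (pres_of_mem (Subgroup.pow_mem _ hτ n)) (pres_of_mem hν.1), h1, hNM' ν hν,
      mul_zero, zero_mul, add_zero]
  have hoff : ∀ {d : 𝒢 → Module.End k V}, Coc A ρ d →
      (∀ σ ∈ A.inertiaSubgroupIn ℚ, d σ = 0) → ∀ g, Pres A g →
      ent b 0 1 (d g) = 0 ∧ ent b 1 0 (d g) = 0 := by
    intro d hd hd0 g hg
    have h1 := hd.inv_of_inertia hd0 hg hτ
    have h2 := congrArg (ent b 0 1) h1
    have h3 := congrArg (ent b 1 0) h1
    rw [ent_conj' b hdne hdiag] at h2 h3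
    simp only [Matrix.cons_val_zero, Matrix.cons_val_one, ← hz] at h2 h3
    have h4 : (z * (z ^ p)⁻¹ - 1) * ent b 0 1 (d g) = 0 := by linear_combination h2
    have h5 : (z ^ p * z⁻¹ - 1) * ent b 1 0 (d g) = 0 := by linear_combination h3
    exact ⟨(mul_eq_zero.1 h4).resolve_left hd1, (mul_eq_zero.1 h5).resolve_left hd2⟩
  -- second correction
  obtain ⟨t, ht⟩ : ∃ t, t = ent b 0 0 (c' Φ) := ⟨_, rfl⟩
  have ht' : ent b 1 1 (c' Φ) = -t := by
    have h1 := hc'.tr Φ D.fr.1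
    rw [trace_eq b, ← ht] at h1
    linear_combination h1
  obtain ⟨Y, hY⟩ := mk_end b (fun i j => if i = j then (if i = 0 then -t / 2 else t / 2) else 0)
  obtain ⟨d, hddef⟩ : ∃ d : 𝒢 → Module.End k V, d = fun σ => c' σ - (ρ σ * Y * ρ σ⁻¹ - Y) :=
    ⟨_, rfl⟩
  have hd : Coc A ρ d := hddef ▸ hc'.sub (Coc.cob hρ Y)
  have hdI : ∀ σ ∈ A.inertiaSubgroupIn ℚ, d σ = 0 := by
    intro σ hσ
    apply ent_ext b
    intro i j
    rw [hddef, ent_sub, ent_sub, ent_conj' b (D.diag_ne_zero hσ) (D.diag hσ), hY, hI' σ hσ, ent_zero]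
    by_cases hij : i = j
    · subst hij
      rw [mul_inv_cancel₀ (D.diag_ne_zero hσ i), one_mul, sub_self, sub_self]
    · rw [if_neg hij]; simp
  have hdΦ : d Φ = 0 := by
    obtain ⟨e1, e2, e3, e4⟩ := D.ent_frob' hs Y
    have hY00 : ent b 0 0 Y = -t / 2 := by rw [hY]; simp
    have hY11 : ent b 1 1 Y = t / 2 := by rw [hY]; simp
    have hY01 : ent b 0 1 Y = 0 := by rw [hY]; simp
    have hY10 : ent b 1 0 Y = 0 := by rw [hY]; simp
    obtain ⟨f1, f2⟩ := hoff hc' hI' Φ D.fr.1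
    apply ent_ext b
    intro i j
    rw [hddef, ent_sub, ent_sub, ent_zero]
    fin_cases i <;> fin_cases j
    · change ent b 0 0 (c' Φ) - (ent b 0 0 (ρ Φ * Y * ρ Φ⁻¹) - ent b 0 0 Y) = 0
      rw [e1, hY00, hY11, ← ht]
      field_simp
      ring
    · change ent b 0 1 (c' Φ) - (ent b 0 1 (ρ Φ * Y * ρ Φ⁻¹) - ent b 0 1 Y) = 0
      rw [e3, hY01, hY10, f1]
      ring
    · change ent b 1 0 (c' Φ) - (ent b 1 0 (ρ Φ * Y * ρ Φ⁻¹) - ent b 1 0 Y) = 0
      rw [e4, hY01, hY10, f2]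
      ring
    · change ent b 1 1 (c' Φ) - (ent b 1 1 (ρ Φ * Y * ρ Φ⁻¹) - ent b 1 1 Y) = 0
      rw [e2, hY00, hY11, ht']
      field_simp
      ring
  -- everything vanishes
  have hdz : ∀ g, Pres A g → d g = 0 := by
    intro g hg
    obtain ⟨f1, f2⟩ := hoff hd hdI g hg
    have hν := comm_mem_inertia D.fr hg
    have h1 := hd.mul Φ g D.fr.1 hg
    have h2 := hd.mul (g * Φ) (Φ⁻¹ * g⁻¹ * Φ * g) (hg.mul D.fr.1) (pres_of_mem hν)
    have h3 := hd.mul g Φ hg D.fr.1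
    have h4 : g * Φ * (Φ⁻¹ * g⁻¹ * Φ * g) = Φ * g := by group
    rw [h4, hdI _ hν, mul_zero, zero_mul, add_zero, h3, hdΦ, mul_zero, zero_mul, add_zero] at h2
    rw [h2, hdΦ, zero_add] at h1
    obtain ⟨e1, e2, -, -⟩ := D.ent_frob' hs (d g)
    rw [← h1] at e1
    have h5 := hd.tr g hg
    rw [trace_eq b] at h5
    have h6 : ent b 0 0 (d g) = 0 := by
      have h7 : 2 * ent b 0 0 (d g) = 0 := by linear_combination h5 + e1
      exact (mul_eq_zero.1 h7).resolve_left h2k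
    have h7 : ent b 1 1 (d g) = 0 := by rw [← e1, h6]
    apply ent_ext b
    intro i j
    rw [ent_zero]
    fin_cases i <;> fin_cases j
    · exact h6
    · exact f1
    · exact f2
    · exact h7
  refine ⟨X + Y, fun g hg => ?_⟩
  have h1 := hdz g hg
  rw [hddef, hc'def] at h1
  simp only at h1
  have h2 : c g = (ρ g * X * ρ g⁻¹ - X) + (ρ g * Y * ρ g⁻¹ - Y) := by
    rw [sub_eq_zero] at h1
    rw [← h1]
    abel
  rw [h2]
  noncomm_ring

end SSD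

end Fermat.Agent.Flat
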