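import Fermat.Agent.Flat.Cartier
import Fermat.Agent.Flat.Local2

/-!
# Points of finite flat group schemes killed by `p`: separation
-/

set_option autoImplicit false
set_option linter.unusedSectionVars false
set_option linter.style.haveILetI false

open scoped TensorProduct
open WithConv

namespace Fermat.Agent.Flat

section pow

variable {R H B : Type*} [CommRing R] [CommRing H] [HopfAlgebra R H] [CommRing B] [Algebra R B]

theorem comp_pow {C : Type*} [CommRing C] [Algebra R C] (g : B →ₐ[R] C)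
    (w : WithConv (H →ₐ[R] B)) (n : ℕ) :
    (toConv (g.comp (w ^ n).ofConv) : WithConv (H →ₐ[R] C)) = (toConv (g.comp w.ofConv)) ^ n := by
  induction n with
  | zero =>
    rw [pow_zero, pow_zero]
    apply ofConv_injective
    ext x
    exact g.commutes _
  | succ n ih =>
    rw [pow_succ, pow_succ, ← ih]
    have h := AlgHom.comp_convMul_distrib g (w ^ n) w
    apply ofConv_injective
    exact h

/-- If multiplication by `n` is trivial on `H` it is trivial on all points. -/
theorem pow_eq_one_of_id {n : ℕ} (h : (toConv (AlgHom.id R H)) ^ n = 1)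
    (w : WithConv (H →ₐ[R] B)) : w ^ n = 1 := by
  have h1 := comp_pow w.ofConv (toConv (AlgHom.id R H)) n
  rw [h] at h1
  have h2 : (toConv (w.ofConv.comp (toConv (AlgHom.id R H)).ofConv)) = w := by
    apply ofConv_injective
    ext x; rfl
  rw [h2] at h1
  rw [← h1]
  apply ofConv_injective
  ext x
  exact w.ofConv.commutes _

end pow

section sep

variable {R H : Type*} [CommRing R] [CommRing H] [HopfAlgebra R H]
variable {A : Type*} [CommRing A] [IsDomain A] [ValuationRing A] [Algebra R A]

theorem exists_generator [Module.Finite R H] (δ : H →ₗ[R] A) :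
    ∃ y : A, Ideal.span (Set.range δ) = Ideal.span {y} := by
  classical
  obtain ⟨s, hs⟩ := (Module.Finite.fg_top : (⊤ : Submodule R H).FG)
  have h1 : Ideal.span (Set.range δ) = Ideal.span (δ '' (s : Set H)) := by
    apply le_antisymm
    · rw [Ideal.span_le]
      rintro _ ⟨h, rfl⟩
      have hmem : h ∈ Submodule.span R (s : Set H) := hs ▸ Submodule.mem_top
      induction hmem using Submodule.span_induction with
      | mem x hx => exact Ideal.subset_span ⟨x, hx, rfl⟩
      | zero => rw [map_zero]; exact Ideal.zero_mem _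
      | add x y _ _ hx hy => rw [map_add]; exact Ideal.add_mem _ hx hy
      | smul r x _ hx =>
        rw [map_smul, Algebra.smul_def]
        exact Ideal.mul_mem_left _ _ hx
    · exact Ideal.span_mono (by rintro _ ⟨x, _, rfl⟩; exact ⟨x, rfl⟩)
  have h2 : (Ideal.span (Set.range δ)).FG := by
    rw [h1]
    exact ⟨s.image δ, by rw [Finset.coe_image]⟩
  obtain ⟨y, hy⟩ := (IsBezout.isPrincipal_of_FG _ h2).principal
  exact ⟨y, hy⟩

/-- **Separation lemma.** -/
theorem pow_dvd_of_forall_dvd [Module.Finite R H] (p : ℕ) (hp : p.Prime)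
    (hkill : ∀ w : WithConv (H →ₐ[R] A), w ^ p = 1) (P Q : WithConv (H →ₐ[R] A)) (hPQ : P ≠ Q)
    (z : A) (hz : ∀ h, z ∣ P h - Q h) : z ^ (p - 1) ∣ (p : A) := by
  classical
  set δ : H →ₗ[R] A := P.ofConv.toLinearMap - Q.ofConv.toLinearMap with hδ
  have hδa : ∀ h, δ h = P h - Q h := fun h => rfl
  obtain ⟨y, hy⟩ := exists_generator δ
  have hyd : ∀ h, δ h ∈ Ideal.span {y} := fun h => hy ▸ Ideal.subset_span ⟨h, rfl⟩
  have hy0 : y ≠ 0 := by
    rintro rfl
    apply hPQ
    apply ofConv_injective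
    ext h
    have := hyd h
    rw [Ideal.mem_span_singleton, zero_dvd_iff, hδa, sub_eq_zero] at this
    exact this
  have hzy : z ∣ y := by
    have h1 : Ideal.span (Set.range δ) ≤ Ideal.span {z} := by
      rw [Ideal.span_le]
      rintro _ ⟨h, rfl⟩
      exact Ideal.mem_span_singleton.2 (hz h)
    rw [hy] at h1
    exact Ideal.mem_span_singleton.1 (h1 (Ideal.mem_span_singleton_self y))
  refine (pow_dvd_pow_of_dvd hzy _).trans ?_
  by_cases hyu : IsUnit y
  · exact (hyu.pow _).dvd
  have hym : y ∈ IsLocalRing.maximalIdeal A := hyu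
  set w := P * inv' Q with hw
  have e1 : fn w - 1 = (fn P - fn Q) * fn (inv' Q) := by
    rw [hw, sub_mul, ← fn_mul, mul_inv']
  have e2 : fn P - fn Q = (fn w - 1) * fn Q := by
    rw [e1, mul_assoc, inv'_mul, mul_one]
  have hPQy : InIdeal (Ideal.span {y}) (fn P - fn Q) := hyd
  have hwy : InIdeal (Ideal.span {y}) (fn w - 1) := by
    rw [e1]
    have := hPQy.mul (show InIdeal (⊤ : Ideal A) (fn (inv' Q)) from fun _ => Submodule.mem_top)
    rwa [Ideal.mul_top] at this
  -- some value is `y` times a unit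
  obtain ⟨h1, u, hu, hh1⟩ : ∃ h1 u, IsUnit u ∧ (fn w - 1) h1 = y * u := by
    by_contra hcon
    push Not at hcon
    have h2 : InIdeal (Ideal.span {y} * IsLocalRing.maximalIdeal A) (fn w - 1) := by
      intro h
      obtain ⟨u, hu⟩ := Ideal.mem_span_singleton.1 (hwy h)
      rw [hu]
      exact Ideal.mul_mem_mul (Ideal.mem_span_singleton_self y)
        (fun h' => hcon h u h' hu)
    have h3 : InIdeal (Ideal.span {y} * IsLocalRing.maximalIdeal A) (fn P - fn Q) := by
      rw [e2]
      have := h2.mul (show InIdeal (⊤ : Ideal A) (fn Q) from fun _ => Submodule.mem_top)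
      rwa [Ideal.mul_top] at this
    have h4 : Ideal.span {y} ≤ Ideal.span {y} * IsLocalRing.maximalIdeal A := by
      conv_lhs => rw [← hy]
      rw [Ideal.span_le]
      rintro _ ⟨h, rfl⟩
      exact h3 h
    have h5 := h4 (Ideal.mem_span_singleton_self y)
    rw [Ideal.mem_span_singleton_mul] at h5
    obtain ⟨m, hm, hym'⟩ := h5
    have h6 : m = 1 := mul_left_cancel₀ hy0 (by rw [hym', mul_one])
    rw [h6] at hm
    exact (IsLocalRing.maximalIdeal A).ne_top_iff_one.1 (Ideal.IsPrime.ne_top inferInstance) hm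
  -- expand `w ^ p = 1`
  have h2 := pow_sub_one (fn w) p
  rw [← fn_pow, hkill, fn_one, Finset.sum_range_succ', Nat.choose_zero_right, pow_zero,
    one_nsmul] at h2
  have h3 : ∑ k ∈ Finset.range p, p.choose (k + 1) • (fn w - 1) ^ (k + 1) = 0 := by
    have := h2.symm
    rwa [add_eq_right] at this
  obtain ⟨m, hm⟩ : ∃ m, p = m + 2 := ⟨p - 2, by have := hp.two_le; omega⟩
  have h4 : (p : A) * (y * u) + (∑ k ∈ Finset.range m, (p.choose (k + 2) : A) *
      (((fn w - 1) ^ (k + 2) : WithConv (H →ₗ[R] A)) h1)) +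
      (((fn w - 1) ^ p : WithConv (H →ₗ[R] A)) h1) = 0 := by
    have h5 := congrArg (fun φ : WithConv (H →ₗ[R] A) => φ h1) h3
    have h6 : ∀ (s : Finset ℕ) (φ : ℕ → WithConv (H →ₗ[R] A)), (∑ k ∈ s, φ k) h1 =
        ∑ k ∈ s, φ k h1 := by
      intro s φ
      induction s using Finset.induction_on with
      | empty => rfl
      | insert a s ha ih =>
        rw [Finset.sum_insert ha, Finset.sum_insert ha, ← ih]
        rfl
    have h7 : ∀ (n : ℕ) (φ : WithConv (H →ₗ[R] A)), (n • φ) h1 = (n : A) * φ h1 := by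
      intro n φ
      rw [← nsmul_eq_mul]
      rfl
    rw [show Finset.range p = Finset.range (m + 1 + 1) by rw [hm], Finset.sum_range_succ,
      Finset.sum_range_succ'] at h5
    have h8 : (m + 1 + 1 : ℕ) = p := hm.symm
    rw [h8, Nat.choose_self, one_nsmul, zero_add, Nat.choose_one_right, pow_one] at h5
    have h9 : ((∑ k ∈ Finset.range m, p.choose (k + 1 + 1) • (fn w - 1) ^ (k + 1 + 1)) +
      p • (fn w - 1) + (fn w - 1) ^ p : WithConv (H →ₗ[R] A)) h1 =
      (∑ k ∈ Finset.range m, p.choose (k + 1 + 1) • (fn w - 1) ^ (k + 1 + 1)) h1 +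
      (p • (fn w - 1)) h1 + ((fn w - 1) ^ p) h1 := rfl
    have h10 : ((∑ k ∈ Finset.range m, p.choose (k + 1 + 1) • (fn w - 1) ^ (k + 1 + 1)) +
      p • (fn w - 1) + (fn w - 1) ^ p : WithConv (H →ₗ[R] A)) h1 = 0 := h5
    rw [h9, h6, h7, hh1] at h10
    rw [← h10]
    simp only [h7]
    ring
  -- the middle terms are divisible by `p y ^ 2`
  have h5 : ∃ c : A, (∑ k ∈ Finset.range m, (p.choose (k + 2) : A) *
      (((fn w - 1) ^ (k + 2) : WithConv (H →ₗ[R] A)) h1)) = (p : A) * (y ^ 2 * c) := by
    have h6 : (p : A) * y ^ 2 ∣ ∑ k ∈ Finset.range m, (p.choose (k + 2) : A) *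
      (((fn w - 1) ^ (k + 2) : WithConv (H →ₗ[R] A)) h1) := by
      refine Finset.dvd_sum fun k hk => mul_dvd_mul ?_ ?_
      · have : p ∣ p.choose (k + 2) := hp.dvd_choose_self (by omega)
          (by rw [Finset.mem_range] at hk; omega)
        exact Nat.cast_dvd_cast this
      · have h7 := (hwy.pow (k + 2)) h1
        rw [Ideal.span_singleton_pow, Ideal.mem_span_singleton] at h7
        exact (pow_dvd_pow y (by omega)).trans h7
    obtain ⟨c, hc⟩ := h6
    exact ⟨c, by rw [hc]; ring⟩
  obtain ⟨c, hc⟩ := h5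
  obtain ⟨t, ht⟩ : ∃ t : A, (((fn w - 1) ^ p : WithConv (H →ₗ[R] A)) h1) = y ^ p * t := by
    have h7 := (hwy.pow p) h1
    rw [Ideal.span_singleton_pow, Ideal.mem_span_singleton] at h7
    exact h7
  rw [hc, ht] at h4
  have h6 : y * ((p : A) * (u + y * c) + y ^ (p - 1) * t) = 0 := by
    have h7 : y ^ p = y * y ^ (p - 1) := by
      rw [← pow_succ']
      congr 1
      have := hp.pos
      omega
    rw [h7] at h4
    rw [← h4]
    ring
  have h7 := (mul_eq_zero.1 h6).resolve_left hy0
  have h8 : IsUnit (u + y * c) := by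
    by_contra h9
    have h10 : u + y * c ∈ IsLocalRing.maximalIdeal A := h9
    have h11 : u ∈ IsLocalRing.maximalIdeal A := by
      have := Ideal.sub_mem _ h10 (Ideal.mul_mem_right c _ hym)
      rwa [add_sub_cancel_right] at this
    exact h11 hu
  have h9 : y ^ (p - 1) ∣ (p : A) * (u + y * c) := ⟨-t, by linear_combination h7⟩
  exact (h8.dvd_mul_right).1 h9

end sep

end Fermat.Agent.Flat
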