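import Fermat.Agent.Flat.LemA4

/-!
# Tame characters
-/

set_option autoImplicit false
set_option linter.unusedSectionVars false
set_option linter.style.haveILetI false

noncomputable section

namespace Fermat.Agent.Flat

open Fermat.Agent.Places Fermat.Agent.RedMod Fermat.Agent.FlatRam

local notation "Ω" => AlgebraicClosure ℚ

local notation "𝒢" => (AlgebraicClosure ℚ) ≃ₐ[ℚ] (AlgebraicClosure ℚ)

variable {A : ValuationSubring (AlgebraicClosure ℚ)} {p : ℕ} [Fact p.Prime]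

/-- elements of inertia come from the Galois group over the fixed field of inertia -/
theorem exists_res_eq {σ : 𝒢} (hσ : σ ∈ A.inertiaSubgroupIn ℚ) :
    ∃ τ : Ω ≃ₐ[K0 A] Ω, AlgEquiv.restrictScalars ℚ τ = σ := by
  refine ⟨{ (σ : Ω ≃+* Ω) with commutes' := fun x => ?_ }, ?_⟩
  · have h1 : (x : Ω) ∈ IntermediateField.fixedField (A.inertiaSubgroupIn ℚ) := x.2
    exact (IntermediateField.mem_fixedField_iff _ _).1 h1 σ hσ
  · ext x; rfl

theorem res_mem (τ : Ω ≃ₐ[K0 A] Ω) :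
    AlgEquiv.restrictScalars ℚ τ ∈ A.inertiaSubgroupIn ℚ := by
  apply mem_inertia_of_fixing
  intro y hy
  exact τ.commutes ⟨y, hy⟩

/-- `σ` preserves `A` -/
def Pres (A : ValuationSubring (AlgebraicClosure ℚ)) (σ : 𝒢) : Prop := ∀ x, σ x ∈ A ↔ x ∈ A

theorem pres_of_mem {σ : 𝒢} (hσ : σ ∈ A.inertiaSubgroupIn ℚ) : Pres A σ := by
  obtain ⟨τ, rfl⟩ := exists_res_eq hσ
  exact fun x => aut_mem_iff A τ

theorem Pres.mul {σ τ : 𝒢} (hσ : Pres A σ) (hτ : Pres A τ) : Pres A (σ * τ) := fun x => by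
  rw [AlgEquiv.mul_apply, hσ, hτ]

theorem Pres.inv {σ : 𝒢} (hσ : Pres A σ) : Pres A σ⁻¹ := fun x => by
  rw [← hσ (σ⁻¹ x)]
  have : σ (σ⁻¹ x) = x := σ.apply_symm_apply x
  rw [this]

/-- `Φ` is a lift of Frobenius -/
def IsFr (A : ValuationSubring (AlgebraicClosure ℚ)) (p : ℕ) (Φ : 𝒢) : Prop :=
  Pres A Φ ∧ ∀ x ∈ A, Φ x - x ^ p ∈ A.nonunits

theorem Pres.nonunits {σ : 𝒢} (hσ : Pres A σ) {x : Ω} (hx : x ∈ A.nonunits) :
    σ x ∈ A.nonunits := by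
  rw [mem_nonunits_iff_inv] at hx ⊢
  rcases hx with h | h
  · left; rw [h, map_zero]
  · right; rw [← map_inv₀, hσ]; exact h

theorem Pres.nonunits_iff {σ : 𝒢} (hσ : Pres A σ) {x : Ω} : σ x ∈ A.nonunits ↔ x ∈ A.nonunits := by
  refine ⟨fun h => ?_, hσ.nonunits⟩
  have := hσ.inv.nonunits h
  have h2 : σ⁻¹ (σ x) = x := σ.symm_apply_apply x
  rwa [h2] at this

theorem Pres.v_eq_one {σ : 𝒢} (hσ : Pres A σ) {x : Ω} (hx : A.valuation x = 1) :
    A.valuation (σ x) = 1 := by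
  refine le_antisymm ((A.valuation_le_one_iff _).2 ((hσ x).2 ((A.valuation_le_one_iff _).1 hx.le)))
    ?_
  by_contra hcon
  push Not at hcon
  have h1 := (ValuationSubring.mem_nonunits_iff A).2 hcon
  rw [hσ.nonunits_iff] at h1
  have h2 := (ValuationSubring.mem_nonunits_iff A).1 h1
  rw [hx] at h2
  exact lt_irrefl _ h2

theorem Pres.w_eq {σ : 𝒢} (hσ : Pres A σ) (hA : A.LiesOverPrime p) (x : Ω) :
    (rval A p hA).w (σ x) = (rval A p hA).w x := by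
  change wA A p hA (σ x) = wA A p hA x
  rcases eq_or_ne x 0 with rfl | hx
  · rw [map_zero]
  obtain ⟨m, a, hm, h, e⟩ := wA_spec hA hx
  have hσx : σ x ≠ 0 := by rwa [ne_eq, _root_.map_eq_zero]
  rw [e]
  refine wA_eq hA hσx hm ?_
  have h1 : A.valuation (x ^ m / (p : Ω) ^ a) = 1 := by
    rw [map_div₀, map_pow, map_zpow₀, h]
    exact div_self (zpow_ne_zero _ v_p_ne_zero)
  have h2 := hσ.v_eq_one h1
  have h3 : σ (x ^ m / (p : Ω) ^ a) = (σ x) ^ m / (p : Ω) ^ a := by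
    rw [map_div₀, map_pow, map_zpow₀, map_natCast]
  rw [h3, map_div₀, map_pow, map_zpow₀] at h2
  exact (div_eq_one_iff_eq (zpow_ne_zero _ v_p_ne_zero)).1 h2

theorem Pres.div_mem {σ : 𝒢} (hσ : Pres A σ) (hA : A.LiesOverPrime p) {x : Ω} (hx : x ≠ 0) :
    σ x / x ∈ A := by
  have hσx : σ x ≠ 0 := by rwa [ne_eq, _root_.map_eq_zero]
  rw [← wA_nonneg_iff (p := p) hA (div_ne_zero hσx hx)]
  change 0 ≤ (rval A p hA).w _
  rw [RVal.w_div hσx hx, hσ.w_eq hA, sub_self]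

/-- residue of an element, zero if not integral -/
def rs (A : ValuationSubring (AlgebraicClosure ℚ)) (x : Ω) : kk A := by
  classical
  exact if h : x ∈ A then IsLocalRing.residue A ⟨x, h⟩ else 0

theorem rs_eq {x : Ω} (h : x ∈ A) : rs A x = IsLocalRing.residue A ⟨x, h⟩ := dif_pos h

theorem rs_add {x y : Ω} (hx : x ∈ A) (hy : y ∈ A) : rs A (x + y) = rs A x + rs A y := by
  rw [rs_eq hx, rs_eq hy, rs_eq (A.add_mem _ _ hx hy), ← map_add]
  rfl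

theorem rs_mul {x y : Ω} (hx : x ∈ A) (hy : y ∈ A) : rs A (x * y) = rs A x * rs A y := by
  rw [rs_eq hx, rs_eq hy, rs_eq (A.mul_mem _ _ hx hy), ← map_mul]
  rfl

theorem rs_sub {x y : Ω} (hx : x ∈ A) (hy : y ∈ A) : rs A (x - y) = rs A x - rs A y := by
  rw [rs_eq hx, rs_eq hy, rs_eq (A.sub_mem hx hy), ← map_sub]
  rfl

theorem rs_pow {x : Ω} (hx : x ∈ A) (n : ℕ) : rs A (x ^ n) = rs A x ^ n := by
  rw [rs_eq hx, rs_eq (A.toSubring.pow_mem hx n), ← map_pow]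
  rfl

theorem rs_one : rs A 1 = 1 := by
  rw [rs_eq A.one_mem, ← map_one (IsLocalRing.residue A)]
  rfl

theorem rs_zero : rs A 0 = 0 := by
  rw [rs_eq A.zero_mem, ← map_zero (IsLocalRing.residue A)]
  rfl

theorem rs_natCast (n : ℕ) : rs A (n : Ω) = n := by
  have h : (n : Ω) ∈ A := _root_.natCast_mem A.toSubring n
  rw [rs_eq h, ← map_natCast (IsLocalRing.residue A)]
  rfl

theorem rs_eq_zero_iff {x : Ω} (hx : x ∈ A) : rs A x = 0 ↔ x ∈ A.nonunits := by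
  rw [rs_eq hx, mem_nonunits_iff_residue hx]

theorem rs_eq_iff {x y : Ω} (hx : x ∈ A) (hy : y ∈ A) : rs A x = rs A y ↔ x - y ∈ A.nonunits := by
  rw [← sub_eq_zero, ← rs_sub hx hy, rs_eq_zero_iff (A.sub_mem hx hy)]

theorem rs_sum {ι : Type*} (s : Finset ι) (f : ι → Ω) (h : ∀ i ∈ s, f i ∈ A) :
    rs A (∑ i ∈ s, f i) = ∑ i ∈ s, rs A (f i) := by
  classical
  induction s using Finset.induction_on with
  | empty => rw [Finset.sum_empty, Finset.sum_empty, rs_zero]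
  | insert a s ha ih =>
    rw [Finset.sum_insert ha, Finset.sum_insert ha, rs_add (h a (Finset.mem_insert_self _ _))
      (A.toSubring.sum_mem fun i hi => h i (Finset.mem_insert_of_mem hi)),
      ih fun i hi => h i (Finset.mem_insert_of_mem hi)]

theorem rs_inertia {σ : 𝒢} (hσ : σ ∈ A.inertiaSubgroupIn ℚ) {x : Ω} (hx : x ∈ A) :
    rs A (σ x) = rs A x := by
  rw [rs_eq_iff ((pres_of_mem hσ x).2 hx) hx]
  exact (mem_inertia_iff A σ).1 hσ x hx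

theorem IsFr.rs {Φ : 𝒢} (hΦ : IsFr A p Φ) {x : Ω} (hx : x ∈ A) : rs A (Φ x) = rs A x ^ p := by
  rw [← rs_pow hx, rs_eq_iff ((hΦ.1 x).2 hx) (A.toSubring.pow_mem hx p)]
  exact hΦ.2 x hx

/-- the tame character of `x` -/
def th (A : ValuationSubring (AlgebraicClosure ℚ)) (σ : 𝒢) (x : Ω) : kk A := rs A (σ x / x)

theorem th_mul (hA : A.LiesOverPrime p) {σ : 𝒢} (hσ : Pres A σ) {x y : Ω} (hx : x ≠ 0)
    (hy : y ≠ 0) : th A σ (x * y) = th A σ x * th A σ y := by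
  rw [th, map_mul, mul_div_mul_comm, rs_mul (hσ.div_mem hA hx) (hσ.div_mem hA hy)]
  rfl

theorem th_one {σ : 𝒢} : th A σ 1 = 1 := by
  rw [th, map_one, div_one, rs_one]

theorem th_pow (hA : A.LiesOverPrime p) {σ : 𝒢} (hσ : Pres A σ) {x : Ω} (hx : x ≠ 0) (n : ℕ) :
    th A σ (x ^ n) = th A σ x ^ n := by
  rw [th, map_pow, ← div_pow, rs_pow (hσ.div_mem hA hx)]
  rfl

theorem w_eq_zero_iff (hA : A.LiesOverPrime p) {x : Ω} (hx : x ≠ 0) :
    (rval A p hA).w x = 0 ↔ x ∈ A ∧ x ∉ A.nonunits := by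
  have h1 := wA_nonneg_iff (p := p) hA hx
  have h2 := wA_pos_iff (p := p) hA hx
  change wA A p hA x = 0 ↔ _
  rw [← h1, ← h2]
  constructor
  · intro h; rw [h]; exact ⟨le_rfl, lt_irrefl _⟩
  · rintro ⟨h3, h4⟩; exact le_antisymm (not_lt.1 h4) h3

theorem th_unit {σ : 𝒢} (hσ : σ ∈ A.inertiaSubgroupIn ℚ) {x : Ω}
    (hx : x ∈ A) (hxn : x ∉ A.nonunits) : th A σ x = 1 := by
  have hx0 : x ≠ 0 := fun h => hxn (h ▸ zero_mem_nonunits A)
  have hxi : x⁻¹ ∈ A := inv_mem_of_unit hxn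
  rw [th, div_eq_mul_inv, rs_mul ((pres_of_mem hσ x).2 hx) hxi, rs_inertia hσ hx,
    ← rs_mul hx hxi, mul_inv_cancel₀ hx0, rs_one]

theorem th_eq_of_w (hA : A.LiesOverPrime p) {σ : 𝒢} (hσ : σ ∈ A.inertiaSubgroupIn ℚ) {x y : Ω}
    (hx : x ≠ 0) (hy : y ≠ 0) (h : (rval A p hA).w x = (rval A p hA).w y) :
    th A σ x = th A σ y := by
  have h1 : (rval A p hA).w (x / y) = 0 := by rw [RVal.w_div hx hy, h, sub_self]
  have h2 := (w_eq_zero_iff hA (div_ne_zero hx hy)).1 h1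
  have h3 : x = x / y * y := by rw [div_mul_cancel₀ _ hy]
  rw [h3, th_mul hA (pres_of_mem hσ) (div_ne_zero hx hy) hy, th_unit hσ h2.1 h2.2, one_mul]

theorem th_comp (hA : A.LiesOverPrime p) {σ τ : 𝒢} (hσ : σ ∈ A.inertiaSubgroupIn ℚ)
    (hτ : Pres A τ) {x : Ω} (hx : x ≠ 0) : th A (σ * τ) x = th A σ x * th A τ x := by
  have h1 : (σ * τ) x / x = σ (τ x / x) * (σ x / x) := by
    have hσx : σ x ≠ 0 := by rwa [ne_eq, _root_.map_eq_zero]
    rw [AlgEquiv.mul_apply, map_div₀]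
    field_simp
  rw [th, h1, rs_mul (((pres_of_mem hσ) _).2 (hτ.div_mem hA hx))
    ((pres_of_mem hσ).div_mem hA hx), rs_inertia hσ (hτ.div_mem hA hx), mul_comm]
  rfl

theorem th_fr (hA : A.LiesOverPrime p) {Φ τ : 𝒢} (hΦ : IsFr A p Φ)
    (hτ : τ ∈ A.inertiaSubgroupIn ℚ) {x : Ω} (hx : x ≠ 0) :
    th A (Φ * τ * Φ⁻¹) x = th A τ x ^ p := by
  have hy0 : Φ⁻¹ x ≠ 0 := by rwa [ne_eq, _root_.map_eq_zero]
  have h1 : (Φ * τ * Φ⁻¹) x / x = Φ (τ (Φ⁻¹ x) / Φ⁻¹ x) := by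
    rw [map_div₀, AlgEquiv.mul_apply, AlgEquiv.mul_apply]
    congr 1
    exact (Φ.apply_symm_apply x).symm
  rw [th, h1, hΦ.rs ((pres_of_mem hτ).div_mem hA hy0)]
  congr 1
  exact th_eq_of_w hA hτ hy0 hx (hΦ.1.inv.w_eq hA x)

/-- conjugates of inertia under elements preserving `A` -/
theorem conj_mem_inertia {Φ τ : 𝒢} (hΦ : Pres A Φ) (hτ : τ ∈ A.inertiaSubgroupIn ℚ) :
    Φ * τ * Φ⁻¹ ∈ A.inertiaSubgroupIn ℚ := by
  rw [mem_inertia_iff]
  intro x hx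
  have h1 : (Φ * τ * Φ⁻¹) x - x = Φ (τ (Φ⁻¹ x) - Φ⁻¹ x) := by
    rw [map_sub, AlgEquiv.mul_apply, AlgEquiv.mul_apply]
    congr 1
    exact (Φ.apply_symm_apply x).symm
  rw [h1]
  exact hΦ.nonunits ((mem_inertia_iff A τ).1 hτ _ ((hΦ.inv x).2 hx))

theorem natCast_kk_ne_zero (hA : A.LiesOverPrime p) {m : ℕ} (hm : ¬ p ∣ m) : (m : kk A) ≠ 0 :=
  natCast_residue_ne_zero hA hm

/-- roots of unity of order prime to `p` are determined by their residue -/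
theorem eq_one_of_rs (hA : A.LiesOverPrime p) {η : Ω} {m : ℕ} (hm : ¬ p ∣ m) (h : η ^ m = 1)
    (hr : rs A η = 1) : η = 1 := by
  by_contra hne
  have hηA : η ∈ A := by
    have h4 : IsIntegral A η := by
      refine ⟨Polynomial.X ^ m - 1, Polynomial.monic_X_pow_sub_C 1 ?_, ?_⟩
      · rintro rfl; exact hm (dvd_zero _)
      · simp [h]
    obtain ⟨y, hy⟩ := (IsIntegrallyClosed.isIntegral_iff).1 h4
    rw [← hy]
    exact y.2
  have h1 : (∑ i ∈ Finset.range m, η ^ i) * (η - 1) = 0 := by rw [geom_sum_mul, h, sub_self]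
  have h2 := (mul_eq_zero.1 h1).resolve_right (sub_ne_zero.2 hne)
  have h3 := rs_sum (A := A) (Finset.range m) (fun i => η ^ i)
    (fun i _ => A.toSubring.pow_mem hηA i)
  rw [h2, rs_zero] at h3
  have h4 : ∑ i ∈ Finset.range m, rs A (η ^ i) = m := by
    rw [Finset.sum_congr rfl fun i _ => by rw [rs_pow hηA, hr, one_pow]]
    simp
  rw [h4] at h3
  exact natCast_kk_ne_zero hA hm h3.symm

theorem zeta_sub_one_mem (hA : A.LiesOverPrime p) {ζ : Ω} (hζ : IsPrimitiveRoot ζ p) :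
    ζ - 1 ∈ A.nonunits := by
  have hp : p.Prime := Fact.out
  have hζ1 : ζ - 1 ≠ 0 := sub_ne_zero.2 (hζ.ne_one hp.one_lt)
  rw [← wA_pos_iff hA hζ1]
  have h1 : ((p : ℚ) - 1) * wA A p hA (ζ - 1) = 1 := RVal.w_zeta (V := rval A p hA) hζ
  have hpQ : (0 : ℚ) < (p : ℚ) - 1 := by
    have : (1 : ℚ) < p := by exact_mod_cast hp.one_lt
    linarith
  by_contra hcon
  push Not at hcon
  nlinarith

theorem th_zeta (hA : A.LiesOverPrime p) {ζ : Ω} (hζ : IsPrimitiveRoot ζ p) {σ : 𝒢} {m : ℕ}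
    (h : σ ζ = ζ ^ m) : th A σ (ζ - 1) = m := by
  have hp : p.Prime := Fact.out
  have hζ1 : ζ - 1 ≠ 0 := sub_ne_zero.2 (hζ.ne_one hp.one_lt)
  have hζA : ζ ∈ A := root_mem hζ.pow_eq_one
  have h1 : σ (ζ - 1) / (ζ - 1) = ∑ i ∈ Finset.range m, ζ ^ i := by
    rw [map_sub, map_one, h, div_eq_iff hζ1, geom_sum_mul]
  have h2 : rs A ζ = 1 := by
    rw [← rs_one (A := A), rs_eq_iff hζA A.one_mem]
    exact zeta_sub_one_mem hA hζ
  rw [th, h1, rs_sum _ _ fun i _ => A.toSubring.pow_mem hζA i,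
    Finset.sum_congr rfl fun i _ => by rw [rs_pow hζA, h2, one_pow]]
  simp

/-- elements with trivial tame character and valuation prime to `p` have integral valuation -/
theorem w_int_of_th (hA : A.LiesOverPrime p) {z : Ω} (hz : z ≠ 0)
    (hth : ∀ σ ∈ A.inertiaSubgroupIn ℚ, th A σ z = 1) {m : ℕ} (hm : ¬ p ∣ m) {n : ℤ}
    (hw : (m : ℚ) * (rval A p hA).w z = n) : ∃ j : ℤ, (rval A p hA).w z = j := by
  have hp : p.Prime := Fact.out
  have hm0 : m ≠ 0 := by rintro rfl; exact hm (dvd_zero _)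
  have hp0 : (p : Ω) ≠ 0 := Nat.cast_ne_zero.2 hp.ne_zero
  obtain ⟨v, hv⟩ := IsAlgClosed.exists_pow_nat_eq (z ^ m / (p : Ω) ^ n) (Nat.pos_of_ne_zero hm0)
  have hu0 : z ^ m / (p : Ω) ^ n ≠ 0 := div_ne_zero (pow_ne_zero _ hz) (zpow_ne_zero _ hp0)
  have hv0 : v ≠ 0 := by
    rintro rfl
    rw [zero_pow hm0] at hv
    exact hu0 hv.symm
  have hwv : (rval A p hA).w v = 0 := by
    have h1 : (m : ℚ) * (rval A p hA).w v = 0 := by
      rw [← RVal.w_pow hv0, hv, RVal.w_div (pow_ne_zero _ hz) (zpow_ne_zero _ hp0),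
        RVal.w_pow hz, RVal.w_zpow hp0, (rval A p hA).w_p, hw]
      ring
    exact (mul_eq_zero.1 h1).resolve_left (Nat.cast_ne_zero.2 hm0)
  have hvu := (w_eq_zero_iff hA hv0).1 hwv
  have hz'0 : z / v ≠ 0 := div_ne_zero hz hv0
  have hz'm : (z / v) ^ m = (p : Ω) ^ n := by
    rw [div_pow, hv]; field_simp
  have hfix : ∀ σ ∈ A.inertiaSubgroupIn ℚ, σ (z / v) = z / v := by
    intro σ hσ
    have h1 : (σ (z / v) / (z / v)) ^ m = 1 := by
      rw [div_pow, ← map_pow, hz'm, map_zpow₀, map_natCast, div_self (zpow_ne_zero _ hp0)]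
    have h2 : th A σ (z / v) = 1 := by
      have h3 : z / v * v = z := div_mul_cancel₀ _ hv0
      have h4 := th_mul hA (pres_of_mem hσ) hz'0 hv0
      rw [h3, hth σ hσ, th_unit hσ hvu.1 hvu.2, mul_one] at h4
      exact h4.symm
    have h3 := eq_one_of_rs hA hm h1 h2
    rwa [div_eq_one_iff_eq hz'0] at h3
  have hK : z / v ∈ K0 A := by
    rw [K0, IntermediateField.mem_fixedField_iff]
    exact hfix
  obtain ⟨j, hj⟩ := (rval A p hA).w_int (⟨z / v, hK⟩ : K0 A) (fun h => hz'0 (congrArg Subtype.val h))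
  have hj' : (rval A p hA).w (z / v) = j := hj
  refine ⟨j, ?_⟩
  rw [← hj', RVal.w_div hz hv0, hwv, sub_zero]

end Fermat.Agent.Flat
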